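import Mathlib
import Fermat.Prelude.Def_GaloisRep_Residual

set_option autoImplicit false

open scoped TensorProduct

namespace Fermat.Agent.S53

/-- Schur over an algebraically closed field: an endomorphism commuting with an irreducible
two-dimensional representation is a scalar. -/
theorem schur_of_isIrreducible_of_isAlgClosed {K : Type} [Field K] [IsAlgClosed K]
    (ρ : ResidualGaloisRep K) (h : ρ.IsIrreducible) (X : Module.End K ρ.V)
    (hX : ∀ σ, X * ρ.ρ σ = ρ.ρ σ * X) : ∃ c : K, X = c • (1 : Module.End K ρ.V) := by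
  have hnt : Nontrivial ρ.V :=
    Module.nontrivial_of_finrank_pos (R := K) (by rw [ρ.finrank_eq]; norm_num)
  obtain ⟨c, hc⟩ := Module.End.exists_eigenvalue X
  refine ⟨c, ?_⟩
  have hstab : ∀ σ, ∀ x ∈ Module.End.eigenspace X c, ρ.ρ σ x ∈ Module.End.eigenspace X c := by
    intro σ x hx
    rw [Module.End.mem_eigenspace_iff] at hx ⊢
    have h1 := congrArg (fun f => f x) (hX σ)
    simp only [Module.End.mul_apply] at h1
    rw [h1, hx, map_smul]
  rcases h _ hstab with h0 | h1
  · exact absurd h0 (Module.End.hasEigenvalue_iff.mp hc)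
  · ext x
    have hx : x ∈ Module.End.eigenspace X c := h1 ▸ Submodule.mem_top
    rw [Module.End.mem_eigenspace_iff] at hx
    simp [hx]

/-- Schur for an absolutely irreducible residual representation: the commutant is the scalars. -/
theorem schur_end {k : Type} [Field k] (ρ : ResidualGaloisRep k)
    (h : ρ.IsAbsolutelyIrreducible) (X : Module.End k ρ.V)
    (hX : ∀ σ, X * ρ.ρ σ = ρ.ρ σ * X) : ∃ c : k, X = c • (1 : Module.End k ρ.V) := by
  classical
  obtain ⟨c, hc⟩ := schur_of_isIrreducible_of_isAlgClosed (ρ.baseChange (AlgebraicClosure k)) h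
    (X.baseChange (AlgebraicClosure k)) (fun σ => by
      show X.baseChange (AlgebraicClosure k) * (ρ.ρ σ).baseChange (AlgebraicClosure k) =
        (ρ.ρ σ).baseChange (AlgebraicClosure k) * X.baseChange (AlgebraicClosure k)
      rw [← LinearMap.baseChange_mul, ← LinearMap.baseChange_mul, hX σ])
  let b : Module.Basis (Fin 2) k ρ.V := Module.finBasisOfFinrankEq k ρ.V ρ.finrank_eq
  have hM : (LinearMap.toMatrix b b X).map (algebraMap k (AlgebraicClosure k)) =
      Matrix.scalar (Fin 2) c := by
    rw [← LinearMap.toMatrix_baseChange (AlgebraicClosure k) X b b]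
    have : X.baseChange (AlgebraicClosure k) =
        c • (1 : Module.End (AlgebraicClosure k) (AlgebraicClosure k ⊗[k] ρ.V)) := hc
    rw [this, map_smul, LinearMap.toMatrix_one]
    ext i j
    simp [Matrix.scalar_apply, Matrix.one_apply, Matrix.diagonal_apply]
  have hinj : Function.Injective (algebraMap k (AlgebraicClosure k)) :=
    (algebraMap k (AlgebraicClosure k)).injective
  refine ⟨LinearMap.toMatrix b b X 0 0, ?_⟩
  apply (LinearMap.toMatrix b b).injective
  rw [map_smul, LinearMap.toMatrix_one]
  have h00 := congrFun (congrFun hM 0) 0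
  have h01 := congrFun (congrFun hM 0) 1
  have h10 := congrFun (congrFun hM 1) 0
  have h11 := congrFun (congrFun hM 1) 1
  simp only [Matrix.map_apply, Matrix.scalar_apply, Matrix.diagonal_apply] at h00 h01 h10 h11
  ext i j
  fin_cases i <;> fin_cases j
  · simp
  · simp only [Matrix.smul_apply, Matrix.one_apply]
    apply hinj
    simpa using h01
  · simp only [Matrix.smul_apply, Matrix.one_apply]
    apply hinj
    simpa using h10
  · simp only [Matrix.smul_apply, Matrix.one_apply]
    apply hinj
    simp only [Fin.mk_one, Fin.isValue, ↓reduceIte, smul_eq_mul, mul_one]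
    rw [h11]
    simpa using h00.symm

/-- Matrix form of Schur: a matrix commuting with the matrices of an absolutely irreducible
residual representation (in any basis) is scalar. -/
theorem schur_matrix {k : Type} [Field k] (ρ : ResidualGaloisRep k)
    (h : ρ.IsAbsolutelyIrreducible) (b : Module.Basis (Fin 2) k ρ.V)
    (X : Matrix (Fin 2) (Fin 2) k)
    (hX : ∀ g, X * LinearMap.toMatrix b b (ρ.ρ g) = LinearMap.toMatrix b b (ρ.ρ g) * X) :
    ∃ c : k, X = Matrix.scalar (Fin 2) c := by
  obtain ⟨c, hc⟩ := schur_end ρ h (Matrix.toLin b b X) (fun σ => by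
    apply (LinearMap.toMatrix b b).injective
    rw [LinearMap.toMatrix_mul, LinearMap.toMatrix_mul, LinearMap.toMatrix_toLin]
    exact hX σ)
  refine ⟨c, ?_⟩
  have h1 := congrArg (LinearMap.toMatrix b b) hc
  rw [LinearMap.toMatrix_toLin, map_smul, LinearMap.toMatrix_one] at h1
  rw [h1]
  ext i j
  simp [Matrix.scalar_apply, Matrix.one_apply, Matrix.diagonal_apply]

end Fermat.Agent.S53
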