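import Mathlib
import Fermat.Prelude.Def_GaloisRep_Residual
import Fermat.Agent.S53.Schur

set_option autoImplicit false

open scoped TensorProduct

namespace Fermat.Agent.S53

/-- Burnside over an algebraically closed field. -/
theorem burnside_of_isAlgClosed {K : Type} [Field K] [IsAlgClosed K]
    (ρ : ResidualGaloisRep K) (h : ρ.IsIrreducible) :
    Submodule.span K (Set.range ρ.ρ) = ⊤ := by
  have hnt : Nontrivial ρ.V :=
    Module.nontrivial_of_finrank_pos (R := K) (by rw [ρ.finrank_eq]; norm_num)
  let A : Subalgebra K (Module.End K ρ.V) := Algebra.adjoin K (Set.range ρ.ρ)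
  have hmemA : ∀ σ, ρ.ρ σ ∈ A := fun σ => Algebra.subset_adjoin ⟨σ, rfl⟩
  have hsimple : IsSimpleModule A ρ.V := by
    rw [isSimpleModule_iff]
    refine { exists_pair_ne := ⟨⊥, ⊤, bot_ne_top⟩, eq_bot_or_eq_top := fun W => ?_ }
    have hW : ∀ σ, ∀ x ∈ W.restrictScalars K, ρ.ρ σ x ∈ W.restrictScalars K := by
      intro σ x hx
      have : (⟨ρ.ρ σ, hmemA σ⟩ : A) • x ∈ W := W.smul_mem _ hx
      exact this
    rcases h _ hW with h0 | h1
    · left; simpa using h0
    · right; simpa using h1
  have : Module.Finite (Module.End A ρ.V) ρ.V :=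
    Module.Finite.of_restrictScalars_finite K (Module.End A ρ.V) ρ.V
  rw [eq_top_iff]
  intro T _
  -- every A-linear endomorphism is a scalar
  have hscal : ∀ g : Module.End A ρ.V, ∃ c : K, ∀ v, g v = c • v := by
    intro g
    obtain ⟨c, hc⟩ := schur_of_isIrreducible_of_isAlgClosed ρ h (g.restrictScalars K) (by
      intro σ
      ext v
      simp only [Module.End.mul_apply, LinearMap.restrictScalars_apply]
      have := g.map_smul (⟨ρ.ρ σ, hmemA σ⟩ : A) v
      exact this)
    refine ⟨c, fun v => ?_⟩
    have := congrArg (fun f => f v) hc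
    simpa using this
  let f : Module.End (Module.End A ρ.V) ρ.V :=
    { toFun := T
      map_add' := T.map_add
      map_smul' := fun g v => by
        obtain ⟨c, hc⟩ := hscal g
        show T (g v) = g (T v)
        rw [hc, hc, map_smul] }
  obtain ⟨a, ha⟩ := Module.Finite.toModuleEnd_moduleEnd_surjective (R := A) (M := ρ.V) f
  have hTa : T = (a : Module.End K ρ.V) := by
    ext v
    have := congrArg (fun g => g v) ha
    exact this.symm
  have hspan : (A : Set (Module.End K ρ.V)) = Submodule.span K (Set.range ρ.ρ) := by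
    have h1 := Algebra.adjoin_eq_span K (Set.range ρ.ρ)
    have h2 : (Submonoid.closure (Set.range ρ.ρ) : Set (Module.End K ρ.V)) = Set.range ρ.ρ := by
      rw [← MonoidHom.coe_mrange, Submonoid.closure_eq]
    rw [h2] at h1
    rw [← h1]
    rfl
  have : T ∈ (A : Set (Module.End K ρ.V)) := hTa ▸ a.2
  rw [hspan] at this
  exact this

/-- A linear functional on `2 × 2` matrices is determined by its values on the matrix units. -/
theorem dual_matrix_apply {k : Type} [Field k] (φ : Matrix (Fin 2) (Fin 2) k →ₗ[k] k)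
    (M : Matrix (Fin 2) (Fin 2) k) :
    φ M = ∑ i, ∑ j, M i j * φ (Matrix.single i j 1) := by
  conv_lhs => rw [Matrix.matrix_eq_sum_single M]
  simp only [map_sum]
  refine Finset.sum_congr rfl fun i _ => Finset.sum_congr rfl fun j _ => ?_
  have : Matrix.single i j (M i j) = M i j • Matrix.single i j (1 : k) := by
    rw [Matrix.smul_single, smul_eq_mul, mul_one]
  rw [this, map_smul, smul_eq_mul]

/-- Burnside for an absolutely irreducible residual representation: the image spans
the full endomorphism algebra. -/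
theorem burnside_end {k : Type} [Field k] (ρ : ResidualGaloisRep k)
    (h : ρ.IsAbsolutelyIrreducible) :
    Submodule.span k (Set.range ρ.ρ) = ⊤ := by
  classical
  by_contra hne
  obtain ⟨φ, hφ0, hφ⟩ := Submodule.exists_dual_map_eq_bot_of_lt_top
    (lt_top_iff_ne_top.mpr hne) inferInstance
  have hφσ : ∀ σ, φ (ρ.ρ σ) = 0 := by
    intro σ
    have : φ (ρ.ρ σ) ∈ (Submodule.span k (Set.range ρ.ρ)).map φ :=
      Submodule.mem_map_of_mem (Submodule.subset_span ⟨σ, rfl⟩)
    rw [hφ] at this
    exact (Submodule.mem_bot k).mp this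
  let K := AlgebraicClosure k
  let b : Module.Basis (Fin 2) k ρ.V := Module.finBasisOfFinrankEq k ρ.V ρ.finrank_eq
  let bK : Module.Basis (Fin 2) K (K ⊗[k] ρ.V) := Algebra.TensorProduct.basis K b
  -- the functional on matrices over `k`
  let ψ : Matrix (Fin 2) (Fin 2) k →ₗ[k] k := φ ∘ₗ (Matrix.toLin b b).toLinearMap
  let a : Fin 2 → Fin 2 → k := fun i j => ψ (Matrix.single i j 1)
  have hψ : ∀ M, ψ M = ∑ i, ∑ j, M i j * a i j := dual_matrix_apply ψ
  -- the functional over `K`
  let Φ : Module.End K (K ⊗[k] ρ.V) →ₗ[K] K :=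
    (∑ i, ∑ j, (algebraMap k K (a i j)) • (Matrix.entryLinearMap K K i j)) ∘ₗ
      (LinearMap.toMatrix bK bK).toLinearMap
  have hΦ : ∀ T, Φ T = ∑ i, ∑ j, algebraMap k K (a i j) * (LinearMap.toMatrix bK bK T) i j := by
    intro T
    simp [Φ, Algebra.smul_def]
  have hΦσ : ∀ σ, Φ ((ρ.baseChange K).ρ σ) = 0 := by
    intro σ
    have h1 : (ρ.baseChange K).ρ σ = (ρ.ρ σ).baseChange K := rfl
    rw [hΦ, h1, LinearMap.toMatrix_baseChange]
    have h2 := hφσ σ
    have h3 : φ (ρ.ρ σ) = ψ (LinearMap.toMatrix b b (ρ.ρ σ)) := by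
      simp [ψ]
    rw [h3, hψ] at h2
    have h4 := congrArg (algebraMap k K) h2
    rw [map_zero, map_sum] at h4
    rw [← h4]
    refine Finset.sum_congr rfl fun i _ => ?_
    rw [map_sum]
    refine Finset.sum_congr rfl fun j _ => ?_
    rw [map_mul, Matrix.map_apply, mul_comm]
  have hΦ0 : Φ = 0 := by
    have hle : Submodule.span K (Set.range (ρ.baseChange K).ρ) ≤ LinearMap.ker Φ := by
      rw [Submodule.span_le]
      rintro _ ⟨σ, rfl⟩
      exact hΦσ σ
    rw [burnside_of_isAlgClosed (ρ.baseChange K) h, top_le_iff] at hle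
    exact LinearMap.ker_eq_top.mp hle
  have ha : ∀ i j, a i j = 0 := by
    intro i j
    have h1 := hΦ (Matrix.toLin bK bK (Matrix.single i j 1))
    rw [hΦ0, LinearMap.zero_apply, LinearMap.toMatrix_toLin] at h1
    have h2 : ∑ i', ∑ j', algebraMap k K (a i' j') * (Matrix.single i j (1 : K)) i' j' =
        algebraMap k K (a i j) := by
      fin_cases i <;> fin_cases j <;> simp [Matrix.single_apply]
    rw [h2] at h1
    exact (algebraMap k K).injective (by rw [← h1, map_zero])
  apply hφ0
  ext X
  have : φ X = ψ (LinearMap.toMatrix b b X) := by simp [ψ]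
  rw [this, hψ]
  simp [ha]

/-- Burnside in matrix form: the matrices of an absolutely irreducible residual representation
span all `2 × 2` matrices. -/
theorem burnside {k : Type} [Field k] (rhobar : ResidualGaloisRep k)
    (habs : rhobar.IsAbsolutelyIrreducible) (b : Module.Basis (Fin 2) k rhobar.V)
    (N : Matrix (Fin 2) (Fin 2) k) :
    N ∈ Submodule.span k (Set.range fun g => LinearMap.toMatrix b b (rhobar.ρ g)) := by
  have h1 : Matrix.toLin b b N ∈ Submodule.span k (Set.range rhobar.ρ) := by
    rw [burnside_end rhobar habs]; exact Submodule.mem_top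
  have h2 : LinearMap.toMatrix b b (Matrix.toLin b b N) ∈
      (Submodule.span k (Set.range rhobar.ρ)).map (LinearMap.toMatrix b b).toLinearMap :=
    Submodule.mem_map_of_mem h1
  rw [LinearMap.toMatrix_toLin, Submodule.map_span, ← Set.range_comp] at h2
  exact h2

end Fermat.Agent.S53
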