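import Fermat.Statements.S53

set_option autoImplicit false
set_option linter.unusedSectionVars false

open IsLocalRing
open scoped TensorProduct

namespace Fermat.Agent.S53

/-- The absolute Galois group of `ℚ`, as used in the prelude. -/
abbrev Gal : Type := AlgebraicClosure ℚ ≃ₐ[ℚ] AlgebraicClosure ℚ

/-- Two by two matrices. -/
abbrev M2 (A : Type) : Type := Matrix (Fin 2) (Fin 2) A

section Basic

variable {A : Type} [CommRing A]

lemma pi_mem_smul_top (I : Ideal A) (w : Fin 2 → A) (h : ∀ i, w i ∈ I) :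
    w ∈ I • (⊤ : Submodule A (Fin 2 → A)) := by
  have hw : w = ∑ i, w i • (Pi.single i (1 : A) : Fin 2 → A) := by
    ext j
    simp [Finset.sum_apply, Pi.single_apply]
  rw [hw]
  exact Submodule.sum_mem _ fun i _ => Submodule.smul_mem_smul (h i) Submodule.mem_top

lemma repr_mem_of_mem_smul_top {V : Type} [AddCommGroup V] [Module A V]
    (c : Module.Basis (Fin 2) A V) (I : Ideal A) (x : V)
    (hx : x ∈ I • (⊤ : Submodule A V)) (i : Fin 2) : c.repr x i ∈ I := by
  refine Submodule.smul_induction_on (p := fun x => c.repr x i ∈ I) hx ?_ ?_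
  · intro a ha y _
    rw [map_smul, Finsupp.smul_apply, smul_eq_mul]
    exact I.mul_mem_right _ ha
  · intro x y hx hy
    rw [map_add, Finsupp.add_apply]
    exact I.add_mem hx hy

lemma mul_mul_entry_mem (I : Ideal A) (N : M2 A) (hN : ∀ i j, N i j ∈ I) (P P' : M2 A)
    (i j : Fin 2) : (P * N * P') i j ∈ I := by
  rw [Matrix.mul_apply]
  refine I.sum_mem fun b _ => I.mul_mem_right _ ?_
  rw [Matrix.mul_apply]
  exact I.sum_mem fun a _ => I.mul_mem_left _ (hN a b)

/-- Conjugation of a matrix representation by an invertible matrix. -/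
noncomputable def conjHom (P : (M2 A)ˣ) (r : Gal →* M2 A) : Gal →* M2 A where
  toFun g := (P : M2 A) * r g * ((P⁻¹ : (M2 A)ˣ) : M2 A)
  map_one' := by simp
  map_mul' a b := by
    rw [map_mul]
    simp only [mul_assoc, Units.inv_mul_cancel_left]

@[simp] lemma conjHom_apply (P : (M2 A)ˣ) (r : Gal →* M2 A) (g : Gal) :
    conjHom P r g = (P : M2 A) * r g * ((P⁻¹ : (M2 A)ˣ) : M2 A) := rfl

/-- Push a matrix representation forward along a ring homomorphism. -/
noncomputable def mapHom {B : Type} [CommRing B] (φ : A →+* B) (r : Gal →* M2 A) : Gal →* M2 B :=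
  (φ.mapMatrix : M2 A →+* M2 B).toMonoidHom.comp r

@[simp] lemma mapHom_apply {B : Type} [CommRing B] (φ : A →+* B) (r : Gal →* M2 A) (g : Gal)
    (i j : Fin 2) : mapHom φ r g i j = φ (r g i j) := rfl

lemma mapHom_apply' {B : Type} [CommRing B] (φ : A →+* B) (r : Gal →* M2 A) (g : Gal) :
    mapHom φ r g = (r g).map φ := rfl

end Basic

section Cont

variable {A : Type} [CommRing A] [IsLocalRing A]

/-- Adic continuity of a matrix representation, entrywise. -/
def MatCont (r : Gal →* M2 A) : Prop :=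
  ∀ n : ℕ, ∃ L : IntermediateField ℚ (AlgebraicClosure ℚ), FiniteDimensional ℚ L ∧
    ∀ σ : Gal, (∀ x ∈ L, σ x = x) → ∀ i j, (r σ - 1) i j ∈ maximalIdeal A ^ n

lemma MatCont.conj {r : Gal →* M2 A} (hr : MatCont r) (P : (M2 A)ˣ) : MatCont (conjHom P r) := by
  intro n
  obtain ⟨L, hL, h⟩ := hr n
  refine ⟨L, hL, fun σ hσ i j => ?_⟩
  have : conjHom P r σ - 1 = (P : M2 A) * (r σ - 1) * ((P⁻¹ : (M2 A)ˣ) : M2 A) := by
    rw [conjHom_apply, mul_sub, sub_mul, mul_one, Units.mul_inv]
  rw [this]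
  exact mul_mul_entry_mem _ _ (h σ hσ) _ _ i j

lemma MatCont.map {B : Type} [CommRing B] [IsLocalRing B] {r : Gal →* M2 A} (hr : MatCont r)
    (φ : A →+* B) (hφ : IsLocalHom φ) : MatCont (mapHom φ r) := by
  intro n
  obtain ⟨L, hL, h⟩ := hr n
  refine ⟨L, hL, fun σ hσ i j => ?_⟩
  have hmap : (maximalIdeal A ^ n).map φ ≤ maximalIdeal B ^ n := by
    rw [Ideal.map_pow]
    exact Ideal.pow_right_mono (Ideal.map_le_iff_le_comap.mpr fun a ha =>
      Ideal.mem_comap.mpr (haveI := hφ; map_nonunit φ a ha)) n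
  have : (mapHom φ r σ - 1) i j = φ ((r σ - 1) i j) := by
    by_cases hij : i = j
    · subst hij; simp [Matrix.sub_apply]
    · simp [Matrix.sub_apply, Matrix.one_apply_ne hij]
  rw [this]
  exact hmap (Ideal.mem_map_of_mem φ (h σ hσ i j))

/-- The linear automorphism attached to an invertible matrix. -/
noncomputable def unitLinEquiv (Q : (M2 A)ˣ) : (Fin 2 → A) ≃ₗ[A] (Fin 2 → A) :=
  LinearEquiv.ofLinearMap (Matrix.toLin' (Q : M2 A)) (Matrix.toLin' ((Q⁻¹ : (M2 A)ˣ) : M2 A))
    (by rw [← Matrix.toLin'_mul, Units.mul_inv, Matrix.toLin'_one])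
    (by rw [← Matrix.toLin'_mul, Units.inv_mul, Matrix.toLin'_one])

lemma unitLinEquiv_apply (Q : (M2 A)ˣ) (v : Fin 2 → A) :
    unitLinEquiv Q v = (Q : M2 A).mulVec v := rfl

/-- The `GaloisRepAdic` attached to a continuous matrix representation. -/
@[reducible] noncomputable def ofMat (r : Gal →* M2 A) (hr : MatCont r) : GaloisRepAdic A where
  V := Fin 2 → A
  finrank_eq := by simp
  ρ :=
    { toFun := fun σ => Matrix.toLin' (r σ)
      map_one' := by rw [map_one, Matrix.toLin'_one]; rfl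
      map_mul' := fun a b => by rw [map_mul, Matrix.toLin'_mul]; rfl }
  isAdicContinuous := by
    intro n
    obtain ⟨L, hL, h⟩ := hr n
    refine ⟨L, hL, fun σ hσ v => ?_⟩
    apply pi_mem_smul_top
    intro i
    have : (Matrix.toLin' (r σ) v - v) i = ∑ j, (r σ - 1) i j * v j := by
      rw [Pi.sub_apply, Matrix.toLin'_apply, Matrix.mulVec, dotProduct]
      simp [Fin.sum_univ_two, Matrix.sub_apply, Matrix.one_apply]
      fin_cases i <;> simp <;> ring
    change (Matrix.toLin' (r σ) v - v) i ∈ _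
    rw [this]
    exact Ideal.sum_mem _ fun j _ => Ideal.mul_mem_right _ _ (h σ hσ i j)

@[simp] lemma ofMat_V (r : Gal →* M2 A) (hr : MatCont r) : (ofMat r hr).V = (Fin 2 → A) := rfl

lemma ofMat_ρ_apply (r : Gal →* M2 A) (hr : MatCont r) (σ : Gal) (v : Fin 2 → A) :
    (ofMat r hr).ρ σ v = (r σ).mulVec v := rfl

/-- Conjugate matrix representations give equivalent `GaloisRepAdic`s. -/
noncomputable def ofMatEquiv {r r' : Gal →* M2 A} (hr : MatCont r) (hr' : MatCont r')
    (Q : (M2 A)ˣ) (h : ∀ g, (Q : M2 A) * r g = r' g * (Q : M2 A)) :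
    GaloisRepAdic.Equiv (ofMat r hr) (ofMat r' hr') where
  toLinearEquiv := unitLinEquiv Q
  map_apply := fun σ x => by
    change (Q : M2 A).mulVec ((r σ).mulVec (x : Fin 2 → A)) =
      (r' σ).mulVec ((Q : M2 A).mulVec (x : Fin 2 → A))
    rw [Matrix.mulVec_mulVec, Matrix.mulVec_mulVec, h]

lemma ofMat_isEquiv {r r' : Gal →* M2 A} (hr : MatCont r) (hr' : MatCont r')
    (Q : (M2 A)ˣ) (h : ∀ g, (Q : M2 A) * r g = r' g * (Q : M2 A)) :
    (ofMat r hr).IsEquiv (ofMat r' hr') := ⟨ofMatEquiv hr hr' Q h⟩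

lemma ofMat_isEquiv_of_eq {r r' : Gal →* M2 A} (hr : MatCont r) (hr' : MatCont r')
    (h : ∀ g, r g = r' g) : (ofMat r hr).IsEquiv (ofMat r' hr') :=
  ofMat_isEquiv hr hr' 1 (fun g => by simp [h g])

lemma ofMat_isEquiv_conj {r : Gal →* M2 A} (hr : MatCont r) (P : (M2 A)ˣ) :
    (ofMat r hr).IsEquiv (ofMat (conjHom P r) (hr.conj P)) :=
  ofMat_isEquiv hr (hr.conj P) P (fun g => by
    rw [conjHom_apply, mul_assoc, mul_assoc, Units.inv_mul, mul_one])

/-- From an equivalence of `ofMat`s, extract a conjugating matrix. -/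
lemma exists_conj_of_isEquiv {r r' : Gal →* M2 A} (hr : MatCont r) (hr' : MatCont r')
    (h : (ofMat r hr).IsEquiv (ofMat r' hr')) :
    ∃ Q : (M2 A)ˣ, ∀ g, (Q : M2 A) * r g = r' g * (Q : M2 A) := by
  obtain ⟨e⟩ := h
  let f : (Fin 2 → A) ≃ₗ[A] (Fin 2 → A) := e.toLinearEquiv
  let Q : M2 A := LinearMap.toMatrix' (f : (Fin 2 → A) →ₗ[A] (Fin 2 → A))
  let Q' : M2 A := LinearMap.toMatrix' (f.symm : (Fin 2 → A) →ₗ[A] (Fin 2 → A))
  have h1 : Q * Q' = 1 := by
    rw [← LinearMap.toMatrix'_comp]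
    simp
  have h2 : Q' * Q = 1 := by
    rw [← LinearMap.toMatrix'_comp]
    simp
  refine ⟨⟨Q, Q', h1, h2⟩, fun g => ?_⟩
  change Q * r g = r' g * Q
  have hg : (f : (Fin 2 → A) →ₗ[A] (Fin 2 → A)).comp (Matrix.toLin' (r g)) =
      (Matrix.toLin' (r' g)).comp (f : (Fin 2 → A) →ₗ[A] (Fin 2 → A)) :=
    LinearMap.ext fun x => e.map_apply g x
  have := congrArg LinearMap.toMatrix' hg
  rw [LinearMap.toMatrix'_comp, LinearMap.toMatrix'_comp, LinearMap.toMatrix'_toLin',
    LinearMap.toMatrix'_toLin'] at this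
  exact this

/-- Every `GaloisRepAdic` is equivalent to a matrix one. -/
lemma exists_ofMat_isEquiv (ρ : GaloisRepAdic A) :
    ∃ (r : Gal →* M2 A) (hr : MatCont r), ρ.IsEquiv (ofMat r hr) := by
  let c : Module.Basis (Fin 2) A ρ.V := Module.finBasisOfFinrankEq A ρ.V ρ.finrank_eq
  let r : Gal →* M2 A :=
    { toFun := fun σ => LinearMap.toMatrix c c (ρ.ρ σ)
      map_one' := by rw [map_one]; exact LinearMap.toMatrix_one c
      map_mul' := fun a b => by rw [map_mul]; exact LinearMap.toMatrix_mul c _ _ }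
  have hr : MatCont r := by
    intro n
    obtain ⟨L, hL, h⟩ := ρ.isAdicContinuous n
    refine ⟨L, hL, fun σ hσ i j => ?_⟩
    have : (r σ - 1) i j = c.repr (ρ.ρ σ (c j) - c j) i := by
      change (LinearMap.toMatrix c c (ρ.ρ σ) - 1) i j = _
      rw [Matrix.sub_apply, LinearMap.toMatrix_apply, map_sub, Finsupp.sub_apply,
        Module.Basis.repr_self, Matrix.one_apply, Finsupp.single_apply]
      congr 1
      by_cases hij : i = j <;> simp [hij, eq_comm]
    rw [this]
    exact repr_mem_of_mem_smul_top c _ _ (h σ hσ (c j)) i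
  refine ⟨r, hr, ⟨{ toLinearEquiv := c.equivFun, map_apply := fun σ x => ?_ }⟩⟩
  change c.equivFun (ρ.ρ σ x) = (LinearMap.toMatrix c c (ρ.ρ σ)).mulVec (c.equivFun x)
  exact (LinearMap.toMatrix_mulVec_repr c c (ρ.ρ σ) x).symm

/-- Base change of a matrix representation is the entrywise image. -/
lemma ofMat_baseChangeAlong_isEquiv {B : Type} [CommRing B] [IsLocalRing B] (φ : A →+* B)
    (hφ : IsLocalHom φ) (r : Gal →* M2 A) (hr : MatCont r) :
    ((ofMat r hr).baseChangeAlong φ hφ).IsEquiv (ofMat (mapHom φ r) (hr.map φ hφ)) := by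
  letI : Algebra A B := φ.toAlgebra
  refine ⟨{ toLinearEquiv := TensorProduct.piScalarRight A B B (Fin 2), map_apply := fun σ x => ?_ }⟩
  change TensorProduct.piScalarRight A B B (Fin 2) ((Matrix.toLin' (r σ)).baseChange B x) =
    (mapHom φ r σ).mulVec (TensorProduct.piScalarRight A B B (Fin 2) x)
  induction x using TensorProduct.induction_on with
  | zero => simp
  | tmul b v =>
    rw [LinearMap.baseChange_tmul, TensorProduct.piScalarRight_apply,
      TensorProduct.piScalarRightHom_tmul, TensorProduct.piScalarRight_apply,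
      TensorProduct.piScalarRightHom_tmul]
    funext i
    simp only [Matrix.toLin'_apply, Matrix.mulVec, dotProduct, mapHom_apply, Algebra.smul_def,
      RingHom.algebraMap_toAlgebra, map_sum, map_mul, Finset.sum_mul, mul_assoc]
  | add x y hx hy => simp only [map_add, hx, hy, Matrix.mulVec_add]

end Cont

section Residual

variable {K : Type} [Field K]

/-- The `ResidualGaloisRep` attached to a finite-level matrix representation. -/
@[reducible] noncomputable def ofMatRes (s : Gal →* M2 K) (hs : GaloisFactorsThroughFiniteLevel s) :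
    ResidualGaloisRep K where
  V := Fin 2 → K
  finrank_eq := by simp
  ρ :=
    { toFun := fun σ => Matrix.toLin' (s σ)
      map_one' := by rw [map_one, Matrix.toLin'_one]; rfl
      map_mul' := fun a b => by rw [map_mul, Matrix.toLin'_mul]; rfl }
  factorsThroughFiniteLevel := by
    obtain ⟨L, hL, h⟩ := hs
    refine ⟨L, hL, fun σ hσ => ?_⟩
    change Matrix.toLin' (s σ) = 1
    rw [h σ hσ, Matrix.toLin'_one]; rfl

lemma ofMatRes_isEquiv {s s' : Gal →* M2 K} (hs : GaloisFactorsThroughFiniteLevel s)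
    (hs' : GaloisFactorsThroughFiniteLevel s')
    (Q : (M2 K)ˣ) (h : ∀ g, (Q : M2 K) * s g = s' g * (Q : M2 K)) :
    (ofMatRes s hs).IsEquiv (ofMatRes s' hs') :=
  ⟨{ toLinearEquiv := unitLinEquiv Q
     map_apply := fun σ x => by
      change (Q : M2 K).mulVec ((s σ).mulVec (x : Fin 2 → K)) =
        (s' σ).mulVec ((Q : M2 K).mulVec (x : Fin 2 → K))
      rw [Matrix.mulVec_mulVec, Matrix.mulVec_mulVec, h] }⟩

lemma ofMatRes_isEquiv_of_eq {s s' : Gal →* M2 K} (hs : GaloisFactorsThroughFiniteLevel s)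
    (hs' : GaloisFactorsThroughFiniteLevel s') (h : ∀ g, s g = s' g) :
    (ofMatRes s hs).IsEquiv (ofMatRes s' hs') :=
  ofMatRes_isEquiv hs hs' 1 (fun g => by simp [h g])

lemma exists_conj_of_isEquiv_res {s s' : Gal →* M2 K} (hs : GaloisFactorsThroughFiniteLevel s)
    (hs' : GaloisFactorsThroughFiniteLevel s')
    (h : (ofMatRes s hs).IsEquiv (ofMatRes s' hs')) :
    ∃ Q : (M2 K)ˣ, ∀ g, (Q : M2 K) * s g = s' g * (Q : M2 K) := by
  obtain ⟨e⟩ := h
  let f : (Fin 2 → K) ≃ₗ[K] (Fin 2 → K) := e.toLinearEquiv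
  let Q : M2 K := LinearMap.toMatrix' (f : (Fin 2 → K) →ₗ[K] (Fin 2 → K))
  let Q' : M2 K := LinearMap.toMatrix' (f.symm : (Fin 2 → K) →ₗ[K] (Fin 2 → K))
  have h1 : Q * Q' = 1 := by
    rw [← LinearMap.toMatrix'_comp]
    simp
  have h2 : Q' * Q = 1 := by
    rw [← LinearMap.toMatrix'_comp]
    simp
  refine ⟨⟨Q, Q', h1, h2⟩, fun g => ?_⟩
  change Q * s g = s' g * Q
  have hg : (f : (Fin 2 → K) →ₗ[K] (Fin 2 → K)).comp (Matrix.toLin' (s g)) =
      (Matrix.toLin' (s' g)).comp (f : (Fin 2 → K) →ₗ[K] (Fin 2 → K)) :=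
    LinearMap.ext fun x => e.map_apply g x
  have := congrArg LinearMap.toMatrix' hg
  rw [LinearMap.toMatrix'_comp, LinearMap.toMatrix'_comp, LinearMap.toMatrix'_toLin',
    LinearMap.toMatrix'_toLin'] at this
  exact this

/-- The matrix representation of a residual representation in a basis. -/
noncomputable def matOfRes (ρbar : ResidualGaloisRep K) (b : Module.Basis (Fin 2) K ρbar.V) :
    Gal →* M2 K where
  toFun := fun σ => LinearMap.toMatrix b b (ρbar.ρ σ)
  map_one' := by rw [map_one]; exact LinearMap.toMatrix_one b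
  map_mul' := fun a c => by rw [map_mul]; exact LinearMap.toMatrix_mul b _ _

lemma matOfRes_finiteLevel (ρbar : ResidualGaloisRep K) (b : Module.Basis (Fin 2) K ρbar.V) :
    GaloisFactorsThroughFiniteLevel (matOfRes ρbar b) := by
  obtain ⟨L, hL, h⟩ := ρbar.factorsThroughFiniteLevel
  refine ⟨L, hL, fun σ hσ => ?_⟩
  change LinearMap.toMatrix b b (ρbar.ρ σ) = 1
  rw [h σ hσ]
  exact LinearMap.toMatrix_one b

lemma isEquiv_ofMatRes (ρbar : ResidualGaloisRep K) (b : Module.Basis (Fin 2) K ρbar.V) :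
    ρbar.IsEquiv (ofMatRes (matOfRes ρbar b) (matOfRes_finiteLevel ρbar b)) := by
  refine ⟨{ toLinearEquiv := b.equivFun, map_apply := fun σ x => ?_ }⟩
  change b.equivFun (ρbar.ρ σ x) = (LinearMap.toMatrix b b (ρbar.ρ σ)).mulVec (b.equivFun x)
  exact (LinearMap.toMatrix_mulVec_repr b b (ρbar.ρ σ) x).symm

lemma finiteLevel_map {K' : Type} [Field K'] (ι : K →+* K') {s : Gal →* M2 K}
    (hs : GaloisFactorsThroughFiniteLevel s) : GaloisFactorsThroughFiniteLevel (mapHom ι s) := by
  obtain ⟨L, hL, h⟩ := hs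
  refine ⟨L, hL, fun σ hσ => ?_⟩
  rw [mapHom_apply', h σ hσ]
  exact Matrix.map_one _ (map_zero ι) (map_one ι)

lemma ofMatRes_baseChangeAlong_isEquiv {K' : Type} [Field K'] (ι : K →+* K') (s : Gal →* M2 K)
    (hs : GaloisFactorsThroughFiniteLevel s) :
    ((ofMatRes s hs).baseChangeAlong ι).IsEquiv (ofMatRes (mapHom ι s) (finiteLevel_map ι hs)) := by
  letI : Algebra K K' := ι.toAlgebra
  refine ⟨{ toLinearEquiv := TensorProduct.piScalarRight K K' K' (Fin 2),
            map_apply := fun σ x => ?_ }⟩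
  change TensorProduct.piScalarRight K K' K' (Fin 2) ((Matrix.toLin' (s σ)).baseChange K' x) =
    (mapHom ι s σ).mulVec (TensorProduct.piScalarRight K K' K' (Fin 2) x)
  induction x using TensorProduct.induction_on with
  | zero => simp
  | tmul b v =>
    rw [LinearMap.baseChange_tmul, TensorProduct.piScalarRight_apply,
      TensorProduct.piScalarRightHom_tmul, TensorProduct.piScalarRight_apply,
      TensorProduct.piScalarRightHom_tmul]
    funext i
    simp only [Matrix.toLin'_apply, Matrix.mulVec, dotProduct, mapHom_apply, Algebra.smul_def,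
      RingHom.algebraMap_toAlgebra, map_sum, map_mul, Finset.sum_mul, mul_assoc]
  | add x y hx hy => simp only [map_add, hx, hy, Matrix.mulVec_add]

end Residual

section ResidualAdic

variable {A : Type} [CommRing A] [IsLocalRing A]

lemma finiteLevel_residue {r : Gal →* M2 A} (hr : MatCont r) :
    GaloisFactorsThroughFiniteLevel (mapHom (residue A) r) := by
  obtain ⟨L, hL, h⟩ := hr 1
  refine ⟨L, hL, fun σ hσ => ?_⟩
  ext i j
  have h1 := h σ hσ i j
  rw [pow_one, ← residue_eq_zero_iff, Matrix.sub_apply, map_sub, sub_eq_zero] at h1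
  rw [mapHom_apply, h1, Matrix.one_apply, Matrix.one_apply]
  split_ifs <;> simp

lemma ofMat_residual_isEquiv (r : Gal →* M2 A) (hr : MatCont r) :
    ((ofMat r hr).residual).IsEquiv (ofMatRes (mapHom (residue A) r) (finiteLevel_residue hr)) := by
  refine ⟨{ toLinearEquiv := TensorProduct.piScalarRight A (ResidueField A) (ResidueField A) (Fin 2),
            map_apply := fun σ x => ?_ }⟩
  change TensorProduct.piScalarRight A (ResidueField A) (ResidueField A) (Fin 2)
      ((Matrix.toLin' (r σ)).baseChange (ResidueField A) x) =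
    (mapHom (residue A) r σ).mulVec
      (TensorProduct.piScalarRight A (ResidueField A) (ResidueField A) (Fin 2) x)
  induction x using TensorProduct.induction_on with
  | zero => simp
  | tmul b v =>
    rw [LinearMap.baseChange_tmul, TensorProduct.piScalarRight_apply,
      TensorProduct.piScalarRightHom_tmul, TensorProduct.piScalarRight_apply,
      TensorProduct.piScalarRightHom_tmul]
    funext i
    simp only [Matrix.toLin'_apply, Matrix.mulVec, dotProduct, mapHom_apply, Algebra.smul_def,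
      ResidueField.algebraMap_eq, map_sum, map_mul, Finset.sum_mul, mul_assoc]
  | add x y hx hy => simp only [map_add, hx, hy, Matrix.mulVec_add]

lemma matCont_of_finiteLevel {r : Gal →* M2 A} (hr : GaloisFactorsThroughFiniteLevel r) :
    MatCont r := by
  intro n
  obtain ⟨L, hL, h⟩ := hr
  refine ⟨L, hL, fun σ hσ i j => ?_⟩
  rw [h σ hσ, sub_self]
  exact Ideal.zero_mem _

lemma finiteLevel_of_matCont {r : Gal →* M2 A} (hr : MatCont r) {n : ℕ}
    (hn : maximalIdeal A ^ n = ⊥) : GaloisFactorsThroughFiniteLevel r := by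
  obtain ⟨L, hL, h⟩ := hr n
  refine ⟨L, hL, fun σ hσ => ?_⟩
  ext i j
  have := h σ hσ i j
  rw [hn, Ideal.mem_bot, Matrix.sub_apply, sub_eq_zero] at this
  exact this

end ResidualAdic

section Lift

variable {𝒪 : Type} [CommRing 𝒪] [IsLocalRing 𝒪]
variable {A : Type} [CommRing A] [IsLocalRing A] [Algebra 𝒪 A] [IsLocalHom (algebraMap 𝒪 A)]

lemma residual_isEquiv_of_lift (ρbar : ResidualGaloisRep (ResidueField 𝒪))
    (b : Module.Basis (Fin 2) (ResidueField 𝒪) ρbar.V) (r : Gal →* M2 A) (hr : MatCont r)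
    (h : ∀ g i j, residue A (r g i j) =
      ResidueField.map (algebraMap 𝒪 A) (matOfRes ρbar b g i j)) :
    (ofMat r hr).residual.IsEquiv
      (ρbar.baseChangeAlong (ResidueField.map (algebraMap 𝒪 A))) := by
  obtain ⟨e1⟩ := ofMat_residual_isEquiv r hr
  obtain ⟨e2⟩ := ofMatRes_isEquiv_of_eq (finiteLevel_residue hr)
    (finiteLevel_map (ResidueField.map (algebraMap 𝒪 A)) (matOfRes_finiteLevel ρbar b))
    (fun g => by ext i j; exact h g i j)
  obtain ⟨e3⟩ := ofMatRes_baseChangeAlong_isEquiv (ResidueField.map (algebraMap 𝒪 A))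
    (matOfRes ρbar b) (matOfRes_finiteLevel ρbar b)
  obtain ⟨e4⟩ := isEquiv_ofMatRes ρbar b
  exact ⟨(e1.trans e2).trans (e3.symm.trans
    (e4.symm.baseChangeAlong (ResidueField.map (algebraMap 𝒪 A))))⟩

lemma exists_conj_of_residual_isEquiv (ρbar : ResidualGaloisRep (ResidueField 𝒪))
    (b : Module.Basis (Fin 2) (ResidueField 𝒪) ρbar.V) (r : Gal →* M2 A) (hr : MatCont r)
    (h : (ofMat r hr).residual.IsEquiv
      (ρbar.baseChangeAlong (ResidueField.map (algebraMap 𝒪 A)))) :
    ∃ Q : (M2 (ResidueField A))ˣ, ∀ g, (Q : M2 (ResidueField A)) * mapHom (residue A) r g =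
      mapHom (ResidueField.map (algebraMap 𝒪 A)) (matOfRes ρbar b) g * (Q : M2 (ResidueField A)) := by
  obtain ⟨e1⟩ := ofMat_residual_isEquiv r hr
  obtain ⟨e0⟩ := h
  obtain ⟨e3⟩ := ofMatRes_baseChangeAlong_isEquiv (ResidueField.map (algebraMap 𝒪 A))
    (matOfRes ρbar b) (matOfRes_finiteLevel ρbar b)
  obtain ⟨e4⟩ := isEquiv_ofMatRes ρbar b
  exact exists_conj_of_isEquiv_res (finiteLevel_residue hr)
    (finiteLevel_map (ResidueField.map (algebraMap 𝒪 A)) (matOfRes_finiteLevel ρbar b))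
    ⟨(e1.symm.trans e0).trans
      ((e4.baseChangeAlong (ResidueField.map (algebraMap 𝒪 A))).trans e3)⟩

end Lift

section OverField

variable {K : Type} [Field K]

lemma ofResidual_isEquiv_ofMat (ρbar : ResidualGaloisRep K) (b : Module.Basis (Fin 2) K ρbar.V) :
    (GaloisRepAdic.ofResidualGaloisRep ρbar).IsEquiv
      (ofMat (matOfRes ρbar b) (matCont_of_finiteLevel (matOfRes_finiteLevel ρbar b))) := by
  refine ⟨{ toLinearEquiv := b.equivFun, map_apply := fun σ x => ?_ }⟩
  change b.equivFun (ρbar.ρ σ x) = (LinearMap.toMatrix b b (ρbar.ρ σ)).mulVec (b.equivFun x)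
  exact (LinearMap.toMatrix_mulVec_repr b b (ρbar.ρ σ) x).symm

end OverField

end Fermat.Agent.S53
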