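import Fermat.Agent.S53.Defs

set_option autoImplicit false
set_option linter.unusedSectionVars false

open scoped TensorProduct

namespace Fermat.Agent.S53

open IsLocalRing

section DyBasic

variable {A : Type} [CommRing A] [IsLocalRing A]

theorem dy_repr_mem_of_mem_smul_top {V : Type} [AddCommGroup V] [Module A V]
    (b : Module.Basis (Fin 2) A V) (I : Ideal A) {x : V}
    (hx : x ∈ I • (⊤ : Submodule A V)) (i : Fin 2) : b.repr x i ∈ I := by
  refine Submodule.smul_induction_on (p := fun x => b.repr x i ∈ I) hx ?_ ?_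
  · intro a ha w _
    rw [map_smul, Finsupp.smul_apply, smul_eq_mul]
    exact I.mul_mem_right _ ha
  · intro x y hx hy
    rw [map_add, Finsupp.add_apply]
    exact I.add_mem hx hy

theorem MatRep.toRep_ρ_apply (ρ : MatRep A) (σ : GQ) (v : Fin 2 → A) :
    ρ.toRep.ρ σ v = (ρ.hom σ).mulVec v := rfl

/-- The matrix representation of a `GaloisRepAdic` with respect to a basis. -/
noncomputable def dy_ofBasis (ρ : GaloisRepAdic A) (b : Module.Basis (Fin 2) A ρ.V) : MatRep A where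
  hom :=
    { toFun := fun σ => LinearMap.toMatrix b b (ρ.ρ σ)
      map_one' := by rw [map_one]; exact LinearMap.toMatrix_one b
      map_mul' := fun σ τ => by rw [map_mul]; exact LinearMap.toMatrix_mul b _ _ }
  cont := by
    intro n
    obtain ⟨L, hL, h1⟩ := ρ.isAdicContinuous n
    refine ⟨L, hL, fun σ hσ i j => ?_⟩
    have h2 : (LinearMap.toMatrix b b (ρ.ρ σ) - 1) i j = b.repr (ρ.ρ σ (b j) - b j) i := by
      rw [Matrix.sub_apply, LinearMap.toMatrix_apply, map_sub, Finsupp.sub_apply,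
        Matrix.one_apply, Module.Basis.repr_self, Finsupp.single_apply]
      congr 1
      by_cases h : i = j
      · simp [h]
      · simp [h, Ne.symm h]
    show (LinearMap.toMatrix b b (ρ.ρ σ) - 1) i j ∈ _
    rw [h2]
    exact dy_repr_mem_of_mem_smul_top b _ (h1 σ hσ (b j)) i

theorem dy_ofBasis_hom_apply (ρ : GaloisRepAdic A) (b : Module.Basis (Fin 2) A ρ.V) (σ : GQ) :
    (dy_ofBasis ρ b).hom σ = LinearMap.toMatrix b b (ρ.ρ σ) := rfl

/-- A `GaloisRepAdic` always has a basis indexed by `Fin 2`. -/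
noncomputable def dy_someBasis (ρ : GaloisRepAdic A) : Module.Basis (Fin 2) A ρ.V :=
  Module.finBasisOfFinrankEq A ρ.V ρ.finrank_eq

/-- A `GaloisRepAdic` is equivalent to the one attached to its matrix w.r.t. any basis. -/
noncomputable def dy_equivOfBasis (ρ : GaloisRepAdic A) (b : Module.Basis (Fin 2) A ρ.V) :
    GaloisRepAdic.Equiv ρ (dy_ofBasis ρ b).toRep :=
  { toLinearEquiv := b.equivFun
    map_apply := fun σ x => by
      show b.equivFun (ρ.ρ σ x) = ((dy_ofBasis ρ b).hom σ).mulVec (b.equivFun x)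
      rw [dy_ofBasis_hom_apply]
      exact (LinearMap.toMatrix_mulVec_repr b b (ρ.ρ σ) x).symm }

theorem dy_isEquiv_ofBasis (ρ : GaloisRepAdic A) (b : Module.Basis (Fin 2) A ρ.V) :
    ρ.IsEquiv (dy_ofBasis ρ b).toRep :=
  ⟨dy_equivOfBasis ρ b⟩

/-- The standard basis of the module underlying `ρ.toRep`. -/
noncomputable def dy_stdBasis (ρ : MatRep A) : Module.Basis (Fin 2) A ρ.toRep.V :=
  Pi.basisFun A (Fin 2)

theorem dy_ofBasis_stdBasis (ρ : MatRep A) : dy_ofBasis ρ.toRep (dy_stdBasis ρ) = ρ := by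
  apply MatRep.ext
  intro σ
  show LinearMap.toMatrix (Pi.basisFun A (Fin 2)) (Pi.basisFun A (Fin 2))
    (Matrix.toLin' (ρ.hom σ)) = ρ.hom σ
  rw [LinearMap.toMatrix_eq_toMatrix', LinearMap.toMatrix'_toLin']

/-- Conjugate matrix representations give equivalent `GaloisRepAdic`s. -/
noncomputable def dy_equivOfConj (ρ ρ' : MatRep A) (U : (M2 A)ˣ)
    (hU : ∀ σ, (U : M2 A) * ρ.hom σ = ρ'.hom σ * U) :
    GaloisRepAdic.Equiv ρ.toRep ρ'.toRep :=
  { toLinearEquiv :=
      (LinearEquiv.ofLinearMap (Matrix.toLin' (U : M2 A))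
        (Matrix.toLin' ((U⁻¹ : (M2 A)ˣ) : M2 A))
        (by rw [← Matrix.toLin'_mul, Units.mul_inv, Matrix.toLin'_one])
        (by rw [← Matrix.toLin'_mul, Units.inv_mul, Matrix.toLin'_one]) :
        (Fin 2 → A) ≃ₗ[A] (Fin 2 → A))
    map_apply := fun σ x => by
      show (U : M2 A).mulVec ((ρ.hom σ).mulVec x) = (ρ'.hom σ).mulVec ((U : M2 A).mulVec x)
      rw [Matrix.mulVec_mulVec, Matrix.mulVec_mulVec, hU σ] }

end DyBasic

section General

variable {A B : Type} [CommRing A] [IsLocalRing A] [CommRing B] [IsLocalRing B]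

theorem toRep_isEquiv_iff (ρ ρ' : MatRep A) :
    ρ.toRep.IsEquiv ρ'.toRep ↔ ∃ g : M2 A, IsUnit g ∧ ∀ σ, g * ρ.hom σ = ρ'.hom σ * g := by
  constructor
  · rintro ⟨e⟩
    let e' : (Fin 2 → A) ≃ₗ[A] (Fin 2 → A) := e.toLinearEquiv
    have h1 : LinearMap.toMatrix' (e' : (Fin 2 → A) →ₗ[A] (Fin 2 → A)) *
        LinearMap.toMatrix' (e'.symm : (Fin 2 → A) →ₗ[A] (Fin 2 → A)) = 1 := by
      rw [← LinearMap.toMatrix'_comp, LinearEquiv.comp_coe, LinearEquiv.symm_trans_self,
        LinearEquiv.refl_toLinearMap, LinearMap.toMatrix'_id]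
    have h2 : LinearMap.toMatrix' (e'.symm : (Fin 2 → A) →ₗ[A] (Fin 2 → A)) *
        LinearMap.toMatrix' (e' : (Fin 2 → A) →ₗ[A] (Fin 2 → A)) = 1 := by
      rw [← LinearMap.toMatrix'_comp, LinearEquiv.comp_coe, LinearEquiv.self_trans_symm,
        LinearEquiv.refl_toLinearMap, LinearMap.toMatrix'_id]
    refine ⟨LinearMap.toMatrix' (e' : (Fin 2 → A) →ₗ[A] (Fin 2 → A)),
      ⟨⟨_, _, h1, h2⟩, rfl⟩, fun σ => ?_⟩
    apply Matrix.toLin'.injective
    rw [Matrix.toLin'_mul, Matrix.toLin'_mul, Matrix.toLin'_toMatrix']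
    refine LinearMap.ext fun x => ?_
    exact e.map_apply σ x
  · rintro ⟨g, ⟨U, rfl⟩, hU⟩
    exact ⟨dy_equivOfConj ρ ρ' U hU⟩

/-- The basis of the base change of a `GaloisRepAdic` induced by a basis. -/
noncomputable def dy_baseChangeBasis (φ : A →+* B) (hφ : IsLocalHom φ) (ρ : GaloisRepAdic A)
    (b : Module.Basis (Fin 2) A ρ.V) : Module.Basis (Fin 2) B (ρ.baseChangeAlong φ hφ).V :=
  letI : Algebra A B := φ.toAlgebra
  Algebra.TensorProduct.basis B b

theorem dy_ofBasis_baseChangeAlong (φ : A →+* B) (hφ : IsLocalHom φ) (ρ : GaloisRepAdic A)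
    (b : Module.Basis (Fin 2) A ρ.V) :
    dy_ofBasis (ρ.baseChangeAlong φ hφ) (dy_baseChangeBasis φ hφ ρ b) =
      (dy_ofBasis ρ b).map φ hφ := by
  let _ : Algebra A B := φ.toAlgebra
  apply MatRep.ext
  intro σ
  show LinearMap.toMatrix (Algebra.TensorProduct.basis B b) (Algebra.TensorProduct.basis B b)
    ((ρ.ρ σ).baseChange B) = (LinearMap.toMatrix b b (ρ.ρ σ)).map φ
  rw [LinearMap.toMatrix_baseChange]
  rfl

theorem dy_baseChangeAlong_isEquiv (φ : A →+* B) (hφ : IsLocalHom φ) (ρ : GaloisRepAdic A)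
    (b : Module.Basis (Fin 2) A ρ.V) :
    (ρ.baseChangeAlong φ hφ).IsEquiv ((dy_ofBasis ρ b).map φ hφ).toRep := by
  have h := dy_isEquiv_ofBasis (ρ.baseChangeAlong φ hφ) (dy_baseChangeBasis φ hφ ρ b)
  rwa [dy_ofBasis_baseChangeAlong] at h

theorem toRep_map_isEquiv (φ : A →+* B) (hφ : IsLocalHom φ) (ρ : MatRep A) :
    (ρ.toRep.baseChangeAlong φ hφ).IsEquiv (ρ.map φ hφ).toRep := by
  have h := dy_baseChangeAlong_isEquiv φ hφ ρ.toRep (dy_stdBasis ρ)
  rwa [dy_ofBasis_stdBasis] at h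

end General

section DyResidual

variable {A : Type} [CommRing A] [IsLocalRing A] {k : Type} [Field k]

theorem dy_toMatrix_eq_of_intertwine {K V₁ V₂ : Type} [Field K] [AddCommGroup V₁] [Module K V₁]
    [AddCommGroup V₂] [Module K V₂] (B₁ : Module.Basis (Fin 2) K V₁)
    (B₂ : Module.Basis (Fin 2) K V₂) (e : V₁ ≃ₗ[K] V₂) (he : ∀ i, e (B₁ i) = B₂ i)
    (f : V₁ →ₗ[K] V₁) (f' : V₂ →ₗ[K] V₂) (hf : ∀ x, e (f x) = f' (e x)) :
    LinearMap.toMatrix B₁ B₁ f = LinearMap.toMatrix B₂ B₂ f' := by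
  have hB : B₂ = B₁.map e := Module.Basis.eq_of_apply_eq fun i => by
    rw [Module.Basis.map_apply, he]
  ext i j
  rw [LinearMap.toMatrix_apply, LinearMap.toMatrix_apply, ← he j, ← hf, hB,
    Module.Basis.map_repr, LinearEquiv.trans_apply, LinearEquiv.symm_apply_apply]

theorem dy_intertwine_of_toMatrix_eq {K V₁ V₂ : Type} [Field K] [AddCommGroup V₁] [Module K V₁]
    [AddCommGroup V₂] [Module K V₂] (B₁ : Module.Basis (Fin 2) K V₁)
    (B₂ : Module.Basis (Fin 2) K V₂) (e : V₁ ≃ₗ[K] V₂) (he : ∀ i, e (B₁ i) = B₂ i)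
    (f : V₁ →ₗ[K] V₁) (f' : V₂ →ₗ[K] V₂)
    (h : LinearMap.toMatrix B₁ B₁ f = LinearMap.toMatrix B₂ B₂ f') (x : V₁) :
    e (f x) = f' (e x) := by
  have hB : B₂ = B₁.map e := Module.Basis.eq_of_apply_eq fun i => by
    rw [Module.Basis.map_apply, he]
  have hrepr : ∀ y, B₂.repr (e y) = B₁.repr y := by
    intro y
    rw [hB, Module.Basis.map_repr, LinearEquiv.trans_apply, LinearEquiv.symm_apply_apply]
  have h2 : (e : V₁ →ₗ[K] V₂) ∘ₗ f = f' ∘ₗ (e : V₁ →ₗ[K] V₂) := by
    apply B₁.ext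
    intro j
    apply B₂.repr.injective
    ext i
    have h3 := congrFun (congrFun h i) j
    rw [LinearMap.toMatrix_apply, LinearMap.toMatrix_apply] at h3
    rw [LinearMap.comp_apply, LinearMap.comp_apply, LinearEquiv.coe_coe, he j, ← h3, hrepr]
  exact congrArg (fun g => g x) h2

/-- The residual representation is equivalent to a base change of `ρbar` iff some basis
gives matrices reducing to those of `ρbar`. -/
theorem dy_residual_isEquiv_iff (ρbar : ResidualGaloisRep k)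
    (bbar : Module.Basis (Fin 2) k ρbar.V)
    (ψ : k →+* IsLocalRing.ResidueField A) (ρ : GaloisRepAdic A) :
    ρ.residual.IsEquiv (ρbar.baseChangeAlong ψ) ↔
      ∃ b : Module.Basis (Fin 2) A ρ.V, ∀ σ i j,
        IsLocalRing.residue A (LinearMap.toMatrix b b (ρ.ρ σ) i j) =
          ψ (LinearMap.toMatrix bbar bbar (ρbar.ρ σ) i j) := by
  let _ : Algebra k (IsLocalRing.ResidueField A) := ψ.toAlgebra
  let B₂ : Module.Basis (Fin 2) (IsLocalRing.ResidueField A)
      (IsLocalRing.ResidueField A ⊗[k] ρbar.V) :=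
    Algebra.TensorProduct.basis (IsLocalRing.ResidueField A) bbar
  have key : ∀ (b : Module.Basis (Fin 2) A ρ.V) (σ : GQ),
      (∀ i j, IsLocalRing.residue A (LinearMap.toMatrix b b (ρ.ρ σ) i j) =
          ψ (LinearMap.toMatrix bbar bbar (ρbar.ρ σ) i j)) ↔
      LinearMap.toMatrix (Algebra.TensorProduct.basis (IsLocalRing.ResidueField A) b)
        (Algebra.TensorProduct.basis (IsLocalRing.ResidueField A) b)
        ((ρ.ρ σ).baseChange (IsLocalRing.ResidueField A)) =
      LinearMap.toMatrix B₂ B₂ ((ρbar.ρ σ).baseChange (IsLocalRing.ResidueField A)) := by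
    intro b σ
    rw [LinearMap.toMatrix_baseChange, LinearMap.toMatrix_baseChange]
    constructor
    · intro h
      ext i j
      exact h i j
    · intro h i j
      exact congrFun (congrFun h i) j
  constructor
  · rintro ⟨e⟩
    let e' : (IsLocalRing.ResidueField A ⊗[A] ρ.V) ≃ₗ[IsLocalRing.ResidueField A]
        (IsLocalRing.ResidueField A ⊗[k] ρbar.V) := e.toLinearEquiv
    have hsurj : Function.Surjective (TensorProduct.mk A (IsLocalRing.ResidueField A) ρ.V 1) :=
      TensorProduct.mk_surjective A ρ.V (IsLocalRing.ResidueField A) Ideal.Quotient.mk_surjective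
    choose v hv using fun i => hsurj (e'.symm (B₂ i))
    let B₁' : Module.Basis (Fin 2) (IsLocalRing.ResidueField A)
        (IsLocalRing.ResidueField A ⊗[A] ρ.V) := B₂.map e'.symm
    have hcomp : (TensorProduct.mk A (IsLocalRing.ResidueField A) ρ.V 1 ∘ v) = B₁' := by
      funext i
      rw [Function.comp_apply, hv i, Module.Basis.map_apply]
    have hbij : Function.Bijective (Finsupp.linearCombination A v) := by
      apply Module.IsLocalRing.linearCombination_bijective_of_flat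
      rw [hcomp]
      refine ⟨B₁'.linearIndependent, ?_⟩
      rw [← LinearMap.range_eq_top, Finsupp.range_linearCombination]
      exact B₁'.span_eq
    have hli : LinearIndependent A v := hbij.1
    have hsp : ⊤ ≤ Submodule.span A (Set.range v) := by
      rw [← Finsupp.range_linearCombination, LinearMap.range_eq_top.mpr hbij.2]
    let b : Module.Basis (Fin 2) A ρ.V := Module.Basis.mk hli hsp
    refine ⟨b, fun σ => ?_⟩
    rw [key b σ]
    apply dy_toMatrix_eq_of_intertwine _ _ e'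
    · intro i
      rw [Algebra.TensorProduct.basis_apply, Module.Basis.mk_apply]
      have := hv i
      rw [TensorProduct.mk_apply] at this
      rw [this, LinearEquiv.apply_symm_apply]
    · intro x
      exact e.map_apply σ x
  · rintro ⟨b, hb⟩
    let B₁ : Module.Basis (Fin 2) (IsLocalRing.ResidueField A)
        (IsLocalRing.ResidueField A ⊗[A] ρ.V) :=
      Algebra.TensorProduct.basis (IsLocalRing.ResidueField A) b
    let e' : (IsLocalRing.ResidueField A ⊗[A] ρ.V) ≃ₗ[IsLocalRing.ResidueField A]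
        (IsLocalRing.ResidueField A ⊗[k] ρbar.V) := B₁.equiv B₂ (Equiv.refl _)
    refine ⟨{ toLinearEquiv := e', map_apply := fun σ x => ?_ }⟩
    apply dy_intertwine_of_toMatrix_eq B₁ B₂ e'
    · intro i
      rw [Module.Basis.equiv_apply, Equiv.refl_apply]
    · exact (key b σ).mp (hb σ)

end DyResidual

section Residual

variable {𝒪 : Type} [CommRing 𝒪] [IsLocalRing 𝒪]
variable {ρbar : ResidualGaloisRep (ResidueField 𝒪)} {r0 : GQ → M2 𝒪}
variable {A : Type} [CommRing A] [IsLocalRing A] [Algebra 𝒪 A] [IsLocalHom (algebraMap 𝒪 A)]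

theorem exists_matRep_of_residual (hr0 : ResData ρbar r0) (ρA : GaloisRepAdic A)
    (h : ρA.residual.IsEquiv
      (ρbar.baseChangeAlong (IsLocalRing.ResidueField.map (algebraMap 𝒪 A)))) :
    ∃ ρ : MatRep A, IsLiftOf r0 ρ.hom ∧ ρA.IsEquiv ρ.toRep := by
  obtain ⟨bbar, hbbar⟩ := hr0
  obtain ⟨b, hb⟩ := (dy_residual_isEquiv_iff ρbar bbar _ ρA).mp h
  refine ⟨dy_ofBasis ρA b, fun σ i j => ?_, dy_isEquiv_ofBasis ρA b⟩
  rw [Matrix.sub_apply, Matrix.map_apply, dy_ofBasis_hom_apply,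
    ← IsLocalRing.residue_eq_zero_iff, map_sub, sub_eq_zero, hb σ i j, ← hbbar σ i j,
    IsLocalRing.ResidueField.map_residue]

theorem residual_isEquiv_of_isLiftOf (hr0 : ResData ρbar r0) (ρ : MatRep A)
    (h : IsLiftOf r0 ρ.hom) :
    ρ.toRep.residual.IsEquiv
      (ρbar.baseChangeAlong (IsLocalRing.ResidueField.map (algebraMap 𝒪 A))) := by
  obtain ⟨bbar, hbbar⟩ := hr0
  refine (dy_residual_isEquiv_iff ρbar bbar _ ρ.toRep).mpr ⟨dy_stdBasis ρ, fun σ i j => ?_⟩
  have h1 : LinearMap.toMatrix (dy_stdBasis ρ) (dy_stdBasis ρ) (ρ.toRep.ρ σ) = ρ.hom σ := by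
    have := congrArg (fun ρ' : MatRep A => ρ'.hom σ) (dy_ofBasis_stdBasis ρ)
    exact this
  have h2 := h σ i j
  rw [Matrix.sub_apply, Matrix.map_apply, ← IsLocalRing.residue_eq_zero_iff, map_sub,
    sub_eq_zero] at h2
  rw [h1, h2, ← hbbar σ i j, IsLocalRing.ResidueField.map_residue]

omit [IsLocalHom (algebraMap 𝒪 A)] in
theorem exists_matRep_rhobar (hr0 : ResData ρbar r0) :
    ∃ ρ1 : MatRep (ResidueField 𝒪),
      (∀ σ, ρ1.hom σ = (r0 σ).map (algebraMap 𝒪 (ResidueField 𝒪))) ∧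
      (GaloisRepAdic.ofResidualGaloisRep ρbar).IsEquiv ρ1.toRep := by
  obtain ⟨bbar, hbbar⟩ := hr0
  let b : Module.Basis (Fin 2) (ResidueField 𝒪) (GaloisRepAdic.ofResidualGaloisRep ρbar).V :=
    bbar
  refine ⟨dy_ofBasis (GaloisRepAdic.ofResidualGaloisRep ρbar) b, fun σ => ?_,
    dy_isEquiv_ofBasis _ b⟩
  ext i j
  rw [Matrix.map_apply, dy_ofBasis_hom_apply]
  exact (hbbar σ i j).symm

end Residual

end Fermat.Agent.S53
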