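import Fermat.Agent.S53.Defs

set_option autoImplicit false

namespace Fermat.Agent.S53

/-- The coordinate family `x` consists of the entries of a normalized lift of type `𝒟`. -/
def NLiftFam {𝒪 : Type} [CommRing 𝒪] [IsLocalRing 𝒪]
    (𝒟 : ∀ ⦃A : Type⦄ [CommRing A] [IsLocalRing A] [Algebra 𝒪 A], GaloisRepAdic A → Prop)
    {r0 : GQ → M2 𝒪} (S : SliceData 𝒪 r0)
    {A : Type} [CommRing A] [IsLocalRing A] [Algebra 𝒪 A] (x : GQ × Fin 2 × Fin 2 → A) : Prop :=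
  ∃ ρ : MatRep A, (∀ σ i j, ρ.hom σ i j = x (σ, i, j)) ∧ IsNLift 𝒟 S ρ

end Fermat.Agent.S53
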