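import Fermat.Agent.S53.Defs

set_option autoImplicit false

namespace Fermat.Agent.S53

open IsLocalRing

section EntryIn

variable {A : Type} [CommRing A] {I J : Ideal A} {X Y : M2 A}

theorem EntryIn.add (hX : EntryIn I X) (hY : EntryIn I Y) : EntryIn I (X + Y) :=
  fun i j => I.add_mem (hX i j) (hY i j)

theorem EntryIn.sub (hX : EntryIn I X) (hY : EntryIn I Y) : EntryIn I (X - Y) :=
  fun i j => I.sub_mem (hX i j) (hY i j)

theorem EntryIn.neg (hX : EntryIn I X) : EntryIn I (-X) :=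
  fun i j => I.neg_mem (hX i j)

theorem EntryIn.zero : EntryIn I (0 : M2 A) := fun _ _ => I.zero_mem

theorem EntryIn.mono (h : I ≤ J) (hX : EntryIn I X) : EntryIn J X := fun i j => h (hX i j)

theorem EntryIn.mul_left (hX : EntryIn I X) (Y : M2 A) : EntryIn I (Y * X) := by
  intro i j
  rw [Matrix.mul_apply]
  exact I.sum_mem fun k _ => I.mul_mem_left _ (hX k j)

theorem EntryIn.mul_right (hX : EntryIn I X) (Y : M2 A) : EntryIn I (X * Y) := by
  intro i j
  rw [Matrix.mul_apply]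
  exact I.sum_mem fun k _ => I.mul_mem_right _ (hX i k)

theorem EntryIn.mul (hX : EntryIn I X) (hY : EntryIn J Y) : EntryIn (I * J) (X * Y) := by
  intro i j
  rw [Matrix.mul_apply]
  exact Ideal.sum_mem _ fun k _ => Ideal.mul_mem_mul (hX i k) (hY k j)

theorem EntryIn.smul (a : A) (hX : EntryIn I X) : EntryIn I (a • X) := by
  intro i j
  rw [Matrix.smul_apply, smul_eq_mul]
  exact I.mul_mem_left _ (hX i j)

theorem EntryIn.smul_of_mem {a : A} (ha : a ∈ I) (X : M2 A) : EntryIn I (a • X) := by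
  intro i j
  rw [Matrix.smul_apply, smul_eq_mul]
  exact I.mul_mem_right _ ha

theorem EntryIn.sum {ι : Type} (s : Finset ι) (f : ι → M2 A)
    (h : ∀ b ∈ s, EntryIn I (f b)) : EntryIn I (∑ b ∈ s, f b) := by
  intro i j
  rw [Matrix.sum_apply]
  exact I.sum_mem fun b hb => h b hb i j

theorem eq_zero_of_forall_mem_pow (I : Ideal A) [IsHausdorff I A] (x : A)
    (h : ∀ n, x ∈ I ^ n) : x = 0 := by
  apply IsHausdorff.haus (I := I) ‹_›
  intro n
  rw [SModEq.zero]
  simpa using h n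

theorem entryIn_eq_zero (I : Ideal A) [IsHausdorff I A] (X : M2 A)
    (h : ∀ n, EntryIn (I ^ n) X) : X = 0 := by
  ext i j
  exact eq_zero_of_forall_mem_pow I _ fun n => h n i j

end EntryIn

section Slice

variable {𝒪 : Type} [CommRing 𝒪] [IsLocalRing 𝒪]
variable {A : Type} [CommRing A] [IsLocalRing A] [Algebra 𝒪 A]
variable {r0 : GQ → M2 𝒪} (S : SliceData 𝒪 r0)

theorem slice_dualA (a b : Fin 3) :
    ((S.X b).map (algebraMap 𝒪 A) * (r0 (S.g a)).map (algebraMap 𝒪 A) -
      (r0 (S.g a)).map (algebraMap 𝒪 A) * (S.X b).map (algebraMap 𝒪 A)) (S.i a) (S.j a) =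
      if a = b then 1 else 0 := by
  have h := congrArg (algebraMap 𝒪 A) (S.dual a b)
  rw [apply_ite (algebraMap 𝒪 A), map_one, map_zero] at h
  rw [← h, ← Matrix.map_mul, ← Matrix.map_mul]
  simp only [Matrix.sub_apply, Matrix.map_apply, map_sub]

theorem slice_decompA (Y : M2 A) :
    Y = Y 0 0 • (1 : M2 A) +
      ∑ b, (Y * (r0 (S.g b)).map (algebraMap 𝒪 A) -
        (r0 (S.g b)).map (algebraMap 𝒪 A) * Y) (S.i b) (S.j b) • (S.X b).map (algebraMap 𝒪 A) := by
  let F : M2 A → M2 A := fun Y => Y 0 0 • (1 : M2 A) +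
      ∑ b, (Y * (r0 (S.g b)).map (algebraMap 𝒪 A) -
        (r0 (S.g b)).map (algebraMap 𝒪 A) * Y) (S.i b) (S.j b) • (S.X b).map (algebraMap 𝒪 A)
  have hadd : ∀ Y Z, F (Y + Z) = F Y + F Z := by
    intro Y Z
    simp only [F, Matrix.add_apply, add_smul, add_mul, mul_add, add_sub_add_comm,
      Finset.sum_add_distrib]
    abel
  have hsmul : ∀ (a : A) Y, F (a • Y) = a • F Y := by
    intro a Y
    simp only [F, Matrix.smul_apply, smul_eq_mul, Matrix.smul_mul, Matrix.mul_smul, ← smul_sub,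
      mul_smul, smul_add, Finset.smul_sum]
  have hbase : ∀ Y0 : M2 𝒪, F (Y0.map (algebraMap 𝒪 A)) = Y0.map (algebraMap 𝒪 A) := by
    intro Y0
    have h := congrArg (fun M : M2 𝒪 => M.map (algebraMap 𝒪 A)) (S.decomp Y0)
    conv_rhs => rw [h]
    ext k l
    simp only [F, Matrix.add_apply, Matrix.smul_apply, Matrix.sum_apply, Matrix.map_apply,
      map_add, map_sum, smul_eq_mul, map_mul, Matrix.sub_apply, map_sub, Matrix.mul_apply]
    congr 1
    by_cases hkl : k = l
    · subst hkl; simp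
    · simp [Matrix.one_apply_ne hkl]
  have hsingle : ∀ i j (a : A), F (Matrix.single i j a) = Matrix.single i j a := by
    intro i j a
    have h1 : Matrix.single i j a = a • (Matrix.single i j (1 : 𝒪)).map (algebraMap 𝒪 A) := by
      rw [Matrix.map_single, map_one, Matrix.smul_single, smul_eq_mul, mul_one]
    rw [h1, hsmul, hbase]
  let Fh : M2 A →+ M2 A := AddMonoidHom.mk' F hadd
  have hF : ∀ Y, Fh Y = F Y := fun _ => rfl
  have key : Fh Y = Y := by
    conv_lhs => rw [Matrix.matrix_eq_sum_single Y]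
    rw [map_sum]
    simp_rw [map_sum, hF, hsingle]
    exact (Matrix.matrix_eq_sum_single Y).symm
  exact key.symm

theorem comm_congr {I : Ideal A} {P R Y : M2 A} (hl : EntryIn (maximalIdeal A) (P - R))
    (hY : EntryIn I Y) :
    EntryIn (I * maximalIdeal A) ((Y * P - P * Y) - (Y * R - R * Y)) := by
  have e : (Y * P - P * Y) - (Y * R - R * Y) = Y * (P - R) - (P - R) * Y := by noncomm_ring
  rw [e]
  refine (hY.mul hl).sub ?_
  have h := hl.mul hY
  rwa [mul_comm] at h

theorem isUnit_det_of_entryIn (u : M2 A) (h : EntryIn (maximalIdeal A) (u - 1)) :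
    IsUnit u.det := by
  rw [← IsLocalRing.notMem_maximalIdeal, Matrix.det_fin_two]
  intro hmem
  have h00 : u 0 0 - 1 ∈ maximalIdeal A := by simpa using h 0 0
  have h11 : u 1 1 - 1 ∈ maximalIdeal A := by simpa using h 1 1
  have h01 : u 0 1 ∈ maximalIdeal A := by simpa using h 0 1
  have h1 : (1 : A) ∈ maximalIdeal A := by
    have e : (1 : A) = (u 0 0 * u 1 1 - u 0 1 * u 1 0) - (u 0 0 - 1) * u 1 1 - (u 1 1 - 1)
        + u 0 1 * u 1 0 := by ring
    rw [e]
    exact Ideal.add_mem _ (Ideal.sub_mem _ (Ideal.sub_mem _ hmem (Ideal.mul_mem_right _ _ h00))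
      h11) (Ideal.mul_mem_right _ _ h01)
  exact (Ideal.ne_top_iff_one _).mp (IsLocalRing.maximalIdeal.isMaximal A).ne_top h1

theorem slice_unique [IsHausdorff (maximalIdeal A) A]
    (ρ ρ' : GQ → M2 A) (hρ : IsLiftOf r0 ρ) (hρ' : IsLiftOf r0 ρ')
    (nρ : IsNormalized S ρ) (nρ' : IsNormalized S ρ')
    (g : M2 A) (hg : IsUnit g) (hconj : ∀ σ, g * ρ σ = ρ' σ * g) : ρ = ρ' := by
  obtain ⟨c, hc⟩ : ∃ c : A, c = g 0 0 := ⟨_, rfl⟩
  have h0 : EntryIn (maximalIdeal A) (g - c • (1 : M2 A)) := by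
    have hd := slice_decompA S g
    have e : g - c • (1 : M2 A) = ∑ b, (g * (r0 (S.g b)).map (algebraMap 𝒪 A) -
        (r0 (S.g b)).map (algebraMap 𝒪 A) * g) (S.i b) (S.j b) •
          (S.X b).map (algebraMap 𝒪 A) := by
      rw [hc]
      exact sub_eq_of_eq_add' hd
    rw [e]
    refine EntryIn.sum _ _ fun b _ => EntryIn.smul_of_mem ?_ _
    have e2 : g * (r0 (S.g b)).map (algebraMap 𝒪 A) - (r0 (S.g b)).map (algebraMap 𝒪 A) * g =
        (ρ' (S.g b) - (r0 (S.g b)).map (algebraMap 𝒪 A)) * g -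
          g * (ρ (S.g b) - (r0 (S.g b)).map (algebraMap 𝒪 A)) := by
      linear_combination (norm := noncomm_ring) hconj (S.g b)
    rw [e2]
    exact (((hρ' (S.g b)).mul_right g).sub ((hρ (S.g b)).mul_left g)) _ _
  have hdet : IsUnit g.det := (Matrix.isUnit_iff_isUnit_det g).mp hg
  have hcu : IsUnit c := by
    rw [← IsLocalRing.notMem_maximalIdeal]
    intro hmem
    apply (IsLocalRing.notMem_maximalIdeal.mpr hdet)
    rw [Matrix.det_fin_two, ← hc]
    have h01 : g 0 1 ∈ maximalIdeal A := by simpa using h0 0 1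
    exact Ideal.sub_mem _ (Ideal.mul_mem_right _ _ hmem) (Ideal.mul_mem_right _ _ h01)
  obtain ⟨u, hu⟩ := hcu
  obtain ⟨Y, hY⟩ : ∃ Y : M2 A, Y = g - c • (1 : M2 A) := ⟨_, rfl⟩
  have hY00 : Y 0 0 = 0 := by simp [hY, hc]
  have eq1 : ∀ σ, c • (ρ' σ - ρ σ) = Y * ρ σ - ρ' σ * Y := by
    intro σ
    have h := hconj σ
    rw [hY]
    simp only [sub_mul, mul_sub, Matrix.smul_mul, Matrix.mul_smul, one_mul, mul_one, smul_sub]
    rw [h]
    abel
  have hind : ∀ n : ℕ, EntryIn (maximalIdeal A ^ (n + 1)) Y := by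
    intro n
    induction n with
    | zero => rw [hY]; simpa using h0
    | succ n ih =>
      have hD : ∀ σ, EntryIn (maximalIdeal A ^ (n + 1)) (ρ' σ - ρ σ) := by
        intro σ
        have h1 : EntryIn (maximalIdeal A ^ (n + 1)) (c • (ρ' σ - ρ σ)) := by
          rw [eq1]
          exact (ih.mul_right _).sub (ih.mul_left _)
        have e : ρ' σ - ρ σ = (↑u⁻¹ : A) • (c • (ρ' σ - ρ σ)) := by
          rw [smul_smul, ← hu, Units.inv_mul, one_smul]
        rw [e]
        exact h1.smul _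
      have hcoord : ∀ a, (Y * (r0 (S.g a)).map (algebraMap 𝒪 A) -
          (r0 (S.g a)).map (algebraMap 𝒪 A) * Y) (S.i a) (S.j a) ∈
            maximalIdeal A ^ (n + 1 + 1) := by
        intro a
        have e1 := congrFun (congrFun (eq1 (S.g a)) (S.i a)) (S.j a)
        have hz : (c • (ρ' (S.g a) - ρ (S.g a))) (S.i a) (S.j a) = 0 := by
          rw [Matrix.smul_apply, Matrix.sub_apply, nρ a, nρ' a, sub_self, smul_zero]
        rw [hz] at e1
        have e2 : Y * ρ (S.g a) - ρ (S.g a) * Y =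
            (Y * ρ (S.g a) - ρ' (S.g a) * Y) + (ρ' (S.g a) - ρ (S.g a)) * Y := by noncomm_ring
        have h3 : (Y * ρ (S.g a) - ρ (S.g a) * Y) (S.i a) (S.j a) ∈
            maximalIdeal A ^ (n + 1 + 1) := by
          rw [e2, Matrix.add_apply, ← e1, zero_add]
          have h := ((hD (S.g a)).mul ih) (S.i a) (S.j a)
          rw [← pow_add] at h
          exact Ideal.pow_le_pow_right (by omega) h
        have h4 := comm_congr (hρ (S.g a)) ih (S.i a) (S.j a)
        rw [← pow_succ] at h4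
        have e3 : (Y * (r0 (S.g a)).map (algebraMap 𝒪 A) -
            (r0 (S.g a)).map (algebraMap 𝒪 A) * Y) (S.i a) (S.j a) =
            (Y * ρ (S.g a) - ρ (S.g a) * Y) (S.i a) (S.j a) -
            ((Y * ρ (S.g a) - ρ (S.g a) * Y) - (Y * (r0 (S.g a)).map (algebraMap 𝒪 A) -
              (r0 (S.g a)).map (algebraMap 𝒪 A) * Y)) (S.i a) (S.j a) := by
          simp only [Matrix.sub_apply]
          ring
        rw [e3]
        exact Ideal.sub_mem _ h3 h4
      have hd := slice_decompA S Y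
      rw [hY00, zero_smul, zero_add] at hd
      rw [hd]
      exact EntryIn.sum _ _ fun b _ => EntryIn.smul_of_mem (hcoord b) _
  have hY0 : Y = 0 := entryIn_eq_zero (maximalIdeal A) _ (fun n => by
    rcases n with _ | n
    · intro i j
      simp
    · exact hind n)
  funext σ
  have h := eq1 σ
  rw [hY0, zero_mul, mul_zero, sub_zero] at h
  have h2 := congrArg (fun M : M2 A => (↑u⁻¹ : A) • M) h
  simp only [smul_smul, ← hu, Units.inv_mul, one_smul, smul_zero] at h2
  exact (sub_eq_zero.mp h2).symm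

/-- The defect of the conjugate of `ρ` by `g` at the slice coordinates. -/
noncomputable def sliceDefect (ρ : GQ → M2 A) (g : M2 A) (a : Fin 3) : A :=
  algebraMap 𝒪 A (r0 (S.g a) (S.i a) (S.j a)) - (g * ρ (S.g a) * g⁻¹) (S.i a) (S.j a)

/-- One step of the successive approximation. -/
noncomputable def sliceStep (ρ : GQ → M2 A) (g : M2 A) : M2 A :=
  (1 + ∑ b, sliceDefect S ρ g b • (S.X b).map (algebraMap 𝒪 A)) * g

theorem conj_sub_entryIn (ρσ : M2 A) (g : M2 A) (hg : EntryIn (maximalIdeal A) (g - 1)) :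
    EntryIn (maximalIdeal A) (g * ρσ * g⁻¹ - ρσ) := by
  have hdet := isUnit_det_of_entryIn g hg
  have e : g * ρσ * g⁻¹ - ρσ = (g * ρσ * g⁻¹) * (1 - g) + (g - 1) * ρσ := by
    have h1 : g * ρσ * g⁻¹ * g = g * ρσ := by
      rw [mul_assoc, Matrix.nonsing_inv_mul _ hdet, mul_one]
    linear_combination (norm := noncomm_ring) h1
  rw [e]
  refine EntryIn.add ?_ (hg.mul_right _)
  have h2 : (1 : M2 A) - g = -(g - 1) := by abel
  rw [h2]
  exact (hg.neg).mul_left _

theorem sliceStep_spec (ρ : GQ → M2 A) (hρ : IsLiftOf r0 ρ) (g : M2 A) (n : ℕ)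
    (hg : EntryIn (maximalIdeal A) (g - 1))
    (hd : ∀ a, sliceDefect S ρ g a ∈ maximalIdeal A ^ (n + 1)) :
    EntryIn (maximalIdeal A) (sliceStep S ρ g - 1) ∧
    EntryIn (maximalIdeal A ^ (n + 1)) (sliceStep S ρ g - g) ∧
    ∀ a, sliceDefect S ρ (sliceStep S ρ g) a ∈ maximalIdeal A ^ (n + 1 + 1) := by
  obtain ⟨X, hX⟩ : ∃ X : M2 A, X = ∑ b, sliceDefect S ρ g b • (S.X b).map (algebraMap 𝒪 A) :=
    ⟨_, rfl⟩
  have hXin : EntryIn (maximalIdeal A ^ (n + 1)) X := by
    rw [hX]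
    exact EntryIn.sum _ _ fun b _ => EntryIn.smul_of_mem (hd b) _
  have hXm : EntryIn (maximalIdeal A) X :=
    hXin.mono (Ideal.pow_le_self (by omega))
  have hstep : sliceStep S ρ g = (1 + X) * g := by rw [sliceStep, hX]
  have hdiff : sliceStep S ρ g - g = X * g := by rw [hstep]; noncomm_ring
  have h1 : EntryIn (maximalIdeal A) (sliceStep S ρ g - 1) := by
    have e : sliceStep S ρ g - 1 = (g - 1) + X * g := by rw [hstep]; noncomm_ring
    rw [e]
    exact hg.add (hXm.mul_right _)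
  refine ⟨h1, by rw [hdiff]; exact hXin.mul_right _, fun a => ?_⟩
  have hdetg := isUnit_det_of_entryIn g hg
  have hu1 : EntryIn (maximalIdeal A) ((1 + X) - 1) := by
    have e : (1 + X) - 1 = X := by abel
    rw [e]; exact hXm
  have hdetu := isUnit_det_of_entryIn (1 + X) hu1
  obtain ⟨C, hC⟩ : ∃ C : M2 A, C = g * ρ (S.g a) * g⁻¹ := ⟨_, rfl⟩
  obtain ⟨C', hC'⟩ : ∃ C' : M2 A, C' = sliceStep S ρ g * ρ (S.g a) * (sliceStep S ρ g)⁻¹ :=
    ⟨_, rfl⟩
  have hCC' : C' * (1 + X) = (1 + X) * C := by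
    rw [hC', hC, hstep, Matrix.mul_inv_rev]
    have h2 : (1 + X) * g * ρ (S.g a) * (g⁻¹ * (1 + X)⁻¹) * (1 + X) =
        (1 + X) * g * ρ (S.g a) * g⁻¹ * ((1 + X)⁻¹ * (1 + X)) := by noncomm_ring
    rw [h2, Matrix.nonsing_inv_mul _ hdetu]
    noncomm_ring
  have e1 : C' - C = X * C - C' * X := by
    linear_combination (norm := noncomm_ring) hCC'
  have hD : EntryIn (maximalIdeal A ^ (n + 1)) (C' - C) := by
    rw [e1]
    exact (hXin.mul_right _).sub (hXin.mul_left _)
  have e2 : C' - C = (X * C - C * X) - (C' - C) * X := by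
    linear_combination (norm := noncomm_ring) hCC'
  have hCl : EntryIn (maximalIdeal A) (C - (r0 (S.g a)).map (algebraMap 𝒪 A)) := by
    have e : C - (r0 (S.g a)).map (algebraMap 𝒪 A) =
        (C - ρ (S.g a)) + (ρ (S.g a) - (r0 (S.g a)).map (algebraMap 𝒪 A)) := by abel
    rw [e, hC]
    exact (conj_sub_entryIn _ g hg).add (hρ (S.g a))
  have h4 := comm_congr hCl hXin (S.i a) (S.j a)
  rw [← pow_succ] at h4
  have h5 : ((C' - C) * X) (S.i a) (S.j a) ∈ maximalIdeal A ^ (n + 1 + 1) := by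
    have h := (hD.mul hXin) (S.i a) (S.j a)
    rw [← pow_add] at h
    exact Ideal.pow_le_pow_right (by omega) h
  have h6 : (X * (r0 (S.g a)).map (algebraMap 𝒪 A) -
      (r0 (S.g a)).map (algebraMap 𝒪 A) * X) (S.i a) (S.j a) = sliceDefect S ρ g a := by
    rw [hX, Finset.sum_mul, Finset.mul_sum, ← Finset.sum_sub_distrib]
    simp only [Matrix.smul_mul, Matrix.mul_smul, ← smul_sub, Matrix.sum_apply, Matrix.smul_apply,
      slice_dualA, smul_eq_mul, mul_ite, mul_one, mul_zero, Finset.sum_ite_eq, Finset.mem_univ,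
      if_true]
  have h7 : sliceDefect S ρ (sliceStep S ρ g) a =
      -((X * C - C * X) - (X * (r0 (S.g a)).map (algebraMap 𝒪 A) -
        (r0 (S.g a)).map (algebraMap 𝒪 A) * X)) (S.i a) (S.j a)
      + ((C' - C) * X) (S.i a) (S.j a) := by
    have e3 := congrFun (congrFun e2 (S.i a)) (S.j a)
    have e4 : sliceDefect S ρ g a =
        algebraMap 𝒪 A (r0 (S.g a) (S.i a) (S.j a)) - C (S.i a) (S.j a) := by
      rw [sliceDefect, hC]
    have e5 : sliceDefect S ρ (sliceStep S ρ g) a =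
        algebraMap 𝒪 A (r0 (S.g a) (S.i a) (S.j a)) - C' (S.i a) (S.j a) := by
      rw [sliceDefect, hC']
    simp only [Matrix.sub_apply] at e3 h6 ⊢
    rw [e5]
    linear_combination -e3 - e4 - h6
  rw [h7]
  exact Ideal.add_mem _ (neg_mem h4) h5

theorem mul_mul_inv_cancel (P g : M2 A) (h : IsUnit g.det) : P * g * g⁻¹ = P := by
  rw [mul_assoc, Matrix.mul_nonsing_inv _ h, mul_one]

theorem smodEq_of_succ {I : Ideal A} (f : ℕ → A) (h : ∀ n, f (n + 1) - f n ∈ I ^ n) :
    ∀ {m n : ℕ}, m ≤ n → f m ≡ f n [SMOD (I ^ m • ⊤ : Submodule A A)] := by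
  intro m n hmn
  rw [SModEq.sub_mem]
  induction n, hmn using Nat.le_induction with
  | base => simp
  | succ k hk ih =>
    have e : f m - f (k + 1) = (f m - f k) - (f (k + 1) - f k) := by ring
    rw [e]
    refine Submodule.sub_mem _ ih ?_
    have h2 := Ideal.pow_le_pow_right hk (h k)
    simpa using h2

theorem exists_limit [IsPrecomplete (maximalIdeal A) A] (gs : ℕ → M2 A)
    (h : ∀ n, EntryIn (maximalIdeal A ^ n) (gs (n + 1) - gs n)) :
    ∃ G : M2 A, ∀ n, EntryIn (maximalIdeal A ^ n) (gs n - G) := by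
  have key : ∀ i j, ∃ L : A, ∀ n, gs n i j - L ∈ maximalIdeal A ^ n := by
    intro i j
    obtain ⟨L, hL⟩ := IsPrecomplete.prec ‹_› (f := fun n => gs n i j)
      (fun {m n} hmn => smodEq_of_succ (I := maximalIdeal A) (fun n => gs n i j)
        (fun n => h n i j) hmn)
    refine ⟨L, fun n => ?_⟩
    have h2 := hL n
    rw [SModEq.sub_mem] at h2
    simpa using h2
  choose L hL using key
  exact ⟨Matrix.of L, fun n i j => hL i j n⟩

theorem slice_exists [IsAdicComplete (maximalIdeal A) A]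
    (ρ : MatRep A) (hρ : IsLiftOf r0 ρ.hom) :
    ∃ (ρ' : MatRep A) (g : M2 A), IsUnit g ∧ IsLiftOf r0 ρ'.hom ∧ IsNormalized S ρ'.hom ∧
      ∀ σ, g * ρ.hom σ = ρ'.hom σ * g := by
  let gs : ℕ → M2 A := fun n => (sliceStep S ρ.hom)^[n] 1
  have hgs0 : gs 0 = 1 := rfl
  have hgsS : ∀ n, gs (n + 1) = sliceStep S ρ.hom (gs n) :=
    fun n => Function.iterate_succ_apply' _ _ _
  have inv : ∀ n, EntryIn (maximalIdeal A) (gs n - 1) ∧
      ∀ a, sliceDefect S ρ.hom (gs n) a ∈ maximalIdeal A ^ (n + 1) := by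
    intro n
    induction n with
    | zero =>
      refine ⟨by rw [hgs0, sub_self]; exact EntryIn.zero, fun a => ?_⟩
      rw [hgs0, sliceDefect, inv_one, mul_one, one_mul, pow_one]
      have h := hρ (S.g a) (S.i a) (S.j a)
      rw [Matrix.sub_apply, Matrix.map_apply] at h
      have e : algebraMap 𝒪 A (r0 (S.g a) (S.i a) (S.j a)) - ρ.hom (S.g a) (S.i a) (S.j a) =
          -(ρ.hom (S.g a) (S.i a) (S.j a) - algebraMap 𝒪 A (r0 (S.g a) (S.i a) (S.j a))) := by
        ring
      rw [e]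
      exact neg_mem h
    | succ n ih =>
      obtain ⟨h1, _, h3⟩ := sliceStep_spec S ρ.hom hρ (gs n) n ih.1 ih.2
      rw [hgsS]
      exact ⟨h1, h3⟩
  have hdiff : ∀ n, EntryIn (maximalIdeal A ^ n) (gs (n + 1) - gs n) := by
    intro n
    obtain ⟨_, h2, _⟩ := sliceStep_spec S ρ.hom hρ (gs n) n (inv n).1 (inv n).2
    rw [hgsS]
    exact h2.mono (Ideal.pow_le_pow_right (by omega))
  obtain ⟨G, hG⟩ := exists_limit gs hdiff
  have hG1 : EntryIn (maximalIdeal A) (G - 1) := by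
    have e : G - 1 = (gs 1 - 1) - (gs 1 - G) := by abel
    rw [e]
    have h := hG 1
    rw [pow_one] at h
    exact ((inv 1).1).sub h
  have hdetG := isUnit_det_of_entryIn G hG1
  let ρ' : MatRep A :=
    { hom :=
        { toFun := fun σ => G * ρ.hom σ * G⁻¹
          map_one' := by rw [map_one, mul_one, Matrix.mul_nonsing_inv _ hdetG]
          map_mul' := fun a b => by
            rw [map_mul]
            have e : G * ρ.hom a * G⁻¹ * (G * ρ.hom b * G⁻¹) =
                G * ρ.hom a * (G⁻¹ * G) * ρ.hom b * G⁻¹ := by noncomm_ring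
            rw [e, Matrix.nonsing_inv_mul _ hdetG]
            noncomm_ring }
      cont := by
        intro n
        obtain ⟨L, hL, h⟩ := ρ.cont n
        refine ⟨L, hL, fun σ hσ => ?_⟩
        have e : G * ρ.hom σ * G⁻¹ - 1 = G * (ρ.hom σ - 1) * G⁻¹ := by
          rw [mul_sub, sub_mul, mul_one, Matrix.mul_nonsing_inv _ hdetG]
        change EntryIn _ (G * ρ.hom σ * G⁻¹ - 1)
        rw [e]
        exact ((h σ hσ).mul_left _).mul_right _ }
  have hρ'σ : ∀ σ, ρ'.hom σ = G * ρ.hom σ * G⁻¹ := fun _ => rfl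
  refine ⟨ρ', G, (Matrix.isUnit_iff_isUnit_det G).mpr hdetG, ?_, ?_, ?_⟩
  · intro σ
    rw [hρ'σ]
    have e : G * ρ.hom σ * G⁻¹ - (r0 σ).map (algebraMap 𝒪 A) =
        (G * ρ.hom σ * G⁻¹ - ρ.hom σ) + (ρ.hom σ - (r0 σ).map (algebraMap 𝒪 A)) := by abel
    rw [e]
    exact (conj_sub_entryIn _ G hG1).add (hρ σ)
  · intro a
    have hz : sliceDefect S ρ.hom G a = 0 := by
      apply eq_zero_of_forall_mem_pow (maximalIdeal A)
      intro n
      have hdetn := isUnit_det_of_entryIn (gs n) (inv n).1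
      obtain ⟨E, hE⟩ : ∃ E : M2 A, E = G - gs n := ⟨_, rfl⟩
      have hEin : EntryIn (maximalIdeal A ^ n) E := by
        have e : E = -(gs n - G) := by rw [hE]; abel
        rw [e]
        exact (hG n).neg
      have h1 : G * ρ.hom (S.g a) * G⁻¹ * G = G * ρ.hom (S.g a) := by
        rw [mul_assoc, Matrix.nonsing_inv_mul _ hdetG, mul_one]
      have h2 : gs n * ρ.hom (S.g a) * (gs n)⁻¹ * gs n = gs n * ρ.hom (S.g a) := by
        rw [mul_assoc, Matrix.nonsing_inv_mul _ hdetn, mul_one]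
      have h3 : (G * ρ.hom (S.g a) * G⁻¹ - gs n * ρ.hom (S.g a) * (gs n)⁻¹) * gs n =
          E * ρ.hom (S.g a) - G * ρ.hom (S.g a) * G⁻¹ * E := by
        rw [hE]
        linear_combination (norm := noncomm_ring) h1 - h2
      have h4 : G * ρ.hom (S.g a) * G⁻¹ - gs n * ρ.hom (S.g a) * (gs n)⁻¹ =
          (E * ρ.hom (S.g a) - G * ρ.hom (S.g a) * G⁻¹ * E) * (gs n)⁻¹ := by
        rw [← h3, mul_mul_inv_cancel _ _ hdetn]
      have h5 : EntryIn (maximalIdeal A ^ n)
          (G * ρ.hom (S.g a) * G⁻¹ - gs n * ρ.hom (S.g a) * (gs n)⁻¹) := by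
        rw [h4]
        exact ((hEin.mul_right _).sub (hEin.mul_left _)).mul_right _
      have h6 : sliceDefect S ρ.hom G a = sliceDefect S ρ.hom (gs n) a -
          (G * ρ.hom (S.g a) * G⁻¹ - gs n * ρ.hom (S.g a) * (gs n)⁻¹) (S.i a) (S.j a) := by
        simp only [sliceDefect, Matrix.sub_apply]
        ring
      rw [h6]
      exact Ideal.sub_mem _ (Ideal.pow_le_pow_right (by omega) ((inv n).2 a)) (h5 _ _)
    rw [hρ'σ]
    rw [sliceDefect, sub_eq_zero] at hz
    exact hz.symm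
  · intro σ
    rw [hρ'σ, mul_assoc, mul_assoc, Matrix.nonsing_inv_mul _ hdetG, mul_one]

end Slice

end Fermat.Agent.S53
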