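import Mathlib
import Fermat.Prelude.Def_GaloisRep_DeformationCondition

set_option autoImplicit false

namespace Fermat.Agent.S53.TA

open IsLocalRing

section ToRes

variable {𝒪 A : Type} [CommRing 𝒪] [IsLocalRing 𝒪] [CommRing A] [IsLocalRing A] [Algebra 𝒪 A]

/-- The comparison `k → A/m_A` is bijective when `𝒪 → A/m_A` is onto. -/
theorem residueFieldMap_bijective (hloc : IsLocalHom (algebraMap 𝒪 A))
    (hsurj : Function.Surjective (IsLocalRing.residue A ∘ algebraMap 𝒪 A)) :
    Function.Bijective (haveI := hloc; ResidueField.map (algebraMap 𝒪 A)) := by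
  have := hloc
  refine ⟨(ResidueField.map (algebraMap 𝒪 A)).injective, fun y => ?_⟩
  obtain ⟨c, hc⟩ := hsurj y
  exact ⟨IsLocalRing.residue 𝒪 c, by rw [ResidueField.map_residue]; exact hc⟩

/-- The canonical `𝒪`-algebra map from a local `𝒪`-algebra with residue field `k` onto `k`. -/
noncomputable def toRes (hloc : IsLocalHom (algebraMap 𝒪 A))
    (hsurj : Function.Surjective (IsLocalRing.residue A ∘ algebraMap 𝒪 A)) :
    A →ₐ[𝒪] ResidueField 𝒪 :=
  haveI := hloc
  { toRingHom := ((RingEquiv.ofBijective (ResidueField.map (algebraMap 𝒪 A))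
        (residueFieldMap_bijective hloc hsurj)).symm : ResidueField A →+* ResidueField 𝒪).comp
        (IsLocalRing.residue A)
    commutes' := fun c => by
      show (RingEquiv.ofBijective (ResidueField.map (algebraMap 𝒪 A))
        (residueFieldMap_bijective hloc hsurj)).symm (IsLocalRing.residue A (algebraMap 𝒪 A c)) =
          algebraMap 𝒪 (ResidueField 𝒪) c
      rw [RingEquiv.symm_apply_eq]
      show IsLocalRing.residue A (algebraMap 𝒪 A c) =
        ResidueField.map (algebraMap 𝒪 A) (IsLocalRing.residue 𝒪 c)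
      rw [ResidueField.map_residue] }

variable (hloc : IsLocalHom (algebraMap 𝒪 A))
  (hsurj : Function.Surjective (IsLocalRing.residue A ∘ algebraMap 𝒪 A))

theorem residueFieldMap_toRes (a : A) :
    (haveI := hloc; ResidueField.map (algebraMap 𝒪 A)) (toRes hloc hsurj a) =
      IsLocalRing.residue A a := by
  have := hloc
  exact (RingEquiv.ofBijective (ResidueField.map (algebraMap 𝒪 A))
    (residueFieldMap_bijective hloc hsurj)).apply_symm_apply _

theorem toRes_eq_zero_iff (a : A) : toRes hloc hsurj a = 0 ↔ a ∈ maximalIdeal A := by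
  have := hloc
  rw [← IsLocalRing.residue_eq_zero_iff, ← residueFieldMap_toRes hloc hsurj a]
  exact (map_eq_zero_iff _ (ResidueField.map (algebraMap 𝒪 A)).injective).symm

theorem toRes_algebraMap (c : 𝒪) :
    toRes hloc hsurj (algebraMap 𝒪 A c) = IsLocalRing.residue 𝒪 c :=
  (toRes hloc hsurj).commutes c

theorem toRes_surjective : Function.Surjective (toRes hloc hsurj) := fun y => by
  obtain ⟨c, rfl⟩ := IsLocalRing.residue_surjective y
  exact ⟨algebraMap 𝒪 A c, toRes_algebraMap hloc hsurj c⟩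

include hloc hsurj in
theorem exists_algebraMap_sub_mem (a : A) : ∃ c : 𝒪, a - algebraMap 𝒪 A c ∈ maximalIdeal A := by
  obtain ⟨c, hc⟩ := IsLocalRing.residue_surjective (toRes hloc hsurj a)
  refine ⟨c, ?_⟩
  rw [← toRes_eq_zero_iff hloc hsurj, map_sub, toRes_algebraMap, hc, sub_self]

theorem isLocalHom_toRes : IsLocalHom (toRes hloc hsurj : A →+* ResidueField 𝒪) := by
  constructor
  intro a ha
  by_contra hna
  have hmem : a ∈ maximalIdeal A := (IsLocalRing.mem_maximalIdeal a).mpr hna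
  have h0 : toRes hloc hsurj a = 0 := (toRes_eq_zero_iff hloc hsurj a).mpr hmem
  have ha' : IsUnit (toRes hloc hsurj a) := ha
  rw [h0] at ha'
  exact not_isUnit_zero ha'

theorem toRes_eq_iff (a b : A) :
    toRes hloc hsurj a = toRes hloc hsurj b ↔ a - b ∈ maximalIdeal A := by
  rw [← toRes_eq_zero_iff hloc hsurj, map_sub, sub_eq_zero]

/-- Any `𝒪`-algebra map to the residue field of `𝒪` is the canonical one. -/
theorem algHom_residueField_eq_toRes (φ : A →ₐ[𝒪] ResidueField 𝒪) : φ = toRes hloc hsurj := by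
  have hφsurj : Function.Surjective φ := fun y => by
    obtain ⟨c, rfl⟩ := IsLocalRing.residue_surjective y
    exact ⟨algebraMap 𝒪 A c, φ.commutes c⟩
  have hker : RingHom.ker (φ : A →+* ResidueField 𝒪) = maximalIdeal A :=
    IsLocalRing.eq_maximalIdeal (RingHom.ker_isMaximal_of_surjective _ hφsurj)
  ext a
  obtain ⟨c, hc⟩ := exists_algebraMap_sub_mem hloc hsurj a
  have h1 : φ (a - algebraMap 𝒪 A c) = 0 := by
    have : a - algebraMap 𝒪 A c ∈ RingHom.ker (φ : A →+* ResidueField 𝒪) := hker ▸ hc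
    exact this
  have h2 : toRes hloc hsurj (a - algebraMap 𝒪 A c) = 0 := (toRes_eq_zero_iff hloc hsurj _).mpr hc
  rw [map_sub, sub_eq_zero] at h1 h2
  rw [h1, h2, φ.commutes, (toRes hloc hsurj).commutes]

end ToRes


section Basic

variable {𝒪 : Type} [CommRing 𝒪] [IsLocalRing 𝒪]

/-- The residue field of `𝒪` is an Artinian test algebra. -/
theorem isArtinianTestAlgebra_residueField :
    GaloisRep.IsArtinianTestAlgebra 𝒪 (ResidueField 𝒪) where
  isLocalHom := by
    rw [ResidueField.algebraMap_eq]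
    infer_instance
  residue_surjective :=
    (IsLocalRing.residue_surjective (R := ResidueField 𝒪)).comp
      (by rw [ResidueField.algebraMap_eq]; exact IsLocalRing.residue_surjective)
  isArtinian := inferInstance

variable {A : Type} [CommRing A] [IsLocalRing A] [Algebra 𝒪 A]

omit [IsLocalRing 𝒪] in
theorem testAlg_exists_pow_eq_bot (hA : GaloisRep.IsArtinianTestAlgebra 𝒪 A) :
    ∃ n : ℕ, maximalIdeal A ^ n = ⊥ := by
  have := hA.isArtinian
  obtain ⟨n, hn⟩ := IsArtinianRing.isNilpotent_jacobson_bot (R := A)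
  rw [IsLocalRing.jacobson_eq_maximalIdeal _ bot_ne_top] at hn
  exact ⟨n, hn⟩

theorem testAlg_finite_residueField [Finite (ResidueField 𝒪)]
    (hA : GaloisRep.IsArtinianTestAlgebra 𝒪 A) : Finite (ResidueField A) := by
  have := hA.isLocalHom
  exact Finite.of_surjective _
    (residueFieldMap_bijective hA.isLocalHom hA.residue_surjective).2

theorem testAlg_finite [Finite (ResidueField 𝒪)]
    (hA : GaloisRep.IsArtinianTestAlgebra 𝒪 A) : Finite A := by
  have := hA.isArtinian
  have := testAlg_finite_residueField hA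
  obtain ⟨n, hn⟩ := testAlg_exists_pow_eq_bot hA
  have : Finite (A ⧸ (⊥ : Ideal A)) := IsLocalRing.finite_quotient_iff.mpr ⟨n, hn.le⟩
  exact Finite.of_equiv _ (RingEquiv.quotientBot A).toEquiv

omit [IsLocalRing 𝒪] in
/-- A local hom from any local ring into an Artinian test algebra kills a power of the
maximal ideal. -/
theorem testAlg_exists_pow_le_ker (hA : GaloisRep.IsArtinianTestAlgebra 𝒪 A)
    {B : Type} [CommRing B] [IsLocalRing B] (q : B →+* A) (hq : IsLocalHom q) :
    ∃ n : ℕ, maximalIdeal B ^ n ≤ RingHom.ker q := by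
  obtain ⟨n, hn⟩ := testAlg_exists_pow_eq_bot hA
  refine ⟨n, ?_⟩
  have h1 : (maximalIdeal B).map q ≤ maximalIdeal A :=
    Ideal.map_le_iff_le_comap.mpr fun b hb =>
      Ideal.mem_comap.mpr (haveI := hq; map_nonunit q b hb)
  have h2 : (maximalIdeal B ^ n).map q ≤ ⊥ := by
    rw [Ideal.map_pow, ← hn]
    exact Ideal.pow_right_mono h1 n
  intro x hx
  rw [RingHom.mem_ker]
  exact (Submodule.mem_bot A).mp (h2 (Ideal.mem_map_of_mem q hx))

end Basic


section FibProd

variable {𝒪 A B : Type} [CommRing 𝒪] [IsLocalRing 𝒪] [CommRing A] [IsLocalRing A] [Algebra 𝒪 A]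
  [CommRing B] [IsLocalRing B] [Algebra 𝒪 B]
  (hA : GaloisRep.IsArtinianTestAlgebra 𝒪 A) (hB : GaloisRep.IsArtinianTestAlgebra 𝒪 B)

/-- The fibre product `A ×_k B` over the residue field, as a subalgebra of `A × B`. -/
noncomputable def fibProd : Subalgebra 𝒪 (A × B) :=
  AlgHom.equalizer ((toRes hA.isLocalHom hA.residue_surjective).comp (AlgHom.fst 𝒪 A B))
    ((toRes hB.isLocalHom hB.residue_surjective).comp (AlgHom.snd 𝒪 A B))

theorem mem_fibProd_iff (x : A × B) : x ∈ fibProd hA hB ↔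
    toRes hA.isLocalHom hA.residue_surjective x.1 =
      toRes hB.isLocalHom hB.residue_surjective x.2 :=
  AlgHom.mem_equalizer _ _ x

/-- First projection of the fibre product. -/
noncomputable def fibProdFst : fibProd hA hB →ₐ[𝒪] A :=
  (AlgHom.fst 𝒪 A B).comp (fibProd hA hB).val

/-- Second projection of the fibre product. -/
noncomputable def fibProdSnd : fibProd hA hB →ₐ[𝒪] B :=
  (AlgHom.snd 𝒪 A B).comp (fibProd hA hB).val

@[simp] theorem fibProdFst_apply (x : fibProd hA hB) : fibProdFst hA hB x = (x : A × B).1 := rfl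

@[simp] theorem fibProdSnd_apply (x : fibProd hA hB) : fibProdSnd hA hB x = (x : A × B).2 := rfl

theorem fibProd_toRes_eq (x : fibProd hA hB) :
    toRes hA.isLocalHom hA.residue_surjective (x : A × B).1 =
      toRes hB.isLocalHom hB.residue_surjective (x : A × B).2 :=
  (mem_fibProd_iff hA hB x.1).mp x.2

theorem fibProd_isUnit_fst_iff_snd (x : fibProd hA hB) :
    IsUnit (x : A × B).1 ↔ IsUnit (x : A × B).2 := by
  have hx := fibProd_toRes_eq hA hB x
  have e1 := toRes_eq_zero_iff hA.isLocalHom hA.residue_surjective (x : A × B).1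
  have e2 := toRes_eq_zero_iff hB.isLocalHom hB.residue_surjective (x : A × B).2
  rw [IsLocalRing.mem_maximalIdeal, mem_nonunits_iff] at e1 e2
  rw [← not_iff_not, ← e1, ← e2, hx]

theorem fibProd_isUnit_iff (x : fibProd hA hB) : IsUnit x ↔ IsUnit (x : A × B).1 := by
  constructor
  · intro h
    exact h.map (fibProdFst hA hB)
  · intro h
    have h2 : IsUnit (x : A × B).2 := (fibProd_isUnit_fst_iff_snd hA hB x).mp h
    obtain ⟨u, hu⟩ := h
    obtain ⟨v, hv⟩ := h2
    have hx := fibProd_toRes_eq hA hB x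
    rw [← hu, ← hv] at hx
    have e1 : toRes hA.isLocalHom hA.residue_surjective (↑u⁻¹ : A) *
        toRes hA.isLocalHom hA.residue_surjective (u : A) = 1 := by
      rw [← map_mul, Units.inv_mul, map_one]
    have e2 : toRes hA.isLocalHom hA.residue_surjective (u : A) *
        toRes hB.isLocalHom hB.residue_surjective (↑v⁻¹ : B) = 1 := by
      rw [hx, ← map_mul, Units.mul_inv, map_one]
    have hmem : ((↑u⁻¹ : A), (↑v⁻¹ : B)) ∈ fibProd hA hB :=
      (mem_fibProd_iff hA hB _).mpr (left_inv_eq_right_inv e1 e2)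
    refine IsUnit.of_mul_eq_one (⟨_, hmem⟩ : fibProd hA hB) (Subtype.ext (Prod.ext ?_ ?_))
    · show (x : A × B).1 * (↑u⁻¹ : A) = 1
      rw [← hu, Units.mul_inv]
    · show (x : A × B).2 * (↑v⁻¹ : B) = 1
      rw [← hv, Units.mul_inv]

theorem isLocalHom_fibProdFst : IsLocalHom (fibProdFst hA hB : fibProd hA hB →+* A) :=
  ⟨fun x hx => (fibProd_isUnit_iff hA hB x).mpr hx⟩

theorem isLocalHom_fibProdSnd : IsLocalHom (fibProdSnd hA hB : fibProd hA hB →+* B) :=
  ⟨fun x hx => (fibProd_isUnit_iff hA hB x).mpr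
    ((fibProd_isUnit_fst_iff_snd hA hB x).mpr hx)⟩

noncomputable instance fibProd_isLocalRing : IsLocalRing (fibProd hA hB) :=
  haveI := isLocalHom_fibProdFst hA hB
  RingHom.domain_isLocalRing (fibProdFst hA hB : fibProd hA hB →+* A)

theorem fibProd_mem_maximalIdeal_iff (x : fibProd hA hB) :
    x ∈ maximalIdeal (fibProd hA hB) ↔ (x : A × B).1 ∈ maximalIdeal A := by
  rw [IsLocalRing.mem_maximalIdeal, IsLocalRing.mem_maximalIdeal, mem_nonunits_iff,
    mem_nonunits_iff, fibProd_isUnit_iff]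

theorem fibProd_mem_maximalIdeal_iff' (x : fibProd hA hB) :
    x ∈ maximalIdeal (fibProd hA hB) ↔ (x : A × B).2 ∈ maximalIdeal B := by
  rw [fibProd_mem_maximalIdeal_iff, IsLocalRing.mem_maximalIdeal, IsLocalRing.mem_maximalIdeal,
    mem_nonunits_iff, mem_nonunits_iff, fibProd_isUnit_fst_iff_snd]

theorem isArtinianTestAlgebra_fibProd [Finite (ResidueField 𝒪)] :
    GaloisRep.IsArtinianTestAlgebra 𝒪 (fibProd hA hB) where
  isLocalHom := ⟨fun c hc => by
    have h1 : IsUnit (algebraMap 𝒪 A c) := by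
      have := (fibProd_isUnit_iff hA hB _).mp hc
      exact this
    exact hA.isLocalHom.map_nonunit c h1⟩
  residue_surjective := fun y => by
    obtain ⟨x, rfl⟩ := IsLocalRing.residue_surjective y
    obtain ⟨c, hc⟩ := exists_algebraMap_sub_mem hA.isLocalHom hA.residue_surjective (x : A × B).1
    refine ⟨c, ?_⟩
    have hmem : x - algebraMap 𝒪 (fibProd hA hB) c ∈ maximalIdeal (fibProd hA hB) :=
      (fibProd_mem_maximalIdeal_iff hA hB _).mpr hc
    have h0 := (IsLocalRing.residue_eq_zero_iff _).mpr hmem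
    rw [map_sub, sub_eq_zero] at h0
    exact h0.symm
  isArtinian := by
    have := testAlg_finite hA
    have := testAlg_finite hB
    exact isArtinian_of_finite

/-- The map into the fibre product induced by two compatible maps. -/
noncomputable def fibProdLift {E : Type} [CommRing E] [Algebra 𝒪 E] (f : E →ₐ[𝒪] A)
    (g : E →ₐ[𝒪] B)
    (h : ∀ x, toRes hA.isLocalHom hA.residue_surjective (f x) =
      toRes hB.isLocalHom hB.residue_surjective (g x)) : E →ₐ[𝒪] fibProd hA hB :=
  AlgHom.codRestrict (f.prod g) (fibProd hA hB) fun x => (mem_fibProd_iff hA hB _).mpr (h x)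

@[simp] theorem fibProdFst_fibProdLift {E : Type} [CommRing E] [Algebra 𝒪 E] (f : E →ₐ[𝒪] A)
    (g : E →ₐ[𝒪] B)
    (h : ∀ x, toRes hA.isLocalHom hA.residue_surjective (f x) =
      toRes hB.isLocalHom hB.residue_surjective (g x)) (x : E) :
    fibProdFst hA hB (fibProdLift hA hB f g h x) = f x := rfl

@[simp] theorem fibProdSnd_fibProdLift {E : Type} [CommRing E] [Algebra 𝒪 E] (f : E →ₐ[𝒪] A)
    (g : E →ₐ[𝒪] B)
    (h : ∀ x, toRes hA.isLocalHom hA.residue_surjective (f x) =
      toRes hB.isLocalHom hB.residue_surjective (g x)) (x : E) :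
    fibProdSnd hA hB (fibProdLift hA hB f g h x) = g x := rfl

theorem fibProd_ext {x y : fibProd hA hB} (h1 : fibProdFst hA hB x = fibProdFst hA hB y)
    (h2 : fibProdSnd hA hB x = fibProdSnd hA hB y) : x = y :=
  Subtype.ext (Prod.ext h1 h2)

/-- The fibre product axiom of a deformation condition, specialised to `A ×_k B`. -/
theorem of_fibProd [Finite (ResidueField 𝒪)]
    {𝒟 : ∀ ⦃A : Type⦄ [CommRing A] [IsLocalRing A] [Algebra 𝒪 A], GaloisRepAdic A → Prop}
    (h𝒟 : GaloisRep.IsDeformationCondition 𝒪 𝒟) (ρ : GaloisRepAdic (fibProd hA hB))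
    (h1 : 𝒟 (ρ.baseChangeAlong (fibProdFst hA hB : fibProd hA hB →+* A)
      (isLocalHom_fibProdFst hA hB)))
    (h2 : 𝒟 (ρ.baseChangeAlong (fibProdSnd hA hB : fibProd hA hB →+* B)
      (isLocalHom_fibProdSnd hA hB))) : 𝒟 ρ :=
  h𝒟.of_fibreProduct hA hB isArtinianTestAlgebra_residueField (isArtinianTestAlgebra_fibProd hA hB)
    (toRes hA.isLocalHom hA.residue_surjective) (toRes hB.isLocalHom hB.residue_surjective)
    (fibProdFst hA hB) (fibProdSnd hA hB) (isLocalHom_fibProdFst hA hB)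
    (isLocalHom_fibProdSnd hA hB)
    (AlgHom.ext fun x => fibProd_toRes_eq hA hB x)
    (fun _ _ hxy => fibProd_ext hA hB (congrArg Prod.fst hxy) (congrArg Prod.snd hxy))
    (fun a b hab => ⟨⟨(a, b), (mem_fibProd_iff hA hB _).mpr hab⟩, rfl, rfl⟩) h1 h2

end FibProd


section AlgHom

variable {𝒪 A B : Type} [CommRing 𝒪] [IsLocalRing 𝒪] [CommRing A] [IsLocalRing A] [Algebra 𝒪 A]
  [CommRing B] [IsLocalRing B] [Algebra 𝒪 B]
  (hlocA : IsLocalHom (algebraMap 𝒪 A))
  (hsurjA : Function.Surjective (IsLocalRing.residue A ∘ algebraMap 𝒪 A))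
  (hlocB : IsLocalHom (algebraMap 𝒪 B))
  (hsurjB : Function.Surjective (IsLocalRing.residue B ∘ algebraMap 𝒪 B))

/-- `toRes` is compatible with every `𝒪`-algebra map. -/
theorem toRes_algHom_apply (f : A →ₐ[𝒪] B) (a : A) :
    toRes hlocB hsurjB (f a) = toRes hlocA hsurjA a :=
  congrArg (fun φ : A →ₐ[𝒪] ResidueField 𝒪 => φ a)
    (algHom_residueField_eq_toRes hlocA hsurjA ((toRes hlocB hsurjB).comp f))

include hlocA hsurjA hlocB hsurjB in
/-- Every `𝒪`-algebra map between local `𝒪`-algebras with residue field `k` is local. -/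
theorem isLocalHom_of_algHom (f : A →ₐ[𝒪] B) : IsLocalHom (f : A →+* B) := by
  constructor
  intro a ha
  by_contra hna
  have hmem : a ∈ maximalIdeal A := (IsLocalRing.mem_maximalIdeal a).mpr hna
  have h0 : toRes hlocB hsurjB (f a) = 0 := by
    rw [toRes_algHom_apply hlocA hsurjA hlocB hsurjB f a]
    exact (toRes_eq_zero_iff hlocA hsurjA a).mpr hmem
  have hmem' : f a ∈ maximalIdeal B := (toRes_eq_zero_iff hlocB hsurjB (f a)).mp h0
  exact (IsLocalRing.mem_maximalIdeal _).mp hmem' ha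

include hlocA hsurjA hlocB hsurjB in
/-- An `𝒪`-algebra map between such algebras maps the maximal ideal into the maximal ideal. -/
theorem algHom_mem_maximalIdeal_iff (f : A →ₐ[𝒪] B) (a : A) :
    f a ∈ maximalIdeal B ↔ a ∈ maximalIdeal A := by
  rw [← toRes_eq_zero_iff hlocB hsurjB, ← toRes_eq_zero_iff hlocA hsurjA,
    toRes_algHom_apply hlocA hsurjA hlocB hsurjB f a]

end AlgHom

section QuotPow

variable {𝒪 A : Type} [CommRing 𝒪] [IsLocalRing 𝒪] [CommRing A] [IsLocalRing A] [Algebra 𝒪 A]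

instance quotPow_nontrivial (n : ℕ) : Nontrivial (A ⧸ maximalIdeal A ^ (n + 1)) :=
  Ideal.Quotient.nontrivial_iff.mpr fun h =>
    (IsLocalRing.maximalIdeal.isMaximal A).ne_top
      (top_le_iff.mp (h ▸ Ideal.pow_le_self (Nat.succ_ne_zero n)))

instance quotPow_isLocalRing (n : ℕ) : IsLocalRing (A ⧸ maximalIdeal A ^ (n + 1)) :=
  IsLocalRing.of_surjective' (Ideal.Quotient.mk (maximalIdeal A ^ (n + 1)))
    Ideal.Quotient.mk_surjective

theorem isLocalHom_quotPow_mk (n : ℕ) :
    IsLocalHom (Ideal.Quotient.mk (maximalIdeal A ^ (n + 1))) :=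
  IsLocalHom.of_surjective _ Ideal.Quotient.mk_surjective

theorem quotPow_maximalIdeal_pow_eq_bot (n : ℕ) :
    maximalIdeal (A ⧸ maximalIdeal A ^ (n + 1)) ^ (n + 1) = ⊥ := by
  have hle : maximalIdeal (A ⧸ maximalIdeal A ^ (n + 1)) ≤
      (maximalIdeal A).map (Ideal.Quotient.mk (maximalIdeal A ^ (n + 1))) := by
    intro y hy
    obtain ⟨a, rfl⟩ := Ideal.Quotient.mk_surjective y
    refine Ideal.mem_map_of_mem _ ((IsLocalRing.mem_maximalIdeal a).mpr fun ha => ?_)
    exact (IsLocalRing.mem_maximalIdeal _).mp hy (ha.map _)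
  refine le_bot_iff.mp ((Ideal.pow_right_mono hle (n + 1)).trans ?_)
  rw [← Ideal.map_pow, Ideal.map_quotient_self]

theorem isArtinianTestAlgebra_quotPow [IsNoetherianRing A] (hloc : IsLocalHom (algebraMap 𝒪 A))
    (hsurj : Function.Surjective (IsLocalRing.residue A ∘ algebraMap 𝒪 A)) (n : ℕ) :
    GaloisRep.IsArtinianTestAlgebra 𝒪 (A ⧸ maximalIdeal A ^ (n + 1)) where
  isLocalHom := ⟨fun c hc => by
    have h1 : IsUnit (algebraMap 𝒪 A c) :=
      (isLocalHom_quotPow_mk (A := A) n).map_nonunit _ hc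
    exact hloc.map_nonunit c h1⟩
  residue_surjective := fun y => by
    obtain ⟨x, rfl⟩ := IsLocalRing.residue_surjective y
    obtain ⟨a, rfl⟩ := Ideal.Quotient.mk_surjective x
    obtain ⟨c, hc⟩ := exists_algebraMap_sub_mem hloc hsurj a
    refine ⟨c, ?_⟩
    have hmem : Ideal.Quotient.mk (maximalIdeal A ^ (n + 1)) (a - algebraMap 𝒪 A c) ∈
        maximalIdeal (A ⧸ maximalIdeal A ^ (n + 1)) :=
      (IsLocalRing.mem_maximalIdeal _).mpr fun hu =>
        (IsLocalRing.mem_maximalIdeal _).mp hc ((isLocalHom_quotPow_mk (A := A) n).map_nonunit _ hu)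
    have h0 := (IsLocalRing.residue_eq_zero_iff _).mpr hmem
    rw [map_sub, map_sub, sub_eq_zero] at h0
    exact h0.symm
  isArtinian :=
    (isArtinianRing_iff_isNilpotent_maximalIdeal _).mpr
      ⟨n + 1, quotPow_maximalIdeal_pow_eq_bot n⟩

end QuotPow

end Fermat.Agent.S53.TA
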