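import Fermat.Agent.S53.Defs
import Fermat.Agent.S53.NLiftFam
import Fermat.Agent.S53.Dictionary
import Fermat.Agent.S53.SliceLemma
import Fermat.Agent.S53.TestAlg

set_option autoImplicit false

noncomputable section

namespace Fermat.Agent.S53

open IsLocalRing

section Helpers

theorem final_isEquiv_symm {A : Type} [CommRing A] [IsLocalRing A] {ρ₁ ρ₂ : GaloisRepAdic A}
    (h : ρ₁.IsEquiv ρ₂) : ρ₂.IsEquiv ρ₁ :=
  h.elim fun e => ⟨e.symm⟩

theorem final_isEquiv_trans {A : Type} [CommRing A] [IsLocalRing A] {ρ₁ ρ₂ ρ₃ : GaloisRepAdic A}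
    (h : ρ₁.IsEquiv ρ₂) (h' : ρ₂.IsEquiv ρ₃) : ρ₁.IsEquiv ρ₃ :=
  h.elim fun e => h'.elim fun e' => ⟨e.trans e'⟩

theorem final_isEquiv_baseChangeAlong {A B : Type} [CommRing A] [IsLocalRing A] [CommRing B]
    [IsLocalRing B] (φ : A →+* B) (hφ : IsLocalHom φ) {ρ₁ ρ₂ : GaloisRepAdic A}
    (h : ρ₁.IsEquiv ρ₂) : (ρ₁.baseChangeAlong φ hφ).IsEquiv (ρ₂.baseChangeAlong φ hφ) :=
  h.elim fun e => ⟨e.baseChangeAlong φ hφ⟩

/-- Separatedness in the form used below. -/
theorem final_eq_of_forall_mk_eq {R : Type} [CommRing R] [IsLocalRing R]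
    [IsHausdorff (maximalIdeal R) R] {a b : R}
    (h : ∀ n : ℕ, Ideal.Quotient.mk (maximalIdeal R ^ (n + 1)) a =
      Ideal.Quotient.mk (maximalIdeal R ^ (n + 1)) b) : a = b := by
  rw [← sub_eq_zero]
  refine IsHausdorff.haus ‹_› (a - b) fun n => ?_
  rw [SModEq.zero, smul_eq_mul, Ideal.mul_top]
  have h1 : a - b ∈ maximalIdeal R ^ (n + 1) := by
    rw [← Ideal.Quotient.eq]
    exact h n
  exact Ideal.pow_le_pow_right (Nat.le_succ n) h1

theorem final_mem_maximalIdeal_of_map {A B : Type} [CommRing A] [IsLocalRing A] [CommRing B]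
    [IsLocalRing B] (φ : A →+* B) {a : A} (h : φ a ∈ maximalIdeal B) : a ∈ maximalIdeal A := by
  rw [IsLocalRing.mem_maximalIdeal] at h ⊢
  exact fun ha => h (ha.map φ)

theorem final_map_mem_maximalIdeal {A B : Type} [CommRing A] [IsLocalRing A] [CommRing B]
    [IsLocalRing B] (φ : A →+* B) (hφ : IsLocalHom φ) {a : A} (h : a ∈ maximalIdeal A) :
    φ a ∈ maximalIdeal B := by
  rw [IsLocalRing.mem_maximalIdeal] at h ⊢
  exact fun ha => h (hφ.map_nonunit a ha)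

variable {𝒪 : Type} [CommRing 𝒪] [IsLocalRing 𝒪]
variable {A B : Type} [CommRing A] [IsLocalRing A] [Algebra 𝒪 A] [CommRing B] [IsLocalRing B]
  [Algebra 𝒪 B]

omit [IsLocalRing 𝒪] in
theorem final_isLiftOf_map {r0 : GQ → M2 𝒪} (φ : A →ₐ[𝒪] B) (hφ : IsLocalHom (φ : A →+* B))
    (ρ : MatRep A) (h : IsLiftOf r0 ρ.hom) : IsLiftOf r0 (ρ.map (φ : A →+* B) hφ).hom := by
  intro σ i j
  have h1 := h σ i j
  have h2 : ((ρ.map (φ : A →+* B) hφ).hom σ - (r0 σ).map (algebraMap 𝒪 B)) i j =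
      (φ : A →+* B) ((ρ.hom σ - (r0 σ).map (algebraMap 𝒪 A)) i j) := by
    simp only [MatRep.map_hom_apply, Matrix.sub_apply, Matrix.map_apply, map_sub,
      RingHom.coe_coe, AlgHom.commutes]
  rw [h2]
  exact final_map_mem_maximalIdeal (φ : A →+* B) hφ h1

omit [IsLocalRing 𝒪] in
theorem final_isNormalized_map {r0 : GQ → M2 𝒪} (S : SliceData 𝒪 r0) (φ : A →ₐ[𝒪] B)
    (hφ : IsLocalHom (φ : A →+* B)) (ρ : MatRep A) (h : IsNormalized S ρ.hom) :
    IsNormalized S (ρ.map (φ : A →+* B) hφ).hom := by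
  intro a
  have h1 := h a
  simp only [MatRep.map_hom_apply, Matrix.map_apply, RingHom.coe_coe]
  rw [h1, AlgHom.commutes]

end Helpers

section Main

/-- The matrix representation over the universal ring built from the universal coordinates. -/
theorem final_exists_matRep (𝒪 : Type) [CommRing 𝒪] [IsLocalRing 𝒪]
    (𝒟 : ∀ ⦃A : Type⦄ [CommRing A] [IsLocalRing A] [Algebra 𝒪 A], GaloisRepAdic A → Prop)
    (r0 : GQ → M2 𝒪) (S : SliceData 𝒪 r0)
    (R : Type) [CommRing R] [IsLocalRing R] [IsNoetherianRing R]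
    [IsAdicComplete (maximalIdeal R) R] [Algebra 𝒪 R] [IsLocalHom (algebraMap 𝒪 R)]
    (hsurj : Function.Surjective (residue R ∘ algebraMap 𝒪 R))
    (xR : GQ × Fin 2 × Fin 2 → R)
    (hU1 : ∀ ⦃B : Type⦄ [CommRing B] [IsLocalRing B] [Algebra 𝒪 B],
      GaloisRep.IsArtinianTestAlgebra 𝒪 B → ∀ (q : R →ₐ[𝒪] B), IsLocalHom (q : R →+* B) →
        NLiftFam 𝒟 S (fun γ => q (xR γ))) :
    ∃ ρR : MatRep R, (∀ σ i j, ρR.hom σ i j = xR (σ, i, j)) ∧ IsLiftOf r0 ρR.hom ∧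
      IsNormalized S ρR.hom := by
  have hloc : IsLocalHom (algebraMap 𝒪 R) := inferInstance
  -- the level `n` representations
  have hlev : ∀ n : ℕ, ∃ ρn : MatRep (R ⧸ maximalIdeal R ^ (n + 1)),
      (∀ σ i j, ρn.hom σ i j = Ideal.Quotient.mk (maximalIdeal R ^ (n + 1)) (xR (σ, i, j))) ∧
      IsNLift 𝒟 S ρn := fun n =>
    hU1 (TA.isArtinianTestAlgebra_quotPow hloc hsurj n)
      (Ideal.Quotient.mkₐ 𝒪 (maximalIdeal R ^ (n + 1))) (TA.isLocalHom_quotPow_mk n)
  choose ρn hρn hN using hlev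
  let M : GQ → M2 R := fun σ => Matrix.of fun i j => xR (σ, i, j)
  have hMmap : ∀ n σ, (M σ).map (Ideal.Quotient.mk (maximalIdeal R ^ (n + 1))) = (ρn n).hom σ := by
    intro n σ
    ext i j
    rw [Matrix.map_apply, hρn n σ i j]
    rfl
  have hone : M 1 = 1 := by
    ext i j
    refine final_eq_of_forall_mk_eq fun n => ?_
    have h1 : ((M 1).map (Ideal.Quotient.mk (maximalIdeal R ^ (n + 1)))) i j =
        ((1 : M2 R).map (Ideal.Quotient.mk (maximalIdeal R ^ (n + 1)))) i j := by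
      rw [hMmap n 1, map_one, Matrix.map_one _ (map_zero _) (map_one _)]
    simpa only [Matrix.map_apply] using h1
  have hmul : ∀ σ τ, M (σ * τ) = M σ * M τ := by
    intro σ τ
    ext i j
    refine final_eq_of_forall_mk_eq fun n => ?_
    have h1 : ((M (σ * τ)).map (Ideal.Quotient.mk (maximalIdeal R ^ (n + 1)))) i j =
        ((M σ * M τ).map (Ideal.Quotient.mk (maximalIdeal R ^ (n + 1)))) i j := by
      rw [hMmap n (σ * τ), map_mul, Matrix.map_mul, hMmap n σ, hMmap n τ]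
    simpa only [Matrix.map_apply] using h1
  let homR : GQ →* M2 R :=
    { toFun := M
      map_one' := hone
      map_mul' := hmul }
  have hcont : ∀ n : ℕ, ∃ L : IntermediateField ℚ (AlgebraicClosure ℚ), FiniteDimensional ℚ L ∧
      ∀ σ : GQ, (∀ x ∈ L, σ x = x) → EntryIn (maximalIdeal R ^ n) (homR σ - 1) := by
    intro n
    cases n with
    | zero =>
      refine ⟨⊥, inferInstance, fun σ _ i j => ?_⟩
      rw [pow_zero, Ideal.one_eq_top]
      exact Submodule.mem_top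
    | succ n =>
      obtain ⟨L, hL, h⟩ := (ρn n).cont (n + 1)
      refine ⟨L, hL, fun σ hσ i j => ?_⟩
      have h1 := h σ hσ i j
      rw [TA.quotPow_maximalIdeal_pow_eq_bot n, Ideal.mem_bot] at h1
      have h2 : ((ρn n).hom σ - 1) i j =
          Ideal.Quotient.mk (maximalIdeal R ^ (n + 1)) ((homR σ - 1) i j) := by
        rw [← hMmap n σ, Matrix.sub_apply, Matrix.sub_apply, map_sub, Matrix.map_apply]
        congr 1
        by_cases hij : i = j
        · subst hij; simp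
        · simp [Matrix.one_apply_ne hij]
      rw [h2, Ideal.Quotient.eq_zero_iff_mem] at h1
      exact h1
  refine ⟨⟨homR, hcont⟩, fun σ i j => rfl, ?_, ?_⟩
  · -- lift
    intro σ i j
    have h1 := (hN 0).lift σ i j
    have h2 : (((ρn 0).hom σ - (r0 σ).map (algebraMap 𝒪 (R ⧸ maximalIdeal R ^ (0 + 1))) :
          M2 (R ⧸ maximalIdeal R ^ (0 + 1))) i j) =
        Ideal.Quotient.mk (maximalIdeal R ^ (0 + 1))
          ((homR σ - (r0 σ).map (algebraMap 𝒪 R) : M2 R) i j) := by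
      rw [← hMmap 0 σ, Matrix.sub_apply, Matrix.sub_apply, map_sub, Matrix.map_apply,
        Matrix.map_apply, Matrix.map_apply]
      rfl
    rw [h2] at h1
    exact final_mem_maximalIdeal_of_map _ h1
  · -- normalized
    intro a
    refine final_eq_of_forall_mk_eq fun n => ?_
    have h1 := (hN n).norm a
    rw [← hMmap n (S.g a), Matrix.map_apply] at h1
    exact h1

variable (𝒪 : Type) [CommRing 𝒪] [IsDomain 𝒪] [IsDiscreteValuationRing 𝒪]
  [IsAdicComplete (maximalIdeal 𝒪) 𝒪]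

/-- The final glue: a universal coordinate family for normalized lifts of type `𝒟` yields
deformation ring data. -/
theorem deformationRingData_of_universal
    (ρbar : ResidualGaloisRep (ResidueField 𝒪))
    (𝒟 : ∀ ⦃A : Type⦄ [CommRing A] [IsLocalRing A] [Algebra 𝒪 A], GaloisRepAdic A → Prop)
    (habs : ρbar.IsAbsolutelyIrreducible)
    (h𝒟 : GaloisRep.IsDeformationCondition 𝒪 𝒟)
    (r0 : GQ → M2 𝒪) (hr0 : ResData ρbar r0) (S : SliceData 𝒪 r0)
    (R : Type) [CommRing R] [IsLocalRing R] [IsNoetherianRing R]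
    [IsAdicComplete (maximalIdeal R) R] [Algebra 𝒪 R] [IsLocalHom (algebraMap 𝒪 R)]
    (hsurj : Function.Surjective (residue R ∘ algebraMap 𝒪 R))
    (xR : GQ × Fin 2 × Fin 2 → R)
    (hU1 : ∀ ⦃B : Type⦄ [CommRing B] [IsLocalRing B] [Algebra 𝒪 B],
      GaloisRep.IsArtinianTestAlgebra 𝒪 B → ∀ (q : R →ₐ[𝒪] B), IsLocalHom (q : R →+* B) →
        NLiftFam 𝒟 S (fun γ => q (xR γ)))
    (hU2 : ∀ (A : Type) [CommRing A] [IsLocalRing A] [IsNoetherianRing A]
      [IsAdicComplete (maximalIdeal A) A] [Algebra 𝒪 A] [IsLocalHom (algebraMap 𝒪 A)],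
      Function.Surjective (residue A ∘ algebraMap 𝒪 A) → ∀ x : GQ × Fin 2 × Fin 2 → A,
        (∀ ⦃B : Type⦄ [CommRing B] [IsLocalRing B] [Algebra 𝒪 B],
          GaloisRep.IsArtinianTestAlgebra 𝒪 B → ∀ (q : A →ₐ[𝒪] B), IsLocalHom (q : A →+* B) →
            Function.Surjective q → NLiftFam 𝒟 S (fun γ => q (x γ))) →
        ∃! φ : R →ₐ[𝒪] A, ∀ γ, φ (xR γ) = x γ) :
    Nonempty (GaloisRep.DeformationRingData 𝒪 ρbar 𝒟) := by
  have hloc : IsLocalHom (algebraMap 𝒪 R) := inferInstance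
  obtain ⟨ρR, hρR, hliftR, hnormR⟩ := final_exists_matRep 𝒪 𝒟 r0 S R hsurj xR hU1
  -- the pushforward of `ρR` along an algebra map is determined by the coordinates
  have hpush : ∀ ⦃B : Type⦄ [CommRing B] [IsLocalRing B] [Algebra 𝒪 B] (q : R →ₐ[𝒪] B)
      (hq : IsLocalHom (q : R →+* B)) (ρ' : MatRep B),
      (∀ σ i j, ρ'.hom σ i j = q (xR (σ, i, j))) → ρ' = ρR.map (q : R →+* B) hq := by
    intro B _ _ _ q hq ρ' h
    refine MatRep.ext fun σ => ?_
    ext i j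
    rw [h σ i j, MatRep.map_hom_apply, Matrix.map_apply, hρR σ i j]
    rfl
  -- the deformation condition for `ρR`
  have hDR : 𝒟 ρR.toRep := by
    refine (h𝒟.iff_forall_surjective hloc hsurj ρR.toRep).mpr ?_
    intro B _ _ _ hB q hq _
    obtain ⟨ρ', hρ', hN'⟩ := hU1 hB q hq
    have h1 : ρ' = ρR.map (q : R →+* B) hq := hpush q hq ρ' hρ'
    subst h1
    exact h𝒟.of_isEquiv hB (final_isEquiv_symm (toRep_map_isEquiv (q : R →+* B) hq ρR)) hN'.cond
  refine ⟨{ R := R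
            residue_surjective := hsurj
            absIrr := habs
            ρ := ρR.toRep
            isOfType := hDR
            residual_isEquiv := residual_isEquiv_of_isLiftOf hr0 ρR hliftR
            universal := ?_ }⟩
  intro A _ _ _ _ _ hlocA hsurjA ρA hDA hresA
  obtain ⟨ρ1, hlift1, heq1⟩ := exists_matRep_of_residual hr0 ρA hresA
  obtain ⟨ρ2, g, hg, hlift2, hnorm2, hconj⟩ := slice_exists S ρ1 hlift1
  have heq12 : ρ1.toRep.IsEquiv ρ2.toRep := (toRep_isEquiv_iff ρ1 ρ2).mpr ⟨g, hg, hconj⟩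
  have heqA2 : ρA.IsEquiv ρ2.toRep := final_isEquiv_trans heq1 heq12
  let x : GQ × Fin 2 × Fin 2 → A := fun γ => ρ2.hom γ.1 γ.2.1 γ.2.2
  have hx : ∀ ⦃B : Type⦄ [CommRing B] [IsLocalRing B] [Algebra 𝒪 B],
      GaloisRep.IsArtinianTestAlgebra 𝒪 B → ∀ (q : A →ₐ[𝒪] B), IsLocalHom (q : A →+* B) →
        Function.Surjective q → NLiftFam 𝒟 S (fun γ => q (x γ)) := by
    intro B _ _ _ hB q hq hqs
    refine ⟨ρ2.map (q : A →+* B) hq, fun σ i j => rfl,
      ⟨final_isLiftOf_map q hq ρ2 hlift2, final_isNormalized_map S q hq ρ2 hnorm2, ?_⟩⟩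
    have h1 : 𝒟 (ρA.baseChangeAlong (q : A →+* B) hq) :=
      (h𝒟.iff_forall_surjective hlocA hsurjA ρA).mp hDA hB q hq hqs
    have h2 : (ρA.baseChangeAlong (q : A →+* B) hq).IsEquiv
        (ρ2.toRep.baseChangeAlong (q : A →+* B) hq) :=
      final_isEquiv_baseChangeAlong (q : A →+* B) hq heqA2
    have h3 : (ρ2.toRep.baseChangeAlong (q : A →+* B) hq).IsEquiv
        (ρ2.map (q : A →+* B) hq).toRep := toRep_map_isEquiv (q : A →+* B) hq ρ2
    exact h𝒟.of_isEquiv hB (final_isEquiv_trans h2 h3) h1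
  obtain ⟨φ, hφ, hφuniq⟩ := hU2 A hsurjA x hx
  have hlocφ : IsLocalHom (φ : R →+* A) := TA.isLocalHom_of_algHom hloc hsurj hlocA hsurjA φ
  have key : ∀ (ψ : R →ₐ[𝒪] A) (hψ : IsLocalHom (ψ : R →+* A)), (∀ γ, ψ (xR γ) = x γ) →
      ρR.map (ψ : R →+* A) hψ = ρ2 := by
    intro ψ hψ h
    refine MatRep.ext fun σ => ?_
    ext i j
    rw [MatRep.map_hom_apply, Matrix.map_apply, hρR σ i j]
    exact h (σ, i, j)
  refine ⟨φ, ⟨hlocφ, ?_⟩, ?_⟩
  · have h1 := toRep_map_isEquiv (φ : R →+* A) hlocφ ρR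
    rw [key φ hlocφ hφ] at h1
    exact final_isEquiv_trans h1 (final_isEquiv_symm heqA2)
  · rintro ψ ⟨hψ, hψeq⟩
    apply hφuniq
    have h1 : (ρR.map (ψ : R →+* A) hψ).toRep.IsEquiv ρ2.toRep :=
      final_isEquiv_trans
        (final_isEquiv_trans (final_isEquiv_symm (toRep_map_isEquiv (ψ : R →+* A) hψ ρR)) hψeq)
        heqA2
    obtain ⟨g', hg', hconj'⟩ := (toRep_isEquiv_iff _ _).mp h1
    have h2 : ((ρR.map (ψ : R →+* A) hψ).hom : GQ → M2 A) = (ρ2.hom : GQ → M2 A) :=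
      slice_unique S _ _ (final_isLiftOf_map ψ hψ ρR hliftR) hlift2
        (final_isNormalized_map S ψ hψ ρR hnormR) hnorm2 g' hg' hconj'
    intro γ
    have h3 := congrFun (congrFun (congrFun h2 γ.1) γ.2.1) γ.2.2
    rw [MatRep.map_hom_apply, Matrix.map_apply, hρR γ.1 γ.2.1 γ.2.2] at h3
    exact h3

end Main

end Fermat.Agent.S53
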