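import Mathlib
import Fermat.Prelude.Def_GaloisRep_DeformationCondition

set_option autoImplicit false

namespace Fermat.Agent.S53

open IsLocalRing GaloisRep

/-- A predicate on coordinate families over Artinian test algebras behaving like a rigid
deformation functor: stable under base change, injective descent and fibre products, with a
fixed reduction, finitely many points over the dual numbers and a point over the residue
field. -/
structure IsRigidFunctor (𝒪 : Type) [CommRing 𝒪] [IsLocalRing 𝒪] (Γ : Type) (r0 : Γ → 𝒪)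
    (F : ∀ ⦃A : Type⦄ [CommRing A] [IsLocalRing A] [Algebra 𝒪 A], (Γ → A) → Prop) : Prop where
  map : ∀ ⦃A B : Type⦄ [CommRing A] [IsLocalRing A] [Algebra 𝒪 A]
    [CommRing B] [IsLocalRing B] [Algebra 𝒪 B],
    IsArtinianTestAlgebra 𝒪 A → IsArtinianTestAlgebra 𝒪 B →
    ∀ (φ : A →ₐ[𝒪] B), IsLocalHom (φ : A →+* B) → ∀ ⦃x : Γ → A⦄, F x → F (fun γ => φ (x γ))
  of_injective : ∀ ⦃A B : Type⦄ [CommRing A] [IsLocalRing A] [Algebra 𝒪 A]
    [CommRing B] [IsLocalRing B] [Algebra 𝒪 B],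
    IsArtinianTestAlgebra 𝒪 A → IsArtinianTestAlgebra 𝒪 B →
    ∀ (φ : A →ₐ[𝒪] B), IsLocalHom (φ : A →+* B) → Function.Injective φ →
    ∀ ⦃x : Γ → A⦄, F (fun γ => φ (x γ)) → F x
  of_fibreProduct : ∀ ⦃A B C P : Type⦄ [CommRing A] [IsLocalRing A] [Algebra 𝒪 A]
    [CommRing B] [IsLocalRing B] [Algebra 𝒪 B] [CommRing C] [IsLocalRing C] [Algebra 𝒪 C]
    [CommRing P] [IsLocalRing P] [Algebra 𝒪 P],
    IsArtinianTestAlgebra 𝒪 A → IsArtinianTestAlgebra 𝒪 B → IsArtinianTestAlgebra 𝒪 C →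
    IsArtinianTestAlgebra 𝒪 P →
    ∀ (f : A →ₐ[𝒪] C) (g : B →ₐ[𝒪] C) (pA : P →ₐ[𝒪] A) (pB : P →ₐ[𝒪] B),
      IsLocalHom (pA : P →+* A) → IsLocalHom (pB : P →+* B) →
      f.comp pA = g.comp pB →
      Function.Injective (fun z => (pA z, pB z)) →
      (∀ a b, f a = g b → ∃ z, pA z = a ∧ pB z = b) →
      ∀ ⦃x : Γ → P⦄, F (fun γ => pA (x γ)) → F (fun γ => pB (x γ)) → F x
  residue : ∀ ⦃A : Type⦄ [CommRing A] [IsLocalRing A] [Algebra 𝒪 A],
    IsArtinianTestAlgebra 𝒪 A → ∀ ⦃x : Γ → A⦄, F x →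
      ∀ γ, x γ - algebraMap 𝒪 A (r0 γ) ∈ maximalIdeal A
  tangent_finite :
    letI : Algebra 𝒪 (DualNumber (ResidueField 𝒪)) :=
      ((algebraMap (ResidueField 𝒪) (DualNumber (ResidueField 𝒪))).comp
        (algebraMap 𝒪 (ResidueField 𝒪))).toAlgebra
    Set.Finite {x : Γ → DualNumber (ResidueField 𝒪) | F x}
  nonempty : ∃ x : Γ → ResidueField 𝒪, F x

end Fermat.Agent.S53
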