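import Fermat.Agent.S53.Rep
import Fermat.Agent.S53.RigidDefs

set_option autoImplicit false

namespace Fermat.Agent.S53

open IsLocalRing

/-- The entry functor of normalized lifts of type `𝒟` is a rigid functor. -/
theorem rep_isRigidFunctor {𝒪 : Type} [CommRing 𝒪] [IsLocalRing 𝒪]
    {𝒟 : ∀ ⦃A : Type⦄ [CommRing A] [IsLocalRing A] [Algebra 𝒪 A], GaloisRepAdic A → Prop}
    {r0 : GQ → M2 𝒪} (S : SliceData 𝒪 r0)
    (hD : GaloisRep.IsDeformationCondition 𝒪 𝒟)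
    {ρbar : ResidualGaloisRep (ResidueField 𝒪)}
    (hbar : 𝒟 (GaloisRepAdic.ofResidualGaloisRep ρbar))
    (hfin : GaloisRep.TangentFinite 𝒪 ρbar 𝒟) (hr0 : ResData ρbar r0) :
    IsRigidFunctor 𝒪 (GQ × Fin 2 × Fin 2) (fun γ => r0 γ.1 γ.2.1 γ.2.2) (EntryF 𝒟 S) where
  map := fun _ _ _ _ _ _ _ _ hA hB φ hφ _ h => entryF_map S hD hA hB φ hφ h
  of_injective := fun _ _ _ _ _ _ _ _ hA hB φ hφ hinj _ h =>
    entryF_of_injective S hD hA hB φ hφ hinj h
  of_fibreProduct := fun _ _ _ _ _ _ _ _ _ _ _ _ _ _ _ _ hA hB hC hP f g pA pB hpA hpB hcomm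
      hinj hsurj _ hxA hxB =>
    entryF_of_fibreProduct S hD hA hB hC hP f g pA pB hpA hpB hcomm hinj hsurj hxA hxB
  residue := fun _ _ _ _ _ _ h γ => entryF_residue S h γ
  tangent_finite := entryF_tangent_finite S hfin hr0
  nonempty := ⟨_, entryF_base S hD hbar hr0⟩

end Fermat.Agent.S53
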