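import Mathlib

set_option autoImplicit false

namespace Fermat.Agent.S53

open Matrix

/-- The slice map `X ↦ (X 0 0, ([X, r (g a)]) (i a) (j a))`. -/
def sliceMap {A : Type*} [CommRing A] {G : Type*} (r : G → Matrix (Fin 2) (Fin 2) A)
    (g : Fin 3 → G) (i j : Fin 3 → Fin 2) :
    Matrix (Fin 2) (Fin 2) A →ₗ[A] A × (Fin 3 → A) where
  toFun X := (X 0 0, fun a => (X * r (g a) - r (g a) * X) (i a) (j a))
  map_add' X Y := by
    refine Prod.ext rfl ?_
    funext a
    simp only [add_mul, mul_add, Prod.snd_add, Pi.add_apply, Matrix.sub_apply, Matrix.add_apply]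
    ring
  map_smul' c X := by
    refine Prod.ext rfl ?_
    funext a
    simp only [Matrix.smul_mul, Matrix.mul_smul, RingHom.id_apply, Prod.smul_snd, Pi.smul_apply,
      Matrix.sub_apply, Matrix.smul_apply, smul_eq_mul]
    ring

theorem sliceMap_apply {A : Type*} [CommRing A] {G : Type*} (r : G → Matrix (Fin 2) (Fin 2) A)
    (g : Fin 3 → G) (i j : Fin 3 → Fin 2) (X : Matrix (Fin 2) (Fin 2) A) :
    sliceMap r g i j X = (X 0 0, fun a => (X * r (g a) - r (g a) * X) (i a) (j a)) :=
  rfl

theorem sliceMap_fst {A : Type*} [CommRing A] {G : Type*} (r : G → Matrix (Fin 2) (Fin 2) A)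
    (g : Fin 3 → G) (i j : Fin 3 → Fin 2) (X : Matrix (Fin 2) (Fin 2) A) :
    (sliceMap r g i j X).1 = X 0 0 :=
  rfl

theorem sliceMap_snd {A : Type*} [CommRing A] {G : Type*} (r : G → Matrix (Fin 2) (Fin 2) A)
    (g : Fin 3 → G) (i j : Fin 3 → Fin 2) (X : Matrix (Fin 2) (Fin 2) A) (a : Fin 3) :
    (sliceMap r g i j X).2 a = (X * r (g a) - r (g a) * X) (i a) (j a) :=
  rfl

/-- Naturality of the slice map under ring homomorphisms. -/
theorem sliceMap_map {A B : Type*} [CommRing A] [CommRing B] (f : A →+* B) {G : Type*}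
    (r : G → Matrix (Fin 2) (Fin 2) A) (g : Fin 3 → G) (i j : Fin 3 → Fin 2)
    (X : Matrix (Fin 2) (Fin 2) A) :
    sliceMap (fun x => (r x).map f) g i j (X.map f) =
      (f (sliceMap r g i j X).1, fun a => f ((sliceMap r g i j X).2 a)) := by
  refine Prod.ext rfl ?_
  funext a
  simp only [sliceMap_snd]
  have h1 : X.map f * (r (g a)).map f = (X * r (g a)).map f := (Matrix.map_mul).symm
  have h2 : (r (g a)).map f * X.map f = (r (g a) * X).map f := (Matrix.map_mul).symm
  rw [h1, h2]
  simp only [Matrix.sub_apply, Matrix.map_apply, map_sub]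

/-- Existence of a slice: if the centraliser of `r` consists of scalar matrices, then three
commutator coordinates together with the `(0,0)` entry give a linear isomorphism. -/
theorem exists_slice {k : Type*} [Field k] {G : Type*} (r : G → Matrix (Fin 2) (Fin 2) k)
    (hschur : ∀ X : Matrix (Fin 2) (Fin 2) k, (∀ g, X * r g = r g * X) →
      ∃ c : k, X = Matrix.scalar (Fin 2) c) :
    ∃ (g : Fin 3 → G) (i j : Fin 3 → Fin 2), Function.Bijective (sliceMap r g i j) := by
  classical
  let φ : G × Fin 2 × Fin 2 → Module.Dual k (Matrix (Fin 2) (Fin 2) k) := fun t =>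
    { toFun := fun X => (X * r t.1 - r t.1 * X) t.2.1 t.2.2
      map_add' := fun X Y => by
        simp only [add_mul, mul_add, Matrix.sub_apply, Matrix.add_apply]
        ring
      map_smul' := fun c X => by
        simp only [Matrix.smul_mul, Matrix.mul_smul, RingHom.id_apply,
          Matrix.sub_apply, Matrix.smul_apply, smul_eq_mul]
        ring }
  have hφ : ∀ t X, φ t X = (X * r t.1 - r t.1 * X) t.2.1 t.2.2 := fun _ _ => rfl
  let W : Submodule k (Module.Dual k (Matrix (Fin 2) (Fin 2) k)) :=
    Submodule.span k (Set.range φ)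
  have hW : W.dualCoannihilator = Submodule.span k {(1 : Matrix (Fin 2) (Fin 2) k)} := by
    ext X
    rw [Submodule.mem_dualCoannihilator, Submodule.mem_span_singleton]
    constructor
    · intro h
      obtain ⟨c, hc⟩ := hschur X (fun g => by
        ext p q
        have h1 := h (φ (g, p, q)) (Submodule.subset_span ⟨_, rfl⟩)
        rw [hφ] at h1
        simp only [Matrix.sub_apply] at h1
        exact sub_eq_zero.mp h1)
      refine ⟨c, ?_⟩
      rw [hc, Matrix.scalar_apply, Matrix.smul_one_eq_diagonal]
    · rintro ⟨c, rfl⟩ ψ hψ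
      induction hψ using Submodule.span_induction with
      | mem ψ hψ =>
        obtain ⟨t, rfl⟩ := hψ
        rw [hφ]
        simp
      | zero => simp
      | add ψ₁ ψ₂ _ _ h₁ h₂ => rw [LinearMap.add_apply, h₁, h₂, add_zero]
      | smul a ψ _ h => rw [LinearMap.smul_apply, h, smul_zero]
  have hfinW : Module.finrank k W = 3 := by
    have h1 := Subspace.finrank_add_finrank_dualCoannihilator_eq W
    rw [hW, finrank_span_singleton (one_ne_zero), Module.finrank_matrix] at h1
    simp only [Fintype.card_fin, Module.finrank_self] at h1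
    omega
  obtain ⟨b, hb_sub, hb_span, hb_li⟩ := exists_linearIndependent k (Set.range φ)
  have : Finite b := hb_li.finite
  let _ : Fintype b := Fintype.ofFinite b
  have hcard : Fintype.card b = 3 := by
    have h1 := finrank_span_eq_card hb_li
    rw [Subtype.range_coe, hb_span] at h1
    rw [← h1]
    exact hfinW
  let e : Fin 3 ≃ b := (Fintype.equivFinOfCardEq hcard).symm
  choose t ht using fun a : Fin 3 => hb_sub (e a).2
  refine ⟨fun a => (t a).1, fun a => (t a).2.1, fun a => (t a).2.2, ?_⟩
  have hinj : Function.Injective (sliceMap r (fun a => (t a).1) (fun a => (t a).2.1)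
      (fun a => (t a).2.2)) := by
    rw [← LinearMap.ker_eq_bot, LinearMap.ker_eq_bot']
    intro X hX
    have h0 : X 0 0 = 0 := congrArg Prod.fst hX
    have h1 : ∀ a, φ (t a) X = 0 := fun a => congrFun (congrArg Prod.snd hX) a
    have hmem : X ∈ W.dualCoannihilator := by
      rw [Submodule.mem_dualCoannihilator]
      intro ψ hψ
      have hψ' : ψ ∈ Submodule.span k b := by rw [hb_span]; exact hψ
      refine Submodule.span_induction (p := fun ψ _ => ψ X = 0) ?_ ?_ ?_ ?_ hψ'
      · intro ψ hψb
        obtain ⟨a, ha⟩ := e.surjective ⟨ψ, hψb⟩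
        have : ψ = φ (t a) := by rw [ht a, ha]
        rw [this]
        exact h1 a
      · simp
      · intro ψ₁ ψ₂ _ _ h₁ h₂
        rw [LinearMap.add_apply, h₁, h₂, add_zero]
      · intro a ψ _ h
        rw [LinearMap.smul_apply, h, smul_zero]
    rw [hW, Submodule.mem_span_singleton] at hmem
    obtain ⟨c, rfl⟩ := hmem
    have hc : c = 0 := by simpa using h0
    rw [hc, zero_smul]
  refine ⟨hinj, ?_⟩
  have hdim : Module.finrank k (Matrix (Fin 2) (Fin 2) k) = Module.finrank k (k × (Fin 3 → k)) := by
    rw [Module.finrank_matrix, Module.finrank_prod, Module.finrank_self, Module.finrank_fin_fun]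
    simp
  exact (LinearMap.injective_iff_surjective_of_finrank_eq_finrank hdim).mp hinj

/-- A vector all of whose coordinates lie in `I` lies in `I • ⊤`. -/
theorem slice_mem_smul_top_of_forall_mem {A : Type*} [CommRing A] (I : Ideal A)
    (y : A × (Fin 3 → A)) (h0 : y.1 ∈ I) (h1 : ∀ a, y.2 a ∈ I) :
    y ∈ I • (⊤ : Submodule A (A × (Fin 3 → A))) := by
  have hy : y = y.1 • ((1 : A), (0 : Fin 3 → A)) +
      ∑ a, y.2 a • ((0 : A), (Pi.single a (1 : A) : Fin 3 → A)) := by
    refine Prod.ext ?_ ?_
    · simp [Prod.fst_sum]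
    · funext b
      simp [Prod.snd_sum, Finset.sum_apply, Pi.single_apply]
  rw [hy]
  exact Submodule.add_mem _ (Submodule.smul_mem_smul h0 Submodule.mem_top)
    (Submodule.sum_mem _ fun a _ => Submodule.smul_mem_smul (h1 a) Submodule.mem_top)

/-- Entries of a matrix in `I • ⊤` lie in `I`. -/
theorem slice_entries_mem_of_mem_smul_top {A : Type*} [CommRing A] (I : Ideal A)
    (X : Matrix (Fin 2) (Fin 2) A)
    (hX : X ∈ I • (⊤ : Submodule A (Matrix (Fin 2) (Fin 2) A))) (p q : Fin 2) : X p q ∈ I := by
  refine Submodule.smul_induction_on (p := fun X => X p q ∈ I) hX ?_ ?_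
  · intro c hc Y _
    rw [Matrix.smul_apply, smul_eq_mul]
    exact I.mul_mem_right _ hc
  · intro Y Z hY hZ
    rw [Matrix.add_apply]
    exact I.add_mem hY hZ

/-- The slice map over a local ring is bijective as soon as its reduction is. -/
theorem sliceMap_bijective_of_residue {A : Type*} [CommRing A] [IsLocalRing A] {G : Type*}
    (r : G → Matrix (Fin 2) (Fin 2) A) (g : Fin 3 → G) (i j : Fin 3 → Fin 2)
    (h : Function.Bijective
      (sliceMap (fun x => (r x).map (IsLocalRing.residue A)) g i j)) :
    Function.Bijective (sliceMap r g i j) := by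
  have hsurj : Function.Surjective (sliceMap r g i j) := by
    rw [← LinearMap.range_eq_top, eq_top_iff]
    refine Submodule.le_of_le_smul_of_le_jacobson_bot (I := IsLocalRing.maximalIdeal A)
      Module.Finite.fg_top (IsLocalRing.maximalIdeal_le_jacobson ⊥) ?_
    intro y _
    obtain ⟨Xbar, hXbar⟩ := h.2 (IsLocalRing.residue A y.1, fun a => IsLocalRing.residue A (y.2 a))
    have hres : Function.Surjective (IsLocalRing.residue A) := IsLocalRing.residue_surjective
    choose X hX using fun p q => hres (Xbar p q)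
    have hXm : (Matrix.of X).map (IsLocalRing.residue A) = Xbar := by
      ext p q
      simp [hX]
    have key := sliceMap_map (IsLocalRing.residue A) r g i j (Matrix.of X)
    rw [hXm, hXbar] at key
    have h0 : (y - sliceMap r g i j (Matrix.of X)).1 ∈ IsLocalRing.maximalIdeal A := by
      have := congrArg Prod.fst key
      simp only at this
      rw [Prod.fst_sub, ← IsLocalRing.residue_eq_zero_iff, map_sub, this, sub_self]
    have h1 : ∀ a, (y - sliceMap r g i j (Matrix.of X)).2 a ∈ IsLocalRing.maximalIdeal A := by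
      intro a
      have := congrFun (congrArg Prod.snd key) a
      simp only at this
      rw [Prod.snd_sub, Pi.sub_apply, ← IsLocalRing.residue_eq_zero_iff, map_sub, this, sub_self]
    have hy : y = sliceMap r g i j (Matrix.of X) + (y - sliceMap r g i j (Matrix.of X)) := by abel
    rw [hy]
    exact Submodule.add_mem_sup (LinearMap.mem_range_self _ _)
      (slice_mem_smul_top_of_forall_mem _ _ h0 h1)
  let ι : Matrix (Fin 2) (Fin 2) A →ₗ[A] A × (Fin 3 → A) :=
    { toFun := fun X => (X 0 0, ![X 0 1, X 1 0, X 1 1])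
      map_add' := fun X Y => by
        refine Prod.ext rfl ?_
        funext a
        fin_cases a <;> rfl
      map_smul' := fun c X => by
        refine Prod.ext rfl ?_
        funext a
        fin_cases a <;> rfl }
  have hι : Function.Injective ι := by
    intro X Y hXY
    have h00 : X 0 0 = Y 0 0 := congrArg Prod.fst hXY
    have h2 := congrArg Prod.snd hXY
    have h01 : X 0 1 = Y 0 1 := congrFun h2 0
    have h10 : X 1 0 = Y 1 0 := congrFun h2 1
    have h11 : X 1 1 = Y 1 1 := congrFun h2 2
    ext p q
    fin_cases p <;> fin_cases q <;> assumption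
  exact ⟨OrzechProperty.injective_of_surjective_of_injective ι _ hι hsurj, hsurj⟩

/-- If the slice coordinates of `X` lie in an ideal `I`, so do all entries of `X`. -/
theorem entries_mem_of_sliceMap_mem {A : Type*} [CommRing A] [IsLocalRing A] {G : Type*}
    (r : G → Matrix (Fin 2) (Fin 2) A) (g : Fin 3 → G) (i j : Fin 3 → Fin 2)
    (h : Function.Bijective
      (sliceMap (fun x => (r x).map (IsLocalRing.residue A)) g i j))
    (I : Ideal A) (X : Matrix (Fin 2) (Fin 2) A)
    (h0 : (sliceMap r g i j X).1 ∈ I) (h1 : ∀ a, (sliceMap r g i j X).2 a ∈ I) :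
    ∀ p q, X p q ∈ I := by
  intro p q
  have hbij := sliceMap_bijective_of_residue r g i j h
  let e := LinearEquiv.ofBijective (sliceMap r g i j) hbij
  have hy := slice_mem_smul_top_of_forall_mem I _ h0 h1
  have hX : X ∈ I • (⊤ : Submodule A (Matrix (Fin 2) (Fin 2) A)) := by
    have h2 : e.symm (sliceMap r g i j X) ∈
        Submodule.map (e.symm : (A × (Fin 3 → A)) →ₗ[A] Matrix (Fin 2) (Fin 2) A)
          (I • (⊤ : Submodule A (A × (Fin 3 → A)))) :=
      Submodule.mem_map_of_mem hy
    rw [Submodule.map_smul''] at h2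
    have h3 : e.symm (sliceMap r g i j X) = X := e.symm_apply_apply X
    rw [h3] at h2
    exact Submodule.smul_mono le_rfl le_top h2
  exact slice_entries_mem_of_mem_smul_top I X hX p q

end Fermat.Agent.S53
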