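import Fermat.Agent.S53.Defs
import Fermat.Agent.S53.Schur
import Fermat.Agent.S53.Slice

set_option autoImplicit false

namespace Fermat.Agent.S53

open IsLocalRing

/-- Existence of a set-theoretic lift of the residual representation together with slice data. -/
theorem exists_sliceData (𝒪 : Type) [CommRing 𝒪] [IsLocalRing 𝒪]
    (ρbar : ResidualGaloisRep (ResidueField 𝒪)) (habs : ρbar.IsAbsolutelyIrreducible) :
    ∃ r0 : GQ → M2 𝒪, ResData ρbar r0 ∧ Nonempty (SliceData 𝒪 r0) := by
  classical
  let b : Module.Basis (Fin 2) (ResidueField 𝒪) ρbar.V :=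
    Module.finBasisOfFinrankEq _ _ ρbar.finrank_eq
  let rbar : GQ → Matrix (Fin 2) (Fin 2) (ResidueField 𝒪) :=
    fun σ => LinearMap.toMatrix b b (ρbar.ρ σ)
  have hres : Function.Surjective (residue 𝒪) := IsLocalRing.residue_surjective
  choose r0 hr0 using fun (σ : GQ) (i j : Fin 2) => hres (rbar σ i j)
  let r0' : GQ → M2 𝒪 := fun σ => Matrix.of (r0 σ)
  have hmap : (fun x => (r0' x).map (residue 𝒪)) = rbar := by
    funext σ
    ext i j
    exact hr0 σ i j
  refine ⟨r0', ⟨b, fun σ i j => hr0 σ i j⟩, ?_⟩
  obtain ⟨g, i, j, hbij⟩ := exists_slice rbar (fun X hX => schur_matrix ρbar habs b X hX)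
  have hbij' : Function.Bijective (sliceMap (fun x => (r0' x).map (residue 𝒪)) g i j) := by
    rw [hmap]
    exact hbij
  have hB := sliceMap_bijective_of_residue r0' g i j hbij'
  let e := LinearEquiv.ofBijective (sliceMap r0' g i j) hB
  have he : ∀ Y, e Y = sliceMap r0' g i j Y := fun _ => rfl
  refine ⟨{ g := g, i := i, j := j, X := fun c => e.symm (0, Pi.single c 1),
            decomp := ?_, dual := ?_ }⟩
  · intro Y
    apply e.injective
    rw [map_add, map_smul, map_sum]
    simp only [map_smul, LinearEquiv.apply_symm_apply]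
    have h1 : e (1 : M2 𝒪) = (1, 0) := by
      rw [he]
      refine Prod.ext ?_ ?_
      · simp [sliceMap_fst]
      · funext a
        simp [sliceMap_snd]
    rw [h1, he]
    refine Prod.ext ?_ ?_
    · simp [sliceMap_fst, Prod.fst_sum]
    · funext a
      simp [sliceMap_snd, Prod.snd_sum, Finset.sum_apply, Pi.single_apply]
  · intro a c
    have h2 := congrFun (congrArg Prod.snd (e.apply_symm_apply (0, Pi.single c 1))) a
    rw [he, sliceMap_snd] at h2
    rw [h2]
    simp [Pi.single_apply]

end Fermat.Agent.S53
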