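import Mathlib
import Fermat.Prelude.Def_GaloisRep_DeformationCondition

set_option autoImplicit false
set_option linter.unusedSectionVars false
set_option linter.style.haveILetI false

namespace Fermat.Agent.S53.FP

open IsLocalRing

section ResTo

variable (𝒪 : Type) [CommRing 𝒪] [IsLocalRing 𝒪]
variable (A : Type) [CommRing A] [IsLocalRing A] [Algebra 𝒪 A]

/-- The residue field of `𝒪` maps bijectively to the residue field of `A`. -/
theorem residueFieldMap_bijective
    (hloc : IsLocalHom (algebraMap 𝒪 A))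
    (hsurj : Function.Surjective (IsLocalRing.residue A ∘ algebraMap 𝒪 A)) :
    Function.Bijective (IsLocalRing.ResidueField.map (algebraMap 𝒪 A)) := by
  refine ⟨RingHom.injective _, fun x => ?_⟩
  obtain ⟨c, hc⟩ := hsurj x
  exact ⟨IsLocalRing.residue 𝒪 c, by rw [IsLocalRing.ResidueField.map_residue]; exact hc⟩

/-- The ring isomorphism between the two residue fields. -/
noncomputable def residueFieldEquiv
    (hloc : IsLocalHom (algebraMap 𝒪 A))
    (hsurj : Function.Surjective (IsLocalRing.residue A ∘ algebraMap 𝒪 A)) :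
    IsLocalRing.ResidueField 𝒪 ≃+* IsLocalRing.ResidueField A :=
  RingEquiv.ofBijective (IsLocalRing.ResidueField.map (algebraMap 𝒪 A))
    (residueFieldMap_bijective 𝒪 A hloc hsurj)

/-- The reduction map `A → k`, `k` the residue field of `𝒪`, as an `𝒪`-algebra map. -/
noncomputable def resTo
    (hloc : IsLocalHom (algebraMap 𝒪 A))
    (hsurj : Function.Surjective (IsLocalRing.residue A ∘ algebraMap 𝒪 A)) :
    A →ₐ[𝒪] IsLocalRing.ResidueField 𝒪 :=
  { ((residueFieldEquiv 𝒪 A hloc hsurj).symm : IsLocalRing.ResidueField A →+*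
        IsLocalRing.ResidueField 𝒪).comp (IsLocalRing.residue A) with
    commutes' := fun c => by
      show (residueFieldEquiv 𝒪 A hloc hsurj).symm (IsLocalRing.residue A (algebraMap 𝒪 A c)) = _
      rw [RingEquiv.symm_apply_eq]
      show _ = IsLocalRing.ResidueField.map (algebraMap 𝒪 A) (algebraMap 𝒪 _ c)
      rw [IsLocalRing.ResidueField.algebraMap_eq, IsLocalRing.ResidueField.map_residue] }

variable {𝒪 A}

theorem resTo_apply
    (hloc : IsLocalHom (algebraMap 𝒪 A))
    (hsurj : Function.Surjective (IsLocalRing.residue A ∘ algebraMap 𝒪 A)) (a : A) :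
    resTo 𝒪 A hloc hsurj a = (residueFieldEquiv 𝒪 A hloc hsurj).symm (IsLocalRing.residue A a) :=
  rfl

theorem map_resTo
    (hloc : IsLocalHom (algebraMap 𝒪 A))
    (hsurj : Function.Surjective (IsLocalRing.residue A ∘ algebraMap 𝒪 A)) (a : A) :
    IsLocalRing.ResidueField.map (algebraMap 𝒪 A) (resTo 𝒪 A hloc hsurj a) =
      IsLocalRing.residue A a :=
  (residueFieldEquiv 𝒪 A hloc hsurj).apply_symm_apply _

theorem resTo_eq_zero_iff
    (hloc : IsLocalHom (algebraMap 𝒪 A))
    (hsurj : Function.Surjective (IsLocalRing.residue A ∘ algebraMap 𝒪 A)) (a : A) :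
    resTo 𝒪 A hloc hsurj a = 0 ↔ a ∈ IsLocalRing.maximalIdeal A := by
  rw [resTo_apply, map_eq_zero_iff _ (RingEquiv.injective _), IsLocalRing.residue_eq_zero_iff]

theorem resTo_ne_zero_iff
    (hloc : IsLocalHom (algebraMap 𝒪 A))
    (hsurj : Function.Surjective (IsLocalRing.residue A ∘ algebraMap 𝒪 A)) (a : A) :
    resTo 𝒪 A hloc hsurj a ≠ 0 ↔ IsUnit a := by
  rw [Ne, resTo_eq_zero_iff, IsLocalRing.mem_maximalIdeal, mem_nonunits_iff, not_not]

theorem resTo_surjective
    (hloc : IsLocalHom (algebraMap 𝒪 A))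
    (hsurj : Function.Surjective (IsLocalRing.residue A ∘ algebraMap 𝒪 A)) :
    Function.Surjective (resTo 𝒪 A hloc hsurj) := fun x => by
  refine ⟨algebraMap 𝒪 A (Classical.choose (IsLocalRing.residue_surjective x)), ?_⟩
  rw [AlgHom.commutes, IsLocalRing.ResidueField.algebraMap_eq]
  exact Classical.choose_spec (IsLocalRing.residue_surjective x)

theorem ker_resTo
    (hloc : IsLocalHom (algebraMap 𝒪 A))
    (hsurj : Function.Surjective (IsLocalRing.residue A ∘ algebraMap 𝒪 A)) :
    RingHom.ker (resTo 𝒪 A hloc hsurj : A →+* IsLocalRing.ResidueField 𝒪) =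
      IsLocalRing.maximalIdeal A := by
  ext a
  rw [RingHom.mem_ker]
  exact resTo_eq_zero_iff hloc hsurj a

theorem isLocalHom_resTo
    (hloc : IsLocalHom (algebraMap 𝒪 A))
    (hsurj : Function.Surjective (IsLocalRing.residue A ∘ algebraMap 𝒪 A)) :
    IsLocalHom (resTo 𝒪 A hloc hsurj : A →+* IsLocalRing.ResidueField 𝒪) :=
  ⟨fun a ha => (resTo_ne_zero_iff hloc hsurj a).mp ha.ne_zero⟩

/-- Every element of `A` is congruent to an element of `𝒪` modulo the maximal ideal. -/
theorem exists_algebraMap_sub_mem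
    (hsurj : Function.Surjective (IsLocalRing.residue A ∘ algebraMap 𝒪 A)) (a : A) :
    ∃ c : 𝒪, a - algebraMap 𝒪 A c ∈ IsLocalRing.maximalIdeal A := by
  obtain ⟨c, hc⟩ := hsurj (IsLocalRing.residue A a)
  refine ⟨c, ?_⟩
  rw [← IsLocalRing.residue_eq_zero_iff, map_sub, sub_eq_zero]
  exact hc.symm

end ResTo

section TestAlgebra

variable {𝒪 : Type} [CommRing 𝒪] [IsLocalRing 𝒪]
variable {A : Type} [CommRing A] [IsLocalRing A] [Algebra 𝒪 A]

/-- The maximal ideal of an Artinian local ring is nilpotent. -/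
theorem exists_maximalIdeal_pow_eq_bot [IsArtinianRing A] :
    ∃ n : ℕ, IsLocalRing.maximalIdeal A ^ n = ⊥ := by
  obtain ⟨n, hn⟩ := IsArtinianRing.isNilpotent_jacobson_bot (R := A)
  rw [IsLocalRing.jacobson_eq_maximalIdeal _ bot_ne_top] at hn
  exact ⟨n, hn⟩

/-- An Artinian test algebra over `𝒪` with finite residue field is a finite ring. -/
theorem finite_of_isArtinianTestAlgebra [Finite (IsLocalRing.ResidueField 𝒪)]
    (hA : GaloisRep.IsArtinianTestAlgebra 𝒪 A) : Finite A := by
  haveI := hA.isArtinian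
  haveI : Finite (IsLocalRing.ResidueField A) :=
    Finite.of_surjective _ (residueFieldMap_bijective 𝒪 A hA.isLocalHom hA.residue_surjective).2
  obtain ⟨n, hn⟩ := exists_maximalIdeal_pow_eq_bot (A := A)
  haveI : Finite (A ⧸ (⊥ : Ideal A)) := IsLocalRing.finite_quotient_iff.mpr ⟨n, hn.le⟩
  exact Finite.of_equiv _ (RingEquiv.quotientBot A).toEquiv

/-- The residue field of `𝒪` is an Artinian test algebra. -/
theorem isArtinianTestAlgebra_residueField :
    GaloisRep.IsArtinianTestAlgebra 𝒪 (IsLocalRing.ResidueField 𝒪) where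
  isLocalHom := by
    rw [IsLocalRing.ResidueField.algebraMap_eq]
    infer_instance
  residue_surjective := by
    rw [IsLocalRing.ResidueField.algebraMap_eq]
    exact IsLocalRing.residue_surjective.comp IsLocalRing.residue_surjective
  isArtinian := inferInstance

end TestAlgebra

section FibProd

variable {𝒪 : Type} [CommRing 𝒪] [IsLocalRing 𝒪]
variable {A B C : Type} [CommRing A] [IsLocalRing A] [Algebra 𝒪 A]
  [CommRing B] [IsLocalRing B] [Algebra 𝒪 B] [CommRing C] [IsLocalRing C] [Algebra 𝒪 C]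

/-- The fibre product `A ×_C B` as a subalgebra of `A × B`. -/
def fibProd (f : A →ₐ[𝒪] C) (g : B →ₐ[𝒪] C) : Subalgebra 𝒪 (A × B) :=
  AlgHom.equalizer (f.comp (AlgHom.fst 𝒪 A B)) (g.comp (AlgHom.snd 𝒪 A B))

theorem mem_fibProd {f : A →ₐ[𝒪] C} {g : B →ₐ[𝒪] C} {x : A × B} :
    x ∈ fibProd f g ↔ f x.1 = g x.2 := Iff.rfl

/-- First projection of the fibre product. -/
def fibProdFst (f : A →ₐ[𝒪] C) (g : B →ₐ[𝒪] C) : fibProd f g →ₐ[𝒪] A :=
  (AlgHom.fst 𝒪 A B).comp (fibProd f g).val

/-- Second projection of the fibre product. -/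
def fibProdSnd (f : A →ₐ[𝒪] C) (g : B →ₐ[𝒪] C) : fibProd f g →ₐ[𝒪] B :=
  (AlgHom.snd 𝒪 A B).comp (fibProd f g).val

variable (f : A →ₐ[𝒪] C) (g : B →ₐ[𝒪] C)

@[simp] theorem fibProdFst_apply (x : fibProd f g) : fibProdFst f g x = (x : A × B).1 := rfl

@[simp] theorem fibProdSnd_apply (x : fibProd f g) : fibProdSnd f g x = (x : A × B).2 := rfl

theorem fibProd_comp_eq : f.comp (fibProdFst f g) = g.comp (fibProdSnd f g) :=
  AlgHom.ext fun x => x.2

theorem fibProd_injective :
    Function.Injective (fun x : fibProd f g => (fibProdFst f g x, fibProdSnd f g x)) :=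
  fun _ _ h => Subtype.ext h

theorem fibProd_exists (a : A) (b : B) (h : f a = g b) :
    ∃ x : fibProd f g, fibProdFst f g x = a ∧ fibProdSnd f g x = b :=
  ⟨⟨(a, b), h⟩, rfl, rfl⟩

theorem fibProdFst_surjective (hg : Function.Surjective g) :
    Function.Surjective (fibProdFst f g) := fun a => by
  obtain ⟨b, hb⟩ := hg (f a)
  exact ⟨⟨(a, b), hb.symm⟩, rfl⟩

theorem fibProdSnd_surjective (hf : Function.Surjective f) :
    Function.Surjective (fibProdSnd f g) := fun b => by
  obtain ⟨a, ha⟩ := hf (g b)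
  exact ⟨⟨(a, b), ha⟩, rfl⟩

theorem isUnit_fibProd_iff (hf : IsLocalHom (f : A →+* C)) (hg : IsLocalHom (g : B →+* C))
    (x : fibProd f g) : IsUnit x ↔ IsUnit (x : A × B).1 := by
  constructor
  · intro h
    exact h.map (fibProdFst f g)
  · intro h
    have h2 : IsUnit (x : A × B).2 := by
      have h3 : IsUnit (g (x : A × B).2) := by
        have := h.map f
        rwa [show f (x : A × B).1 = g (x : A × B).2 from x.2] at this
      exact hg.map_nonunit _ h3
    obtain ⟨u, hu⟩ := h
    obtain ⟨v, hv⟩ := h2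
    have hmem : (((u⁻¹ : Aˣ) : A), ((v⁻¹ : Bˣ) : B)) ∈ fibProd f g := by
      rw [mem_fibProd]
      have h4 : f (x : A × B).1 * f ((u⁻¹ : Aˣ) : A) = 1 := by
        rw [← hu, ← map_mul, Units.mul_inv, map_one]
      have h5 : f (x : A × B).1 * g ((v⁻¹ : Bˣ) : B) = 1 := by
        rw [show f (x : A × B).1 = g (x : A × B).2 from x.2, ← hv, ← map_mul, Units.mul_inv,
          map_one]
      have h6 : IsUnit (f (x : A × B).1) := IsUnit.of_mul_eq_one _ h4
      exact h6.mul_left_cancel (h4.trans h5.symm)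
    refine IsUnit.of_mul_eq_one ⟨_, hmem⟩ (Subtype.ext ?_)
    refine Prod.ext ?_ ?_
    · show (x : A × B).1 * ((u⁻¹ : Aˣ) : A) = 1
      rw [← hu, Units.mul_inv]
    · show (x : A × B).2 * ((v⁻¹ : Bˣ) : B) = 1
      rw [← hv, Units.mul_inv]

theorem isLocalRing_fibProd (hf : IsLocalHom (f : A →+* C)) (hg : IsLocalHom (g : B →+* C)) :
    IsLocalRing (fibProd f g) := by
  refine IsLocalRing.of_nonunits_add fun x y hx hy => ?_
  rw [mem_nonunits_iff, isUnit_fibProd_iff f g hf hg] at hx hy ⊢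
  exact (IsLocalRing.maximalIdeal A).add_mem hx hy

theorem isLocalHom_fibProdFst (hf : IsLocalHom (f : A →+* C)) (hg : IsLocalHom (g : B →+* C)) :
    IsLocalHom (fibProdFst f g : fibProd f g →+* A) :=
  ⟨fun x hx => (isUnit_fibProd_iff f g hf hg x).mpr hx⟩

theorem isLocalHom_fibProdSnd (hf : IsLocalHom (f : A →+* C)) (hg : IsLocalHom (g : B →+* C)) :
    IsLocalHom (fibProdSnd f g : fibProd f g →+* B) := by
  refine ⟨fun x hx => (isUnit_fibProd_iff f g hf hg x).mpr ?_⟩
  have h3 : IsUnit (f (x : A × B).1) := by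
    have h4 : IsUnit (g (x : A × B).2) := IsUnit.map g hx
    rwa [show g (x : A × B).2 = f (x : A × B).1 from x.2.symm] at h4
  exact hf.map_nonunit _ h3

/-- The fibre product of Artinian test algebras is an Artinian test algebra
(finite residue field case). -/
theorem isArtinianTestAlgebra_fibProd [Finite (IsLocalRing.ResidueField 𝒪)]
    (hA : GaloisRep.IsArtinianTestAlgebra 𝒪 A) (hB : GaloisRep.IsArtinianTestAlgebra 𝒪 B)
    (hf : IsLocalHom (f : A →+* C)) (hg : IsLocalHom (g : B →+* C)) :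
    letI := isLocalRing_fibProd f g hf hg
    GaloisRep.IsArtinianTestAlgebra 𝒪 (fibProd f g) := by
  letI := isLocalRing_fibProd f g hf hg
  have hmax : ∀ x : fibProd f g,
      x ∈ IsLocalRing.maximalIdeal (fibProd f g) ↔ (x : A × B).1 ∈ IsLocalRing.maximalIdeal A := by
    intro x
    rw [IsLocalRing.mem_maximalIdeal, IsLocalRing.mem_maximalIdeal, mem_nonunits_iff,
      mem_nonunits_iff, isUnit_fibProd_iff f g hf hg]
  refine ⟨⟨fun c hc => ?_⟩, fun y => ?_, ?_⟩
  · have h1 : IsUnit (algebraMap 𝒪 A c) := by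
      have := hc.map (fibProdFst f g)
      rwa [AlgHom.commutes] at this
    exact hA.isLocalHom.map_nonunit _ h1
  · obtain ⟨x, rfl⟩ := IsLocalRing.residue_surjective y
    obtain ⟨c, hc⟩ := exists_algebraMap_sub_mem hA.residue_surjective (x : A × B).1
    refine ⟨c, ?_⟩
    rw [Function.comp_apply, eq_comm, ← sub_eq_zero, ← map_sub, IsLocalRing.residue_eq_zero_iff,
      hmax]
    exact hc
  · haveI := finite_of_isArtinianTestAlgebra hA
    haveI := finite_of_isArtinianTestAlgebra hB
    haveI : Finite (fibProd f g) := Finite.of_injective (fun x => (x : A × B)) Subtype.val_injective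
    exact isArtinian_of_finite

/-- A deformation condition passes to fibre products of Artinian test algebras. -/
theorem D_of_fibProd [Finite (IsLocalRing.ResidueField 𝒪)]
    {𝒟 : ∀ ⦃A : Type⦄ [CommRing A] [IsLocalRing A] [Algebra 𝒪 A], GaloisRepAdic A → Prop}
    (h𝒟 : GaloisRep.IsDeformationCondition 𝒪 𝒟)
    (hA : GaloisRep.IsArtinianTestAlgebra 𝒪 A) (hB : GaloisRep.IsArtinianTestAlgebra 𝒪 B)
    (hC : GaloisRep.IsArtinianTestAlgebra 𝒪 C)
    (hf : IsLocalHom (f : A →+* C)) (hg : IsLocalHom (g : B →+* C)) :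
    letI := isLocalRing_fibProd f g hf hg
    ∀ ρ : GaloisRepAdic (fibProd f g),
      𝒟 (ρ.baseChangeAlong (fibProdFst f g : fibProd f g →+* A)
          (isLocalHom_fibProdFst f g hf hg)) →
      𝒟 (ρ.baseChangeAlong (fibProdSnd f g : fibProd f g →+* B)
          (isLocalHom_fibProdSnd f g hf hg)) → 𝒟 ρ := by
  letI := isLocalRing_fibProd f g hf hg
  intro ρ h1 h2
  exact h𝒟.of_fibreProduct hA hB hC (isArtinianTestAlgebra_fibProd f g hA hB hf hg) f g
    (fibProdFst f g) (fibProdSnd f g) (isLocalHom_fibProdFst f g hf hg)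
    (isLocalHom_fibProdSnd f g hf hg) (fibProd_comp_eq f g) (fibProd_injective f g)
    (fibProd_exists f g) h1 h2

end FibProd

section Quotient

variable {𝒪 : Type} [CommRing 𝒪] [IsLocalRing 𝒪]
variable {A : Type} [CommRing A] [IsLocalRing A] [Algebra 𝒪 A]

theorem isLocalRing_quotient {I : Ideal A} (hI : I ≠ ⊤) : IsLocalRing (A ⧸ I) := by
  haveI : Nontrivial (A ⧸ I) := Ideal.Quotient.nontrivial_iff.mpr hI
  exact IsLocalRing.of_surjective' (Ideal.Quotient.mk I) Ideal.Quotient.mk_surjective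

theorem isLocalHom_quotient_mk {I : Ideal A} (hI : I ≠ ⊤) :
    letI := isLocalRing_quotient hI
    IsLocalHom (Ideal.Quotient.mk I) := by
  haveI : Nontrivial (A ⧸ I) := Ideal.Quotient.nontrivial_iff.mpr hI
  exact IsLocalHom.of_surjective (Ideal.Quotient.mk I) Ideal.Quotient.mk_surjective

theorem isLocalHom_quotient_mkₐ {I : Ideal A} (hI : I ≠ ⊤) :
    letI := isLocalRing_quotient hI
    IsLocalHom ((Ideal.Quotient.mkₐ 𝒪 I : A →ₐ[𝒪] A ⧸ I) : A →+* A ⧸ I) :=
  isLocalHom_quotient_mk hI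

theorem maximalIdeal_pow_ne_top {n : ℕ} (hn : n ≠ 0) : IsLocalRing.maximalIdeal A ^ n ≠ ⊤ :=
  fun h => (IsLocalRing.maximalIdeal.isMaximal A).ne_top
    (top_le_iff.mp (h ▸ Ideal.pow_le_self hn))

/-- Quotients of a Noetherian local `𝒪`-algebra with residue field `k` (finite) by an ideal
containing a power of the maximal ideal are Artinian test algebras. -/
theorem isArtinianTestAlgebra_quotient [Finite (IsLocalRing.ResidueField 𝒪)]
    [IsNoetherianRing A]
    (hloc : IsLocalHom (algebraMap 𝒪 A))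
    (hsurj : Function.Surjective (IsLocalRing.residue A ∘ algebraMap 𝒪 A))
    {I : Ideal A} (hI : I ≠ ⊤) (hpow : ∃ n : ℕ, IsLocalRing.maximalIdeal A ^ n ≤ I) :
    letI := isLocalRing_quotient hI
    GaloisRep.IsArtinianTestAlgebra 𝒪 (A ⧸ I) := by
  letI := isLocalRing_quotient hI
  have hmk : IsLocalHom (Ideal.Quotient.mk I) := isLocalHom_quotient_mk hI
  refine ⟨⟨fun c hc => ?_⟩, fun y => ?_, ?_⟩
  · exact hloc.map_nonunit _ (hmk.map_nonunit _ hc)
  · obtain ⟨x, rfl⟩ := IsLocalRing.residue_surjective y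
    obtain ⟨a, rfl⟩ := Ideal.Quotient.mk_surjective x
    obtain ⟨c, hc⟩ := exists_algebraMap_sub_mem hsurj a
    refine ⟨c, ?_⟩
    rw [Function.comp_apply, eq_comm, ← sub_eq_zero, ← map_sub, IsLocalRing.residue_eq_zero_iff]
    show Ideal.Quotient.mk I a - Ideal.Quotient.mk I (algebraMap 𝒪 A c) ∈ _
    rw [← map_sub, IsLocalRing.mem_maximalIdeal, mem_nonunits_iff]
    intro hu
    exact hc (hmk.map_nonunit _ hu)
  · haveI : Finite (IsLocalRing.ResidueField A) :=
      Finite.of_surjective _ (residueFieldMap_bijective 𝒪 A hloc hsurj).2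
    haveI : Finite (A ⧸ I) := IsLocalRing.finite_quotient_iff.mpr hpow
    exact isArtinian_of_finite

/-- The quotient of a Noetherian local `𝒪`-algebra by a nonzero power of its maximal ideal
is an Artinian test algebra. -/
theorem isArtinianTestAlgebra_quotient_pow [Finite (IsLocalRing.ResidueField 𝒪)]
    [IsNoetherianRing A]
    (hloc : IsLocalHom (algebraMap 𝒪 A))
    (hsurj : Function.Surjective (IsLocalRing.residue A ∘ algebraMap 𝒪 A))
    {n : ℕ} (hn : n ≠ 0) :
    letI := isLocalRing_quotient (maximalIdeal_pow_ne_top (A := A) hn)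
    GaloisRep.IsArtinianTestAlgebra 𝒪 (A ⧸ IsLocalRing.maximalIdeal A ^ n) :=
  isArtinianTestAlgebra_quotient hloc hsurj (maximalIdeal_pow_ne_top hn) ⟨n, le_rfl⟩

/-- Any proper quotient of an Artinian test algebra is an Artinian test algebra. -/
theorem isArtinianTestAlgebra_quotient_of_isArtinianTestAlgebra
    [Finite (IsLocalRing.ResidueField 𝒪)]
    (hA : GaloisRep.IsArtinianTestAlgebra 𝒪 A) {I : Ideal A} (hI : I ≠ ⊤) :
    letI := isLocalRing_quotient hI
    GaloisRep.IsArtinianTestAlgebra 𝒪 (A ⧸ I) := by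
  haveI := hA.isArtinian
  obtain ⟨n, hn⟩ := exists_maximalIdeal_pow_eq_bot (A := A)
  exact isArtinianTestAlgebra_quotient hA.isLocalHom hA.residue_surjective hI
    ⟨n, hn ▸ bot_le⟩

/-- A surjection from a local ring onto an Artinian test algebra kills a power of the
maximal ideal. -/
theorem exists_maximalIdeal_pow_le_ker {B : Type} [CommRing B] [IsLocalRing B] [IsArtinianRing B]
    (q : A →+* B) (hq : Function.Surjective q) :
    ∃ n : ℕ, IsLocalRing.maximalIdeal A ^ n ≤ RingHom.ker q := by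
  haveI : IsArtinianRing (A ⧸ RingHom.ker q) :=
    (RingHom.quotientKerEquivOfSurjective hq).symm.surjective.isArtinianRing
  exact IsLocalRing.exists_maximalIdeal_pow_le_of_isArtinianRing_quotient _

end Quotient

section OverResidueField

variable {𝒪 : Type} [CommRing 𝒪] [IsLocalRing 𝒪]
variable {A B : Type} [CommRing A] [IsLocalRing A] [Algebra 𝒪 A]
  [CommRing B] [IsLocalRing B] [Algebra 𝒪 B]

/-- The reduction map of an Artinian test algebra to the residue field of `𝒪`. -/
noncomputable abbrev resToOf (hA : GaloisRep.IsArtinianTestAlgebra 𝒪 A) :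
    A →ₐ[𝒪] IsLocalRing.ResidueField 𝒪 :=
  resTo 𝒪 A hA.isLocalHom hA.residue_surjective

theorem isLocalHom_resToOf (hA : GaloisRep.IsArtinianTestAlgebra 𝒪 A) :
    IsLocalHom (resToOf hA : A →+* IsLocalRing.ResidueField 𝒪) :=
  isLocalHom_resTo hA.isLocalHom hA.residue_surjective

/-- The fibre product of two Artinian test algebras over the residue field of `𝒪`. -/
noncomputable abbrev fibProdK (hA : GaloisRep.IsArtinianTestAlgebra 𝒪 A)
    (hB : GaloisRep.IsArtinianTestAlgebra 𝒪 B) : Subalgebra 𝒪 (A × B) :=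
  fibProd (resToOf hA) (resToOf hB)

theorem isLocalRing_fibProdK (hA : GaloisRep.IsArtinianTestAlgebra 𝒪 A)
    (hB : GaloisRep.IsArtinianTestAlgebra 𝒪 B) : IsLocalRing (fibProdK hA hB) :=
  isLocalRing_fibProd _ _ (isLocalHom_resToOf hA) (isLocalHom_resToOf hB)

theorem isArtinianTestAlgebra_fibProdK [Finite (IsLocalRing.ResidueField 𝒪)]
    (hA : GaloisRep.IsArtinianTestAlgebra 𝒪 A) (hB : GaloisRep.IsArtinianTestAlgebra 𝒪 B) :
    letI := isLocalRing_fibProdK hA hB
    GaloisRep.IsArtinianTestAlgebra 𝒪 (fibProdK hA hB) :=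
  isArtinianTestAlgebra_fibProd _ _ hA hB (isLocalHom_resToOf hA) (isLocalHom_resToOf hB)

theorem fibProdK_fst_surjective (hA : GaloisRep.IsArtinianTestAlgebra 𝒪 A)
    (hB : GaloisRep.IsArtinianTestAlgebra 𝒪 B) :
    Function.Surjective (fibProdFst (resToOf hA) (resToOf hB)) :=
  fibProdFst_surjective _ _ (resTo_surjective hB.isLocalHom hB.residue_surjective)

theorem fibProdK_snd_surjective (hA : GaloisRep.IsArtinianTestAlgebra 𝒪 A)
    (hB : GaloisRep.IsArtinianTestAlgebra 𝒪 B) :
    Function.Surjective (fibProdSnd (resToOf hA) (resToOf hB)) :=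
  fibProdSnd_surjective _ _ (resTo_surjective hA.isLocalHom hA.residue_surjective)

/-- A deformation condition passes to the fibre product over the residue field. -/
theorem D_of_fibProdK [Finite (IsLocalRing.ResidueField 𝒪)]
    {𝒟 : ∀ ⦃A : Type⦄ [CommRing A] [IsLocalRing A] [Algebra 𝒪 A], GaloisRepAdic A → Prop}
    (h𝒟 : GaloisRep.IsDeformationCondition 𝒪 𝒟)
    (hA : GaloisRep.IsArtinianTestAlgebra 𝒪 A) (hB : GaloisRep.IsArtinianTestAlgebra 𝒪 B) :
    letI := isLocalRing_fibProdK hA hB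
    ∀ ρ : GaloisRepAdic (fibProdK hA hB),
      𝒟 (ρ.baseChangeAlong (fibProdFst (resToOf hA) (resToOf hB) : fibProdK hA hB →+* A)
          (isLocalHom_fibProdFst _ _ (isLocalHom_resToOf hA) (isLocalHom_resToOf hB))) →
      𝒟 (ρ.baseChangeAlong (fibProdSnd (resToOf hA) (resToOf hB) : fibProdK hA hB →+* B)
          (isLocalHom_fibProdSnd _ _ (isLocalHom_resToOf hA) (isLocalHom_resToOf hB))) → 𝒟 ρ :=
  D_of_fibProd _ _ h𝒟 hA hB isArtinianTestAlgebra_residueField (isLocalHom_resToOf hA)
    (isLocalHom_resToOf hB)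

end OverResidueField

end Fermat.Agent.S53.FP
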