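import Mathlib
import Fermat.Prelude.Def_GaloisRep_DeformationCondition
import Fermat.Agent.S53.FibProd

set_option autoImplicit false
set_option linter.unusedSectionVars false
set_option linter.style.haveILetI false

namespace Fermat.Agent.S53

namespace AbsRep

open IsLocalRing GaloisRep FP

section Basics

variable {𝒪 : Type} [CommRing 𝒪] [IsLocalRing 𝒪]
variable {A B : Type} [CommRing A] [IsLocalRing A] [Algebra 𝒪 A]
  [CommRing B] [IsLocalRing B] [Algebra 𝒪 B]

/-- An `𝒪`-algebra map from a local `𝒪`-algebra with residue field `k` to a test algebra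
kills the maximal ideal after reduction. -/
theorem resToOf_algHom_eq_zero
    (hloc : IsLocalHom (algebraMap 𝒪 A))
    (hB : IsArtinianTestAlgebra 𝒪 B) (f : A →ₐ[𝒪] B) {a : A} (ha : a ∈ maximalIdeal A) :
    resToOf hB (f a) = 0 := by
  by_contra hne
  obtain ⟨c, hc⟩ := IsLocalRing.residue_surjective (resToOf hB (f a))
  have hcu : IsUnit c := by
    by_contra hcn
    have : residue 𝒪 c = 0 := (IsLocalRing.residue_eq_zero_iff c).mpr hcn
    exact hne (by rw [← hc, this])
  have hu : IsUnit (a - algebraMap 𝒪 A c) := by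
    by_contra hn
    have h1 : a - algebraMap 𝒪 A c ∈ maximalIdeal A := hn
    have h2 : algebraMap 𝒪 A c ∈ maximalIdeal A := by
      have := (maximalIdeal A).sub_mem ha h1
      simpa using this
    exact h2 (hcu.map (algebraMap 𝒪 A))
  have h3 : resToOf hB (f (a - algebraMap 𝒪 A c)) = 0 := by
    rw [map_sub, map_sub, AlgHom.commutes, AlgHom.commutes, ← hc,
      IsLocalRing.ResidueField.algebraMap_eq, sub_self]
  have h4 : IsUnit (resToOf hB (f (a - algebraMap 𝒪 A c))) := (hu.map f).map (resToOf hB)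
  rw [h3] at h4
  exact not_isUnit_zero h4

/-- Every `𝒪`-algebra map from a local `𝒪`-algebra with residue field `k` to a test algebra
is a local homomorphism. -/
theorem isLocalHom_algHom
    (hloc : IsLocalHom (algebraMap 𝒪 A))
    (hB : IsArtinianTestAlgebra 𝒪 B) (f : A →ₐ[𝒪] B) : IsLocalHom (f : A →+* B) := by
  refine ⟨fun a ha => ?_⟩
  by_contra hna
  have h1 := resToOf_algHom_eq_zero hloc hB f (a := a) hna
  have h2 : IsUnit (resToOf hB (f a)) := IsUnit.map (resToOf hB) ha
  rw [h1] at h2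
  exact not_isUnit_zero h2

theorem algHom_mem_maximalIdeal
    (hloc : IsLocalHom (algebraMap 𝒪 A))
    (hB : IsArtinianTestAlgebra 𝒪 B) (f : A →ₐ[𝒪] B) {a : A} (ha : a ∈ maximalIdeal A) :
    f a ∈ maximalIdeal B := by
  rw [← resTo_eq_zero_iff hB.isLocalHom hB.residue_surjective]
  exact resToOf_algHom_eq_zero hloc hB f ha

theorem map_maximalIdeal_pow_le
    (hloc : IsLocalHom (algebraMap 𝒪 A))
    (hB : IsArtinianTestAlgebra 𝒪 B) (f : A →ₐ[𝒪] B) (n : ℕ) :
    (maximalIdeal A ^ n).map (f : A →+* B) ≤ maximalIdeal B ^ n := by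
  rw [Ideal.map_pow]
  refine Ideal.pow_right_mono ?_ n
  rw [Ideal.map_le_iff_le_comap]
  intro a ha
  exact algHom_mem_maximalIdeal hloc hB f ha

/-- Compatibility of the reduction maps with `𝒪`-algebra maps. -/
theorem resToOf_algHom
    (hloc : IsLocalHom (algebraMap 𝒪 A))
    (hsurj : Function.Surjective (IsLocalRing.residue A ∘ algebraMap 𝒪 A))
    (hB : IsArtinianTestAlgebra 𝒪 B) (f : A →ₐ[𝒪] B) (a : A) :
    resToOf hB (f a) = resTo 𝒪 A hloc hsurj a := by
  obtain ⟨c, hc⟩ := exists_algebraMap_sub_mem hsurj a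
  have h1 := resToOf_algHom_eq_zero hloc hB f hc
  have h2 : resTo 𝒪 A hloc hsurj (a - algebraMap 𝒪 A c) = 0 :=
    (resTo_eq_zero_iff hloc hsurj _).mpr hc
  rw [map_sub, map_sub, AlgHom.commutes, AlgHom.commutes, sub_eq_zero] at h1
  rw [map_sub, AlgHom.commutes, sub_eq_zero] at h2
  rw [h1, h2]

theorem resToOf_algHom' (hA : IsArtinianTestAlgebra 𝒪 A)
    (hB : IsArtinianTestAlgebra 𝒪 B) (f : A →ₐ[𝒪] B) (a : A) :
    resToOf hB (f a) = resToOf hA a :=
  resToOf_algHom hA.isLocalHom hA.residue_surjective hB f a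

/-- Two `𝒪`-algebra maps to the residue field agree. -/
theorem algHom_residueField_eq
    (hloc : IsLocalHom (algebraMap 𝒪 A))
    (hsurj : Function.Surjective (IsLocalRing.residue A ∘ algebraMap 𝒪 A))
    (f : A →ₐ[𝒪] ResidueField 𝒪) (a : A) :
    f a = resTo 𝒪 A hloc hsurj a := by
  have h := resToOf_algHom hloc hsurj (isArtinianTestAlgebra_residueField (𝒪 := 𝒪)) f a
  rw [← h]
  obtain ⟨c, hc⟩ := IsLocalRing.residue_surjective (f a)
  rw [← hc]
  have := AlgHom.commutes (resToOf (isArtinianTestAlgebra_residueField (𝒪 := 𝒪))) c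
  rw [IsLocalRing.ResidueField.algebraMap_eq] at this
  exact this.symm

end Basics

section Subalgebra

variable {𝒪 : Type} [CommRing 𝒪] [IsLocalRing 𝒪]
variable {A : Type} [CommRing A] [IsLocalRing A] [Algebra 𝒪 A]

theorem isUnit_subalgebra_iff [Finite A] (E : Subalgebra 𝒪 A) (x : E) :
    IsUnit x ↔ IsUnit (x : A) := by
  constructor
  · intro h
    exact h.map E.val
  · rintro ⟨u, hu⟩
    have hpos : 0 < orderOf u := (isOfFinOrder_of_finite u).orderOf_pos
    have hpow : (x : A) ^ orderOf u = 1 := by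
      rw [← hu, ← Units.val_pow_eq_pow_val, pow_orderOf_eq_one, Units.val_one]
    refine IsUnit.of_mul_eq_one (x ^ (orderOf u - 1)) (Subtype.ext ?_)
    show (x : A) * (x : A) ^ (orderOf u - 1) = 1
    rw [← pow_succ', Nat.sub_add_cancel hpos, hpow]

theorem isLocalRing_subalgebra [Finite A] (E : Subalgebra 𝒪 A) : IsLocalRing E := by
  refine IsLocalRing.of_nonunits_add fun x y hx hy => ?_
  rw [mem_nonunits_iff, isUnit_subalgebra_iff] at hx hy ⊢
  exact (maximalIdeal A).add_mem hx hy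

theorem mem_maximalIdeal_subalgebra_iff [Finite A] (E : Subalgebra 𝒪 A) (x : E) :
    letI := isLocalRing_subalgebra E
    x ∈ maximalIdeal E ↔ (x : A) ∈ maximalIdeal A := by
  letI := isLocalRing_subalgebra E
  rw [mem_maximalIdeal, mem_maximalIdeal, mem_nonunits_iff, mem_nonunits_iff,
    isUnit_subalgebra_iff]

/-- A subalgebra of an Artinian test algebra is an Artinian test algebra. -/
theorem isArtinianTestAlgebra_subalgebra [Finite (ResidueField 𝒪)]
    (hA : IsArtinianTestAlgebra 𝒪 A) (E : Subalgebra 𝒪 A) :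
    haveI := finite_of_isArtinianTestAlgebra hA
    letI := isLocalRing_subalgebra E
    IsArtinianTestAlgebra 𝒪 E := by
  haveI := finite_of_isArtinianTestAlgebra hA
  letI := isLocalRing_subalgebra E
  refine ⟨⟨fun c hc => ?_⟩, fun y => ?_, ?_⟩
  · have h1 : IsUnit (algebraMap 𝒪 A c) := by
      have := hc.map E.val
      rwa [AlgHom.commutes] at this
    exact hA.isLocalHom.map_nonunit _ h1
  · obtain ⟨x, rfl⟩ := IsLocalRing.residue_surjective y
    obtain ⟨c, hc⟩ := exists_algebraMap_sub_mem hA.residue_surjective (x : A)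
    refine ⟨c, ?_⟩
    rw [Function.comp_apply, eq_comm, ← sub_eq_zero, ← map_sub, IsLocalRing.residue_eq_zero_iff,
      mem_maximalIdeal_subalgebra_iff]
    exact hc
  · haveI : Finite E := Finite.of_injective (fun x => (x : A)) Subtype.val_injective
    exact isArtinian_of_finite

end Subalgebra

section PowerSeries

variable {σ R : Type*} [Finite σ] [CommRing R]

theorem map_span_X_eq :
    Ideal.map (MvPowerSeries.toAdicCompletionAlgEquiv σ R).toRingEquiv
        (Ideal.span (Set.range MvPowerSeries.X)) =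
      (MvPolynomial.idealOfVars σ R).map (algebraMap (MvPolynomial σ R)
        (AdicCompletion (MvPolynomial.idealOfVars σ R) (MvPolynomial σ R))) := by
  simp_rw [Ideal.map_span, ← Set.range_comp]
  congr 2; ext1
  simp [AdicCompletion.algebraMap_apply, ← MvPolynomial.coe_X, MvPowerSeries.toAdicCompletion_coe]

/-- A power series whose truncation at total degree `n` vanishes lies in the `n`-th power of
the ideal generated by the variables. -/
theorem mem_span_X_pow_of_truncTotal_eq_zero (n : ℕ) (q : MvPowerSeries σ R)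
    (h : MvPowerSeries.truncTotal n q = 0) :
    q ∈ (Ideal.span (Set.range (MvPowerSeries.X : σ → MvPowerSeries σ R))) ^ n := by
  set e := MvPowerSeries.toAdicCompletionAlgEquiv σ R with he
  have h1 : (e q).val n = 0 := by
    rw [he, MvPowerSeries.toAdicCompletionAlgEquiv_apply,
      MvPowerSeries.toAdicCompletion_apply_eq_mk_truncTotal, h, map_zero]
  have h2 : e q ∈ (AdicCompletion.eval (MvPolynomial.idealOfVars σ R) (MvPolynomial σ R) n).ker := by
    rw [LinearMap.mem_ker]
    exact h1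
  rw [← AdicCompletion.pow_smul_top_eq_ker_eval (MvPolynomial.idealOfVars_fg σ R),
    Ideal.smul_top_eq_map, Submodule.restrictScalars_mem, Ideal.map_pow, ← map_span_X_eq,
    ← Ideal.map_pow] at h2
  rw [Ideal.mem_map_of_equiv] at h2
  obtain ⟨y, hy, hyq⟩ := h2
  have : y = q := (MvPowerSeries.toAdicCompletionAlgEquiv σ R).injective hyq
  rw [← this]
  exact hy

theorem sub_truncTotal_mem_span_X_pow (n : ℕ) (p : MvPowerSeries σ R) :
    p - ((MvPowerSeries.truncTotal n p : MvPolynomial σ R) : MvPowerSeries σ R) ∈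
      (Ideal.span (Set.range (MvPowerSeries.X : σ → MvPowerSeries σ R))) ^ n := by
  apply mem_span_X_pow_of_truncTotal_eq_zero
  rw [map_sub, sub_eq_zero]
  ext x
  by_cases hx : Finsupp.degree x < n
  · rw [MvPowerSeries.coeff_truncTotal _ hx, MvPowerSeries.coeff_truncTotal _ hx,
      MvPolynomial.coeff_coe, MvPowerSeries.coeff_truncTotal _ hx]
  · rw [MvPowerSeries.coeff_truncTotal_eq_zero _ (not_lt.mp hx),
      MvPowerSeries.coeff_truncTotal_eq_zero _ (not_lt.mp hx)]

end PowerSeries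

section Eval

variable {𝒪 : Type} [CommRing 𝒪]
variable {A : Type} [CommRing A] [Algebra 𝒪 A]
variable {σ : Type} [Finite σ]

theorem aeval_mem_of_mem_idealOfVars_pow (a : σ → A) (n : ℕ) (q : MvPolynomial σ 𝒪)
    (hq : q ∈ MvPolynomial.idealOfVars σ 𝒪 ^ n) :
    MvPolynomial.aeval a q ∈ Ideal.span (Set.range a) ^ n := by
  have h1 : Ideal.map (MvPolynomial.aeval a : MvPolynomial σ 𝒪 →ₐ[𝒪] A).toRingHom
      (MvPolynomial.idealOfVars σ 𝒪) ≤ Ideal.span (Set.range a) := by
    rw [MvPolynomial.idealOfVars, Ideal.map_span, Ideal.span_le]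
    rintro _ ⟨_, ⟨i, rfl⟩, rfl⟩
    refine Ideal.subset_span ⟨i, ?_⟩
    simp
  have h2 := Ideal.mem_map_of_mem (MvPolynomial.aeval a : MvPolynomial σ 𝒪 →ₐ[𝒪] A).toRingHom hq
  rw [Ideal.map_pow] at h2
  exact Ideal.pow_right_mono h1 n h2

/-- Evaluation of power series at a tuple generating a nilpotent ideal. -/
noncomputable def evalTrunc (a : σ → A) (n : ℕ) (h : Ideal.span (Set.range a) ^ n = ⊥) :
    MvPowerSeries σ 𝒪 →ₐ[𝒪] A :=
  (Ideal.Quotient.liftₐ (MvPolynomial.idealOfVars σ 𝒪 ^ n) (MvPolynomial.aeval a)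
    (fun q hq => by
      have := aeval_mem_of_mem_idealOfVars_pow a n q hq
      rwa [h, Ideal.mem_bot] at this)).comp
    ((MvPowerSeries.truncTotalAlgHom σ 𝒪 n).restrictScalars 𝒪)

theorem evalTrunc_apply (a : σ → A) (n : ℕ) (h : Ideal.span (Set.range a) ^ n = ⊥)
    (p : MvPowerSeries σ 𝒪) :
    evalTrunc a n h p = MvPolynomial.aeval a (MvPowerSeries.truncTotal n p) := rfl

theorem evalTrunc_coe (a : σ → A) (n : ℕ) (h : Ideal.span (Set.range a) ^ n = ⊥)
    (q : MvPolynomial σ 𝒪) :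
    evalTrunc (𝒪 := 𝒪) a n h (q : MvPowerSeries σ 𝒪) = MvPolynomial.aeval a q := by
  rw [evalTrunc_apply, ← sub_eq_zero, ← map_sub]
  have h1 : MvPowerSeries.truncTotal n (q : MvPowerSeries σ 𝒪) - q ∈
      MvPolynomial.idealOfVars σ 𝒪 ^ n := by
    rw [MvPolynomial.mem_pow_idealOfVars_iff']
    intro x hx
    rw [MvPolynomial.coeff_sub, sub_eq_zero, MvPowerSeries.coeff_truncTotal _ hx,
      MvPolynomial.coeff_coe]
  have := aeval_mem_of_mem_idealOfVars_pow a n _ h1
  rwa [h, Ideal.mem_bot] at this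

theorem evalTrunc_X (a : σ → A) (n : ℕ) (h : Ideal.span (Set.range a) ^ n = ⊥) (i : σ) :
    evalTrunc (𝒪 := 𝒪) a n h (MvPowerSeries.X i) = a i := by
  rw [← MvPolynomial.coe_X, evalTrunc_coe, MvPolynomial.aeval_X]

end Eval

section PLocal

variable {𝒪 : Type} [CommRing 𝒪] [IsLocalRing 𝒪]
variable {σ : Type} [Finite σ]

theorem isLocalHom_algebraMap_mvPowerSeries :
    IsLocalHom (algebraMap 𝒪 (MvPowerSeries σ 𝒪)) := by
  refine ⟨fun c hc => ?_⟩
  rw [← MvPowerSeries.c_eq_algebraMap, MvPowerSeries.isUnit_iff_constantCoeff,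
    MvPowerSeries.constantCoeff_C] at hc
  exact hc

theorem mvPowerSeries_mem_maximalIdeal_iff (p : MvPowerSeries σ 𝒪) :
    p ∈ maximalIdeal (MvPowerSeries σ 𝒪) ↔
      MvPowerSeries.constantCoeff p ∈ maximalIdeal 𝒪 := by
  rw [mem_maximalIdeal, mem_maximalIdeal, mem_nonunits_iff, mem_nonunits_iff,
    MvPowerSeries.isUnit_iff_constantCoeff]

theorem residue_surjective_mvPowerSeries :
    Function.Surjective (IsLocalRing.residue (MvPowerSeries σ 𝒪) ∘
      algebraMap 𝒪 (MvPowerSeries σ 𝒪)) := by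
  intro y
  obtain ⟨p, rfl⟩ := IsLocalRing.residue_surjective y
  refine ⟨MvPowerSeries.constantCoeff p, ?_⟩
  rw [Function.comp_apply, eq_comm, ← sub_eq_zero, ← map_sub, residue_eq_zero_iff,
    mvPowerSeries_mem_maximalIdeal_iff, map_sub, ← MvPowerSeries.c_eq_algebraMap,
    MvPowerSeries.constantCoeff_C, sub_self]
  exact zero_mem _

theorem X_mem_maximalIdeal (i : σ) :
    (MvPowerSeries.X i : MvPowerSeries σ 𝒪) ∈ maximalIdeal (MvPowerSeries σ 𝒪) := by
  rw [mvPowerSeries_mem_maximalIdeal_iff, MvPowerSeries.constantCoeff_X]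
  exact zero_mem _

theorem span_X_le_maximalIdeal :
    Ideal.span (Set.range (MvPowerSeries.X : σ → MvPowerSeries σ 𝒪)) ≤
      maximalIdeal (MvPowerSeries σ 𝒪) := by
  rw [Ideal.span_le]
  rintro _ ⟨i, rfl⟩
  exact X_mem_maximalIdeal i

theorem algHom_coe_eq_aeval {B : Type} [CommRing B] [Algebra 𝒪 B]
    (f : MvPowerSeries σ 𝒪 →ₐ[𝒪] B) (q : MvPolynomial σ 𝒪) :
    f (q : MvPowerSeries σ 𝒪) = MvPolynomial.aeval (fun i => f (MvPowerSeries.X i)) q := by
  have h := MvPolynomial.aeval_unique (f.comp (MvPolynomial.coeToMvPowerSeries.algHom (R := 𝒪) 𝒪))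
  have h2 := congrArg (fun g => g q) h
  simp only [AlgHom.comp_apply, MvPolynomial.coeToMvPowerSeries.algHom_apply,
    Algebra.algebraMap_self, MvPowerSeries.map_id, RingHom.id_apply] at h2
  rw [h2]
  congr 2
  ext i
  simp [MvPolynomial.coeToMvPowerSeries.algHom_apply]

/-- Any `𝒪`-algebra map from a power series ring to a test algebra is given by evaluating
truncations. -/
theorem algHom_apply_eq_aeval_truncTotal {B : Type} [CommRing B] [IsLocalRing B] [Algebra 𝒪 B]
    (hB : IsArtinianTestAlgebra 𝒪 B) (f : MvPowerSeries σ 𝒪 →ₐ[𝒪] B) (n : ℕ)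
    (hn : maximalIdeal B ^ n = ⊥) (p : MvPowerSeries σ 𝒪) :
    f p = MvPolynomial.aeval (fun i => f (MvPowerSeries.X i)) (MvPowerSeries.truncTotal n p) := by
  have h1 : f (p - ((MvPowerSeries.truncTotal n p : MvPolynomial σ 𝒪) : MvPowerSeries σ 𝒪)) = 0 := by
    have hmem := sub_truncTotal_mem_span_X_pow n p
    have h2 := Ideal.pow_right_mono (span_X_le_maximalIdeal (𝒪 := 𝒪) (σ := σ)) n hmem
    have h3 := map_maximalIdeal_pow_le isLocalHom_algebraMap_mvPowerSeries hB f n
      (Ideal.mem_map_of_mem _ h2)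
    rwa [hn, Ideal.mem_bot] at h3
  rw [map_sub, sub_eq_zero] at h1
  rw [h1, algHom_coe_eq_aeval]

/-- Two `𝒪`-algebra maps from a power series ring to a test algebra agreeing on the variables
are equal. -/
theorem algHom_ext_X {B : Type} [CommRing B] [IsLocalRing B] [Algebra 𝒪 B]
    (hB : IsArtinianTestAlgebra 𝒪 B) (f g : MvPowerSeries σ 𝒪 →ₐ[𝒪] B)
    (h : ∀ i, f (MvPowerSeries.X i) = g (MvPowerSeries.X i)) : f = g := by
  haveI := hB.isArtinian
  obtain ⟨n, hn⟩ := exists_maximalIdeal_pow_eq_bot (A := B)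
  ext p
  rw [algHom_apply_eq_aeval_truncTotal hB f n hn, algHom_apply_eq_aeval_truncTotal hB g n hn]
  congr 2
  ext i
  exact h i

end PLocal

end AbsRep

end Fermat.Agent.S53
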