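import Mathlib

set_option autoImplicit false

namespace Fermat.Agent.S53

open Ideal

section AdicLimit

variable {P : Type*} [CommRing P]

theorem adicLimit_smodEq_iff (I : Ideal P) (n : ℕ) (x y : P) :
    x ≡ y [SMOD (I ^ n • ⊤ : Submodule P P)] ↔ x - y ∈ I ^ n := by
  rw [SModEq.sub_mem, smul_eq_mul, Ideal.mul_top]

/-- Chevalley-type lemma: in an `I`-adically precomplete ring, a decreasing chain of ideals
`J n` with `I ^ n ≤ J n` and `J n ≤ J (n + 1) ⊔ I ^ n` satisfies `J n ≤ (⨅ m, J m) ⊔ I ^ n`. -/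
theorem adicLimit_le_iInf_sup_pow (I : Ideal P) [IsPrecomplete I P]
    (J : ℕ → Ideal P) (hanti : Antitone J) (hpow : ∀ n, I ^ n ≤ J n)
    (hstep : ∀ n, J n ≤ J (n + 1) ⊔ I ^ n) (n : ℕ) :
    J n ≤ (⨅ m, J m) ⊔ I ^ n := by
  intro x hx
  have step : ∀ (m : ℕ) (y : P), ∃ y' : P,
      y ∈ J (n + m) → y' ∈ J (n + (m + 1)) ∧ y - y' ∈ I ^ (n + m) := by
    intro m y
    by_cases hy : y ∈ J (n + m)
    · obtain ⟨j, hj, i, hi, hji⟩ := Submodule.mem_sup.mp (hstep (n + m) hy)
      refine ⟨j, fun _ => ⟨hj, ?_⟩⟩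
      have : y - j = i := by rw [← hji]; ring
      rw [this]; exact hi
    · exact ⟨0, fun h => absurd h hy⟩
  choose next hnext using step
  let Y : ℕ → P := fun m => Nat.rec x (fun m y => next m y) m
  have hY0 : Y 0 = x := rfl
  have hYsucc : ∀ m, Y (m + 1) = next m (Y m) := fun m => rfl
  have hYmem : ∀ m, Y m ∈ J (n + m) := by
    intro m
    induction m with
    | zero => exact hx
    | succ m ih => rw [hYsucc]; exact (hnext m (Y m) ih).1
  have hYs : ∀ m, Y m - Y (m + 1) ∈ I ^ (n + m) := fun m => by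
    rw [hYsucc]; exact (hnext m (Y m) (hYmem m)).2
  let f : ℕ → P := fun a => Y (a - n)
  have hf1 : ∀ a, f a - f (a + 1) ∈ I ^ a := by
    intro a
    by_cases h : a < n
    · have h1 : a - n = 0 := by omega
      have h2 : a + 1 - n = 0 := by omega
      simp only [f, h1, h2, sub_self]
      exact Ideal.zero_mem _
    · have h2 : a + 1 - n = (a - n) + 1 := by omega
      simp only [f, h2]
      have := hYs (a - n)
      have h3 : n + (a - n) = a := by omega
      rwa [h3] at this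
  have hf : ∀ a b, a ≤ b → f a - f b ∈ I ^ a := by
    intro a b hab
    induction b, hab using Nat.le_induction with
    | base => simp
    | succ b hab ih =>
      have h1 : f a - f (b + 1) = (f a - f b) + (f b - f (b + 1)) := by ring
      rw [h1]
      exact Ideal.add_mem _ ih (Ideal.pow_le_pow_right hab (hf1 b))
  obtain ⟨L, hL⟩ := IsPrecomplete.prec (I := I) (M := P) ‹_› (f := f)
    (fun {a b} hab => (adicLimit_smodEq_iff I a _ _).mpr (hf a b hab))
  have hL' : ∀ a, f a - L ∈ I ^ a := fun a => (adicLimit_smodEq_iff I a _ _).mp (hL a)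
  have hfmem : ∀ a, n ≤ a → f a ∈ J a := by
    intro a ha
    have := hYmem (a - n)
    have h3 : n + (a - n) = a := by omega
    rwa [h3] at this
  have hLmem : L ∈ ⨅ m, J m := by
    rw [Ideal.mem_iInf]
    intro m
    have h1 : f (max m n) ∈ J m := hanti (le_max_left m n) (hfmem _ (le_max_right m n))
    have h2 : f (max m n) - L ∈ J m :=
      hanti (le_max_left m n) (hpow _ (hL' (max m n)))
    have h3 : L = f (max m n) - (f (max m n) - L) := by ring
    rw [h3]
    exact Ideal.sub_mem _ h1 h2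
  have hxL : x - L ∈ I ^ n := by
    have := hL' n
    simpa [f, hY0] using this
  have h3 : x = L + (x - L) := by ring
  rw [h3]
  exact Submodule.add_mem_sup hLmem hxL

/-- Mittag-Leffler: compatible cosets of the chain `J n` have a common point. -/
theorem adicLimit_exists_of_compatible (I : Ideal P) [IsPrecomplete I P]
    (J : ℕ → Ideal P) (hanti : Antitone J) (hpow : ∀ n, I ^ n ≤ J n)
    (hstep : ∀ n, J n ≤ J (n + 1) ⊔ I ^ n)
    (s : ℕ → P) (hs : ∀ n, s (n + 1) - s n ∈ J n) :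
    ∃ x : P, ∀ n, x - s n ∈ J n := by
  have key : ∀ n, ∃ j ∈ ⨅ m, J m, ∃ i ∈ I ^ n, j + i = s (n + 1) - s n := fun n =>
    Submodule.mem_sup.mp (adicLimit_le_iInf_sup_pow I J hanti hpow hstep n (hs n))
  choose j hj i hi hji using key
  let t : ℕ → P := fun n => s 0 + ∑ m ∈ Finset.range n, i m
  have ht1 : ∀ n, t (n + 1) - t n = i n := by
    intro n
    simp only [t, Finset.sum_range_succ]
    ring
  have hts : ∀ n, t n - s n ∈ ⨅ m, J m := by
    intro n
    induction n with
    | zero => simp [t]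
    | succ n ih =>
      have h1 : t (n + 1) - s (n + 1) = (t n - s n) - j n := by
        linear_combination (ht1 n) + (hji n)
      rw [h1]
      exact Ideal.sub_mem _ ih (hj n)
  have hf : ∀ a b, a ≤ b → t a - t b ∈ I ^ a := by
    intro a b hab
    induction b, hab using Nat.le_induction with
    | base => simp
    | succ b hab ih =>
      have h1 : t a - t (b + 1) = (t a - t b) - (t (b + 1) - t b) := by ring
      rw [h1, ht1]
      exact Ideal.sub_mem _ ih (Ideal.pow_le_pow_right hab (hi b))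
  obtain ⟨L, hL⟩ := IsPrecomplete.prec (I := I) (M := P) ‹_› (f := t)
    (fun {a b} hab => (adicLimit_smodEq_iff I a _ _).mpr (hf a b hab))
  refine ⟨L, fun n => ?_⟩
  have h1 : t n - L ∈ J n := hpow n ((adicLimit_smodEq_iff I n _ _).mp (hL n))
  have h2 : t n - s n ∈ J n := (Ideal.mem_iInf.mp (hts n)) n
  have h3 : L - s n = (t n - s n) - (t n - L) := by ring
  rw [h3]
  exact Ideal.sub_mem _ h2 h1

end AdicLimit

section PowerSeriesEval

variable {σ : Type*} {O : Type*} [CommRing O]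

/-- Elements of the `n`-th power of the ideal of variables have order at least `n`. -/
theorem le_order_of_mem_pow_span_X (n : ℕ) (q : MvPowerSeries σ O)
    (hq : q ∈ (Ideal.span (Set.range (MvPowerSeries.X : σ → MvPowerSeries σ O))) ^ n) :
    (n : ℕ∞) ≤ q.order := by
  have h1 : ∀ b ∈ Ideal.span (Set.range (MvPowerSeries.X : σ → MvPowerSeries σ O)),
      (1 : ℕ∞) ≤ b.order := by
    intro b hb
    rw [MvPowerSeries.one_le_order_iff_constCoeff_eq_zero]
    refine Submodule.span_induction ?_ ?_ ?_ ?_ hb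
    · rintro _ ⟨i, rfl⟩
      exact MvPowerSeries.constantCoeff_X i
    · exact map_zero _
    · intro x y _ _ hx hy
      rw [map_add, hx, hy, add_zero]
    · intro a x _ hx
      rw [smul_eq_mul, map_mul, hx, mul_zero]
  induction n generalizing q with
  | zero => simp
  | succ n ih =>
    rw [pow_succ] at hq
    refine Submodule.mul_induction_on hq ?_ ?_
    · intro a ha b hb
      calc ((n + 1 : ℕ) : ℕ∞) = (n : ℕ∞) + 1 := by push_cast; rfl
        _ ≤ a.order + b.order := add_le_add (ih a ha) (h1 b hb)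
        _ ≤ (a * b).order := MvPowerSeries.le_order_mul
    · intro x y hx hy
      exact le_trans (le_min hx hy) MvPowerSeries.min_order_le_add

/-- A power series differs from its total-degree truncation by an element of the
`n`-th power of the ideal of variables. -/
theorem sub_truncTotal_mem_pow_span_X [Finite σ] (n : ℕ) (p : MvPowerSeries σ O) :
    p - ((MvPowerSeries.truncTotal n p : MvPolynomial σ O) : MvPowerSeries σ O) ∈
      (Ideal.span (Set.range (MvPowerSeries.X : σ → MvPowerSeries σ O))) ^ n := by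
  set 𝔛 : Ideal (MvPowerSeries σ O) := Ideal.span (Set.range MvPowerSeries.X) with h𝔛
  let f : ℕ → MvPowerSeries σ O := fun m => ((MvPowerSeries.truncTotal m p : MvPolynomial σ O) :
    MvPowerSeries σ O)
  have hmap : ∀ (m : ℕ) (q : MvPolynomial σ O), q ∈ MvPolynomial.idealOfVars σ O ^ m →
      (q : MvPowerSeries σ O) ∈ 𝔛 ^ m := by
    intro m q hq
    have h1 : (MvPolynomial.idealOfVars σ O ^ m).map
        (MvPolynomial.coeToMvPowerSeries.ringHom (σ := σ) (R := O)) ≤ 𝔛 ^ m := by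
      rw [Ideal.map_pow]
      refine Ideal.pow_right_mono ?_ m
      rw [MvPolynomial.idealOfVars, Ideal.map_span, Ideal.span_le]
      rintro _ ⟨_, ⟨i, rfl⟩, rfl⟩
      refine Ideal.subset_span ⟨i, ?_⟩
      simp
    exact h1 (Ideal.mem_map_of_mem _ hq)
  have hf : ∀ {a b : ℕ}, a ≤ b → f a ≡ f b [SMOD (𝔛 ^ a • ⊤ : Submodule (MvPowerSeries σ O) (MvPowerSeries σ O))] := by
    intro a b hab
    rw [adicLimit_smodEq_iff]
    have := hmap a _ (MvPowerSeries.truncTotal_sub_truncTotal_mem_pow_idealOfVars (le_refl a) hab p)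
    have h2 : ((MvPowerSeries.truncTotal a p - MvPowerSeries.truncTotal b p : MvPolynomial σ O) :
        MvPowerSeries σ O) = f a - f b :=
      map_sub (MvPolynomial.coeToMvPowerSeries.ringHom (σ := σ) (R := O)) _ _
    rw [h2] at this
    exact this
  obtain ⟨L, hL⟩ := IsPrecomplete.prec (I := 𝔛) (M := MvPowerSeries σ O) inferInstance (f := f) hf
  have hL' : ∀ a, f a - L ∈ 𝔛 ^ a := fun a => (adicLimit_smodEq_iff 𝔛 a _ _).mp (hL a)
  have hLp : L = p := by
    ext d
    have h1 := le_order_of_mem_pow_span_X (Finsupp.degree d + 1) _ (hL' (Finsupp.degree d + 1))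
    have h2 : MvPowerSeries.coeff d (f (Finsupp.degree d + 1) - L) = 0 := by
      apply MvPowerSeries.coeff_of_lt_order
      refine lt_of_lt_of_le ?_ h1
      exact_mod_cast Nat.lt_succ_self _
    rw [map_sub, sub_eq_zero] at h2
    rw [← h2]
    simp only [f, MvPolynomial.coeff_coe]
    exact MvPowerSeries.coeff_truncTotal _ (Nat.lt_succ_self _)
  have := hL' n
  rw [hLp] at this
  have h3 : p - f n = -(f n - p) := by ring
  rw [show ((MvPowerSeries.truncTotal n p : MvPolynomial σ O) : MvPowerSeries σ O) = f n from rfl, h3]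
  exact Ideal.neg_mem_iff _ |>.mpr this

variable {A : Type*} [CommRing A] [Algebra O A]

theorem aeval_mem_pow_of_mem_pow_idealOfVars (a : σ → A) (n : ℕ) (q : MvPolynomial σ O)
    (hq : q ∈ MvPolynomial.idealOfVars σ O ^ n) :
    MvPolynomial.aeval a q ∈ Ideal.span (Set.range a) ^ n := by
  have h1 : (MvPolynomial.idealOfVars σ O ^ n).map (MvPolynomial.aeval (R := O) a) ≤
      Ideal.span (Set.range a) ^ n := by
    rw [Ideal.map_pow]
    refine Ideal.pow_right_mono ?_ n
    rw [MvPolynomial.idealOfVars, Ideal.map_span, Ideal.span_le]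
    rintro _ ⟨_, ⟨i, rfl⟩, rfl⟩
    refine Ideal.subset_span ⟨i, ?_⟩
    simp
  exact h1 (Ideal.mem_map_of_mem _ hq)

/-- Evaluation of a power series at a family `a` generating an ideal whose `n`-th power
vanishes. -/
noncomputable def evalNilp [Finite σ] (a : σ → A) (n : ℕ)
    (ha : Ideal.span (Set.range a) ^ n = ⊥) : MvPowerSeries σ O →ₐ[O] A :=
  (Ideal.Quotient.liftₐ (MvPolynomial.idealOfVars σ O ^ n) (MvPolynomial.aeval (R := O) a)
    (fun q hq => by
      have := aeval_mem_pow_of_mem_pow_idealOfVars a n q hq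
      rwa [ha, Ideal.mem_bot] at this)).comp
    ((MvPowerSeries.truncTotalAlgHom σ O n).restrictScalars O)

theorem evalNilp_apply [Finite σ] (a : σ → A) (n : ℕ)
    (ha : Ideal.span (Set.range a) ^ n = ⊥) (p : MvPowerSeries σ O) :
    evalNilp a n ha p = MvPolynomial.aeval a (MvPowerSeries.truncTotal n p) := rfl

theorem evalNilp_coe [Finite σ] (a : σ → A) (n : ℕ)
    (ha : Ideal.span (Set.range a) ^ n = ⊥) (q : MvPolynomial σ O) :
    evalNilp a n ha (q : MvPowerSeries σ O) = MvPolynomial.aeval a q := by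
  rw [evalNilp_apply]
  have h1 : (MvPowerSeries.truncTotalAlgHom σ O n) (algebraMap (MvPolynomial σ O)
      (MvPowerSeries σ O) q) = algebraMap _ _ q := AlgHom.commutes _ q
  have h3 : MvPowerSeries.truncTotal n (q : MvPowerSeries σ O) - q ∈
      MvPolynomial.idealOfVars σ O ^ n := by
    rw [← Ideal.Quotient.eq]; exact h1
  have h4 := aeval_mem_pow_of_mem_pow_idealOfVars a n _ h3
  rw [ha, Ideal.mem_bot, map_sub, sub_eq_zero] at h4
  exact h4

theorem evalNilp_X [Finite σ] (a : σ → A) (n : ℕ)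
    (ha : Ideal.span (Set.range a) ^ n = ⊥) (i : σ) :
    evalNilp a n ha (MvPowerSeries.X i : MvPowerSeries σ O) = a i := by
  rw [← MvPolynomial.coe_X, evalNilp_coe, MvPolynomial.aeval_X]

theorem evalNilp_mem_pow [Finite σ] (a : σ → A) (n : ℕ)
    (ha : Ideal.span (Set.range a) ^ n = ⊥) (m : ℕ) (p : MvPowerSeries σ O)
    (hp : p ∈ (Ideal.span (Set.range (MvPowerSeries.X : σ → MvPowerSeries σ O))) ^ m) :
    evalNilp a n ha p ∈ Ideal.span (Set.range a) ^ m := by
  have h1 : ((Ideal.span (Set.range (MvPowerSeries.X : σ → MvPowerSeries σ O))) ^ m).map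
      (evalNilp (O := O) a n ha) ≤ Ideal.span (Set.range a) ^ m := by
    rw [Ideal.map_pow]
    refine Ideal.pow_right_mono ?_ m
    rw [Ideal.map_span, Ideal.span_le]
    rintro _ ⟨_, ⟨i, rfl⟩, rfl⟩
    refine Ideal.subset_span ⟨i, ?_⟩
    rw [evalNilp_X]
  exact h1 (Ideal.mem_map_of_mem _ hp)

theorem evalNilp_eq_zero_of_mem_pow [Finite σ] (a : σ → A) (n : ℕ)
    (ha : Ideal.span (Set.range a) ^ n = ⊥) (p : MvPowerSeries σ O)
    (hp : p ∈ (Ideal.span (Set.range (MvPowerSeries.X : σ → MvPowerSeries σ O))) ^ n) :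
    evalNilp a n ha p = 0 := by
  have := evalNilp_mem_pow a n ha n p hp
  rwa [ha, Ideal.mem_bot] at this

theorem evalNilp_surjective [Finite σ] (a : σ → A) (n : ℕ)
    (ha : Ideal.span (Set.range a) ^ n = ⊥) (hgen : Algebra.adjoin O (Set.range a) = ⊤) :
    Function.Surjective (evalNilp (O := O) a n ha) := by
  intro y
  have hy : y ∈ (MvPolynomial.aeval (R := O) a).range := by
    rw [← Algebra.adjoin_range_eq_range_aeval, hgen]
    exact Algebra.mem_top
  obtain ⟨q, rfl⟩ := hy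
  exact ⟨(q : MvPowerSeries σ O), evalNilp_coe a n ha q⟩

/-- Two algebra maps out of a power series ring in finitely many variables which agree on the
variables and send them into an ideal `𝔞` with `⨅ n, 𝔞 ^ n = ⊥` are equal. -/
theorem mvPowerSeries_algHom_ext [Finite σ] (𝔞 : Ideal A) (h𝔞 : ⨅ n, 𝔞 ^ n = ⊥)
    (φ φ' : MvPowerSeries σ O →ₐ[O] A)
    (hφ : ∀ i, φ (MvPowerSeries.X i) ∈ 𝔞)
    (h : ∀ i, φ (MvPowerSeries.X i) = φ' (MvPowerSeries.X i)) : φ = φ' := by
  have hpoly : ∀ q : MvPolynomial σ O, φ (q : MvPowerSeries σ O) = φ' (q : MvPowerSeries σ O) := by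
    intro q
    have h1 : (φ.comp (MvPolynomial.coeToMvPowerSeries.algHom (σ := σ) (R := O) O)) =
        (φ'.comp (MvPolynomial.coeToMvPowerSeries.algHom (σ := σ) (R := O) O)) := by
      apply MvPolynomial.algHom_ext
      intro i
      simp [MvPolynomial.coeToMvPowerSeries.algHom_apply, h i]
    have h2 := congrArg (fun ψ => ψ q) h1
    simpa [MvPolynomial.coeToMvPowerSeries.algHom_apply] using h2
  have hmem : ∀ (ψ : MvPowerSeries σ O →ₐ[O] A), (∀ i, ψ (MvPowerSeries.X i) ∈ 𝔞) →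
      ∀ (n : ℕ) (p : MvPowerSeries σ O),
      p ∈ (Ideal.span (Set.range (MvPowerSeries.X : σ → MvPowerSeries σ O))) ^ n → ψ p ∈ 𝔞 ^ n := by
    intro ψ hψ n p hp
    have h1 : ((Ideal.span (Set.range (MvPowerSeries.X : σ → MvPowerSeries σ O))) ^ n).map ψ ≤
        𝔞 ^ n := by
      rw [Ideal.map_pow]
      refine Ideal.pow_right_mono ?_ n
      rw [Ideal.map_span, Ideal.span_le]
      rintro _ ⟨_, ⟨i, rfl⟩, rfl⟩
      exact hψ i
    exact h1 (Ideal.mem_map_of_mem _ hp)
  ext1 p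
  have key : ∀ n, φ p - φ' p ∈ 𝔞 ^ n := by
    intro n
    have hd := sub_truncTotal_mem_pow_span_X n p
    have e : φ p - φ' p = φ (p - ((MvPowerSeries.truncTotal n p : MvPolynomial σ O) :
        MvPowerSeries σ O)) - φ' (p - ((MvPowerSeries.truncTotal n p : MvPolynomial σ O) :
        MvPowerSeries σ O)) := by
      rw [map_sub, map_sub, hpoly]; ring
    rw [e]
    exact Ideal.sub_mem _ (hmem φ hφ n _ hd) (hmem φ' (fun i => h i ▸ hφ i) n _ hd)
  have : φ p - φ' p ∈ ⨅ n, 𝔞 ^ n := Ideal.mem_iInf.mpr key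
  rw [h𝔞, Ideal.mem_bot] at this
  exact sub_eq_zero.mp this

theorem iInf_pow_eq_bot_of_isHausdorff {B : Type*} [CommRing B] (𝔟 : Ideal B) [IsHausdorff 𝔟 B] :
    ⨅ n, 𝔟 ^ n = ⊥ := by
  rw [eq_bot_iff]
  intro x hx
  rw [Ideal.mem_iInf] at hx
  rw [Ideal.mem_bot]
  apply IsHausdorff.haus (I := 𝔟) ‹_› x
  intro n
  rw [adicLimit_smodEq_iff, sub_zero]
  exact hx n

theorem span_range_mk_pow_eq_bot {B : Type*} [CommRing B] (𝔟 : Ideal B) (b : σ → B)
    (hb : ∀ i, b i ∈ 𝔟) (n : ℕ) :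
    Ideal.span (Set.range (fun i => Ideal.Quotient.mk (𝔟 ^ n) (b i))) ^ n = ⊥ := by
  rw [eq_bot_iff]
  have h1 : Ideal.span (Set.range (fun i => Ideal.Quotient.mk (𝔟 ^ n) (b i))) ≤
      𝔟.map (Ideal.Quotient.mk (𝔟 ^ n)) := by
    rw [Ideal.span_le]
    rintro _ ⟨i, rfl⟩
    exact Ideal.mem_map_of_mem _ (hb i)
  refine le_trans (Ideal.pow_right_mono h1 n) ?_
  rw [← Ideal.map_pow, Ideal.map_quotient_self]

theorem evalNilp_mk_compat [Finite σ] {B : Type*} [CommRing B] [Algebra O B] (𝔟 : Ideal B)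
    (b : σ → B) (hb : ∀ i, b i ∈ 𝔟) {m n : ℕ} (hle : m ≤ n) :
    (Ideal.Quotient.factorₐ O (Ideal.pow_le_pow_right hle)).comp
      (evalNilp (O := O) (fun i => Ideal.Quotient.mk (𝔟 ^ n) (b i)) n
        (span_range_mk_pow_eq_bot 𝔟 b hb n)) =
    evalNilp (O := O) (fun i => Ideal.Quotient.mk (𝔟 ^ m) (b i)) m
      (span_range_mk_pow_eq_bot 𝔟 b hb m) := by
  refine mvPowerSeries_algHom_ext (𝔟.map (Ideal.Quotient.mk (𝔟 ^ m))) ?_ _ _ ?_ ?_
  · rw [eq_bot_iff]
    refine le_trans (iInf_le _ m) ?_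
    rw [← Ideal.map_pow, Ideal.map_quotient_self]
  · intro i
    rw [AlgHom.comp_apply, evalNilp_X]
    exact Ideal.mem_map_of_mem _ (hb i)
  · intro i
    rw [AlgHom.comp_apply, evalNilp_X, evalNilp_X]
    rfl

/-- Evaluation of a power series at a family lying in an ideal `𝔟` of a `𝔟`-adically
complete algebra. -/
noncomputable def evalComplete [Finite σ] {B : Type*} [CommRing B] [Algebra O B] (𝔟 : Ideal B)
    [IsAdicComplete 𝔟 B] (b : σ → B) (hb : ∀ i, b i ∈ 𝔟) : MvPowerSeries σ O →ₐ[O] B :=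
  IsAdicComplete.liftAlgHom 𝔟
    (fun n => evalNilp (O := O) (fun i => Ideal.Quotient.mk (𝔟 ^ n) (b i)) n
      (span_range_mk_pow_eq_bot 𝔟 b hb n))
    (fun {_ _} hle => evalNilp_mk_compat 𝔟 b hb hle)

theorem mk_evalComplete [Finite σ] {B : Type*} [CommRing B] [Algebra O B] (𝔟 : Ideal B)
    [IsAdicComplete 𝔟 B] (b : σ → B) (hb : ∀ i, b i ∈ 𝔟) (n : ℕ) (p : MvPowerSeries σ O) :
    Ideal.Quotient.mk (𝔟 ^ n) (evalComplete 𝔟 b hb p) =
      evalNilp (O := O) (fun i => Ideal.Quotient.mk (𝔟 ^ n) (b i)) n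
        (span_range_mk_pow_eq_bot 𝔟 b hb n) p :=
  IsAdicComplete.mk_liftAlgHom 𝔟 _ (fun {_ _} hle => evalNilp_mk_compat 𝔟 b hb hle) n p

theorem evalComplete_X [Finite σ] {B : Type*} [CommRing B] [Algebra O B] (𝔟 : Ideal B)
    [IsAdicComplete 𝔟 B] (b : σ → B) (hb : ∀ i, b i ∈ 𝔟) (i : σ) :
    evalComplete (O := O) 𝔟 b hb (MvPowerSeries.X i) = b i := by
  rw [← sub_eq_zero]
  have h0 := iInf_pow_eq_bot_of_isHausdorff 𝔟
  rw [← Ideal.mem_bot, ← h0, Ideal.mem_iInf]
  intro n
  rw [← Ideal.Quotient.eq, mk_evalComplete, evalNilp_X]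

/-- Existence and uniqueness of the algebra map out of a power series ring with prescribed
values on the variables, for a complete target. -/
theorem existsUnique_algHom_mvPowerSeries [Finite σ] {B : Type*} [CommRing B] [Algebra O B]
    (𝔟 : Ideal B) [IsAdicComplete 𝔟 B] (b : σ → B) (hb : ∀ i, b i ∈ 𝔟) :
    ∃! φ : MvPowerSeries σ O →ₐ[O] B, ∀ i, φ (MvPowerSeries.X i) = b i := by
  refine ⟨evalComplete 𝔟 b hb, evalComplete_X 𝔟 b hb, ?_⟩
  intro φ hφ
  refine mvPowerSeries_algHom_ext 𝔟 (iInf_pow_eq_bot_of_isHausdorff 𝔟) _ _ ?_ ?_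
  · intro i; rw [hφ i]; exact hb i
  · intro i; rw [hφ i, evalComplete_X]

end PowerSeriesEval

end Fermat.Agent.S53
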