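import Fermat.Agent.S53.FibProd

set_option autoImplicit false
set_option linter.style.haveILetI false
set_option linter.unusedSectionVars false

namespace Fermat.Agent.S53

open IsLocalRing GaloisRep

section CNL

variable {𝒪 : Type} [CommRing 𝒪] [IsLocalRing 𝒪] [Finite (ResidueField 𝒪)]
variable {Γ : Type}
  {F : ∀ ⦃A : Type⦄ [CommRing A] [IsLocalRing A] [Algebra 𝒪 A], (Γ → A) → Prop}
variable {R : Type} [CommRing R] [Algebra 𝒪 R]

/-- **From Artinian test algebras to complete Noetherian local algebras.**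
If `xR : Γ → R` is universal among the `F`-points over Artinian test algebras, then it is
universal among the coordinate families over complete Noetherian local `𝒪`-algebras `A` (with
residue field that of `𝒪`) all of whose Artinian specialisations are `F`-points. -/
theorem cnl_universal (xR : Γ → R)
    (hart : ∀ ⦃A : Type⦄ [CommRing A] [IsLocalRing A] [Algebra 𝒪 A],
      IsArtinianTestAlgebra 𝒪 A → ∀ x : Γ → A, F x → ∃! φ : R →ₐ[𝒪] A, ∀ γ, φ (xR γ) = x γ) :
    ∀ (A : Type) [CommRing A] [IsLocalRing A] [IsNoetherianRing A]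
      [IsAdicComplete (maximalIdeal A) A] [Algebra 𝒪 A] [IsLocalHom (algebraMap 𝒪 A)],
      Function.Surjective (residue A ∘ algebraMap 𝒪 A) → ∀ x : Γ → A,
        (∀ ⦃B : Type⦄ [CommRing B] [IsLocalRing B] [Algebra 𝒪 B], IsArtinianTestAlgebra 𝒪 B →
          ∀ (q : A →ₐ[𝒪] B), IsLocalHom (q : A →+* B) → Function.Surjective q →
            F (fun γ => q (x γ))) →
        ∃! φ : R →ₐ[𝒪] A, ∀ γ, φ (xR γ) = x γ := by
  intro A _ _ _ _ _ hloc hsurj x hx
  letI instL : ∀ k : ℕ, IsLocalRing (A ⧸ maximalIdeal A ^ (k + 1)) := fun k =>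
    FP.isLocalRing_quotient (FP.maximalIdeal_pow_ne_top (Nat.succ_ne_zero k))
  have hT : ∀ k : ℕ, IsArtinianTestAlgebra 𝒪 (A ⧸ maximalIdeal A ^ (k + 1)) := fun k =>
    FP.isArtinianTestAlgebra_quotient_pow hloc hsurj (Nat.succ_ne_zero k)
  have hq : ∀ k : ℕ, F (fun γ => Ideal.Quotient.mkₐ 𝒪 (maximalIdeal A ^ (k + 1)) (x γ)) :=
    fun k => hx (hT k) (Ideal.Quotient.mkₐ 𝒪 _)
      (FP.isLocalHom_quotient_mkₐ (FP.maximalIdeal_pow_ne_top (Nat.succ_ne_zero k)))
      (Ideal.Quotient.mkₐ_surjective 𝒪 _)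
  choose φ hφ hφu using fun k => hart (hT k) _ (hq k)
  -- the level maps
  let f : (n : ℕ) → R →ₐ[𝒪] A ⧸ maximalIdeal A ^ n := fun n =>
    (Ideal.Quotient.factorₐ 𝒪 (Ideal.pow_le_pow_right (Nat.le_succ n))).comp (φ n)
  have hkey : ∀ {m n : ℕ} (hle : m ≤ n),
      (Ideal.Quotient.factorₐ 𝒪 (Ideal.pow_le_pow_right (Nat.succ_le_succ hle))).comp (φ n) =
        φ m := by
    intro m n hle
    refine hφu m _ fun γ => ?_
    rw [AlgHom.comp_apply, hφ n γ]
    rfl
  have hf : ∀ {m n : ℕ} (hle : m ≤ n),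
      (Ideal.Quotient.factorₐ 𝒪 (Ideal.pow_le_pow_right hle)).comp (f n) = f m := by
    intro m n hle
    refine AlgHom.ext fun r => ?_
    simp only [f, AlgHom.comp_apply]
    rw [← hkey hle, AlgHom.comp_apply]
    obtain ⟨a, ha⟩ := Ideal.Quotient.mk_surjective (φ n r)
    rw [← ha]
    rfl
  have hfx : ∀ n γ, f n (xR γ) = Ideal.Quotient.mk (maximalIdeal A ^ n) (x γ) := by
    intro n γ
    simp only [f, AlgHom.comp_apply]
    rw [hφ n γ]
    rfl
  have hsep : ∀ a b : A, (∀ n, Ideal.Quotient.mk (maximalIdeal A ^ n) a =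
      Ideal.Quotient.mk (maximalIdeal A ^ n) b) → a = b := by
    intro a b h
    have h0 : a - b = 0 := by
      refine IsHausdorff.haus (I := maximalIdeal A) inferInstance (a - b) fun n => ?_
      rw [SModEq.zero, smul_eq_mul, Ideal.mul_top]
      exact Ideal.Quotient.eq.mp (h n)
    exact sub_eq_zero.mp h0
  refine ⟨IsAdicComplete.liftAlgHom (maximalIdeal A) f hf, fun γ => ?_, fun ψ hψ => ?_⟩
  · refine hsep _ _ fun n => ?_
    rw [← hfx n γ]
    exact IsAdicComplete.mk_liftAlgHom (maximalIdeal A) f hf n (xR γ)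
  · refine IsAdicComplete.algHom_ext (maximalIdeal A) fun n => ?_
    rw [IsAdicComplete.mkₐ_comp_liftAlgHom]
    have h1 : (Ideal.Quotient.mkₐ 𝒪 (maximalIdeal A ^ (n + 1))).comp ψ = φ n :=
      hφu n _ fun γ => by rw [AlgHom.comp_apply, hψ γ]
    refine AlgHom.ext fun r => ?_
    simp only [f, AlgHom.comp_apply]
    rw [← h1]
    rfl

end CNL

end Fermat.Agent.S53
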