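import Mathlib
import Fermat.Prelude.Thm_IsAdicComplete_of_module_finite

set_option autoImplicit false

namespace Fermat.Agent.S53

section IdealSystem

variable {P : Type*} [CommRing P]

/-- The infimum of all members of `S` containing `I ^ n`. -/
def levelInf (S : Set (Ideal P)) (I : Ideal P) (n : ℕ) : Ideal P :=
  sInf {J | J ∈ S ∧ I ^ n ≤ J}

theorem pow_le_levelInf (S : Set (Ideal P)) (I : Ideal P) (n : ℕ) :
    I ^ n ≤ levelInf S I n :=
  le_sInf fun _ hJ => hJ.2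

theorem levelInf_le {S : Set (Ideal P)} {I : Ideal P} {n : ℕ} {J : Ideal P} (hJ : J ∈ S)
    (hn : I ^ n ≤ J) : levelInf S I n ≤ J :=
  sInf_le ⟨hJ, hn⟩

/-- The level-`n` infimum is attained, provided all members of `S` contain `J₀`, the quotient
`P ⧸ (J₀ ⊔ I ^ n)` is Artinian, and `S` is closed under binary intersections. -/
theorem levelInf_mem (S : Set (Ideal P)) (I J₀ : Ideal P)
    (h0 : ∀ J ∈ S, J₀ ≤ J)
    (hinf : ∀ J₁ ∈ S, ∀ J₂ ∈ S, J₁ ⊓ J₂ ∈ S)
    (n : ℕ) (hArt : IsArtinianRing (P ⧸ (J₀ ⊔ I ^ n)))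
    (hne : ∃ J ∈ S, I ^ n ≤ J) :
    levelInf S I n ∈ S := by
  classical
  set K : Ideal P := J₀ ⊔ I ^ n with hK
  set T : Set (Ideal P) := {J | J ∈ S ∧ I ^ n ≤ J} with hT
  have hKle : ∀ J ∈ T, K ≤ J := fun J hJ => sup_le (h0 J hJ.1) hJ.2
  have hcm : ∀ J ∈ T, Ideal.comap (Ideal.Quotient.mk K) (Ideal.map (Ideal.Quotient.mk K) J) = J := by
    intro J hJ
    rw [Ideal.comap_map_of_surjective _ Ideal.Quotient.mk_surjective, ← RingHom.ker_eq_comap_bot,
      Ideal.mk_ker]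
    exact sup_eq_left.mpr (hKle J hJ)
  obtain ⟨J, hJS, hJn⟩ := hne
  have hTne : (Ideal.map (Ideal.Quotient.mk K) '' T).Nonempty := ⟨_, J, ⟨hJS, hJn⟩, rfl⟩
  obtain ⟨M, ⟨Jm, hJm, rfl⟩, hmin⟩ :=
    IsArtinian.set_has_minimal (R := P ⧸ K) (M := P ⧸ K) _ hTne
  have hle : ∀ J' ∈ T, Jm ≤ J' := by
    intro J' hJ'
    have hmem : Jm ⊓ J' ∈ T := ⟨hinf _ hJm.1 _ hJ'.1, le_inf hJm.2 hJ'.2⟩
    have h1 : Ideal.map (Ideal.Quotient.mk K) (Jm ⊓ J') ≤ Ideal.map (Ideal.Quotient.mk K) Jm :=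
      Ideal.map_mono inf_le_left
    have h2 : Ideal.map (Ideal.Quotient.mk K) (Jm ⊓ J') = Ideal.map (Ideal.Quotient.mk K) Jm := by
      by_contra hne'
      exact hmin _ ⟨_, hmem, rfl⟩ (lt_of_le_of_ne h1 hne')
    have h3 : Jm ⊓ J' = Jm := by
      rw [← hcm _ hmem, h2, hcm _ hJm]
    exact inf_eq_left.mp h3
  have : levelInf S I n = Jm := le_antisymm (sInf_le hJm) (le_sInf hle)
  rw [this]
  exact hJm.1

/-- Step relation `J_n = J_{n+1} ⊔ I ^ n` for the level infima. -/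
theorem levelInf_eq_succ_sup (S : Set (Ideal P)) (I J₀ : Ideal P)
    (h0 : ∀ J ∈ S, J₀ ≤ J)
    (hArt : ∀ n, IsArtinianRing (P ⧸ (J₀ ⊔ I ^ n)))
    (hinf : ∀ J₁ ∈ S, ∀ J₂ ∈ S, J₁ ⊓ J₂ ∈ S)
    (hsup : ∀ J ∈ S, ∀ n, 0 < n → J ⊔ I ^ n ∈ S)
    (hne : S.Nonempty) (n : ℕ) (hn : 0 < n) :
    levelInf S I n = levelInf S I (n + 1) ⊔ I ^ n := by
  obtain ⟨J, hJ⟩ := hne
  have hne' : ∀ m, 0 < m → ∃ J ∈ S, I ^ m ≤ J := fun m hm => ⟨_, hsup J hJ m hm, le_sup_right⟩
  have hmem : ∀ m, 0 < m → levelInf S I m ∈ S := fun m hm =>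
    levelInf_mem S I J₀ h0 hinf m (hArt m) (hne' m hm)
  apply le_antisymm
  · exact levelInf_le (hsup _ (hmem (n + 1) (Nat.succ_pos n)) n hn) le_sup_right
  · refine sup_le ?_ (pow_le_levelInf S I n)
    exact levelInf_le (hmem n hn)
      ((Ideal.pow_le_pow_right (Nat.le_succ n)).trans (pow_le_levelInf S I n))

theorem levelInf_mem_of_pos (S : Set (Ideal P)) (I J₀ : Ideal P)
    (h0 : ∀ J ∈ S, J₀ ≤ J)
    (hArt : ∀ n, IsArtinianRing (P ⧸ (J₀ ⊔ I ^ n)))
    (hinf : ∀ J₁ ∈ S, ∀ J₂ ∈ S, J₁ ⊓ J₂ ∈ S)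
    (hsup : ∀ J ∈ S, ∀ n, 0 < n → J ⊔ I ^ n ∈ S)
    (hne : S.Nonempty) (n : ℕ) (hn : 0 < n) :
    levelInf S I n ∈ S := by
  obtain ⟨J, hJ⟩ := hne
  exact levelInf_mem S I J₀ h0 hinf n (hArt n) ⟨_, hsup J hJ n hn, le_sup_right⟩

end IdealSystem

section Approx

variable {P : Type*} [CommRing P]

theorem antitone_of_step (I : Ideal P) (Jn : ℕ → Ideal P)
    (hstep : ∀ n, 0 < n → Jn n = Jn (n + 1) ⊔ I ^ n) {a b : ℕ} (ha : 0 < a) (hab : a ≤ b) :
    Jn b ≤ Jn a := by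
  induction b, hab using Nat.le_induction with
  | base => exact le_rfl
  | succ b hab ih =>
    refine le_trans ?_ ih
    rw [hstep b (lt_of_lt_of_le ha hab)]
    exact le_sup_left

theorem pow_le_of_step (I : Ideal P) (Jn : ℕ → Ideal P)
    (hstep : ∀ n, 0 < n → Jn n = Jn (n + 1) ⊔ I ^ n) {a : ℕ} (ha : 0 < a) :
    I ^ a ≤ Jn a := by
  rw [hstep a ha]
  exact le_sup_right

/-- `I`-adic successive approximation: if `J_n = J_{n+1} ⊔ I ^ n` for all `n > 0` and `P` is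
`I`-adically precomplete then `J_n = (⨅ m, J_{m+1}) ⊔ I ^ n`. -/
theorem eq_iInf_sup_pow (I : Ideal P) [IsPrecomplete I P] (Jn : ℕ → Ideal P)
    (hstep : ∀ n, 0 < n → Jn n = Jn (n + 1) ⊔ I ^ n) (n : ℕ) (hn : 0 < n) :
    Jn n = (⨅ m, Jn (m + 1)) ⊔ I ^ n := by
  classical
  apply le_antisymm
  · intro x hx
    have key : ∀ j : ℕ, ∀ z : P, z ∈ Jn (n + j) → ∃ z' : P, z' ∈ Jn (n + j + 1) ∧
        z - z' ∈ I ^ (n + j) := by
      intro j z hz
      rw [hstep (n + j) (by omega)] at hz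
      obtain ⟨z', hz', m, hm, rfl⟩ := Submodule.mem_sup.mp hz
      exact ⟨z', hz', by simpa using hm⟩
    choose! f hf1 hf2 using key
    let s : ℕ → P := fun j => Nat.rec x (fun j z => f j z) j
    have hs0 : s 0 = x := rfl
    have hss : ∀ j, s (j + 1) = f j (s j) := fun j => rfl
    have hs : ∀ j, s j ∈ Jn (n + j) := by
      intro j
      induction j with
      | zero => simpa [hs0] using hx
      | succ j ih => rw [hss]; exact hf1 j _ ih
    have hd : ∀ j, s j - s (j + 1) ∈ I ^ (n + j) := fun j => by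
      rw [hss]; exact hf2 j _ (hs j)
    -- the Cauchy sequence `x - s j`
    have hcau : ∀ a b : ℕ, a ≤ b → s a - s b ∈ I ^ (n + a) := by
      intro a b hab
      induction b, hab using Nat.le_induction with
      | base => simp
      | succ b hab ih =>
        have h1 : s b - s (b + 1) ∈ I ^ (n + a) :=
          Ideal.pow_le_pow_right (by omega) (hd b)
        have : s a - s (b + 1) = (s a - s b) + (s b - s (b + 1)) := by ring
        rw [this]
        exact Ideal.add_mem _ ih h1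
    obtain ⟨L, hL⟩ := IsPrecomplete.prec' (I := I) (M := P) (fun j => x - s j) (by
      intro a b hab
      rw [SModEq.sub_mem]
      have : x - s a - (x - s b) = -(s a - s b) := by ring
      rw [this, smul_eq_mul, Ideal.mul_top]
      exact neg_mem (Ideal.pow_le_pow_right (by omega) (hcau a b hab)))
    have hL' : ∀ j, x - s j - L ∈ I ^ j := by
      intro j
      have := hL j
      rw [SModEq.sub_mem, smul_eq_mul, Ideal.mul_top] at this
      exact this
    have hLn : L ∈ I ^ n := by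
      have h1 : x - s n ∈ I ^ n := by
        have := hcau 0 n (Nat.zero_le n)
        simpa [hs0] using this
      have h2 := hL' n
      have : L = (x - s n) - (x - s n - L) := by ring
      rw [this]
      exact Ideal.sub_mem _ h1 h2
    have hxL : x - L ∈ ⨅ m, Jn (m + 1) := by
      rw [Ideal.mem_iInf]
      intro m
      have h1 : s (m + 1) ∈ Jn (m + 1) :=
        antitone_of_step I Jn hstep (Nat.succ_pos m) (by omega) (hs (m + 1))
      have h2 : x - s (m + 1) - L ∈ Jn (m + 1) :=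
        pow_le_of_step I Jn hstep (Nat.succ_pos m) (hL' (m + 1))
      have : x - L = s (m + 1) + (x - s (m + 1) - L) := by ring
      rw [this]
      exact Ideal.add_mem _ h1 h2
    have : x = (x - L) + L := by ring
    rw [this]
    exact Submodule.add_mem_sup hxL hLn
  · refine sup_le ?_ (pow_le_of_step I Jn hstep hn)
    obtain ⟨m, rfl⟩ : ∃ m, n = m + 1 := ⟨n - 1, by omega⟩
    exact iInf_le _ m

end Approx

section Quot

variable {P : Type*} [CommRing P]

/-- A quotient of a Noetherian `I`-adically complete ring is complete for the image ideal. -/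
theorem isAdicComplete_quotient_map (I : Ideal P) [IsNoetherianRing P] [IsAdicComplete I P]
    (J : Ideal P) : IsAdicComplete (I.map (Ideal.Quotient.mk J)) (P ⧸ J) := by
  have h : IsAdicComplete I (P ⧸ J) := IsAdicComplete.of_module_finite I (P ⧸ J)
  exact (IsAdicComplete.map_algebraMap_iff (R := P) (S := P ⧸ J) (M := P ⧸ J) I).mpr h

/-- In `R = P ⧸ ⨅ m, J_{m+1}` the `n`-th power of the image of `I` pulls back to `J_n`. -/
theorem comap_map_pow_eq (I : Ideal P) [IsPrecomplete I P] (Jn : ℕ → Ideal P)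
    (hstep : ∀ n, 0 < n → Jn n = Jn (n + 1) ⊔ I ^ n) (n : ℕ) (hn : 0 < n) :
    Ideal.comap (Ideal.Quotient.mk (⨅ m, Jn (m + 1)))
      ((I.map (Ideal.Quotient.mk (⨅ m, Jn (m + 1)))) ^ n) = Jn n := by
  rw [← Ideal.map_pow, Ideal.comap_map_of_surjective _ Ideal.Quotient.mk_surjective,
    ← RingHom.ker_eq_comap_bot, Ideal.mk_ker, sup_comm]
  exact (eq_iInf_sup_pow I Jn hstep n hn).symm

theorem mk_mem_map_pow_iff (I : Ideal P) [IsPrecomplete I P] (Jn : ℕ → Ideal P)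
    (hstep : ∀ n, 0 < n → Jn n = Jn (n + 1) ⊔ I ^ n) (n : ℕ) (hn : 0 < n) (x : P) :
    Ideal.Quotient.mk (⨅ m, Jn (m + 1)) x ∈ (I.map (Ideal.Quotient.mk (⨅ m, Jn (m + 1)))) ^ n ↔
      x ∈ Jn n := by
  rw [← comap_map_pow_eq I Jn hstep n hn, Ideal.mem_comap]

theorem map_isMaximal_of_step (I : Ideal P) [IsPrecomplete I P] (Jn : ℕ → Ideal P)
    (hstep : ∀ n, 0 < n → Jn n = Jn (n + 1) ⊔ I ^ n) (hmax : (Jn 1).IsMaximal) :
    (I.map (Ideal.Quotient.mk (⨅ m, Jn (m + 1)))).IsMaximal := by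
  have h1 := comap_map_pow_eq I Jn hstep 1 Nat.one_pos
  rw [pow_one] at h1
  have h2 : I.map (Ideal.Quotient.mk (⨅ m, Jn (m + 1))) =
      (Jn 1).map (Ideal.Quotient.mk (⨅ m, Jn (m + 1))) := by
    rw [← h1, Ideal.map_comap_of_surjective _ Ideal.Quotient.mk_surjective]
  rw [h2]
  refine Ideal.IsMaximal.map_of_surjective_of_ker_le Ideal.Quotient.mk_surjective ?_
  rw [Ideal.mk_ker]
  exact iInf_le _ 0

/-- The limit ring is local with maximal ideal the image of `I`. -/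
theorem isLocalRing_quotient_of_step (I : Ideal P) [IsNoetherianRing P] [IsAdicComplete I P]
    (Jn : ℕ → Ideal P) (hstep : ∀ n, 0 < n → Jn n = Jn (n + 1) ⊔ I ^ n)
    (hmax : (Jn 1).IsMaximal) : IsLocalRing (P ⧸ ⨅ m, Jn (m + 1)) := by
  have := map_isMaximal_of_step I Jn hstep hmax
  have := isAdicComplete_quotient_map I (⨅ m, Jn (m + 1))
  exact isLocalRing_of_isAdicComplete_maximal (I.map (Ideal.Quotient.mk (⨅ m, Jn (m + 1))))

theorem maximalIdeal_quotient_of_step (I : Ideal P) [IsPrecomplete I P]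
    (Jn : ℕ → Ideal P) (hstep : ∀ n, 0 < n → Jn n = Jn (n + 1) ⊔ I ^ n)
    (hmax : (Jn 1).IsMaximal) [IsLocalRing (P ⧸ ⨅ m, Jn (m + 1))] :
    IsLocalRing.maximalIdeal (P ⧸ ⨅ m, Jn (m + 1)) =
      I.map (Ideal.Quotient.mk (⨅ m, Jn (m + 1))) :=
  (IsLocalRing.eq_maximalIdeal (map_isMaximal_of_step I Jn hstep hmax)).symm

/-- The limit ring is complete with respect to its maximal ideal. -/
theorem isAdicComplete_maximalIdeal_quotient_of_step (I : Ideal P) [IsNoetherianRing P]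
    [IsAdicComplete I P] (Jn : ℕ → Ideal P) (hstep : ∀ n, 0 < n → Jn n = Jn (n + 1) ⊔ I ^ n)
    (hmax : (Jn 1).IsMaximal) [IsLocalRing (P ⧸ ⨅ m, Jn (m + 1))] :
    IsAdicComplete (IsLocalRing.maximalIdeal (P ⧸ ⨅ m, Jn (m + 1))) (P ⧸ ⨅ m, Jn (m + 1)) := by
  rw [maximalIdeal_quotient_of_step I Jn hstep hmax]
  exact isAdicComplete_quotient_map I _

end Quot

end Fermat.Agent.S53
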