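import Mathlib
import Fermat.Prelude.Def_GaloisRep_DeformationCondition
import Fermat.Agent.S53.IdealSystem
import Fermat.Agent.S53.FibProd
import Fermat.Agent.S53.AbsRepBasic

set_option autoImplicit false
set_option linter.unusedSectionVars false
set_option linter.style.haveILetI false

namespace Fermat.Agent.S53

open IsLocalRing

section RigidLevels

variable (𝒪 : Type) [CommRing 𝒪] [IsDomain 𝒪] [IsDiscreteValuationRing 𝒪]
  [IsAdicComplete (maximalIdeal 𝒪) 𝒪] [Finite (ResidueField 𝒪)] (d : ℕ) (ϖ : 𝒪)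

/-- The power series ring in `d + 1` variables; the extra variable stands for the uniformiser. -/
abbrev rigP := MvPowerSeries (Option (Fin d)) 𝒪

/-- The ideal generated by the variables. -/
noncomputable def rigI : Ideal (rigP 𝒪 d) := Ideal.span (Set.range MvPowerSeries.X)

/-- The ideal identifying the extra variable with the uniformiser. -/
noncomputable def rigJ0 : Ideal (rigP 𝒪 d) := Ideal.span {MvPowerSeries.X none - MvPowerSeries.C ϖ}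

instance rigI_isAdicComplete : IsAdicComplete (rigI 𝒪 d) (rigP 𝒪 d) := by
  unfold rigI
  infer_instance

theorem rig_sub_C_constantCoeff_mem (p : rigP 𝒪 d) :
    p - MvPowerSeries.C (MvPowerSeries.constantCoeff p) ∈ rigI 𝒪 d := by
  have h := AbsRep.mem_span_X_pow_of_truncTotal_eq_zero (σ := Option (Fin d)) (R := 𝒪) 1
    (p - MvPowerSeries.C (MvPowerSeries.constantCoeff p)) (by
      ext x
      by_cases hx : Finsupp.degree x < 1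
      · rw [MvPowerSeries.coeff_truncTotal _ hx]
        have hx0 : x = 0 := by
          have : Finsupp.degree x = 0 := by omega
          exact (Finsupp.degree_eq_zero_iff x).mp this
        subst hx0
        simp
      · rw [MvPowerSeries.coeff_truncTotal_eq_zero _ (not_lt.mp hx)]
        simp)
  rwa [pow_one] at h

theorem rig_maximalIdeal_le (hϖ : maximalIdeal 𝒪 = Ideal.span {ϖ}) :
    maximalIdeal (rigP 𝒪 d) ≤ rigJ0 𝒪 d ϖ ⊔ rigI 𝒪 d := by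
  intro p hp
  have hc : MvPowerSeries.constantCoeff p ∈ maximalIdeal 𝒪 :=
    (AbsRep.mvPowerSeries_mem_maximalIdeal_iff p).mp hp
  rw [hϖ, Ideal.mem_span_singleton'] at hc
  obtain ⟨c, hc⟩ := hc
  have h1 := rig_sub_C_constantCoeff_mem 𝒪 d p
  have h2 : MvPowerSeries.C (MvPowerSeries.constantCoeff p) ∈ rigJ0 𝒪 d ϖ ⊔ rigI 𝒪 d := by
    have e : (MvPowerSeries.C (MvPowerSeries.constantCoeff p) : rigP 𝒪 d) =
        -(MvPowerSeries.C c) * (MvPowerSeries.X none - MvPowerSeries.C ϖ) +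
          MvPowerSeries.C c * MvPowerSeries.X none := by
      rw [← hc, map_mul]
      ring
    rw [e]
    refine Submodule.add_mem_sup ?_ ?_
    · exact Ideal.mul_mem_left _ _ (Ideal.subset_span rfl)
    · exact Ideal.mul_mem_left _ _ (Ideal.subset_span ⟨none, rfl⟩)
  have : p = MvPowerSeries.C (MvPowerSeries.constantCoeff p) +
      (p - MvPowerSeries.C (MvPowerSeries.constantCoeff p)) := by ring
  rw [this]
  exact Ideal.add_mem _ h2 (Ideal.mem_sup_right h1)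

theorem rigI_le_maximalIdeal : rigI 𝒪 d ≤ maximalIdeal (rigP 𝒪 d) :=
  AbsRep.span_X_le_maximalIdeal

theorem rigJ0_le_maximalIdeal (hϖ : maximalIdeal 𝒪 = Ideal.span {ϖ}) :
    rigJ0 𝒪 d ϖ ≤ maximalIdeal (rigP 𝒪 d) := by
  unfold rigJ0
  rw [Ideal.span_le, Set.singleton_subset_iff]
  show _ ∈ maximalIdeal (rigP 𝒪 d)
  rw [AbsRep.mvPowerSeries_mem_maximalIdeal_iff, map_sub, MvPowerSeries.constantCoeff_X,
    MvPowerSeries.constantCoeff_C, zero_sub, hϖ]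
  exact neg_mem (Ideal.subset_span rfl)

theorem rig_sup_pow_le {P : Type*} [CommRing P] (J I : Ideal P) (n : ℕ) :
    (J ⊔ I) ^ n ≤ J ⊔ I ^ n := by
  induction n with
  | zero =>
    rw [pow_zero, pow_zero, Ideal.one_eq_top]
    exact le_sup_right
  | succ n ih =>
    rw [pow_succ, Ideal.mul_le]
    intro x hx y hy
    obtain ⟨a, ha, b, hb, rfl⟩ := Submodule.mem_sup.mp (ih hx)
    obtain ⟨a', ha', b', hb', rfl⟩ := Submodule.mem_sup.mp hy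
    have e : (a + b) * (a' + b') = (a * (a' + b') + b * a') + b * b' := by ring
    rw [e]
    refine Submodule.add_mem_sup (Ideal.add_mem _ (Ideal.mul_mem_right _ _ ha)
      (Ideal.mul_mem_left _ _ ha')) ?_
    rw [pow_succ]
    exact Ideal.mul_mem_mul hb hb'

theorem rig_maximalIdeal_pow_le (hϖ : maximalIdeal 𝒪 = Ideal.span {ϖ}) (n : ℕ) :
    maximalIdeal (rigP 𝒪 d) ^ n ≤ rigJ0 𝒪 d ϖ ⊔ rigI 𝒪 d ^ n :=
  (Ideal.pow_right_mono (rig_maximalIdeal_le 𝒪 d ϖ hϖ) n).trans (rig_sup_pow_le _ _ n)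

/-- The ring of definition of a pair is an Artinian test algebra. -/
theorem rig_quot_testAlg (hϖ : maximalIdeal 𝒪 = Ideal.span {ϖ}) {K : Ideal (rigP 𝒪 d)}
    (h0 : rigJ0 𝒪 d ϖ ≤ K) (hK : K ≠ ⊤) {n : ℕ} (hn : rigI 𝒪 d ^ n ≤ K) :
    letI := FP.isLocalRing_quotient hK
    GaloisRep.IsArtinianTestAlgebra 𝒪 (rigP 𝒪 d ⧸ K) :=
  FP.isArtinianTestAlgebra_quotient (A := rigP 𝒪 d) AbsRep.isLocalHom_algebraMap_mvPowerSeries
    AbsRep.residue_surjective_mvPowerSeries hK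
    ⟨n, (rig_maximalIdeal_pow_le 𝒪 d ϖ hϖ n).trans (sup_le h0 hn)⟩

theorem rig_isArtinianRing_quot (hϖ : maximalIdeal 𝒪 = Ideal.span {ϖ}) (n : ℕ) :
    IsArtinianRing (rigP 𝒪 d ⧸ (rigJ0 𝒪 d ϖ ⊔ rigI 𝒪 d ^ n)) := by
  by_cases hK : rigJ0 𝒪 d ϖ ⊔ rigI 𝒪 d ^ n = ⊤
  · haveI : Subsingleton (rigP 𝒪 d ⧸ (rigJ0 𝒪 d ϖ ⊔ rigI 𝒪 d ^ n)) :=
      Ideal.Quotient.subsingleton_iff.mpr hK
    haveI : Finite (rigP 𝒪 d ⧸ (rigJ0 𝒪 d ϖ ⊔ rigI 𝒪 d ^ n)) := Finite.of_subsingleton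
    exact isArtinian_of_finite
  · letI := FP.isLocalRing_quotient hK
    exact (rig_quot_testAlg 𝒪 d ϖ hϖ le_sup_left hK (n := n) le_sup_right).isArtinian

/-- The level structure of an admissible family of ideals of the power series ring, and the
resulting limit ring. -/
theorem rig_levels (hϖ : maximalIdeal 𝒪 = Ideal.span {ϖ})
    (𝒮 : Set (Ideal (rigP 𝒪 d))) (hne : 𝒮.Nonempty)
    (h0 : ∀ K ∈ 𝒮, rigJ0 𝒪 d ϖ ≤ K) (htop : ∀ K ∈ 𝒮, K ≠ ⊤)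
    (hpow : ∀ K ∈ 𝒮, ∃ n, rigI 𝒪 d ^ n ≤ K)
    (hinf : ∀ K₁ ∈ 𝒮, ∀ K₂ ∈ 𝒮, K₁ ⊓ K₂ ∈ 𝒮)
    (hsup : ∀ K ∈ 𝒮, ∀ n, 0 < n → K ⊔ rigI 𝒪 d ^ n ∈ 𝒮) :
    ∃ (J : Ideal (rigP 𝒪 d)) (Kn : ℕ → Ideal (rigP 𝒪 d)) (_ : IsLocalRing (rigP 𝒪 d ⧸ J)),
      (∀ K ∈ 𝒮, J ≤ K) ∧ (∀ n, Kn n ∈ 𝒮) ∧ (∀ n, rigI 𝒪 d ^ (n + 1) ≤ Kn n) ∧
      (∀ n, J ≤ Kn n) ∧ (∀ n, Kn (n + 1) ≤ Kn n) ∧
      (∀ n, Kn n ≤ Kn (n + 1) ⊔ rigI 𝒪 d ^ (n + 1)) ∧
      (∀ K ∈ 𝒮, ∀ n, rigI 𝒪 d ^ (n + 1) ≤ K → Kn n ≤ K) ∧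
      (∀ n, Kn n ≤ J ⊔ rigI 𝒪 d ^ (n + 1)) ∧ (J = ⨅ n, Kn n) ∧
      IsAdicComplete (maximalIdeal (rigP 𝒪 d ⧸ J)) (rigP 𝒪 d ⧸ J) ∧
      maximalIdeal (rigP 𝒪 d ⧸ J) = (rigI 𝒪 d).map (Ideal.Quotient.mk J) ∧
      IsLocalHom (algebraMap 𝒪 (rigP 𝒪 d ⧸ J)) ∧
      Function.Surjective (residue (rigP 𝒪 d ⧸ J) ∘ algebraMap 𝒪 (rigP 𝒪 d ⧸ J)) := by
  set Jn : ℕ → Ideal (rigP 𝒪 d) := fun n => levelInf 𝒮 (rigI 𝒪 d) n with hJn
  have hArt := rig_isArtinianRing_quot 𝒪 d ϖ hϖ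
  have hstep : ∀ n, 0 < n → Jn n = Jn (n + 1) ⊔ rigI 𝒪 d ^ n := fun n hn =>
    levelInf_eq_succ_sup 𝒮 (rigI 𝒪 d) (rigJ0 𝒪 d ϖ) h0 hArt hinf hsup hne n hn
  have hmem : ∀ n, 0 < n → Jn n ∈ 𝒮 := fun n hn =>
    levelInf_mem_of_pos 𝒮 (rigI 𝒪 d) (rigJ0 𝒪 d ϖ) h0 hArt hinf hsup hne n hn
  have hmax : (Jn 1).IsMaximal := by
    have h1 : maximalIdeal (rigP 𝒪 d) ≤ Jn 1 := by
      refine (rig_maximalIdeal_le 𝒪 d ϖ hϖ).trans (sup_le (h0 _ (hmem 1 Nat.one_pos)) ?_)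
      have := pow_le_levelInf 𝒮 (rigI 𝒪 d) 1
      rwa [pow_one] at this
    have h2 : maximalIdeal (rigP 𝒪 d) = Jn 1 :=
      (IsLocalRing.maximalIdeal.isMaximal (rigP 𝒪 d)).eq_of_le (htop _ (hmem 1 Nat.one_pos)) h1
    rw [← h2]
    exact IsLocalRing.maximalIdeal.isMaximal _
  set J : Ideal (rigP 𝒪 d) := ⨅ m, Jn (m + 1) with hJ
  have hloc : IsLocalRing (rigP 𝒪 d ⧸ J) :=
    isLocalRing_quotient_of_step (rigI 𝒪 d) Jn hstep hmax
  have hmaxeq : maximalIdeal (rigP 𝒪 d ⧸ J) = (rigI 𝒪 d).map (Ideal.Quotient.mk J) :=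
    maximalIdeal_quotient_of_step (rigI 𝒪 d) Jn hstep hmax
  have hmk : IsLocalHom (Ideal.Quotient.mk J) :=
    IsLocalHom.of_surjective (Ideal.Quotient.mk J) Ideal.Quotient.mk_surjective
  refine ⟨J, fun n => Jn (n + 1), hloc, ?_, ?_, ?_, ?_, ?_, ?_, ?_, ?_, rfl, ?_, hmaxeq, ?_, ?_⟩
  · intro K hK
    obtain ⟨n, hn⟩ := hpow K hK
    rcases Nat.eq_zero_or_pos n with rfl | hpos
    · rw [pow_zero, Ideal.one_eq_top, top_le_iff] at hn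
      exact absurd hn (htop K hK)
    · obtain ⟨m, rfl⟩ : ∃ m, n = m + 1 := ⟨n - 1, by omega⟩
      exact (iInf_le _ m).trans (levelInf_le hK hn)
  · exact fun n => hmem (n + 1) (Nat.succ_pos n)
  · exact fun n => pow_le_levelInf 𝒮 (rigI 𝒪 d) (n + 1)
  · exact fun n => iInf_le _ n
  · exact fun n => antitone_of_step (rigI 𝒪 d) Jn hstep (Nat.succ_pos n) (Nat.le_succ (n + 1))
  · exact fun n => (hstep (n + 1) (Nat.succ_pos n)).le
  · exact fun K hK n hn => levelInf_le hK hn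
  · exact fun n => (eq_iInf_sup_pow (rigI 𝒪 d) Jn hstep (n + 1) (Nat.succ_pos n)).le
  · exact isAdicComplete_maximalIdeal_quotient_of_step (rigI 𝒪 d) Jn hstep hmax
  · have : algebraMap 𝒪 (rigP 𝒪 d ⧸ J) =
        (Ideal.Quotient.mk J).comp (algebraMap 𝒪 (rigP 𝒪 d)) := rfl
    rw [this]
    haveI : IsLocalHom (algebraMap 𝒪 (rigP 𝒪 d)) := AbsRep.isLocalHom_algebraMap_mvPowerSeries
    exact RingHom.isLocalHom_comp _ _
  · intro y
    obtain ⟨x, rfl⟩ := IsLocalRing.residue_surjective y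
    obtain ⟨p, rfl⟩ := Ideal.Quotient.mk_surjective x
    refine ⟨MvPowerSeries.constantCoeff p, ?_⟩
    rw [Function.comp_apply, eq_comm, ← sub_eq_zero, ← map_sub, IsLocalRing.residue_eq_zero_iff]
    have h1 : Ideal.Quotient.mk J p - algebraMap 𝒪 (rigP 𝒪 d ⧸ J) (MvPowerSeries.constantCoeff p) =
        Ideal.Quotient.mk J (p - MvPowerSeries.C (MvPowerSeries.constantCoeff p)) := by
      rw [map_sub]
      rfl
    rw [h1, hmaxeq]
    exact Ideal.mem_map_of_mem _ (rig_sub_C_constantCoeff_mem 𝒪 d p)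

end RigidLevels

end Fermat.Agent.S53
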