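import Fermat.Prelude.Def_GaloisRep_DeformationCondition

set_option autoImplicit false

namespace Fermat.Agent.S53

open IsLocalRing

section Cotangent

/-- The `𝒪`-algebra structure on the dual numbers over the residue field of `𝒪`
(the same instance as the one used in `GaloisRep.TangentFinite`). -/
@[reducible] noncomputable def algDual (𝒪 : Type) [CommRing 𝒪] [IsLocalRing 𝒪] :
    Algebra 𝒪 (DualNumber (ResidueField 𝒪)) :=
  ((algebraMap (ResidueField 𝒪) (DualNumber (ResidueField 𝒪))).comp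
    (algebraMap 𝒪 (ResidueField 𝒪))).toAlgebra

variable {𝒪 : Type} [CommRing 𝒪] [IsLocalRing 𝒪]
variable {A : Type} [CommRing A] [IsLocalRing A] [Algebra 𝒪 A]

theorem cot_exists_sub_mem (hA : GaloisRep.IsArtinianTestAlgebra 𝒪 A) (a : A) :
    ∃ o : 𝒪, a - algebraMap 𝒪 A o ∈ maximalIdeal A := by
  obtain ⟨o, ho⟩ := hA.residue_surjective (residue A a)
  refine ⟨o, ?_⟩
  rw [← residue_eq_zero_iff, map_sub, sub_eq_zero]
  exact ho.symm

theorem cot_algebraMap_mem_iff (hA : GaloisRep.IsArtinianTestAlgebra 𝒪 A) (o : 𝒪) :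
    algebraMap 𝒪 A o ∈ maximalIdeal A ↔ o ∈ maximalIdeal 𝒪 := by
  haveI := hA.isLocalHom
  simp only [mem_maximalIdeal, mem_nonunits_iff]
  rw [isUnit_map_iff]

theorem cot_exists_pow_eq_bot (hA : GaloisRep.IsArtinianTestAlgebra 𝒪 A) :
    ∃ N : ℕ, maximalIdeal A ^ N = ⊥ := by
  haveI := hA.isArtinian
  exact (isArtinianRing_iff_isNilpotent_maximalIdeal A).mp inferInstance

/-- Nilpotent Nakayama: a subalgebra whose part in the maximal ideal generates the maximal ideal
modulo its square is everything. -/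
theorem cot_eq_top_of_le (hA : GaloisRep.IsArtinianTestAlgebra 𝒪 A) (B : Subalgebra 𝒪 A)
    (h : maximalIdeal A ≤ Ideal.span {x | x ∈ B ∧ x ∈ maximalIdeal A} ⊔ maximalIdeal A ^ 2) :
    B = ⊤ := by
  -- step 1 : every element of `span S` is congruent mod `m^2` to an element of `B ∩ m`
  have hspan : ∀ y ∈ Ideal.span {x | x ∈ B ∧ x ∈ maximalIdeal A},
      ∃ b ∈ B, b ∈ maximalIdeal A ∧ y - b ∈ maximalIdeal A ^ 2 := by
    intro y hy
    induction hy using Submodule.span_induction with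
    | mem y hy => exact ⟨y, hy.1, hy.2, by simp⟩
    | zero => exact ⟨0, B.zero_mem, Ideal.zero_mem _, by simp⟩
    | add y z _ _ ihy ihz =>
      obtain ⟨b, hb, hbm, hyb⟩ := ihy
      obtain ⟨c, hc, hcm, hzc⟩ := ihz
      refine ⟨b + c, B.add_mem hb hc, Ideal.add_mem _ hbm hcm, ?_⟩
      have : y + z - (b + c) = (y - b) + (z - c) := by ring
      rw [this]
      exact Ideal.add_mem _ hyb hzc
    | smul a y _ ihy =>
      obtain ⟨b, hb, hbm, hyb⟩ := ihy
      obtain ⟨o, ho⟩ := cot_exists_sub_mem hA a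
      refine ⟨algebraMap 𝒪 A o * b, B.mul_mem (B.algebraMap_mem o) hb,
        Ideal.mul_mem_left _ _ hbm, ?_⟩
      have : a • y - algebraMap 𝒪 A o * b = a * (y - b) + (a - algebraMap 𝒪 A o) * b := by
        rw [smul_eq_mul]; ring
      rw [this]
      refine Ideal.add_mem _ (Ideal.mul_mem_left _ _ hyb) ?_
      rw [pow_two]
      exact Ideal.mul_mem_mul ho hbm
  -- step 2 : the case `j = 1`
  have hQ0 : ∀ x ∈ maximalIdeal A, ∃ b ∈ B, b ∈ maximalIdeal A ∧ x - b ∈ maximalIdeal A ^ 2 := by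
    intro x hx
    obtain ⟨y, hy, z, hz, rfl⟩ := Submodule.mem_sup.mp (h hx)
    obtain ⟨b, hb, hbm, hyb⟩ := hspan y hy
    refine ⟨b, hb, hbm, ?_⟩
    have : y + z - b = (y - b) + z := by ring
    rw [this]
    exact Ideal.add_mem _ hyb hz
  -- step 3 : `Q j` for all `j`
  have hQ : ∀ j : ℕ, ∀ x ∈ maximalIdeal A ^ (j + 1),
      ∃ b ∈ B, b ∈ maximalIdeal A ^ (j + 1) ∧ x - b ∈ maximalIdeal A ^ (j + 2) := by
    intro j
    induction j with
    | zero =>
      intro x hx
      rw [zero_add, pow_one] at hx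
      obtain ⟨b, hb, hbm, hxb⟩ := hQ0 x hx
      exact ⟨b, hb, by simpa using hbm, hxb⟩
    | succ j ih =>
      intro x hx
      rw [pow_succ] at hx
      refine Submodule.mul_induction_on hx ?_ ?_
      · intro u hu v hv
        obtain ⟨b, hb, hbm, hub⟩ := ih u hu
        obtain ⟨c, hc, hcm, hvc⟩ := hQ0 v hv
        refine ⟨b * c, B.mul_mem hb hc, ?_, ?_⟩
        · rw [pow_succ]; exact Ideal.mul_mem_mul hbm hcm
        · have e : u * v - b * c = (u - b) * v + b * (v - c) := by ring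
          rw [e]
          refine Ideal.add_mem _ ?_ ?_
          · have := Ideal.mul_mem_mul hub hv
            rwa [← pow_succ] at this
          · have := Ideal.mul_mem_mul hbm hvc
            rwa [← pow_add] at this
      · intro x y ihx ihy
        obtain ⟨b, hb, hbm, hxb⟩ := ihx
        obtain ⟨c, hc, hcm, hyc⟩ := ihy
        refine ⟨b + c, B.add_mem hb hc, Ideal.add_mem _ hbm hcm, ?_⟩
        have : x + y - (b + c) = (x - b) + (y - c) := by ring
        rw [this]
        exact Ideal.add_mem _ hxb hyc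
  -- step 4 : approximation to any order
  have happ : ∀ j : ℕ, ∀ a : A, ∃ b ∈ B, a - b ∈ maximalIdeal A ^ (j + 1) := by
    intro j
    induction j with
    | zero =>
      intro a
      obtain ⟨o, ho⟩ := cot_exists_sub_mem hA a
      exact ⟨algebraMap 𝒪 A o, B.algebraMap_mem o, by simpa using ho⟩
    | succ j ih =>
      intro a
      obtain ⟨b, hb, hab⟩ := ih a
      obtain ⟨c, hc, _, hcc⟩ := hQ j (a - b) hab
      refine ⟨b + c, B.add_mem hb hc, ?_⟩
      have : a - (b + c) = a - b - c := by ring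
      rw [this]
      exact hcc
  obtain ⟨N, hN⟩ := cot_exists_pow_eq_bot hA
  rw [eq_top_iff]
  intro a _
  obtain ⟨b, hb, hab⟩ := happ N a
  have hle : maximalIdeal A ^ (N + 1) ≤ maximalIdeal A ^ N := Ideal.pow_le_pow_right (Nat.le_succ N)
  have h0 : a - b = 0 := by
    have := hle hab
    rwa [hN, Ideal.mem_bot] at this
  rw [sub_eq_zero] at h0
  rw [h0]
  exact hb

/-- Core construction: from an ideal `H` containing `m^2` and the `B`-part of `m`, maximal among
those avoiding `x₀ ∈ m`, build an algebra map to the dual numbers killing `B` in the `ε`-part. -/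
theorem cot_exists_algHom_of_ideal (hA : GaloisRep.IsArtinianTestAlgebra 𝒪 A) (B : Subalgebra 𝒪 A)
    (H : Ideal A) (x₀ : A) (hx₀ : x₀ ∈ maximalIdeal A) (hx₀H : x₀ ∉ H)
    (hBH : ∀ x, x ∈ B → x ∈ maximalIdeal A → x ∈ H)
    (hsq : maximalIdeal A ^ 2 ≤ H)
    (hmax : ∀ H' : Ideal A, H ≤ H' → x₀ ∉ H' → H' ≤ H) :
    letI := algDual 𝒪
    ∃ φ : A →ₐ[𝒪] DualNumber (ResidueField 𝒪),
      IsLocalHom (φ : A →+* DualNumber (ResidueField 𝒪)) ∧
      (∀ b ∈ B, TrivSqZeroExt.snd (φ b) = 0) ∧ ∃ a, TrivSqZeroExt.snd (φ a) ≠ 0 := by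
  letI := algDual 𝒪
  have hHm : H ≤ maximalIdeal A :=
    IsLocalRing.le_maximalIdeal (fun h => hx₀H (h ▸ Submodule.mem_top))
  have hmm : ∀ x ∈ maximalIdeal A, ∀ y ∈ maximalIdeal A, x * y ∈ H := fun x hx y hy =>
    hsq (by rw [pow_two]; exact Ideal.mul_mem_mul hx hy)
  have hoH : ∀ o : 𝒪, o ∈ maximalIdeal 𝒪 → algebraMap 𝒪 A o ∈ H := fun o ho =>
    hBH _ (B.algebraMap_mem o) ((cot_algebraMap_mem_iff hA o).mpr ho)
  -- existence of decompositions
  have hex : ∀ a : A, ∃ oc : 𝒪 × 𝒪,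
      a - algebraMap 𝒪 A oc.1 - algebraMap 𝒪 A oc.2 * x₀ ∈ H := by
    intro a
    obtain ⟨o, ho⟩ := cot_exists_sub_mem hA a
    by_cases hy : a - algebraMap 𝒪 A o ∈ H
    · exact ⟨(o, 0), by simpa using hy⟩
    · have hx₀' : x₀ ∈ H ⊔ Ideal.span {a - algebraMap 𝒪 A o} := by
        by_contra hcon
        exact hy (hmax _ le_sup_left hcon (Ideal.mem_sup_right (Ideal.subset_span rfl)))
      obtain ⟨h, hh, z, hz, hsum⟩ := Submodule.mem_sup.mp hx₀'
      obtain ⟨r, rfl⟩ := Ideal.mem_span_singleton'.mp hz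
      have hr : IsUnit r := by
        by_contra hr
        have hrm : r ∈ maximalIdeal A := hr
        exact hx₀H (hsum ▸ Ideal.add_mem _ hh (hmm _ hrm _ ho))
      obtain ⟨u, rfl⟩ := hr
      obtain ⟨c, hc⟩ := cot_exists_sub_mem hA (↑u⁻¹ : A)
      refine ⟨(o, c), ?_⟩
      have e : a - algebraMap 𝒪 A o - algebraMap 𝒪 A c * x₀
          = (↑u⁻¹ - algebraMap 𝒪 A c) * x₀ - ↑u⁻¹ * h := by
        have h1 : (↑u⁻¹ : A) * (↑u * (a - algebraMap 𝒪 A o)) = a - algebraMap 𝒪 A o := by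
          rw [← mul_assoc, Units.inv_mul, one_mul]
        rw [← hsum]
        linear_combination (-1 : A) * h1
      rw [e]
      exact Ideal.sub_mem _ (hmm _ hc _ hx₀) (Ideal.mul_mem_left _ _ hh)
  -- uniqueness of decompositions
  have huniq : ∀ o c : 𝒪, algebraMap 𝒪 A o + algebraMap 𝒪 A c * x₀ ∈ H →
      o ∈ maximalIdeal 𝒪 ∧ c ∈ maximalIdeal 𝒪 := by
    intro o c hoc
    have ho : o ∈ maximalIdeal 𝒪 := by
      rw [← cot_algebraMap_mem_iff hA]
      have : algebraMap 𝒪 A o = (algebraMap 𝒪 A o + algebraMap 𝒪 A c * x₀)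
          - algebraMap 𝒪 A c * x₀ := by ring
      rw [this]
      exact Ideal.sub_mem _ (hHm hoc) (Ideal.mul_mem_left _ _ hx₀)
    refine ⟨ho, ?_⟩
    by_contra hc
    have hcu : IsUnit c := by
      by_contra h
      exact hc h
    have hcx : algebraMap 𝒪 A c * x₀ ∈ H := by
      have : algebraMap 𝒪 A c * x₀ = (algebraMap 𝒪 A o + algebraMap 𝒪 A c * x₀)
          - algebraMap 𝒪 A o := by ring
      rw [this]
      exact Ideal.sub_mem _ hoc (hoH o ho)
    exact hx₀H ((Ideal.unit_mul_mem_iff_mem H (hcu.map (algebraMap 𝒪 A))).mp hcx)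
  choose f hf using hex
  -- characterisation of the chosen decomposition
  have hspec : ∀ (a : A) (o c : 𝒪), a - algebraMap 𝒪 A o - algebraMap 𝒪 A c * x₀ ∈ H →
      residue 𝒪 (f a).1 = residue 𝒪 o ∧ residue 𝒪 (f a).2 = residue 𝒪 c := by
    intro a o c h
    have hd : algebraMap 𝒪 A ((f a).1 - o) + algebraMap 𝒪 A ((f a).2 - c) * x₀ ∈ H := by
      have e : algebraMap 𝒪 A ((f a).1 - o) + algebraMap 𝒪 A ((f a).2 - c) * x₀
          = (a - algebraMap 𝒪 A o - algebraMap 𝒪 A c * x₀)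
            - (a - algebraMap 𝒪 A (f a).1 - algebraMap 𝒪 A (f a).2 * x₀) := by
        rw [map_sub, map_sub]; ring
      rw [e]
      exact Ideal.sub_mem _ h (hf a)
    obtain ⟨h1, h2⟩ := huniq _ _ hd
    constructor
    · rw [← sub_eq_zero, ← map_sub]; exact (residue_eq_zero_iff _).mpr h1
    · rw [← sub_eq_zero, ← map_sub]; exact (residue_eq_zero_iff _).mpr h2
  let φ₀ : A → DualNumber (ResidueField 𝒪) := fun a =>
    TrivSqZeroExt.inl (residue 𝒪 (f a).1) + TrivSqZeroExt.inr (residue 𝒪 (f a).2)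
  have hφ₀ : ∀ (a : A) (o c : 𝒪), a - algebraMap 𝒪 A o - algebraMap 𝒪 A c * x₀ ∈ H →
      φ₀ a = TrivSqZeroExt.inl (residue 𝒪 o) + TrivSqZeroExt.inr (residue 𝒪 c) := by
    intro a o c h
    obtain ⟨h1, h2⟩ := hspec a o c h
    show TrivSqZeroExt.inl _ + TrivSqZeroExt.inr _ = _
    rw [h1, h2]
  have hφ₀' : ∀ a : A, φ₀ a =
      TrivSqZeroExt.inl (residue 𝒪 (f a).1) + TrivSqZeroExt.inr (residue 𝒪 (f a).2) :=
    fun a => rfl
  let φ : A →ₐ[𝒪] DualNumber (ResidueField 𝒪) :=
    { toFun := φ₀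
      map_one' := by
        rw [hφ₀ 1 1 0 (by simp)]
        simp
      map_mul' := fun a b => by
        have hmem : a * b - algebraMap 𝒪 A ((f a).1 * (f b).1)
            - algebraMap 𝒪 A ((f a).1 * (f b).2 + (f b).1 * (f a).2) * x₀ ∈ H := by
          have e : a * b - algebraMap 𝒪 A ((f a).1 * (f b).1)
              - algebraMap 𝒪 A ((f a).1 * (f b).2 + (f b).1 * (f a).2) * x₀
              = (a - algebraMap 𝒪 A (f a).1 - algebraMap 𝒪 A (f a).2 * x₀) * b
                + (b - algebraMap 𝒪 A (f b).1 - algebraMap 𝒪 A (f b).2 * x₀)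
                  * (algebraMap 𝒪 A (f a).1 + algebraMap 𝒪 A (f a).2 * x₀)
                + algebraMap 𝒪 A (f a).2 * algebraMap 𝒪 A (f b).2 * (x₀ * x₀) := by
            simp only [map_mul, map_add]; ring
          rw [e]
          exact Ideal.add_mem _ (Ideal.add_mem _ (H.mul_mem_right _ (hf a))
            (H.mul_mem_right _ (hf b))) (H.mul_mem_left _ (hmm x₀ hx₀ x₀ hx₀))
        rw [hφ₀ (a * b) _ _ hmem, hφ₀' a, hφ₀' b]
        ext <;> simp
        ring
      map_zero' := by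
        rw [hφ₀ 0 0 0 (by simp)]
        simp
      map_add' := fun a b => by
        have hmem : a + b - algebraMap 𝒪 A ((f a).1 + (f b).1)
            - algebraMap 𝒪 A ((f a).2 + (f b).2) * x₀ ∈ H := by
          have e : a + b - algebraMap 𝒪 A ((f a).1 + (f b).1)
              - algebraMap 𝒪 A ((f a).2 + (f b).2) * x₀
              = (a - algebraMap 𝒪 A (f a).1 - algebraMap 𝒪 A (f a).2 * x₀)
                + (b - algebraMap 𝒪 A (f b).1 - algebraMap 𝒪 A (f b).2 * x₀) := by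
            simp only [map_add]; ring
          rw [e]
          exact Ideal.add_mem _ (hf a) (hf b)
        rw [hφ₀ (a + b) _ _ hmem, hφ₀' a, hφ₀' b]
        ext <;> simp
      commutes' := fun o => by
        rw [hφ₀ (algebraMap 𝒪 A o) o 0 (by simp)]
        simp
        rfl }
  have hφ : ∀ a : A, φ a = φ₀ a := fun a => rfl
  refine ⟨φ, ⟨fun a ha => ?_⟩, fun b hb => ?_, x₀, ?_⟩
  · -- local hom
    have ha' : IsUnit (φ₀ a) := ha
    rw [hφ₀' a, TrivSqZeroExt.isUnit_iff_isUnit_fst] at ha'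
    simp only [TrivSqZeroExt.fst_add, TrivSqZeroExt.fst_inl, TrivSqZeroExt.fst_inr,
      add_zero] at ha'
    have ho : (f a).1 ∉ maximalIdeal 𝒪 := fun h =>
      ha'.ne_zero ((residue_eq_zero_iff _).mpr h)
    by_contra hau
    have ham : a ∈ maximalIdeal A := hau
    apply ho
    rw [← cot_algebraMap_mem_iff hA]
    have e : algebraMap 𝒪 A (f a).1 = a - algebraMap 𝒪 A (f a).2 * x₀
        - (a - algebraMap 𝒪 A (f a).1 - algebraMap 𝒪 A (f a).2 * x₀) := by ring
    rw [e]
    exact Ideal.sub_mem _ (Ideal.sub_mem _ ham (Ideal.mul_mem_left _ _ hx₀)) (hHm (hf a))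
  · -- vanishing on `B`
    obtain ⟨o, ho⟩ := cot_exists_sub_mem hA b
    have hbH : b - algebraMap 𝒪 A o ∈ H := hBH _ (B.sub_mem hb (B.algebraMap_mem o)) ho
    rw [hφ, hφ₀ b o 0 (by simpa using hbH)]
    simp
  · rw [hφ, hφ₀ x₀ 0 1 (by simp)]
    simp

/-- (C1) Dual-number separation: a proper subalgebra `B` of an Artinian test algebra `A` is
"seen" by an algebra map to the dual numbers which is constant on `B` but not on `A`. -/
theorem exists_algHom_dualNumber_of_ne_top (hA : GaloisRep.IsArtinianTestAlgebra 𝒪 A)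
    (B : Subalgebra 𝒪 A) (hB : B ≠ ⊤) :
    letI := algDual 𝒪
    ∃ φ : A →ₐ[𝒪] DualNumber (ResidueField 𝒪),
      IsLocalHom (φ : A →+* DualNumber (ResidueField 𝒪)) ∧
      (∀ b ∈ B, TrivSqZeroExt.snd (φ b) = 0) ∧ ∃ a, TrivSqZeroExt.snd (φ a) ≠ 0 := by
  have hnot : ¬ maximalIdeal A ≤
      Ideal.span {x | x ∈ B ∧ x ∈ maximalIdeal A} ⊔ maximalIdeal A ^ 2 :=
    fun h => hB (cot_eq_top_of_le hA B h)
  obtain ⟨x₀, hx₀, hx₀I⟩ := SetLike.not_le_iff_exists.mp hnot
  haveI := hA.isArtinian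
  obtain ⟨H, ⟨hIH, hx₀H⟩, hmaxH⟩ := set_has_maximal_iff_noetherian.mpr
    (inferInstance : IsNoetherian A A)
    {H : Submodule A A | Ideal.span {x | x ∈ B ∧ x ∈ maximalIdeal A} ⊔ maximalIdeal A ^ 2 ≤ H
      ∧ x₀ ∉ H} ⟨_, le_rfl, hx₀I⟩
  refine cot_exists_algHom_of_ideal hA B H x₀ hx₀ hx₀H ?_ ?_ ?_
  · intro x hxB hxm
    exact hIH (Ideal.mem_sup_left (Ideal.subset_span ⟨hxB, hxm⟩))
  · exact le_trans le_sup_right hIH
  · intro H' hHH' hx₀H'
    by_contra hcon
    exact hmaxH H' ⟨hIH.trans hHH', hx₀H'⟩ (lt_of_le_not_ge hHH' hcon)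

/-- The "constant part" endomorphism of the dual numbers, as an `𝒪`-algebra map. -/
noncomputable def cotConstHom (𝒪 : Type) [CommRing 𝒪] [IsLocalRing 𝒪] :
    letI := algDual 𝒪
    DualNumber (ResidueField 𝒪) →ₐ[𝒪] DualNumber (ResidueField 𝒪) :=
  letI := algDual 𝒪
  { toFun := fun x => TrivSqZeroExt.inl (TrivSqZeroExt.fst x)
    map_one' := by simp
    map_mul' := fun x y => by simp
    map_zero' := by simp
    map_add' := fun x y => by simp
    commutes' := fun o => by
      show TrivSqZeroExt.inl (TrivSqZeroExt.fst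
        (TrivSqZeroExt.inl (algebraMap 𝒪 (ResidueField 𝒪) o))) = TrivSqZeroExt.inl _
      simp }

theorem cotConstHom_apply (x : DualNumber (ResidueField 𝒪)) :
    cotConstHom 𝒪 x = TrivSqZeroExt.inl (TrivSqZeroExt.fst x) := rfl

/-- (D) Two distinct algebra maps to the dual numbers agreeing on a proper subalgebra. -/
theorem exists_two_algHom_dualNumber (𝒪 : Type) [CommRing 𝒪] [IsLocalRing 𝒪] (A : Type)
    [CommRing A] [IsLocalRing A] [Algebra 𝒪 A] (hA : GaloisRep.IsArtinianTestAlgebra 𝒪 A)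
    (B : Subalgebra 𝒪 A) (hB : B ≠ ⊤) :
    letI : Algebra 𝒪 (DualNumber (ResidueField 𝒪)) :=
      ((algebraMap (ResidueField 𝒪) (DualNumber (ResidueField 𝒪))).comp
        (algebraMap 𝒪 (ResidueField 𝒪))).toAlgebra
    ∃ f₁ f₂ : A →ₐ[𝒪] DualNumber (ResidueField 𝒪), f₁ ≠ f₂ ∧ ∀ b ∈ B, f₁ b = f₂ b := by
  letI := algDual 𝒪
  obtain ⟨φ, -, hφB, a, ha⟩ := exists_algHom_dualNumber_of_ne_top hA B hB
  refine ⟨φ, (cotConstHom 𝒪).comp φ, ?_, ?_⟩
  · intro h
    apply ha
    have h2 : φ a = ((cotConstHom 𝒪).comp φ) a := by rw [← h]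
    rw [AlgHom.comp_apply, cotConstHom_apply] at h2
    rw [h2]
    simp
  · intro b hb
    rw [AlgHom.comp_apply, cotConstHom_apply]
    ext
    · simp
    · simp [hφB b hb]

/-- (C2) Generator form: if algebra maps to the dual numbers are determined by their values
on `s`, then `s` generates `A` as an `𝒪`-algebra. -/
theorem adjoin_eq_top_of_forall_algHom_dualNumber (hA : GaloisRep.IsArtinianTestAlgebra 𝒪 A)
    (s : Set A)
    (h : letI := algDual 𝒪
      ∀ φ ψ : A →ₐ[𝒪] DualNumber (ResidueField 𝒪), (∀ x ∈ s, φ x = ψ x) → φ = ψ) :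
    Algebra.adjoin 𝒪 s = ⊤ := by
  by_contra hne
  obtain ⟨f₁, f₂, hf, hB⟩ := exists_two_algHom_dualNumber 𝒪 A hA _ hne
  exact hf (h f₁ f₂ fun x hx => hB x (Algebra.subset_adjoin hx))

end Cotangent

section Subalgebra

variable {𝒪 : Type} [CommRing 𝒪] [IsLocalRing 𝒪]
variable {A : Type} [CommRing A] [IsLocalRing A] [Algebra 𝒪 A]

theorem cot_finite [Finite (ResidueField 𝒪)] (hA : GaloisRep.IsArtinianTestAlgebra 𝒪 A) :
    Finite A := by
  haveI := hA.isArtinian
  haveI := hA.isLocalHom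
  haveI : Finite (ResidueField A) := by
    refine Finite.of_surjective (ResidueField.map (algebraMap 𝒪 A)) ?_
    intro x
    obtain ⟨o, ho⟩ := hA.residue_surjective x
    exact ⟨residue 𝒪 o, by rw [ResidueField.map_residue]; exact ho⟩
  obtain ⟨n, hn⟩ := cot_exists_pow_eq_bot hA
  haveI : Finite (A ⧸ (⊥ : Ideal A)) := IsLocalRing.finite_quotient_iff.mpr ⟨n, hn.le⟩
  exact Finite.of_equiv _ (RingEquiv.quotientBot A).toEquiv

/-- An element of a subalgebra of an Artinian test algebra is a unit there iff it is a unit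
in the ambient algebra. -/
theorem subalgebra_isUnit_iff [Finite (ResidueField 𝒪)]
    (hA : GaloisRep.IsArtinianTestAlgebra 𝒪 A) (B : Subalgebra 𝒪 A) (b : B) :
    IsUnit b ↔ IsUnit (b : A) := by
  haveI := cot_finite hA
  constructor
  · intro h
    exact h.map B.val
  · intro h
    rw [isUnit_iff_mem_nonZeroDivisors_of_finite, mem_nonZeroDivisors_iff_right]
    intro x hx
    have hx' : (x : A) * (b : A) = 0 := by
      have := congrArg (Subtype.val) hx
      simpa using this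
    have : (x : A) = 0 := by
      obtain ⟨u, hu⟩ := h
      have h2 : (x : A) * (b : A) * ↑u⁻¹ = 0 := by rw [hx', zero_mul]
      rwa [mul_assoc, ← hu, Units.mul_inv, mul_one] at h2
    exact Subtype.ext this

/-- (C3) A subalgebra of an Artinian test algebra is a local ring. -/
theorem isLocalRing_subalgebra [Finite (ResidueField 𝒪)]
    (hA : GaloisRep.IsArtinianTestAlgebra 𝒪 A) (B : Subalgebra 𝒪 A) : IsLocalRing B := by
  refine IsLocalRing.of_nonunits_add ?_
  intro a b ha hb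
  rw [mem_nonunits_iff, subalgebra_isUnit_iff hA] at ha hb ⊢
  exact Ideal.add_mem (maximalIdeal A) ha hb

theorem subalgebra_mem_maximalIdeal_iff [Finite (ResidueField 𝒪)]
    (hA : GaloisRep.IsArtinianTestAlgebra 𝒪 A) (B : Subalgebra 𝒪 A) [IsLocalRing B] (b : B) :
    b ∈ maximalIdeal B ↔ (b : A) ∈ maximalIdeal A := by
  rw [mem_maximalIdeal, mem_nonunits_iff, subalgebra_isUnit_iff hA, mem_maximalIdeal,
    mem_nonunits_iff]

theorem isLocalHom_subalgebra_val [Finite (ResidueField 𝒪)]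
    (hA : GaloisRep.IsArtinianTestAlgebra 𝒪 A) (B : Subalgebra 𝒪 A) [IsLocalRing B] :
    IsLocalHom (B.val : B →+* A) :=
  ⟨fun b hb => (subalgebra_isUnit_iff hA B b).mpr hb⟩

/-- (C3) A subalgebra of an Artinian test algebra is an Artinian test algebra. -/
theorem isArtinianTestAlgebra_subalgebra [Finite (ResidueField 𝒪)]
    (hA : GaloisRep.IsArtinianTestAlgebra 𝒪 A) (B : Subalgebra 𝒪 A) [IsLocalRing B] :
    GaloisRep.IsArtinianTestAlgebra 𝒪 B where
  isLocalHom := ⟨fun o ho => by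
    haveI := hA.isLocalHom
    have h : IsUnit (algebraMap 𝒪 A o) := (subalgebra_isUnit_iff hA B _).mp ho
    exact (isUnit_map_iff (algebraMap 𝒪 A) o).mp h⟩
  residue_surjective := by
    intro x
    obtain ⟨b, rfl⟩ := residue_surjective x
    obtain ⟨o, ho⟩ := cot_exists_sub_mem hA (b : A)
    refine ⟨o, ?_⟩
    show residue B (algebraMap 𝒪 B o) = residue B b
    rw [← sub_eq_zero, ← map_sub, residue_eq_zero_iff, subalgebra_mem_maximalIdeal_iff hA]
    have e : ((algebraMap 𝒪 B o - b : B) : A) = -((b : A) - algebraMap 𝒪 A o) := by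
      simp
    rw [e]
    exact neg_mem ho
  isArtinian := by
    haveI := cot_finite hA
    exact isArtinian_of_finite

end Subalgebra

section DualNumber

variable {𝒪 : Type} [CommRing 𝒪] [IsLocalRing 𝒪]

theorem algDual_algebraMap_apply (o : 𝒪) :
    letI := algDual 𝒪
    algebraMap 𝒪 (DualNumber (ResidueField 𝒪)) o = TrivSqZeroExt.inl (residue 𝒪 o) := rfl

/-- (C4) The dual numbers over the residue field form an Artinian test algebra. -/
theorem isArtinianTestAlgebra_dualNumber :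
    letI := algDual 𝒪
    GaloisRep.IsArtinianTestAlgebra 𝒪 (DualNumber (ResidueField 𝒪)) := by
  letI := algDual 𝒪
  refine ⟨⟨fun o ho => ?_⟩, ?_, ?_⟩
  · rw [algDual_algebraMap_apply, TrivSqZeroExt.isUnit_iff_isUnit_fst,
      TrivSqZeroExt.fst_inl] at ho
    exact (isUnit_map_iff (residue 𝒪) o).mp ho
  · intro x
    obtain ⟨y, rfl⟩ := residue_surjective x
    obtain ⟨o, ho⟩ := residue_surjective (TrivSqZeroExt.fst y)
    refine ⟨o, ?_⟩
    show residue _ (algebraMap 𝒪 _ o) = residue _ y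
    rw [← sub_eq_zero, ← map_sub, residue_eq_zero_iff, mem_maximalIdeal, mem_nonunits_iff,
      TrivSqZeroExt.isUnit_iff_isUnit_fst, algDual_algebraMap_apply]
    simp [ho]
  · refine (isArtinianRing_iff_isNilpotent_maximalIdeal _).mpr ⟨2, ?_⟩
    rw [DualNumber.maximalIdeal_eq_span_singleton_eps, Ideal.span_singleton_pow,
      DualNumber.eps_pow_two]
    simp

end DualNumber

end Fermat.Agent.S53
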