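import Fermat.Agent.S53.RigidDefs
import Fermat.Agent.S53.Cotangent
import Fermat.Agent.S53.FibProd

set_option autoImplicit false
set_option linter.style.haveILetI false
set_option linter.unusedSectionVars false

namespace Fermat.Agent.S53

open IsLocalRing GaloisRep

section Sep

theorem sep_isArtinianRing_dualNumber (K : Type*) [Field K] : IsArtinianRing (DualNumber K) := by
  have hfin : Finite (Ideal (DualNumber K)) := by
    have hsub : (Set.univ : Set (Ideal (DualNumber K))) ⊆
        {⊥, Ideal.span {DualNumber.eps}, ⊤} := by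
      intro I _
      rcases DualNumber.ideal_trichotomy I with h | h | h <;> simp [h]
    exact Set.finite_univ_iff.mp ((Set.toFinite _).subset hsub)
  exact inferInstanceAs (WellFoundedLT (Ideal (DualNumber K)))

variable {𝒪 : Type} [CommRing 𝒪] [IsLocalRing 𝒪]

/-- The dual numbers over the residue field form an Artinian test algebra. -/
theorem sep_isArtinianTestAlgebra_dualNumber :
    letI := algDual 𝒪
    IsArtinianTestAlgebra 𝒪 (DualNumber (ResidueField 𝒪)) := by
  letI := algDual 𝒪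
  refine ⟨⟨fun o ho => ?_⟩, fun y => ?_, sep_isArtinianRing_dualNumber _⟩
  · have h1 : IsUnit (TrivSqZeroExt.fst (algebraMap 𝒪 (DualNumber (ResidueField 𝒪)) o)) :=
      TrivSqZeroExt.isUnit_iff_isUnit_fst.mp ho
    have h2 : TrivSqZeroExt.fst (algebraMap 𝒪 (DualNumber (ResidueField 𝒪)) o) = residue 𝒪 o :=
      rfl
    rw [h2] at h1
    by_contra hno
    exact h1.ne_zero ((residue_eq_zero_iff o).mpr hno)
  · obtain ⟨x, rfl⟩ := residue_surjective y
    obtain ⟨o, ho⟩ := residue_surjective (TrivSqZeroExt.fst x)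
    refine ⟨o, ?_⟩
    rw [Function.comp_apply, ← sub_eq_zero, ← map_sub, residue_eq_zero_iff, mem_maximalIdeal,
      mem_nonunits_iff, TrivSqZeroExt.isUnit_iff_isUnit_fst]
    have h2 : TrivSqZeroExt.fst (algebraMap 𝒪 (DualNumber (ResidueField 𝒪)) o - x) = 0 := by
      rw [TrivSqZeroExt.fst_sub]
      show residue 𝒪 o - _ = 0
      rw [ho, sub_self]
    rw [h2]
    exact not_isUnit_zero

variable [Finite (ResidueField 𝒪)]
variable {A : Type} [CommRing A] [IsLocalRing A] [Algebra 𝒪 A]

/-- Units of a subalgebra of an Artinian test algebra are detected in the ambient algebra. -/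
theorem sep_isUnit_subalgebra_iff (hA : IsArtinianTestAlgebra 𝒪 A) (E : Subalgebra 𝒪 A)
    (e : E) : IsUnit e ↔ IsUnit (e : A) := by
  constructor
  · intro h
    exact h.map E.val
  · intro h
    haveI : Finite A := FP.finite_of_isArtinianTestAlgebra hA
    haveI : Finite E := Finite.of_injective (fun x : E => (x : A)) Subtype.val_injective
    haveI : IsArtinianRing E := isArtinian_of_finite
    apply IsArtinianRing.isUnit_of_mem_nonZeroDivisors
    rw [mem_nonZeroDivisors_iff_right]
    intro x hx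
    have h3 : (x : A) * (e : A) = 0 := by
      have := congrArg (fun y : E => (y : A)) hx
      simpa using this
    exact Subtype.ext (by simpa using (h.mul_left_eq_zero).mp h3)

/-- A subalgebra of an Artinian test algebra is a local ring. -/
theorem sep_isLocalRing_subalgebra (hA : IsArtinianTestAlgebra 𝒪 A) (E : Subalgebra 𝒪 A) :
    IsLocalRing E := by
  refine IsLocalRing.of_nonunits_add fun x y hx hy => ?_
  rw [mem_nonunits_iff, sep_isUnit_subalgebra_iff hA] at hx hy ⊢
  exact (maximalIdeal A).add_mem hx hy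

/-- The inclusion of a subalgebra of an Artinian test algebra is a local homomorphism. -/
theorem sep_isLocalHom_subalgebra_val (hA : IsArtinianTestAlgebra 𝒪 A) (E : Subalgebra 𝒪 A) :
    IsLocalHom (E.val : E →+* A) :=
  ⟨fun e he => (sep_isUnit_subalgebra_iff hA E e).mpr he⟩

/-- A subalgebra of an Artinian test algebra is an Artinian test algebra. -/
theorem sep_isArtinianTestAlgebra_subalgebra (hA : IsArtinianTestAlgebra 𝒪 A)
    (E : Subalgebra 𝒪 A) :
    letI := sep_isLocalRing_subalgebra hA E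
    IsArtinianTestAlgebra 𝒪 E := by
  letI := sep_isLocalRing_subalgebra hA E
  refine ⟨⟨fun o ho => ?_⟩, fun y => ?_, ?_⟩
  · have h1 : IsUnit (algebraMap 𝒪 A o) := by
      have := ho.map E.val
      simpa using this
    exact hA.isLocalHom.map_nonunit _ h1
  · obtain ⟨x, rfl⟩ := residue_surjective y
    obtain ⟨o, ho⟩ := FP.exists_algebraMap_sub_mem hA.residue_surjective (x : A)
    refine ⟨o, ?_⟩
    rw [Function.comp_apply, eq_comm, ← sub_eq_zero, ← map_sub, residue_eq_zero_iff,
      mem_maximalIdeal, mem_nonunits_iff, sep_isUnit_subalgebra_iff hA]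
    exact ho
  · haveI : Finite A := FP.finite_of_isArtinianTestAlgebra hA
    haveI : Finite E := Finite.of_injective (fun x : E => (x : A)) Subtype.val_injective
    exact isArtinian_of_finite

/-- Every `𝒪`-algebra map out of an Artinian test algebra into a local ring is local. -/
theorem sep_isLocalHom_of_algHom {B : Type} [CommRing B] [IsLocalRing B] [Algebra 𝒪 B]
    (hA : IsArtinianTestAlgebra 𝒪 A) (φ : A →ₐ[𝒪] B) : IsLocalHom (φ : A →+* B) := by
  refine ⟨fun a ha => ?_⟩
  by_contra hna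
  haveI := hA.isArtinian
  obtain ⟨n, hn⟩ := FP.exists_maximalIdeal_pow_eq_bot (A := A)
  have h1 : a ^ n ∈ maximalIdeal A ^ n := Ideal.pow_mem_pow ((mem_maximalIdeal a).mpr hna) n
  rw [hn, Ideal.mem_bot] at h1
  have h2 : (φ a) ^ n = 0 := by rw [← map_pow, h1, map_zero]
  have h3 : IsUnit (φ a) := ha
  exact (h3.pow n).ne_zero h2

/-- A finite set of functions is separated by finitely many coordinates. -/
theorem sep_exists_family {Γ D : Type} (T : Set (Γ → D)) (hT : T.Finite) :
    ∃ (d : ℕ) (t : Fin d → Γ), ∀ x ∈ T, ∀ y ∈ T, (∀ i, x (t i) = y (t i)) → x = y := by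
  classical
  have hW : {p : (Γ → D) × (Γ → D) | p.1 ∈ T ∧ p.2 ∈ T ∧ p.1 ≠ p.2}.Finite :=
    (hT.prod hT).subset fun p hp => ⟨hp.1, hp.2.1⟩
  have hch : ∀ p : {p : (Γ → D) × (Γ → D) | p.1 ∈ T ∧ p.2 ∈ T ∧ p.1 ≠ p.2},
      ∃ γ : Γ, p.1.1 γ ≠ p.1.2 γ := fun p => Function.ne_iff.mp p.2.2.2
  choose w hw using hch
  haveI := hW.to_subtype
  have hS : (Set.range w).Finite := Set.finite_range w
  refine ⟨hS.toFinset.card, fun i => (hS.toFinset.equivFin.symm i : Γ), ?_⟩
  intro x hx y hy hxy
  by_contra hne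
  have hmem : w ⟨(x, y), hx, hy, hne⟩ ∈ hS.toFinset := by
    rw [Set.Finite.mem_toFinset]
    exact ⟨_, rfl⟩
  have h1 := hxy (hS.toFinset.equivFin ⟨_, hmem⟩)
  simp only [Equiv.symm_apply_apply] at h1
  exact hw ⟨(x, y), hx, hy, hne⟩ h1

variable {Γ : Type} {r0 : Γ → 𝒪}
  {F : ∀ ⦃A : Type⦄ [CommRing A] [IsLocalRing A] [Algebra 𝒪 A], (Γ → A) → Prop}

/-- If the coordinates `t` separate the points over the dual numbers, then for every point `x`
over an Artinian test algebra the `t`-coordinates generate the ring of definition of `x`. -/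
theorem sep_adjoin_le (hF : IsRigidFunctor 𝒪 Γ r0 F) {d : ℕ} (t : Fin d → Γ)
    (ht : letI := algDual 𝒪
      ∀ x y : Γ → DualNumber (ResidueField 𝒪), F x → F y → (∀ i, x (t i) = y (t i)) → x = y)
    (hA : IsArtinianTestAlgebra 𝒪 A) {x : Γ → A} (hx : F x) :
    Algebra.adjoin 𝒪 (Set.range x) ≤ Algebra.adjoin 𝒪 (Set.range fun i => x (t i)) := by
  letI := algDual 𝒪
  letI : IsLocalRing (Algebra.adjoin 𝒪 (Set.range x)) := sep_isLocalRing_subalgebra hA _
  have hEt : IsArtinianTestAlgebra 𝒪 (Algebra.adjoin 𝒪 (Set.range x)) :=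
    sep_isArtinianTestAlgebra_subalgebra hA _
  let x' : Γ → Algebra.adjoin 𝒪 (Set.range x) := fun γ => ⟨x γ, Algebra.subset_adjoin ⟨γ, rfl⟩⟩
  have hx' : F x' := hF.of_injective hEt hA (Algebra.adjoin 𝒪 (Set.range x)).val
    (sep_isLocalHom_subalgebra_val hA _) Subtype.val_injective hx
  have hD : IsArtinianTestAlgebra 𝒪 (DualNumber (ResidueField 𝒪)) :=
    sep_isArtinianTestAlgebra_dualNumber
  have hgen : Algebra.adjoin 𝒪 (Set.range x') = ⊤ := by
    have h1 := Algebra.adjoin_adjoin_coe_preimage (R := 𝒪) (s := Set.range x)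
    have h2 : (Subtype.val ⁻¹' Set.range x : Set (Algebra.adjoin 𝒪 (Set.range x))) =
        Set.range x' := by
      ext e
      constructor
      · rintro ⟨γ, hγ⟩
        exact ⟨γ, Subtype.ext hγ⟩
      · rintro ⟨γ, rfl⟩
        exact ⟨γ, rfl⟩
    rw [h2] at h1
    exact h1
  have htop : Algebra.adjoin 𝒪 (Set.range fun i => x' (t i)) = ⊤ := by
    apply adjoin_eq_top_of_forall_algHom_dualNumber hEt
    intro φ ψ hφψ
    have hφ : F (fun γ => φ (x' γ)) := hF.map hEt hD φ (sep_isLocalHom_of_algHom hEt φ) hx'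
    have hψ : F (fun γ => ψ (x' γ)) := hF.map hEt hD ψ (sep_isLocalHom_of_algHom hEt ψ) hx'
    have heq := ht _ _ hφ hψ (fun i => hφψ _ ⟨i, rfl⟩)
    refine AlgHom.ext_of_adjoin_eq_top hgen ?_
    rintro _ ⟨γ, rfl⟩
    exact congrFun heq γ
  intro a ha
  have h1 : (⟨a, ha⟩ : Algebra.adjoin 𝒪 (Set.range x)) ∈
      Algebra.adjoin 𝒪 (Set.range fun i => x' (t i)) := by
    rw [htop]
    exact Algebra.mem_top
  have h2 : a ∈ (Algebra.adjoin 𝒪 (Set.range fun i => x' (t i))).map
      (Algebra.adjoin 𝒪 (Set.range x)).val := ⟨_, h1, rfl⟩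
  rw [AlgHom.map_adjoin] at h2
  refine Algebra.adjoin_mono ?_ h2
  rintro _ ⟨_, ⟨i, rfl⟩, rfl⟩
  exact ⟨i, rfl⟩

/-- If the coordinates `t` separate the points over the dual numbers, then they separate the
points over every Artinian test algebra. -/
theorem sep_eq_of_forall_eq (hF : IsRigidFunctor 𝒪 Γ r0 F) {d : ℕ} (t : Fin d → Γ)
    (ht : letI := algDual 𝒪
      ∀ x y : Γ → DualNumber (ResidueField 𝒪), F x → F y → (∀ i, x (t i) = y (t i)) → x = y)
    (hA : IsArtinianTestAlgebra 𝒪 A) {x y : Γ → A} (hx : F x) (hy : F y)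
    (hxy : ∀ i, x (t i) = y (t i)) : x = y := by
  letI : IsLocalRing (FP.fibProdK hA hA) := FP.isLocalRing_fibProdK hA hA
  have hP : IsArtinianTestAlgebra 𝒪 (FP.fibProdK hA hA) := FP.isArtinianTestAlgebra_fibProdK hA hA
  have hmem : ∀ γ, (x γ, y γ) ∈ FP.fibProdK hA hA := by
    intro γ
    rw [FP.mem_fibProd]
    have h1 := hF.residue hA hx γ
    have h2 := hF.residue hA hy γ
    have h3 : x γ - y γ ∈ maximalIdeal A := by
      have h : x γ - y γ = (x γ - algebraMap 𝒪 A (r0 γ)) - (y γ - algebraMap 𝒪 A (r0 γ)) := by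
        ring
      rw [h]
      exact Ideal.sub_mem _ h1 h2
    have h4 := (FP.resTo_eq_zero_iff hA.isLocalHom hA.residue_surjective (x γ - y γ)).mpr h3
    rw [map_sub, sub_eq_zero] at h4
    exact h4
  let z : Γ → FP.fibProdK hA hA := fun γ => ⟨(x γ, y γ), hmem γ⟩
  have hz : F z := hF.of_fibreProduct hA hA FP.isArtinianTestAlgebra_residueField hP
    (FP.resToOf hA) (FP.resToOf hA) (FP.fibProdFst _ _) (FP.fibProdSnd _ _)
    (FP.isLocalHom_fibProdFst _ _ (FP.isLocalHom_resToOf hA) (FP.isLocalHom_resToOf hA))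
    (FP.isLocalHom_fibProdSnd _ _ (FP.isLocalHom_resToOf hA) (FP.isLocalHom_resToOf hA))
    (FP.fibProd_comp_eq _ _) (FP.fibProd_injective _ _) (FP.fibProd_exists _ _) hx hy
  have hle := sep_adjoin_le hF t ht hP hz
  have hΔ : Algebra.adjoin 𝒪 (Set.range fun i => z (t i)) ≤
      AlgHom.equalizer (FP.fibProdFst (FP.resToOf hA) (FP.resToOf hA))
        (FP.fibProdSnd (FP.resToOf hA) (FP.resToOf hA)) := by
    refine Algebra.adjoin_le ?_
    rintro _ ⟨i, rfl⟩
    exact hxy i
  funext γ
  exact hΔ (hle (Algebra.subset_adjoin ⟨γ, rfl⟩))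

/-- **Separating coordinates.** For a rigid functor there is a finite family of coordinates
such that, over every Artinian test algebra, the coordinates of a point in that family
generate its ring of definition and determine the point. -/
theorem exists_separating (hF : IsRigidFunctor 𝒪 Γ r0 F) :
    ∃ (d : ℕ) (t : Fin d → Γ),
      (∀ ⦃A : Type⦄ [CommRing A] [IsLocalRing A] [Algebra 𝒪 A], IsArtinianTestAlgebra 𝒪 A →
        ∀ ⦃x : Γ → A⦄, F x →
          Algebra.adjoin 𝒪 (Set.range x) ≤ Algebra.adjoin 𝒪 (Set.range fun i => x (t i))) ∧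
      (∀ ⦃A : Type⦄ [CommRing A] [IsLocalRing A] [Algebra 𝒪 A], IsArtinianTestAlgebra 𝒪 A →
        ∀ ⦃x y : Γ → A⦄, F x → F y → (∀ i, x (t i) = y (t i)) → x = y) := by
  letI := algDual 𝒪
  obtain ⟨d, t, ht⟩ := sep_exists_family _ hF.tangent_finite
  have ht' : ∀ x y : Γ → DualNumber (ResidueField 𝒪), F x → F y →
      (∀ i, x (t i) = y (t i)) → x = y := fun x y hx hy h => ht x hx y hy h
  exact ⟨d, t, fun A _ _ _ hA x hx => sep_adjoin_le hF t ht' hA hx,
    fun A _ _ _ hA x y hx hy hxy => sep_eq_of_forall_eq hF t ht' hA hx hy hxy⟩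

end Sep

end Fermat.Agent.S53
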