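import Mathlib
import Fermat.Prelude.Def_GaloisRep_DeformationCondition
import Fermat.Agent.S53.RigidDefs
import Fermat.Agent.S53.RigidSep
import Fermat.Agent.S53.RigidCNL
import Fermat.Agent.S53.RigidLevels
import Fermat.Agent.S53.AbsRepBasic
import Fermat.Agent.S53.FibProd
import Fermat.Agent.S53.AdicLimit

set_option autoImplicit false
set_option linter.unusedSectionVars false
set_option linter.style.haveILetI false

namespace Fermat.Agent.S53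

open IsLocalRing GaloisRep

section H52Core

variable (𝒪 : Type) [CommRing 𝒪] [IsDomain 𝒪] [IsDiscreteValuationRing 𝒪]
  [IsAdicComplete (maximalIdeal 𝒪) 𝒪] [Finite (ResidueField 𝒪)] (d : ℕ) (ϖ : 𝒪)
variable {Γ : Type} (r0 : Γ → 𝒪)
  (F : ∀ ⦃A : Type⦄ [CommRing A] [IsLocalRing A] [Algebra 𝒪 A], (Γ → A) → Prop)
  (t : Fin d → Γ)

/-- The family of ideals `K` of the power series ring such that the quotient carries an
`F`-point with the standard coordinates. -/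
def h52c_fam : Set (Ideal (rigP 𝒪 d)) :=
  {K | rigJ0 𝒪 d ϖ ≤ K ∧ (∃ n, rigI 𝒪 d ^ n ≤ K) ∧ ∃ hK : K ≠ ⊤, ∃ x : Γ → rigP 𝒪 d ⧸ K,
      @F (rigP 𝒪 d ⧸ K) _ (FP.isLocalRing_quotient hK) _ x ∧
      ∀ i, x (t i) = Ideal.Quotient.mk K
        (MvPowerSeries.X (some i) + MvPowerSeries.C (r0 (t i)))}

/-- Evaluation of power series at a point of the maximal ideal of a test algebra. -/
theorem h52c_exists_eval {A : Type} [CommRing A] [IsLocalRing A] [Algebra 𝒪 A]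
    (hA : IsArtinianTestAlgebra 𝒪 A) (hϖ : ϖ ∈ maximalIdeal 𝒪) (b : Fin d → A)
    (hb : ∀ i, b i ∈ maximalIdeal A) :
    ∃ ψ : rigP 𝒪 d →ₐ[𝒪] A, ψ (MvPowerSeries.X none) = algebraMap 𝒪 A ϖ ∧
      ∀ i, ψ (MvPowerSeries.X (some i)) = b i := by
  haveI := hA.isArtinian
  obtain ⟨n, hn⟩ := FP.exists_maximalIdeal_pow_eq_bot (A := A)
  let a : Option (Fin d) → A := fun o => o.elim (algebraMap 𝒪 A ϖ) b
  have ha : ∀ o, a o ∈ maximalIdeal A := by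
    intro o
    cases o with
    | none =>
      show algebraMap 𝒪 A ϖ ∈ maximalIdeal A
      intro hu
      exact hϖ (hA.isLocalHom.map_nonunit ϖ hu)
    | some i => exact hb i
  have h : Ideal.span (Set.range a) ^ n = ⊥ := by
    rw [eq_bot_iff, ← hn]
    exact Ideal.pow_right_mono (Ideal.span_le.mpr (by rintro _ ⟨o, rfl⟩; exact ha o)) n
  exact ⟨AbsRep.evalTrunc a n h, AbsRep.evalTrunc_X a n h none,
    fun i => AbsRep.evalTrunc_X a n h (some i)⟩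

/-- The family is upward closed among proper ideals. -/
theorem h52c_fam_up (hϖ : maximalIdeal 𝒪 = Ideal.span {ϖ}) (hF : IsRigidFunctor 𝒪 Γ r0 F)
    {K K' : Ideal (rigP 𝒪 d)} (hK : K ∈ h52c_fam 𝒪 d ϖ r0 F t) (hle : K ≤ K') (hK' : K' ≠ ⊤) :
    K' ∈ h52c_fam 𝒪 d ϖ r0 F t := by
  obtain ⟨h0, ⟨n, hn⟩, hKtop, x, hx, hxt⟩ := hK
  letI := FP.isLocalRing_quotient hKtop
  letI := FP.isLocalRing_quotient hK'
  have hT : IsArtinianTestAlgebra 𝒪 (rigP 𝒪 d ⧸ K) := rig_quot_testAlg 𝒪 d ϖ hϖ h0 hKtop hn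
  have hT' : IsArtinianTestAlgebra 𝒪 (rigP 𝒪 d ⧸ K') :=
    rig_quot_testAlg 𝒪 d ϖ hϖ (h0.trans hle) hK' (hn.trans hle)
  refine ⟨h0.trans hle, ⟨n, hn.trans hle⟩, hK', fun γ => Ideal.Quotient.factorₐ 𝒪 hle (x γ),
    ?_, fun i => ?_⟩
  · exact hF.map hT hT' (Ideal.Quotient.factorₐ 𝒪 hle)
      (AbsRep.isLocalHom_algHom hT.isLocalHom hT' _) hx
  · show Ideal.Quotient.factorₐ 𝒪 hle (x (t i)) = _
    rw [hxt i]
    rfl

/-- The kernel of the evaluation map attached to an `F`-point over a test algebra belongs to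
the family. -/
theorem h52c_ker_mem (hϖ : maximalIdeal 𝒪 = Ideal.span {ϖ}) (hF : IsRigidFunctor 𝒪 Γ r0 F)
    (hsep1 : ∀ ⦃A : Type⦄ [CommRing A] [IsLocalRing A] [Algebra 𝒪 A], IsArtinianTestAlgebra 𝒪 A →
        ∀ ⦃x : Γ → A⦄, F x →
          Algebra.adjoin 𝒪 (Set.range x) ≤ Algebra.adjoin 𝒪 (Set.range fun i => x (t i)))
    {A : Type} [CommRing A] [IsLocalRing A] [Algebra 𝒪 A]
    (hA : IsArtinianTestAlgebra 𝒪 A) {x : Γ → A} (hx : F x)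
    (ψ : rigP 𝒪 d →ₐ[𝒪] A) (hψ0 : ψ (MvPowerSeries.X none) = algebraMap 𝒪 A ϖ)
    (hψ : ∀ i, ψ (MvPowerSeries.X (some i)) = x (t i) - algebraMap 𝒪 A (r0 (t i))) :
    RingHom.ker (ψ : rigP 𝒪 d →+* A) ∈ h52c_fam 𝒪 d ϖ r0 F t := by
  have hmemK : ∀ p : rigP 𝒪 d, p ∈ RingHom.ker (ψ : rigP 𝒪 d →+* A) ↔ ψ p = 0 :=
    fun p => RingHom.mem_ker
  have hKtop : RingHom.ker (ψ : rigP 𝒪 d →+* A) ≠ ⊤ := RingHom.ker_ne_top _
  have h0 : rigJ0 𝒪 d ϖ ≤ RingHom.ker (ψ : rigP 𝒪 d →+* A) := by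
    unfold rigJ0
    rw [Ideal.span_le, Set.singleton_subset_iff, SetLike.mem_coe, hmemK, map_sub, hψ0,
      MvPowerSeries.c_eq_algebraMap, AlgHom.commutes, sub_self]
  haveI := hA.isArtinian
  obtain ⟨n, hn⟩ := FP.exists_maximalIdeal_pow_eq_bot (A := A)
  have hpow : rigI 𝒪 d ^ n ≤ RingHom.ker (ψ : rigP 𝒪 d →+* A) := by
    intro p hp
    have h1 : p ∈ maximalIdeal (rigP 𝒪 d) ^ n :=
      Ideal.pow_right_mono (rigI_le_maximalIdeal 𝒪 d) n hp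
    have h2 := AbsRep.map_maximalIdeal_pow_le AbsRep.isLocalHom_algebraMap_mvPowerSeries hA ψ n
      (Ideal.mem_map_of_mem _ h1)
    rw [hn, Ideal.mem_bot] at h2
    exact (hmemK p).mpr h2
  letI := FP.isLocalRing_quotient hKtop
  have hT : IsArtinianTestAlgebra 𝒪 (rigP 𝒪 d ⧸ RingHom.ker (ψ : rigP 𝒪 d →+* A)) :=
    rig_quot_testAlg 𝒪 d ϖ hϖ h0 hKtop hpow
  let ψbar : (rigP 𝒪 d ⧸ RingHom.ker (ψ : rigP 𝒪 d →+* A)) →ₐ[𝒪] A :=
    Ideal.Quotient.liftₐ _ ψ (fun p hp => (hmemK p).mp hp)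
  have hψbar : ∀ p, ψbar (Ideal.Quotient.mk _ p) = ψ p := fun p => rfl
  have hinj : Function.Injective ψbar := by
    rw [injective_iff_map_eq_zero]
    intro z hz
    obtain ⟨p, rfl⟩ := Ideal.Quotient.mk_surjective z
    rw [hψbar] at hz
    exact Ideal.Quotient.eq_zero_iff_mem.mpr ((hmemK p).mpr hz)
  have hbase : ∀ i, ψ (MvPowerSeries.X (some i) + MvPowerSeries.C (r0 (t i))) = x (t i) := by
    intro i
    rw [map_add, hψ i, MvPowerSeries.c_eq_algebraMap, AlgHom.commutes, sub_add_cancel]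
  have hrange : ∀ γ, ∃ p, ψ p = x γ := by
    intro γ
    have h1 : x γ ∈ Algebra.adjoin 𝒪 (Set.range fun i => x (t i)) :=
      hsep1 hA hx (Algebra.subset_adjoin ⟨γ, rfl⟩)
    have h2 : Algebra.adjoin 𝒪 (Set.range fun i => x (t i)) ≤ ψ.range := by
      refine Algebra.adjoin_le ?_
      rintro _ ⟨i, rfl⟩
      exact ⟨_, hbase i⟩
    exact h2 h1
  choose p hp using hrange
  refine ⟨h0, ⟨n, hpow⟩, hKtop, fun γ => Ideal.Quotient.mk _ (p γ), ?_, fun i => ?_⟩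
  · refine hF.of_injective hT hA ψbar (AbsRep.isLocalHom_algHom hT.isLocalHom hA _) hinj ?_
    have e : (fun γ => ψbar (Ideal.Quotient.mk _ (p γ))) = x := funext fun γ => by
      rw [hψbar, hp]
    rw [e]
    exact hx
  · apply hinj
    rw [hψbar, hψbar, hp, hbase]

/-- The family is closed under binary intersections. -/
theorem h52c_fam_inf (hϖ : maximalIdeal 𝒪 = Ideal.span {ϖ}) (hF : IsRigidFunctor 𝒪 Γ r0 F)
    (hsep2 : ∀ ⦃A : Type⦄ [CommRing A] [IsLocalRing A] [Algebra 𝒪 A], IsArtinianTestAlgebra 𝒪 A →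
        ∀ ⦃x y : Γ → A⦄, F x → F y → (∀ i, x (t i) = y (t i)) → x = y)
    {K₁ K₂ : Ideal (rigP 𝒪 d)} (h1 : K₁ ∈ h52c_fam 𝒪 d ϖ r0 F t)
    (h2 : K₂ ∈ h52c_fam 𝒪 d ϖ r0 F t) : K₁ ⊓ K₂ ∈ h52c_fam 𝒪 d ϖ r0 F t := by
  obtain ⟨h01, ⟨n1, hn1⟩, hK1, x1, hx1, hxt1⟩ := h1
  obtain ⟨h02, ⟨n2, hn2⟩, hK2, x2, hx2, hxt2⟩ := h2
  have hKs : K₁ ⊔ K₂ ≠ ⊤ := by
    intro h
    have : K₁ ⊔ K₂ ≤ maximalIdeal (rigP 𝒪 d) :=
      sup_le (IsLocalRing.le_maximalIdeal hK1) (IsLocalRing.le_maximalIdeal hK2)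
    rw [h, top_le_iff] at this
    exact (IsLocalRing.maximalIdeal.isMaximal (rigP 𝒪 d)).ne_top this
  have hKi : K₁ ⊓ K₂ ≠ ⊤ := ne_top_of_le_ne_top hK1 inf_le_left
  have hni : rigI 𝒪 d ^ (max n1 n2) ≤ K₁ ⊓ K₂ :=
    le_inf ((Ideal.pow_le_pow_right (le_max_left n1 n2)).trans hn1)
      ((Ideal.pow_le_pow_right (le_max_right n1 n2)).trans hn2)
  letI := FP.isLocalRing_quotient hK1
  letI := FP.isLocalRing_quotient hK2
  letI := FP.isLocalRing_quotient hKs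
  letI := FP.isLocalRing_quotient hKi
  have hT1 : IsArtinianTestAlgebra 𝒪 (rigP 𝒪 d ⧸ K₁) := rig_quot_testAlg 𝒪 d ϖ hϖ h01 hK1 hn1
  have hT2 : IsArtinianTestAlgebra 𝒪 (rigP 𝒪 d ⧸ K₂) := rig_quot_testAlg 𝒪 d ϖ hϖ h02 hK2 hn2
  have hTs : IsArtinianTestAlgebra 𝒪 (rigP 𝒪 d ⧸ (K₁ ⊔ K₂)) :=
    rig_quot_testAlg 𝒪 d ϖ hϖ (h01.trans le_sup_left) hKs (hn1.trans le_sup_left)
  have hTi : IsArtinianTestAlgebra 𝒪 (rigP 𝒪 d ⧸ (K₁ ⊓ K₂)) :=
    rig_quot_testAlg 𝒪 d ϖ hϖ (le_inf h01 h02) hKi hni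
  let f : (rigP 𝒪 d ⧸ K₁) →ₐ[𝒪] (rigP 𝒪 d ⧸ (K₁ ⊔ K₂)) := Ideal.Quotient.factorₐ 𝒪 le_sup_left
  let g : (rigP 𝒪 d ⧸ K₂) →ₐ[𝒪] (rigP 𝒪 d ⧸ (K₁ ⊔ K₂)) := Ideal.Quotient.factorₐ 𝒪 le_sup_right
  let pA : (rigP 𝒪 d ⧸ (K₁ ⊓ K₂)) →ₐ[𝒪] (rigP 𝒪 d ⧸ K₁) := Ideal.Quotient.factorₐ 𝒪 inf_le_left
  let pB : (rigP 𝒪 d ⧸ (K₁ ⊓ K₂)) →ₐ[𝒪] (rigP 𝒪 d ⧸ K₂) := Ideal.Quotient.factorₐ 𝒪 inf_le_right
  have hf : ∀ p, f (Ideal.Quotient.mk K₁ p) = Ideal.Quotient.mk (K₁ ⊔ K₂) p := fun p => rfl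
  have hg : ∀ p, g (Ideal.Quotient.mk K₂ p) = Ideal.Quotient.mk (K₁ ⊔ K₂) p := fun p => rfl
  have hpAm : ∀ p, pA (Ideal.Quotient.mk (K₁ ⊓ K₂) p) = Ideal.Quotient.mk K₁ p := fun p => rfl
  have hpBm : ∀ p, pB (Ideal.Quotient.mk (K₁ ⊓ K₂) p) = Ideal.Quotient.mk K₂ p := fun p => rfl
  have hpA : IsLocalHom (pA : (rigP 𝒪 d ⧸ (K₁ ⊓ K₂)) →+* (rigP 𝒪 d ⧸ K₁)) :=
    AbsRep.isLocalHom_algHom hTi.isLocalHom hT1 pA
  have hpB : IsLocalHom (pB : (rigP 𝒪 d ⧸ (K₁ ⊓ K₂)) →+* (rigP 𝒪 d ⧸ K₂)) :=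
    AbsRep.isLocalHom_algHom hTi.isLocalHom hT2 pB
  have hcomp : f.comp pA = g.comp pB := by
    refine AlgHom.ext fun z => ?_
    obtain ⟨p, rfl⟩ := Ideal.Quotient.mk_surjective z
    rfl
  have hinj : Function.Injective (fun z => (pA z, pB z)) := by
    intro z z' hzz
    obtain ⟨p, rfl⟩ := Ideal.Quotient.mk_surjective z
    obtain ⟨p', rfl⟩ := Ideal.Quotient.mk_surjective z'
    have e1 : Ideal.Quotient.mk K₁ p = Ideal.Quotient.mk K₁ p' := congrArg Prod.fst hzz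
    have e2 : Ideal.Quotient.mk K₂ p = Ideal.Quotient.mk K₂ p' := congrArg Prod.snd hzz
    exact Ideal.Quotient.eq.mpr ⟨Ideal.Quotient.eq.mp e1, Ideal.Quotient.eq.mp e2⟩
  have hsurj : ∀ a b, f a = g b → ∃ z, pA z = a ∧ pB z = b := by
    intro a b hab
    obtain ⟨p, rfl⟩ := Ideal.Quotient.mk_surjective a
    obtain ⟨q, rfl⟩ := Ideal.Quotient.mk_surjective b
    rw [hf, hg] at hab
    obtain ⟨k1, hk1, k2, hk2, hk⟩ := Submodule.mem_sup.mp (Ideal.Quotient.eq.mp hab)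
    refine ⟨Ideal.Quotient.mk (K₁ ⊓ K₂) (p - k1), ?_, ?_⟩
    · rw [hpAm]
      refine Ideal.Quotient.eq.mpr ?_
      have : p - k1 - p = -k1 := by ring
      rw [this]
      exact neg_mem hk1
    · rw [hpBm]
      refine Ideal.Quotient.eq.mpr ?_
      have : p - k1 - q = k2 := by
        rw [← sub_eq_zero]
        linear_combination -hk
      rw [this]
      exact hk2
  have heq : (fun γ => f (x1 γ)) = fun γ => g (x2 γ) := by
    refine hsep2 hTs (hF.map hT1 hTs f (AbsRep.isLocalHom_algHom hT1.isLocalHom hTs f) hx1)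
      (hF.map hT2 hTs g (AbsRep.isLocalHom_algHom hT2.isLocalHom hTs g) hx2) (fun i => ?_)
    show f (x1 (t i)) = g (x2 (t i))
    rw [hxt1, hxt2, hf, hg]
  choose z hz using fun γ => hsurj (x1 γ) (x2 γ) (congrFun heq γ)
  refine ⟨le_inf h01 h02, ⟨_, hni⟩, hKi, z, ?_, fun i => ?_⟩
  · refine hF.of_fibreProduct hT1 hT2 hTs hTi f g pA pB hpA hpB hcomp hinj hsurj ?_ ?_
    · have e : (fun γ => pA (z γ)) = x1 := funext fun γ => (hz γ).1
      rw [e]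
      exact hx1
    · have e : (fun γ => pB (z γ)) = x2 := funext fun γ => (hz γ).2
      rw [e]
      exact hx2
  · apply hinj
    show (pA (z (t i)), pB (z (t i))) = (pA _, pB _)
    rw [(hz (t i)).1, (hz (t i)).2, hpAm, hpBm, hxt1, hxt2]

end H52Core

/-- **Abstract pro-representability of a rigid functor.** -/
theorem h52c_exists_universal (𝒪 : Type) [CommRing 𝒪] [IsDomain 𝒪] [IsDiscreteValuationRing 𝒪]
    [IsAdicComplete (maximalIdeal 𝒪) 𝒪] [Finite (ResidueField 𝒪)] (Γ : Type) (r0 : Γ → 𝒪)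
    (F : ∀ ⦃A : Type⦄ [CommRing A] [IsLocalRing A] [Algebra 𝒪 A], (Γ → A) → Prop)
    (hF : IsRigidFunctor 𝒪 Γ r0 F) :
    ∃ (R : Type) (_ : CommRing R) (_ : IsLocalRing R) (_ : IsNoetherianRing R)
      (_ : IsAdicComplete (maximalIdeal R) R)
      (_ : Algebra 𝒪 R) (_ : IsLocalHom (algebraMap 𝒪 R)) (xR : Γ → R),
      Function.Surjective (residue R ∘ algebraMap 𝒪 R) ∧
      (∀ ⦃B : Type⦄ [CommRing B] [IsLocalRing B] [Algebra 𝒪 B], IsArtinianTestAlgebra 𝒪 B →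
        ∀ (q : R →ₐ[𝒪] B), IsLocalHom (q : R →+* B) → F (fun γ => q (xR γ))) ∧
      (∀ (A : Type) [CommRing A] [IsLocalRing A] [IsNoetherianRing A]
        [IsAdicComplete (maximalIdeal A) A] [Algebra 𝒪 A]
        [IsLocalHom (algebraMap 𝒪 A)], Function.Surjective (residue A ∘ algebraMap 𝒪 A) →
        ∀ x : Γ → A,
          (∀ ⦃B : Type⦄ [CommRing B] [IsLocalRing B] [Algebra 𝒪 B], IsArtinianTestAlgebra 𝒪 B →
            ∀ (q : A →ₐ[𝒪] B), IsLocalHom (q : A →+* B) → Function.Surjective q →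
              F (fun γ => q (x γ))) →
          ∃! φ : R →ₐ[𝒪] A, ∀ γ, φ (xR γ) = x γ) := by
  obtain ⟨d, t, hsep1, hsep2⟩ := exists_separating hF
  obtain ⟨ϖ, hϖirr⟩ := IsDiscreteValuationRing.exists_irreducible 𝒪
  have hϖ : maximalIdeal 𝒪 = Ideal.span {ϖ} := hϖirr.maximalIdeal_eq
  have hϖm : ϖ ∈ maximalIdeal 𝒪 := by
    rw [hϖ]
    exact Ideal.subset_span rfl
  -- the family of ideals
  have hne : (h52c_fam 𝒪 d ϖ r0 F t).Nonempty := by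
    obtain ⟨x, hx⟩ := hF.nonempty
    have hk : IsArtinianTestAlgebra 𝒪 (ResidueField 𝒪) := FP.isArtinianTestAlgebra_residueField
    obtain ⟨ψ, hψ0, hψ⟩ := h52c_exists_eval 𝒪 d ϖ hk hϖm
      (fun i => x (t i) - algebraMap 𝒪 _ (r0 (t i))) (fun i => hF.residue hk hx (t i))
    exact ⟨_, h52c_ker_mem 𝒪 d ϖ r0 F t hϖ hF hsep1 hk hx ψ hψ0 hψ⟩
  have hsupne : ∀ K ∈ h52c_fam 𝒪 d ϖ r0 F t, ∀ n, 0 < n → K ⊔ rigI 𝒪 d ^ n ≠ ⊤ := by
    intro K hK n hn h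
    have h1 : K ⊔ rigI 𝒪 d ^ n ≤ maximalIdeal (rigP 𝒪 d) :=
      sup_le (IsLocalRing.le_maximalIdeal hK.2.2.1)
        ((Ideal.pow_le_self (Nat.pos_iff_ne_zero.mp hn)).trans (rigI_le_maximalIdeal 𝒪 d))
    rw [h, top_le_iff] at h1
    exact (IsLocalRing.maximalIdeal.isMaximal (rigP 𝒪 d)).ne_top h1
  obtain ⟨J, Kn, hRloc, hJle, hKmem, hKpow, hJK, hKanti, hKstep, hKmin, hKJ, hJeq, hRcomp, hRmax,
      hRlh, hRsurj⟩ :=
    rig_levels 𝒪 d ϖ hϖ (h52c_fam 𝒪 d ϖ r0 F t) hne (fun K hK => hK.1) (fun K hK => hK.2.2.1)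
      (fun K hK => hK.2.1)
      (fun K₁ h1 K₂ h2 => h52c_fam_inf 𝒪 d ϖ r0 F t hϖ hF hsep2 h1 h2)
      (fun K hK n hn => h52c_fam_up 𝒪 d ϖ r0 F t hϖ hF hK le_sup_left (hsupne K hK n hn))
  -- the level points
  have hK0 : ∀ n, rigJ0 𝒪 d ϖ ≤ Kn n := fun n => (hKmem n).1
  choose hKtop xn hxn hxnt using fun n => (hKmem n).2.2
  letI instK : ∀ n, IsLocalRing (rigP 𝒪 d ⧸ Kn n) := fun n => FP.isLocalRing_quotient (hKtop n)
  have hT : ∀ n, IsArtinianTestAlgebra 𝒪 (rigP 𝒪 d ⧸ Kn n) := fun n =>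
    rig_quot_testAlg 𝒪 d ϖ hϖ (hK0 n) (hKtop n) (hKpow n)
  have hcompat : ∀ n γ, Ideal.Quotient.factorₐ 𝒪 (hKanti n) (xn (n + 1) γ) = xn n γ := by
    intro n
    have h1 : (fun γ => Ideal.Quotient.factorₐ 𝒪 (hKanti n) (xn (n + 1) γ)) = xn n := by
      refine hsep2 (hT n) (hF.map (hT (n + 1)) (hT n) (Ideal.Quotient.factorₐ 𝒪 (hKanti n))
        (AbsRep.isLocalHom_algHom (hT (n + 1)).isLocalHom (hT n) _) (hxn (n + 1))) (hxn n)
        (fun i => ?_)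
      show Ideal.Quotient.factorₐ 𝒪 (hKanti n) (xn (n + 1) (t i)) = xn n (t i)
      rw [hxnt, hxnt]
      rfl
    exact fun γ => congrFun h1 γ
  choose pn hpn using fun n γ => Ideal.Quotient.mk_surjective (xn n γ)
  have hs : ∀ n γ, pn (n + 1) γ - pn n γ ∈ Kn n := by
    intro n γ
    refine Ideal.Quotient.eq.mp ?_
    rw [hpn n γ, ← hcompat n γ, ← hpn (n + 1) γ]
    rfl
  -- the limit point
  let J' : ℕ → Ideal (rigP 𝒪 d) := fun n => Nat.casesOn n ⊤ Kn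
  have hJ'anti : Antitone J' := by
    refine antitone_nat_of_succ_le fun n => ?_
    cases n with
    | zero => exact le_top
    | succ m => exact hKanti m
  have hJ'pow : ∀ n, rigI 𝒪 d ^ n ≤ J' n := by
    intro n
    cases n with
    | zero => exact le_top
    | succ m => exact hKpow m
  have hJ'step : ∀ n, J' n ≤ J' (n + 1) ⊔ rigI 𝒪 d ^ n := by
    intro n
    cases n with
    | zero =>
      rw [pow_zero, Ideal.one_eq_top]
      exact le_sup_right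
    | succ m => exact hKstep m
  have hlim : ∀ γ, ∃ x : rigP 𝒪 d, ∀ n, x - pn n γ ∈ Kn n := by
    intro γ
    obtain ⟨x, hx⟩ := adicLimit_exists_of_compatible (rigI 𝒪 d) J' hJ'anti hJ'pow hJ'step
      (fun n => Nat.casesOn n 0 (fun m => pn m γ)) (by
        intro n
        cases n with
        | zero => exact Submodule.mem_top
        | succ m => exact hs m γ)
    exact ⟨x, fun n => hx (n + 1)⟩
  choose xP hxP using hlim
  have hxPn : ∀ n γ, Ideal.Quotient.mk (Kn n) (xP γ) = xn n γ := by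
    intro n γ
    rw [← hpn n γ]
    exact Ideal.Quotient.eq.mpr (hxP γ n)
  have hxPt : ∀ i, xP (t i) - (MvPowerSeries.X (some i) + MvPowerSeries.C (r0 (t i))) ∈ J := by
    intro i
    rw [hJeq, Ideal.mem_iInf]
    intro n
    refine Ideal.Quotient.eq.mp ?_
    rw [hxPn, hxnt]
  have hJ0 : rigJ0 𝒪 d ϖ ≤ J := by
    rw [hJeq]
    exact le_iInf hK0
  -- the universal point
  let xR : Γ → rigP 𝒪 d ⧸ J := fun γ => Ideal.Quotient.mk J (xP γ)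
  have hU1 : ∀ ⦃B : Type⦄ [CommRing B] [IsLocalRing B] [Algebra 𝒪 B], IsArtinianTestAlgebra 𝒪 B →
      ∀ (q : (rigP 𝒪 d ⧸ J) →ₐ[𝒪] B), F (fun γ => q (xR γ)) := by
    intro B _ _ _ hB q
    haveI := hB.isArtinian
    obtain ⟨n, hn⟩ := FP.exists_maximalIdeal_pow_eq_bot (A := B)
    have hn1 : maximalIdeal B ^ (n + 1) = ⊥ := by
      rw [pow_succ, hn, Ideal.bot_mul]
    have hq : ∀ p ∈ Kn n, (q.comp (Ideal.Quotient.mkₐ 𝒪 J)) p = 0 := by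
      intro p hp
      obtain ⟨j, hj, i, hi, rfl⟩ := Submodule.mem_sup.mp (hKJ n hp)
      have h2 : Ideal.Quotient.mk J i ∈ maximalIdeal (rigP 𝒪 d ⧸ J) ^ (n + 1) := by
        rw [hRmax, ← Ideal.map_pow]
        exact Ideal.mem_map_of_mem _ hi
      have h3 := AbsRep.map_maximalIdeal_pow_le hRlh hB q (n + 1) (Ideal.mem_map_of_mem _ h2)
      rw [hn1, Ideal.mem_bot] at h3
      show q (Ideal.Quotient.mk J (j + i)) = 0
      rw [map_add, Ideal.Quotient.eq_zero_iff_mem.mpr hj, zero_add]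
      exact h3
    let q' : (rigP 𝒪 d ⧸ Kn n) →ₐ[𝒪] B :=
      Ideal.Quotient.liftₐ (Kn n) (q.comp (Ideal.Quotient.mkₐ 𝒪 J)) hq
    have h4 := hF.map (hT n) hB q' (AbsRep.isLocalHom_algHom (hT n).isLocalHom hB q') (hxn n)
    have e : (fun γ => q (xR γ)) = fun γ => q' (xn n γ) := funext fun γ => by
      rw [← hxPn n γ]
      rfl
    rw [e]
    exact h4
  have hart : ∀ ⦃A : Type⦄ [CommRing A] [IsLocalRing A] [Algebra 𝒪 A],
      IsArtinianTestAlgebra 𝒪 A → ∀ x : Γ → A, F x →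
        ∃! φ : (rigP 𝒪 d ⧸ J) →ₐ[𝒪] A, ∀ γ, φ (xR γ) = x γ := by
    intro A _ _ _ hA x hx
    obtain ⟨ψ, hψ0, hψ⟩ := h52c_exists_eval 𝒪 d ϖ hA hϖm
      (fun i => x (t i) - algebraMap 𝒪 A (r0 (t i))) (fun i => hF.residue hA hx (t i))
    have hker := h52c_ker_mem 𝒪 d ϖ r0 F t hϖ hF hsep1 hA hx ψ hψ0 hψ
    have hJker : ∀ p ∈ J, ψ p = 0 := fun p hp => RingHom.mem_ker.mp (hJle _ hker hp)
    let φ : (rigP 𝒪 d ⧸ J) →ₐ[𝒪] A := Ideal.Quotient.liftₐ J ψ hJker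
    have hφmk : ∀ p, φ (Ideal.Quotient.mk J p) = ψ p := fun p => rfl
    have hφx : ∀ γ, φ (xR γ) = x γ := by
      have h1 : F (fun γ => φ (xR γ)) := hU1 hA φ
      have h2 : (fun γ => φ (xR γ)) = x := by
        refine hsep2 hA h1 hx (fun i => ?_)
        show φ (Ideal.Quotient.mk J (xP (t i))) = x (t i)
        rw [hφmk]
        have h3 := hJker _ (hxPt i)
        rw [map_sub, sub_eq_zero] at h3
        rw [h3, map_add, hψ i, MvPowerSeries.c_eq_algebraMap, AlgHom.commutes, sub_add_cancel]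
      exact fun γ => congrFun h2 γ
    refine ⟨φ, hφx, fun φ' hφ' => ?_⟩
    have hX0 : ∀ φ'' : (rigP 𝒪 d ⧸ J) →ₐ[𝒪] A,
        φ'' (Ideal.Quotient.mk J (MvPowerSeries.X none)) = algebraMap 𝒪 A ϖ := by
      intro φ''
      have h5 : Ideal.Quotient.mk J (MvPowerSeries.X none) =
          algebraMap 𝒪 (rigP 𝒪 d ⧸ J) ϖ := by
        refine Ideal.Quotient.eq.mpr (hJ0 ?_)
        exact Ideal.subset_span rfl
      rw [h5, AlgHom.commutes]
    have hXi : ∀ φ'' : (rigP 𝒪 d ⧸ J) →ₐ[𝒪] A, (∀ γ, φ'' (xR γ) = x γ) → ∀ i,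
        φ'' (Ideal.Quotient.mk J (MvPowerSeries.X (some i))) =
          x (t i) - algebraMap 𝒪 A (r0 (t i)) := by
      intro φ'' h'' i
      have h5 : Ideal.Quotient.mk J (MvPowerSeries.X (some i)) =
          xR (t i) - algebraMap 𝒪 (rigP 𝒪 d ⧸ J) (r0 (t i)) := by
        rw [eq_sub_iff_add_eq]
        refine Ideal.Quotient.eq.mpr ?_
        have := neg_mem (hxPt i)
        rwa [neg_sub] at this
      rw [h5, map_sub, h'', AlgHom.commutes]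
    have h6 : φ'.comp (Ideal.Quotient.mkₐ 𝒪 J) = φ.comp (Ideal.Quotient.mkₐ 𝒪 J) := by
      refine AbsRep.algHom_ext_X hA _ _ (fun o => ?_)
      cases o with
      | none => exact (hX0 φ').trans (hX0 φ).symm
      | some i => exact (hXi φ' hφ' i).trans (hXi φ hφx i).symm
    refine AlgHom.ext fun z => ?_
    obtain ⟨p, rfl⟩ := Ideal.Quotient.mk_surjective z
    exact DFunLike.congr_fun h6 p
  exact ⟨rigP 𝒪 d ⧸ J, inferInstance, hRloc, inferInstance, hRcomp, inferInstance, hRlh, xR,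
    hRsurj, fun B _ _ _ hB q _ => hU1 hB q, cnl_universal xR hart⟩

end Fermat.Agent.S53
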