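import Fermat.Statements.S53
import Fermat.Prelude.Thm_IsAdicComplete_of_module_finite

set_option autoImplicit false

noncomputable section

namespace Fermat.Agent.S53

open IsLocalRing

/-- The absolute Galois group of the rationals, in the form used by the prelude. -/
abbrev GQ : Type := AlgebraicClosure ℚ ≃ₐ[ℚ] AlgebraicClosure ℚ

/-- Two by two matrices. -/
abbrev M2 (A : Type) : Type := Matrix (Fin 2) (Fin 2) A

/-- All entries of a matrix lie in an ideal. -/
def EntryIn {A : Type} [CommRing A] (I : Ideal A) (X : M2 A) : Prop := ∀ i j, X i j ∈ I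

/-- A continuous two dimensional matrix representation of `GQ` over a local ring. -/
structure MatRep (A : Type) [CommRing A] [IsLocalRing A] where
  hom : GQ →* M2 A
  cont : ∀ n : ℕ, ∃ L : IntermediateField ℚ (AlgebraicClosure ℚ), FiniteDimensional ℚ L ∧
    ∀ σ : GQ, (∀ x ∈ L, σ x = x) → EntryIn (maximalIdeal A ^ n) (hom σ - 1)

theorem MatRep.ext {A : Type} [CommRing A] [IsLocalRing A] {ρ ρ' : MatRep A}
    (h : ∀ σ, ρ.hom σ = ρ'.hom σ) : ρ = ρ' := by
  cases ρ with
  | mk hom cont =>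
    cases ρ' with
    | mk hom' cont' =>
      have : hom = hom' := MonoidHom.ext h
      subst this
      rfl

theorem mem_smul_top_of_forall_mem {A : Type} [CommRing A] (I : Ideal A) (w : Fin 2 → A)
    (hw : ∀ i, w i ∈ I) : w ∈ I • (⊤ : Submodule A (Fin 2 → A)) := by
  have hw' : w = ∑ i, w i • (Pi.single i (1 : A) : Fin 2 → A) := by
    funext k
    simp [Finset.sum_apply, Pi.single_apply]
  rw [hw']
  exact Submodule.sum_mem _ fun i _ => Submodule.smul_mem_smul (hw i) Submodule.mem_top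

/-- The Galois representation attached to a matrix representation. -/
def MatRep.toRep {A : Type} [CommRing A] [IsLocalRing A] (ρ : MatRep A) : GaloisRepAdic A where
  V := Fin 2 → A
  finrank_eq := by simp
  ρ :=
    { toFun := fun σ => Matrix.toLin' (ρ.hom σ)
      map_one' := by rw [map_one, Matrix.toLin'_one]; rfl
      map_mul' := fun a b => by rw [map_mul, Matrix.toLin'_mul]; rfl }
  isAdicContinuous := by
    intro n
    obtain ⟨L, hL, h⟩ := ρ.cont n
    refine ⟨L, hL, fun σ hσ v => ?_⟩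
    have h1 := h σ hσ
    have h2 : (Matrix.toLin' (ρ.hom σ)) v - v = (ρ.hom σ - 1).mulVec v := by
      rw [Matrix.sub_mulVec, Matrix.one_mulVec, Matrix.toLin'_apply]
    change (Matrix.toLin' (ρ.hom σ)) v - v ∈ _
    rw [h2]
    refine mem_smul_top_of_forall_mem _ _ fun i => ?_
    rw [Matrix.mulVec, dotProduct]
    exact Ideal.sum_mem _ fun j _ => Ideal.mul_mem_right _ _ (h1 i j)

theorem map_maximalIdeal_pow_le {A B : Type} [CommRing A] [IsLocalRing A] [CommRing B]
    [IsLocalRing B] (φ : A →+* B) (hφ : IsLocalHom φ) (n : ℕ) {x : A}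
    (hx : x ∈ maximalIdeal A ^ n) : φ x ∈ maximalIdeal B ^ n := by
  have hmap : (maximalIdeal A ^ n).map φ ≤ maximalIdeal B ^ n := by
    rw [Ideal.map_pow]
    exact Ideal.pow_right_mono (Ideal.map_le_iff_le_comap.mpr fun a ha =>
      Ideal.mem_comap.mpr (haveI := hφ; map_nonunit φ a ha)) n
  exact hmap (Ideal.mem_map_of_mem φ hx)

/-- Push a matrix representation forward along a local ring homomorphism. -/
def MatRep.map {A B : Type} [CommRing A] [IsLocalRing A] [CommRing B] [IsLocalRing B]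
    (φ : A →+* B) (hφ : IsLocalHom φ) (ρ : MatRep A) : MatRep B where
  hom := (φ.mapMatrix : M2 A →+* M2 B).toMonoidHom.comp ρ.hom
  cont := by
    intro n
    obtain ⟨L, hL, h⟩ := ρ.cont n
    refine ⟨L, hL, fun σ hσ i j => ?_⟩
    have h1 := h σ hσ i j
    have h2 : ((φ.mapMatrix : M2 A →+* M2 B).toMonoidHom.comp ρ.hom σ - 1) i j
        = φ ((ρ.hom σ - 1) i j) := by
      simp only [MonoidHom.comp_apply, RingHom.toMonoidHom_eq_coe, MonoidHom.coe_coe,
        RingHom.mapMatrix_apply, Matrix.sub_apply, Matrix.map_apply, map_sub]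
      congr 1
      by_cases hij : i = j
      · subst hij; simp
      · simp [Matrix.one_apply_ne hij]
    rw [h2]
    exact map_maximalIdeal_pow_le φ hφ n h1

@[simp] theorem MatRep.map_hom_apply {A B : Type} [CommRing A] [IsLocalRing A] [CommRing B]
    [IsLocalRing B] (φ : A →+* B) (hφ : IsLocalHom φ) (ρ : MatRep A) (σ : GQ) :
    (ρ.map φ hφ).hom σ = (ρ.hom σ).map φ := rfl

section Lift

variable (𝒪 : Type) [CommRing 𝒪] [IsLocalRing 𝒪]

/-- Coordinates and a dual family witnessing that the commutant of the residual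
representation consists of scalars. -/
structure SliceData (r0 : GQ → M2 𝒪) where
  g : Fin 3 → GQ
  i : Fin 3 → Fin 2
  j : Fin 3 → Fin 2
  X : Fin 3 → M2 𝒪
  decomp : ∀ Y : M2 𝒪, Y = Y 0 0 • (1 : M2 𝒪) +
    ∑ b, (Y * r0 (g b) - r0 (g b) * Y) (i b) (j b) • X b
  dual : ∀ a b, (X b * r0 (g a) - r0 (g a) * X b) (i a) (j a) = if a = b then 1 else 0

variable {𝒪}
variable {A : Type} [CommRing A] [IsLocalRing A] [Algebra 𝒪 A]

/-- `ρ` agrees with `r0` modulo the maximal ideal. -/
def IsLiftOf (r0 : GQ → M2 𝒪) (ρ : GQ → M2 A) : Prop :=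
  ∀ σ, EntryIn (maximalIdeal A) (ρ σ - (r0 σ).map (algebraMap 𝒪 A))

/-- `ρ` has the prescribed entries at the three slice coordinates. -/
def IsNormalized {r0 : GQ → M2 𝒪} (S : SliceData 𝒪 r0) (ρ : GQ → M2 A) : Prop :=
  ∀ a, ρ (S.g a) (S.i a) (S.j a) = algebraMap 𝒪 A (r0 (S.g a) (S.i a) (S.j a))

/-- A normalized lift satisfying the deformation condition. -/
structure IsNLift
    (𝒟 : ∀ ⦃A : Type⦄ [CommRing A] [IsLocalRing A] [Algebra 𝒪 A], GaloisRepAdic A → Prop)
    {r0 : GQ → M2 𝒪} (S : SliceData 𝒪 r0) (ρ : MatRep A) : Prop where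
  lift : IsLiftOf r0 ρ.hom
  norm : IsNormalized S ρ.hom
  cond : 𝒟 ρ.toRep

/-- `r0` lifts entrywise the matrix of `ρbar` in some basis. -/
def ResData (ρbar : ResidualGaloisRep (ResidueField 𝒪)) (r0 : GQ → M2 𝒪) : Prop :=
  ∃ b : Module.Basis (Fin 2) (ResidueField 𝒪) ρbar.V,
    ∀ σ i j, residue 𝒪 (r0 σ i j) = LinearMap.toMatrix b b (ρbar.ρ σ) i j

end Lift

/-- The algebra structure on the dual numbers that the tangent space condition uses. -/
@[reducible] def dualAlg (𝒪 : Type) [CommRing 𝒪] [IsLocalRing 𝒪] :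
    Algebra 𝒪 (DualNumber (ResidueField 𝒪)) :=
  ((algebraMap (ResidueField 𝒪) (DualNumber (ResidueField 𝒪))).comp
    (algebraMap 𝒪 (ResidueField 𝒪))).toAlgebra

/-- The ideal of a multivariate power series ring generated by the variables. -/
def Ivar (σ 𝒪 : Type) [CommRing 𝒪] : Ideal (MvPowerSeries σ 𝒪) :=
  Ideal.span (Set.range MvPowerSeries.X)

end Fermat.Agent.S53
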