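import Mathlib
import Fermat.Prelude.Def_GaloisRep_Adic

set_option autoImplicit false
set_option linter.unusedSectionVars false

open scoped TensorProduct

namespace Fermat.Agent.S53.Dict

/-- The absolute Galois group of `ℚ` (as an abstract group). -/
abbrev GQ : Type := AlgebraicClosure ℚ ≃ₐ[ℚ] AlgebraicClosure ℚ

section Basic

variable {A : Type} [CommRing A]

lemma dict_mem_smul_top_of_forall_mem (I : Ideal A) (w : Fin 2 → A) (hw : ∀ i, w i ∈ I) :
    w ∈ I • (⊤ : Submodule A (Fin 2 → A)) := by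
  have hsum : w = ∑ i, w i • (Pi.single i (1 : A) : Fin 2 → A) := by
    ext j
    simp [Finset.sum_apply, Pi.single_apply]
  rw [hsum]
  exact Submodule.sum_mem _ fun i _ => Submodule.smul_mem_smul (hw i) Submodule.mem_top

lemma dict_repr_mem_of_mem_smul_top {V : Type} [AddCommGroup V] [Module A V]
    (b : Module.Basis (Fin 2) A V) (I : Ideal A) {x : V}
    (hx : x ∈ I • (⊤ : Submodule A V)) (i : Fin 2) : b.repr x i ∈ I := by
  refine Submodule.smul_induction_on (p := fun x => b.repr x i ∈ I) hx ?_ ?_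
  · intro a ha w _
    rw [map_smul, Finsupp.smul_apply, smul_eq_mul]
    exact I.mul_mem_right _ ha
  · intro x y hx hy
    rw [map_add, Finsupp.add_apply]
    exact I.add_mem hx hy

variable [IsLocalRing A]

/-- Adic continuity of a matrix-valued representation. -/
def MatCont (M : GQ →* Matrix (Fin 2) (Fin 2) A) : Prop :=
  ∀ n : ℕ, ∃ L : IntermediateField ℚ (AlgebraicClosure ℚ), FiniteDimensional ℚ L ∧
    ∀ σ : GQ, (∀ x ∈ L, σ x = x) → ∀ i j, (M σ - 1) i j ∈ IsLocalRing.maximalIdeal A ^ n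

/-- The `GaloisRepAdic` attached to a continuous matrix representation. -/
noncomputable abbrev ofMat (M : GQ →* Matrix (Fin 2) (Fin 2) A) (hM : MatCont M) : GaloisRepAdic A :=
  { V := Fin 2 → A
    finrank_eq := by simp
    ρ :=
      { toFun := fun σ => Matrix.toLin' (M σ)
        map_one' := by rw [map_one, Matrix.toLin'_one]; rfl
        map_mul' := fun σ τ => by rw [map_mul, Matrix.toLin'_mul]; rfl }
    isAdicContinuous := by
      intro n
      obtain ⟨L, hL, h1⟩ := hM n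
      refine ⟨L, hL, fun σ hσ v => ?_⟩
      apply dict_mem_smul_top_of_forall_mem
      intro i
      have h2 : Matrix.toLin' (M σ) v - v = (M σ - 1).mulVec v := by
        rw [Matrix.sub_mulVec, Matrix.one_mulVec, Matrix.toLin'_apply]
      show (Matrix.toLin' (M σ) v - v) i ∈ _
      rw [h2]
      show ∑ j, (M σ - 1) i j * v j ∈ _
      exact Ideal.sum_mem _ fun j _ => Ideal.mul_mem_right _ _ (h1 σ hσ i j) }

lemma ofMat_ρ_apply (M : GQ →* Matrix (Fin 2) (Fin 2) A) (hM : MatCont M) (σ : GQ)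
    (v : Fin 2 → A) : (ofMat M hM).ρ σ v = (M σ).mulVec v := rfl

/-- The matrix representation of a `GaloisRepAdic` with respect to a basis. -/
noncomputable def toMat (ρ : GaloisRepAdic A) (b : Module.Basis (Fin 2) A ρ.V) :
    GQ →* Matrix (Fin 2) (Fin 2) A :=
  { toFun := fun σ => LinearMap.toMatrix b b (ρ.ρ σ)
    map_one' := by rw [map_one]; exact LinearMap.toMatrix_one b
    map_mul' := fun σ τ => by rw [map_mul]; exact LinearMap.toMatrix_mul b _ _ }

lemma toMat_apply (ρ : GaloisRepAdic A) (b : Module.Basis (Fin 2) A ρ.V) (σ : GQ) :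
    toMat ρ b σ = LinearMap.toMatrix b b (ρ.ρ σ) := rfl

lemma toMat_apply_apply (ρ : GaloisRepAdic A) (b : Module.Basis (Fin 2) A ρ.V) (σ : GQ)
    (i j : Fin 2) : toMat ρ b σ i j = b.repr (ρ.ρ σ (b j)) i := by
  rw [toMat_apply, LinearMap.toMatrix_apply]

lemma matCont_toMat (ρ : GaloisRepAdic A) (b : Module.Basis (Fin 2) A ρ.V) :
    MatCont (toMat ρ b) := by
  intro n
  obtain ⟨L, hL, h1⟩ := ρ.isAdicContinuous n
  refine ⟨L, hL, fun σ hσ i j => ?_⟩
  have h2 : (toMat ρ b σ - 1) i j = b.repr (ρ.ρ σ (b j) - b j) i := by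
    rw [Matrix.sub_apply, toMat_apply_apply, map_sub, Finsupp.sub_apply, Matrix.one_apply,
      Module.Basis.repr_self, Finsupp.single_apply]
    congr 1
    by_cases h : i = j
    · simp [h]
    · simp [h, Ne.symm h]
  rw [h2]
  exact dict_repr_mem_of_mem_smul_top b _ (h1 σ hσ (b j)) i

/-- A `GaloisRepAdic` always has a basis indexed by `Fin 2`. -/
noncomputable def someBasis (ρ : GaloisRepAdic A) : Module.Basis (Fin 2) A ρ.V :=
  Module.finBasisOfFinrankEq A ρ.V ρ.finrank_eq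

/-- A `GaloisRepAdic` is equivalent to the one attached to its matrix w.r.t. any basis. -/
noncomputable def equivOfMatToMat (ρ : GaloisRepAdic A) (b : Module.Basis (Fin 2) A ρ.V) :
    GaloisRepAdic.Equiv ρ (ofMat (toMat ρ b) (matCont_toMat ρ b)) :=
  { toLinearEquiv := b.equivFun
    map_apply := fun σ x => by
      show b.equivFun (ρ.ρ σ x) = (toMat ρ b σ).mulVec (b.equivFun x)
      rw [toMat_apply]
      exact (LinearMap.toMatrix_mulVec_repr b b (ρ.ρ σ) x).symm }

lemma isEquiv_ofMat_toMat (ρ : GaloisRepAdic A) (b : Module.Basis (Fin 2) A ρ.V) :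
    ρ.IsEquiv (ofMat (toMat ρ b) (matCont_toMat ρ b)) :=
  ⟨equivOfMatToMat ρ b⟩

/-- Conjugate matrix representations give equivalent `GaloisRepAdic`s. -/
noncomputable def equivOfMatOfConj {M M' : GQ →* Matrix (Fin 2) (Fin 2) A} (hM : MatCont M)
    (hM' : MatCont M') (U : (Matrix (Fin 2) (Fin 2) A)ˣ)
    (hU : ∀ σ, (U : Matrix (Fin 2) (Fin 2) A) * M σ = M' σ * U) :
    GaloisRepAdic.Equiv (ofMat M hM) (ofMat M' hM') :=
  { toLinearEquiv :=
      LinearEquiv.ofLinearMap (Matrix.toLin' (U : Matrix (Fin 2) (Fin 2) A))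
        (Matrix.toLin' ((U⁻¹ : (Matrix (Fin 2) (Fin 2) A)ˣ) : Matrix (Fin 2) (Fin 2) A))
        (by rw [← Matrix.toLin'_mul, Units.mul_inv, Matrix.toLin'_one])
        (by rw [← Matrix.toLin'_mul, Units.inv_mul, Matrix.toLin'_one])
    map_apply := fun σ x => by
      show (U : Matrix (Fin 2) (Fin 2) A).mulVec ((M σ).mulVec x) =
        (M' σ).mulVec ((U : Matrix (Fin 2) (Fin 2) A).mulVec x)
      rw [Matrix.mulVec_mulVec, Matrix.mulVec_mulVec, hU σ] }

lemma isEquiv_ofMat_iff {M M' : GQ →* Matrix (Fin 2) (Fin 2) A} (hM : MatCont M)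
    (hM' : MatCont M') :
    (ofMat M hM).IsEquiv (ofMat M' hM') ↔
      ∃ U : (Matrix (Fin 2) (Fin 2) A)ˣ, ∀ σ, (U : Matrix (Fin 2) (Fin 2) A) * M σ = M' σ * U := by
  constructor
  · rintro ⟨e⟩
    let e' : (Fin 2 → A) ≃ₗ[A] (Fin 2 → A) := e.toLinearEquiv
    have h1 : LinearMap.toMatrix' (e' : (Fin 2 → A) →ₗ[A] (Fin 2 → A)) *
        LinearMap.toMatrix' (e'.symm : (Fin 2 → A) →ₗ[A] (Fin 2 → A)) = 1 := by
      rw [← LinearMap.toMatrix'_comp, LinearEquiv.comp_coe, LinearEquiv.symm_trans_self,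
        LinearEquiv.refl_toLinearMap, LinearMap.toMatrix'_id]
    have h2 : LinearMap.toMatrix' (e'.symm : (Fin 2 → A) →ₗ[A] (Fin 2 → A)) *
        LinearMap.toMatrix' (e' : (Fin 2 → A) →ₗ[A] (Fin 2 → A)) = 1 := by
      rw [← LinearMap.toMatrix'_comp, LinearEquiv.comp_coe, LinearEquiv.self_trans_symm,
        LinearEquiv.refl_toLinearMap, LinearMap.toMatrix'_id]
    refine ⟨⟨_, _, h1, h2⟩, fun σ => ?_⟩
    show LinearMap.toMatrix' (e' : (Fin 2 → A) →ₗ[A] (Fin 2 → A)) * M σ =
      M' σ * LinearMap.toMatrix' (e' : (Fin 2 → A) →ₗ[A] (Fin 2 → A))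
    apply Matrix.toLin'.injective
    rw [Matrix.toLin'_mul, Matrix.toLin'_mul, Matrix.toLin'_toMatrix']
    refine LinearMap.ext fun x => ?_
    exact e.map_apply σ x
  · rintro ⟨U, hU⟩
    exact ⟨equivOfMatOfConj hM hM' U hU⟩

lemma isEquiv_ofMat_of_eq {M M' : GQ →* Matrix (Fin 2) (Fin 2) A} (hM : MatCont M)
    (hM' : MatCont M') (h : M = M') : (ofMat M hM).IsEquiv (ofMat M' hM') := by
  subst h
  exact ⟨GaloisRepAdic.Equiv.refl _⟩

end Basic

section BaseChange

variable {A B : Type} [CommRing A] [IsLocalRing A] [CommRing B] [IsLocalRing B]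

/-- Entrywise image of a matrix representation under a ring homomorphism. -/
noncomputable def mapMat (φ : A →+* B) (M : GQ →* Matrix (Fin 2) (Fin 2) A) :
    GQ →* Matrix (Fin 2) (Fin 2) B :=
  (φ.mapMatrix : Matrix (Fin 2) (Fin 2) A →+* Matrix (Fin 2) (Fin 2) B).toMonoidHom.comp M

lemma mapMat_apply (φ : A →+* B) (M : GQ →* Matrix (Fin 2) (Fin 2) A) (σ : GQ) :
    mapMat φ M σ = (M σ).map φ := rfl

lemma mapMat_apply_apply (φ : A →+* B) (M : GQ →* Matrix (Fin 2) (Fin 2) A) (σ : GQ)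
    (i j : Fin 2) : mapMat φ M σ i j = φ (M σ i j) := rfl

lemma dict_map_maximalIdeal_pow_le (φ : A →+* B) (hφ : IsLocalHom φ) (n : ℕ) :
    (IsLocalRing.maximalIdeal A ^ n).map φ ≤ IsLocalRing.maximalIdeal B ^ n := by
  rw [Ideal.map_pow]
  exact Ideal.pow_right_mono (Ideal.map_le_iff_le_comap.mpr fun a ha =>
    Ideal.mem_comap.mpr (haveI := hφ; map_nonunit φ a ha)) n

lemma matCont_mapMat (φ : A →+* B) (hφ : IsLocalHom φ) {M : GQ →* Matrix (Fin 2) (Fin 2) A}
    (hM : MatCont M) : MatCont (mapMat φ M) := by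
  intro n
  obtain ⟨L, hL, h1⟩ := hM n
  refine ⟨L, hL, fun σ hσ i j => ?_⟩
  have h2 : (mapMat φ M σ - 1) i j = φ ((M σ - 1) i j) := by
    rw [Matrix.sub_apply, Matrix.sub_apply, mapMat_apply_apply, map_sub, Matrix.one_apply,
      Matrix.one_apply]
    split_ifs <;> simp
  rw [h2]
  exact dict_map_maximalIdeal_pow_le φ hφ n (Ideal.mem_map_of_mem φ (h1 σ hσ i j))

lemma mapMat_comp {C : Type} [CommRing C] [IsLocalRing C] (ψ : B →+* C) (φ : A →+* B)
    (M : GQ →* Matrix (Fin 2) (Fin 2) A) : mapMat ψ (mapMat φ M) = mapMat (ψ.comp φ) M := by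
  ext σ i j
  rfl

lemma mapMat_id (M : GQ →* Matrix (Fin 2) (Fin 2) A) : mapMat (RingHom.id A) M = M := by
  ext σ i j
  rfl

/-- The basis of the base change of a `GaloisRepAdic` induced by a basis. -/
noncomputable def baseChangeBasis (φ : A →+* B) (hφ : IsLocalHom φ) (ρ : GaloisRepAdic A)
    (b : Module.Basis (Fin 2) A ρ.V) : Module.Basis (Fin 2) B (ρ.baseChangeAlong φ hφ).V :=
  letI : Algebra A B := φ.toAlgebra
  Algebra.TensorProduct.basis B b

lemma toMat_baseChangeAlong (φ : A →+* B) (hφ : IsLocalHom φ) (ρ : GaloisRepAdic A)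
    (b : Module.Basis (Fin 2) A ρ.V) :
    toMat (ρ.baseChangeAlong φ hφ) (baseChangeBasis φ hφ ρ b) = mapMat φ (toMat ρ b) := by
  let _ : Algebra A B := φ.toAlgebra
  ext σ : 1
  show LinearMap.toMatrix (Algebra.TensorProduct.basis B b) (Algebra.TensorProduct.basis B b)
    ((ρ.ρ σ).baseChange B) = (LinearMap.toMatrix b b (ρ.ρ σ)).map φ
  rw [LinearMap.toMatrix_baseChange]
  rfl

lemma baseChangeAlong_isEquiv_ofMat (φ : A →+* B) (hφ : IsLocalHom φ) (ρ : GaloisRepAdic A)
    (b : Module.Basis (Fin 2) A ρ.V) :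
    (ρ.baseChangeAlong φ hφ).IsEquiv
      (ofMat (mapMat φ (toMat ρ b)) (matCont_mapMat φ hφ (matCont_toMat ρ b))) := by
  obtain ⟨e⟩ := isEquiv_ofMat_toMat (ρ.baseChangeAlong φ hφ) (baseChangeBasis φ hφ ρ b)
  obtain ⟨e'⟩ := isEquiv_ofMat_of_eq (matCont_toMat (ρ.baseChangeAlong φ hφ)
    (baseChangeBasis φ hφ ρ b)) (matCont_mapMat φ hφ (matCont_toMat ρ b))
    (toMat_baseChangeAlong φ hφ ρ b)
  exact ⟨e.trans e'⟩

end BaseChange

section Residual

variable {A : Type} [CommRing A] [IsLocalRing A] {k : Type} [Field k]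

/-- The matrix representation of a `ResidualGaloisRep` with respect to a basis. -/
noncomputable def resMat (ρbar : ResidualGaloisRep k) (bbar : Module.Basis (Fin 2) k ρbar.V) :
    GQ →* Matrix (Fin 2) (Fin 2) k :=
  { toFun := fun σ => LinearMap.toMatrix bbar bbar (ρbar.ρ σ)
    map_one' := by rw [map_one]; exact LinearMap.toMatrix_one bbar
    map_mul' := fun σ τ => by rw [map_mul]; exact LinearMap.toMatrix_mul bbar _ _ }

lemma resMat_apply (ρbar : ResidualGaloisRep k) (bbar : Module.Basis (Fin 2) k ρbar.V) (σ : GQ) :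
    resMat ρbar bbar σ = LinearMap.toMatrix bbar bbar (ρbar.ρ σ) := rfl

/-- A `ResidualGaloisRep` always has a basis indexed by `Fin 2`. -/
noncomputable def someResBasis (ρbar : ResidualGaloisRep k) : Module.Basis (Fin 2) k ρbar.V :=
  Module.finBasisOfFinrankEq k ρbar.V ρbar.finrank_eq

lemma dict_toMatrix_eq_of_intertwine {K V₁ V₂ : Type} [Field K] [AddCommGroup V₁] [Module K V₁]
    [AddCommGroup V₂] [Module K V₂] (B₁ : Module.Basis (Fin 2) K V₁)
    (B₂ : Module.Basis (Fin 2) K V₂) (e : V₁ ≃ₗ[K] V₂) (he : ∀ i, e (B₁ i) = B₂ i)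
    (f : V₁ →ₗ[K] V₁) (f' : V₂ →ₗ[K] V₂) (hf : ∀ x, e (f x) = f' (e x)) :
    LinearMap.toMatrix B₁ B₁ f = LinearMap.toMatrix B₂ B₂ f' := by
  have hB : B₂ = B₁.map e := Module.Basis.eq_of_apply_eq fun i => by
    rw [Module.Basis.map_apply, he]
  ext i j
  rw [LinearMap.toMatrix_apply, LinearMap.toMatrix_apply, ← he j, ← hf, hB,
    Module.Basis.map_repr, LinearEquiv.trans_apply, LinearEquiv.symm_apply_apply]

lemma dict_intertwine_of_toMatrix_eq {K V₁ V₂ : Type} [Field K] [AddCommGroup V₁] [Module K V₁]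
    [AddCommGroup V₂] [Module K V₂] (B₁ : Module.Basis (Fin 2) K V₁)
    (B₂ : Module.Basis (Fin 2) K V₂) (e : V₁ ≃ₗ[K] V₂) (he : ∀ i, e (B₁ i) = B₂ i)
    (f : V₁ →ₗ[K] V₁) (f' : V₂ →ₗ[K] V₂)
    (h : LinearMap.toMatrix B₁ B₁ f = LinearMap.toMatrix B₂ B₂ f') (x : V₁) :
    e (f x) = f' (e x) := by
  have hB : B₂ = B₁.map e := Module.Basis.eq_of_apply_eq fun i => by
    rw [Module.Basis.map_apply, he]
  have hrepr : ∀ y, B₂.repr (e y) = B₁.repr y := by
    intro y
    rw [hB, Module.Basis.map_repr, LinearEquiv.trans_apply, LinearEquiv.symm_apply_apply]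
  have h2 : (e : V₁ →ₗ[K] V₂) ∘ₗ f = f' ∘ₗ (e : V₁ →ₗ[K] V₂) := by
    apply B₁.ext
    intro j
    apply B₂.repr.injective
    ext i
    have h3 := congrFun (congrFun h i) j
    rw [LinearMap.toMatrix_apply, LinearMap.toMatrix_apply] at h3
    rw [LinearMap.comp_apply, LinearMap.comp_apply, LinearEquiv.coe_coe, he j, ← h3, hrepr]
  exact congrArg (fun g => g x) h2

/-- The residual representation is equivalent to a base change of `ρbar` iff some basis
gives matrices reducing to those of `ρbar`. -/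
theorem residual_isEquiv_iff (ρbar : ResidualGaloisRep k) (bbar : Module.Basis (Fin 2) k ρbar.V)
    (ψ : k →+* IsLocalRing.ResidueField A) (ρ : GaloisRepAdic A) :
    ρ.residual.IsEquiv (ρbar.baseChangeAlong ψ) ↔
      ∃ b : Module.Basis (Fin 2) A ρ.V, ∀ σ i j,
        IsLocalRing.residue A (toMat ρ b σ i j) = ψ (resMat ρbar bbar σ i j) := by
  let _ : Algebra k (IsLocalRing.ResidueField A) := ψ.toAlgebra
  let B₂ : Module.Basis (Fin 2) (IsLocalRing.ResidueField A)
      (IsLocalRing.ResidueField A ⊗[k] ρbar.V) :=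
    Algebra.TensorProduct.basis (IsLocalRing.ResidueField A) bbar
  have key : ∀ (b : Module.Basis (Fin 2) A ρ.V) (σ : GQ),
      (∀ i j, IsLocalRing.residue A (toMat ρ b σ i j) = ψ (resMat ρbar bbar σ i j)) ↔
      LinearMap.toMatrix (Algebra.TensorProduct.basis (IsLocalRing.ResidueField A) b)
        (Algebra.TensorProduct.basis (IsLocalRing.ResidueField A) b)
        ((ρ.ρ σ).baseChange (IsLocalRing.ResidueField A)) =
      LinearMap.toMatrix B₂ B₂ ((ρbar.ρ σ).baseChange (IsLocalRing.ResidueField A)) := by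
    intro b σ
    rw [LinearMap.toMatrix_baseChange, LinearMap.toMatrix_baseChange]
    constructor
    · intro h
      ext i j
      exact h i j
    · intro h i j
      exact congrFun (congrFun h i) j
  constructor
  · rintro ⟨e⟩
    let e' : (IsLocalRing.ResidueField A ⊗[A] ρ.V) ≃ₗ[IsLocalRing.ResidueField A]
        (IsLocalRing.ResidueField A ⊗[k] ρbar.V) := e.toLinearEquiv
    have hsurj : Function.Surjective (TensorProduct.mk A (IsLocalRing.ResidueField A) ρ.V 1) :=
      TensorProduct.mk_surjective A ρ.V (IsLocalRing.ResidueField A) Ideal.Quotient.mk_surjective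
    choose v hv using fun i => hsurj (e'.symm (B₂ i))
    let B₁' : Module.Basis (Fin 2) (IsLocalRing.ResidueField A)
        (IsLocalRing.ResidueField A ⊗[A] ρ.V) := B₂.map e'.symm
    have hcomp : (TensorProduct.mk A (IsLocalRing.ResidueField A) ρ.V 1 ∘ v) = B₁' := by
      funext i
      rw [Function.comp_apply, hv i, Module.Basis.map_apply]
    have hbij : Function.Bijective (Finsupp.linearCombination A v) := by
      apply Module.IsLocalRing.linearCombination_bijective_of_flat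
      rw [hcomp]
      refine ⟨B₁'.linearIndependent, ?_⟩
      rw [← LinearMap.range_eq_top, Finsupp.range_linearCombination]
      exact B₁'.span_eq
    have hli : LinearIndependent A v := hbij.1
    have hsp : ⊤ ≤ Submodule.span A (Set.range v) := by
      rw [← Finsupp.range_linearCombination, LinearMap.range_eq_top.mpr hbij.2]
    let b : Module.Basis (Fin 2) A ρ.V := Module.Basis.mk hli hsp
    refine ⟨b, fun σ => ?_⟩
    rw [key b σ]
    apply dict_toMatrix_eq_of_intertwine _ _ e'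
    · intro i
      rw [Algebra.TensorProduct.basis_apply, Module.Basis.mk_apply]
      have := hv i
      rw [TensorProduct.mk_apply] at this
      rw [this, LinearEquiv.apply_symm_apply]
    · intro x
      exact e.map_apply σ x
  · rintro ⟨b, hb⟩
    let B₁ : Module.Basis (Fin 2) (IsLocalRing.ResidueField A)
        (IsLocalRing.ResidueField A ⊗[A] ρ.V) :=
      Algebra.TensorProduct.basis (IsLocalRing.ResidueField A) b
    let e' : (IsLocalRing.ResidueField A ⊗[A] ρ.V) ≃ₗ[IsLocalRing.ResidueField A]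
        (IsLocalRing.ResidueField A ⊗[k] ρbar.V) := B₁.equiv B₂ (Equiv.refl _)
    refine ⟨{ toLinearEquiv := e', map_apply := fun σ x => ?_ }⟩
    apply dict_intertwine_of_toMatrix_eq B₁ B₂ e'
    · intro i
      rw [Module.Basis.equiv_apply, Equiv.refl_apply]
    · exact (key b σ).mp (hb σ)

/-- Variant of `residual_isEquiv_iff` for the structure map from a local ring `𝒪` and a
set-theoretic lift `r0` of the residual matrices. -/
theorem residual_isEquiv_iff_lift {𝒪 : Type} [CommRing 𝒪] [IsLocalRing 𝒪] [Algebra 𝒪 A]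
    [IsLocalHom (algebraMap 𝒪 A)] (ρbar : ResidualGaloisRep (IsLocalRing.ResidueField 𝒪))
    (bbar : Module.Basis (Fin 2) (IsLocalRing.ResidueField 𝒪) ρbar.V)
    (r0 : GQ → Matrix (Fin 2) (Fin 2) 𝒪)
    (hr0 : ∀ σ i j, IsLocalRing.residue 𝒪 (r0 σ i j) = resMat ρbar bbar σ i j)
    (ρ : GaloisRepAdic A) :
    ρ.residual.IsEquiv
        (ρbar.baseChangeAlong (IsLocalRing.ResidueField.map (algebraMap 𝒪 A))) ↔
      ∃ b : Module.Basis (Fin 2) A ρ.V, ∀ σ i j,
        toMat ρ b σ i j - algebraMap 𝒪 A (r0 σ i j) ∈ IsLocalRing.maximalIdeal A := by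
  rw [residual_isEquiv_iff ρbar bbar]
  refine exists_congr fun b => forall_congr' fun σ => forall_congr' fun i =>
    forall_congr' fun j => ?_
  rw [← hr0 σ i j, IsLocalRing.ResidueField.map_residue, ← sub_eq_zero, ← map_sub,
    IsLocalRing.residue_eq_zero_iff]

end Residual

section Extra

variable {A B : Type} [CommRing A] [IsLocalRing A] [CommRing B] [IsLocalRing B]

lemma toMat_ofMat_basisFun (M : GQ →* Matrix (Fin 2) (Fin 2) A) (hM : MatCont M) :
    toMat (ofMat M hM) (Pi.basisFun A (Fin 2)) = M := by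
  ext σ : 1
  show LinearMap.toMatrix (Pi.basisFun A (Fin 2)) (Pi.basisFun A (Fin 2))
    (Matrix.toLin' (M σ)) = M σ
  rw [LinearMap.toMatrix_eq_toMatrix', LinearMap.toMatrix'_toLin']

/-- Base change of `ofMat M` is `ofMat` of the entrywise image. -/
lemma baseChangeAlong_ofMat_isEquiv (φ : A →+* B) (hφ : IsLocalHom φ)
    (M : GQ →* Matrix (Fin 2) (Fin 2) A) (hM : MatCont M) :
    ((ofMat M hM).baseChangeAlong φ hφ).IsEquiv (ofMat (mapMat φ M) (matCont_mapMat φ hφ hM)) := by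
  obtain ⟨e⟩ := baseChangeAlong_isEquiv_ofMat φ hφ (ofMat M hM) (Pi.basisFun A (Fin 2))
  obtain ⟨e'⟩ := isEquiv_ofMat_of_eq
    (matCont_mapMat φ hφ (matCont_toMat (ofMat M hM) (Pi.basisFun A (Fin 2))))
    (matCont_mapMat φ hφ hM) (congrArg (mapMat φ) (toMat_ofMat_basisFun M hM))
  exact ⟨e.trans e'⟩

/-- Matrices of the same representation in two bases are conjugate. -/
lemma toMat_conj (ρ : GaloisRepAdic A) (b b' : Module.Basis (Fin 2) A ρ.V) :
    ∃ U : (Matrix (Fin 2) (Fin 2) A)ˣ,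
      ∀ σ, (U : Matrix (Fin 2) (Fin 2) A) * toMat ρ b σ = toMat ρ b' σ * U := by
  obtain ⟨e⟩ := isEquiv_ofMat_toMat ρ b
  obtain ⟨e'⟩ := isEquiv_ofMat_toMat ρ b'
  exact (isEquiv_ofMat_iff (matCont_toMat ρ b) (matCont_toMat ρ b')).mp ⟨e.symm.trans e'⟩

/-- Equivalent representations have conjugate matrices. -/
lemma toMat_conj_of_isEquiv {ρ ρ' : GaloisRepAdic A} (h : ρ.IsEquiv ρ')
    (b : Module.Basis (Fin 2) A ρ.V) (b' : Module.Basis (Fin 2) A ρ'.V) :
    ∃ U : (Matrix (Fin 2) (Fin 2) A)ˣ,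
      ∀ σ, (U : Matrix (Fin 2) (Fin 2) A) * toMat ρ b σ = toMat ρ' b' σ * U := by
  obtain ⟨e₀⟩ := h
  obtain ⟨e⟩ := isEquiv_ofMat_toMat ρ b
  obtain ⟨e'⟩ := isEquiv_ofMat_toMat ρ' b'
  exact (isEquiv_ofMat_iff (matCont_toMat ρ b) (matCont_toMat ρ' b')).mp
    ⟨(e.symm.trans e₀).trans e'⟩

/-- `IsEquiv` is preserved by base change (restating the prelude construction). -/
lemma isEquiv_baseChangeAlong (φ : A →+* B) (hφ : IsLocalHom φ) {ρ ρ' : GaloisRepAdic A}
    (h : ρ.IsEquiv ρ') : (ρ.baseChangeAlong φ hφ).IsEquiv (ρ'.baseChangeAlong φ hφ) := by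
  obtain ⟨e⟩ := h
  exact ⟨e.baseChangeAlong φ hφ⟩

/-- Base change along a composite is the composite of base changes, up to equivalence. -/
lemma baseChangeAlong_comp_isEquiv {C : Type} [CommRing C] [IsLocalRing C] (φ : A →+* B)
    (hφ : IsLocalHom φ) (ψ : B →+* C) (hψ : IsLocalHom ψ) (hψφ : IsLocalHom (ψ.comp φ))
    (ρ : GaloisRepAdic A) :
    ((ρ.baseChangeAlong φ hφ).baseChangeAlong ψ hψ).IsEquiv
      (ρ.baseChangeAlong (ψ.comp φ) hψφ) := by
  let b := someBasis ρ
  obtain ⟨e1⟩ := baseChangeAlong_isEquiv_ofMat φ hφ ρ b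
  obtain ⟨e2⟩ := baseChangeAlong_ofMat_isEquiv ψ hψ (mapMat φ (toMat ρ b))
    (matCont_mapMat φ hφ (matCont_toMat ρ b))
  obtain ⟨e3⟩ := baseChangeAlong_isEquiv_ofMat (ψ.comp φ) hψφ ρ b
  obtain ⟨e4⟩ := isEquiv_ofMat_of_eq
    (matCont_mapMat ψ hψ (matCont_mapMat φ hφ (matCont_toMat ρ b)))
    (matCont_mapMat (ψ.comp φ) hψφ (matCont_toMat ρ b)) (mapMat_comp ψ φ (toMat ρ b))
  exact ⟨(((e1.baseChangeAlong ψ hψ).trans e2).trans e4).trans e3.symm⟩

/-- Every representation with the prescribed residual representation is equivalent to a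
matrix representation reducing entrywise to the residual matrices. -/
theorem exists_ofMat_lift {k : Type} [Field k] (ρbar : ResidualGaloisRep k)
    (bbar : Module.Basis (Fin 2) k ρbar.V) (ψ : k →+* IsLocalRing.ResidueField A)
    (ρ : GaloisRepAdic A) (h : ρ.residual.IsEquiv (ρbar.baseChangeAlong ψ)) :
    ∃ (M : GQ →* Matrix (Fin 2) (Fin 2) A) (hM : MatCont M), ρ.IsEquiv (ofMat M hM) ∧
      ∀ σ i j, IsLocalRing.residue A (M σ i j) = ψ (resMat ρbar bbar σ i j) := by
  obtain ⟨b, hb⟩ := (residual_isEquiv_iff ρbar bbar ψ ρ).mp h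
  exact ⟨toMat ρ b, matCont_toMat ρ b, isEquiv_ofMat_toMat ρ b, hb⟩

/-- Conversely, a matrix representation reducing entrywise to the residual matrices has the
prescribed residual representation. -/
theorem residual_ofMat_isEquiv {k : Type} [Field k] (ρbar : ResidualGaloisRep k)
    (bbar : Module.Basis (Fin 2) k ρbar.V) (ψ : k →+* IsLocalRing.ResidueField A)
    (M : GQ →* Matrix (Fin 2) (Fin 2) A) (hM : MatCont M)
    (h : ∀ σ i j, IsLocalRing.residue A (M σ i j) = ψ (resMat ρbar bbar σ i j)) :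
    (ofMat M hM).residual.IsEquiv (ρbar.baseChangeAlong ψ) := by
  refine (residual_isEquiv_iff ρbar bbar ψ (ofMat M hM)).mpr ⟨Pi.basisFun A (Fin 2), ?_⟩
  rw [toMat_ofMat_basisFun]
  exact h

/-- Equivalent representations have equivalent residual representations. -/
lemma residual_isEquiv_of_isEquiv {ρ ρ' : GaloisRepAdic A} (h : ρ.IsEquiv ρ') :
    ρ.residual.IsEquiv ρ'.residual := by
  obtain ⟨e⟩ := h
  exact ⟨e.residual⟩

end Extra

end Fermat.Agent.S53.Dict
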