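import Fermat.Agent.S53.Frame

set_option autoImplicit false

open IsLocalRing

namespace Fermat.Agent.S53

section Fin1

/-- An invertible matrix over the residue field lifts to an invertible matrix, compatibly with
inverses. -/
lemma fin1_exists_unit_lift {A : Type} [CommRing A] [IsLocalRing A]
    (Qbar : (M2 (ResidueField A))ˣ) :
    ∃ Q : (M2 A)ˣ, (Q : M2 A).map (residue A) = (Qbar : M2 (ResidueField A)) ∧
      ((Q⁻¹ : (M2 A)ˣ) : M2 A).map (residue A) =
        ((Qbar⁻¹ : (M2 (ResidueField A))ˣ) : M2 (ResidueField A)) := by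
  have hs : Function.Surjective (residue A) := residue_surjective
  choose f hf using hs
  let Q0 : M2 A := fun i j => f ((Qbar : M2 (ResidueField A)) i j)
  have hQ0 : Q0.map (residue A) = (Qbar : M2 (ResidueField A)) := by
    ext i j
    exact hf _
  have hdet : IsUnit Q0.det := by
    have h1 : residue A Q0.det = (Qbar : M2 (ResidueField A)).det := by
      rw [← hQ0]
      exact RingHom.map_det _ _
    have h2 : IsUnit (Qbar : M2 (ResidueField A)).det :=
      (Matrix.isUnit_iff_isUnit_det _).mp Qbar.isUnit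
    rw [← h1] at h2
    exact (isUnit_map_iff (residue A) _).mp h2
  obtain ⟨Q, hQ⟩ := (Matrix.isUnit_iff_isUnit_det _).mpr hdet
  have hQ' : (Q : M2 A).map (residue A) = (Qbar : M2 (ResidueField A)) := by
    rw [hQ]
    exact hQ0
  refine ⟨Q, hQ', ?_⟩
  have hmul : ((Q⁻¹ : (M2 A)ˣ) : M2 A).map (residue A) * (Qbar : M2 (ResidueField A)) = 1 := by
    rw [← hQ', ← Matrix.map_mul, Units.inv_mul]
    exact Matrix.map_one _ (map_zero _) (map_one _)
  calc ((Q⁻¹ : (M2 A)ˣ) : M2 A).map (residue A)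
      = ((Q⁻¹ : (M2 A)ˣ) : M2 A).map (residue A) *
          ((Qbar : M2 (ResidueField A)) * ((Qbar⁻¹ : (M2 (ResidueField A))ˣ) :
            M2 (ResidueField A))) := by rw [Units.mul_inv, mul_one]
    _ = ((Qbar⁻¹ : (M2 (ResidueField A))ˣ) : M2 (ResidueField A)) := by
        rw [← mul_assoc, hmul, one_mul]

/-- A unit matrix congruent to `1` reduces to `1`, and so does its inverse. -/
lemma fin1_map_residue_eq_one {A : Type} [CommRing A] [IsLocalRing A] (P : (M2 A)ˣ)
    (hP : ∀ i j, ((P : M2 A) - 1) i j ∈ maximalIdeal A) :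
    (P : M2 A).map (residue A) = 1 ∧ ((P⁻¹ : (M2 A)ˣ) : M2 A).map (residue A) = 1 := by
  have h1 : (P : M2 A).map (residue A) = 1 := by
    ext i j
    have h := hP i j
    rw [← residue_eq_zero_iff, Matrix.sub_apply, map_sub, sub_eq_zero] at h
    rw [Matrix.map_apply, h, Matrix.one_apply, Matrix.one_apply]
    split_ifs <;> simp
  refine ⟨h1, ?_⟩
  have hmul : ((P⁻¹ : (M2 A)ˣ) : M2 A).map (residue A) * (P : M2 A).map (residue A) = 1 := by
    rw [← Matrix.map_mul, Units.inv_mul]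
    exact Matrix.map_one _ (map_zero _) (map_one _)
  rw [h1, mul_one] at hmul
  exact hmul

/-- FIN-1: every deformation over a complete Noetherian local `𝒪`-algebra has a normalised
matrix form. -/
theorem exists_normalized_rep {𝒪 : Type} [CommRing 𝒪] [IsLocalRing 𝒪]
    (ρbar : ResidualGaloisRep (ResidueField 𝒪))
    (b : Module.Basis (Fin 2) (ResidueField 𝒪) ρbar.V) (r0 : Gal → M2 𝒪) (S : SliceSpec)
    (hr0 : ∀ σ i j, residue 𝒪 (r0 σ i j) = matOfRes ρbar b σ i j) (hex : SliceExists r0 S)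
    (A : Type) [CommRing A] [IsLocalRing A] [IsNoetherianRing A]
    [IsAdicComplete (maximalIdeal A) A] [Algebra 𝒪 A] [IsLocalHom (algebraMap 𝒪 A)]
    (hsurj : Function.Surjective (residue A ∘ algebraMap 𝒪 A)) (ρA : GaloisRepAdic A)
    (hres : ρA.residual.IsEquiv (ρbar.baseChangeAlong (ResidueField.map (algebraMap 𝒪 A)))) :
    ∃ (r : Gal →* M2 A) (hr : MatCont r), IsLiftOf r0 r ∧ IsNormalized r0 S r ∧
      ρA.IsEquiv (ofMat r hr) := by
  obtain ⟨r1, hr1, ⟨e1⟩⟩ := exists_ofMat_isEquiv ρA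
  obtain ⟨e0⟩ := hres
  have h1res : (ofMat r1 hr1).residual.IsEquiv
      (ρbar.baseChangeAlong (ResidueField.map (algebraMap 𝒪 A))) :=
    ⟨e1.residual.symm.trans e0⟩
  obtain ⟨Qbar, hQbar⟩ := exists_conj_of_residual_isEquiv ρbar b r1 hr1 h1res
  obtain ⟨Q, hQ, hQinv⟩ := fin1_exists_unit_lift Qbar
  have hr2 : MatCont (conjHom Q r1) := hr1.conj Q
  have hmap2 : ∀ g, (conjHom Q r1 g).map (residue A) =
      mapHom (ResidueField.map (algebraMap 𝒪 A)) (matOfRes ρbar b) g := by
    intro g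
    rw [conjHom_apply, Matrix.map_mul, Matrix.map_mul, hQ, hQinv, ← mapHom_apply', hQbar g,
      mul_assoc, Units.mul_inv, mul_one]
  have hlift2 : IsLiftOf r0 (conjHom Q r1) := by
    intro g i j
    rw [← residue_eq_zero_iff, map_sub, sub_eq_zero]
    have h2 := congrFun (congrFun (hmap2 g) i) j
    rw [Matrix.map_apply, mapHom_apply] at h2
    rw [h2, ← hr0, ResidueField.map_residue]
  obtain ⟨P, hP, hnorm⟩ := hex A hsurj (conjHom Q r1) hlift2
  obtain ⟨hP1, hP2⟩ := fin1_map_residue_eq_one P hP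
  refine ⟨conjHom P (conjHom Q r1), hr2.conj P, ?_, hnorm, ?_⟩
  · intro g i j
    rw [← residue_eq_zero_iff, map_sub, sub_eq_zero]
    have h3 : (conjHom P (conjHom Q r1) g).map (residue A) =
        mapHom (ResidueField.map (algebraMap 𝒪 A)) (matOfRes ρbar b) g := by
      rw [conjHom_apply, Matrix.map_mul, Matrix.map_mul, hP1, hP2, one_mul, mul_one, hmap2 g]
    have h2 := congrFun (congrFun h3 i) j
    rw [Matrix.map_apply, mapHom_apply] at h2
    rw [h2, ← hr0, ResidueField.map_residue]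
  · obtain ⟨e2⟩ := ofMat_isEquiv_conj hr1 Q
    obtain ⟨e3⟩ := ofMat_isEquiv_conj hr2 P
    exact ⟨(e1.trans e2).trans e3⟩

end Fin1

end Fermat.Agent.S53
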