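import Fermat.Agent.S53.Frame
import Fermat.Agent.S53.TestAlg

set_option autoImplicit false

open IsLocalRing GaloisRep

namespace Fermat.Agent.S53

section Fin2

/-- In a Noetherian local ring an element whose images in all `R ⧸ m ^ (n + 1)` vanish is zero. -/
lemma fin2_eq_zero_of_forall_mk {R : Type} [CommRing R] [IsLocalRing R] [IsNoetherianRing R]
    (x : R) (h : ∀ n : ℕ, Ideal.Quotient.mk (maximalIdeal R ^ (n + 1)) x = 0) : x = 0 := by
  have hx : x ∈ (⨅ n : ℕ, maximalIdeal R ^ n) := by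
    rw [Ideal.mem_iInf]
    intro n
    exact Ideal.pow_le_pow_right (Nat.le_succ n) (Ideal.Quotient.eq_zero_iff_mem.mp (h n))
  rw [Ideal.iInf_pow_eq_bot_of_isLocalRing _ (IsLocalRing.maximalIdeal.isMaximal R).ne_top] at hx
  exact hx

/-- Two elements with equal images in all `R ⧸ m ^ (n + 1)` are equal. -/
lemma fin2_eq_of_forall_mk {R : Type} [CommRing R] [IsLocalRing R] [IsNoetherianRing R]
    (x y : R) (h : ∀ n : ℕ, Ideal.Quotient.mk (maximalIdeal R ^ (n + 1)) x =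
      Ideal.Quotient.mk (maximalIdeal R ^ (n + 1)) y) : x = y := by
  rw [← sub_eq_zero]
  refine fin2_eq_zero_of_forall_mk _ fun n => ?_
  rw [map_sub, h n, sub_self]

/-- The image of the identity matrix entry under a ring homomorphism. -/
lemma fin2_map_one_apply {A B : Type} [CommRing A] [CommRing B] (φ : A →+* B) (i j : Fin 2) :
    φ ((1 : M2 A) i j) = (1 : M2 B) i j := by
  by_cases hij : i = j
  · subst hij; simp
  · simp [Matrix.one_apply_ne hij]

theorem univ_rep_props {𝒪 : Type} [CommRing 𝒪] [IsDomain 𝒪] [IsDiscreteValuationRing 𝒪]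
    [IsAdicComplete (maximalIdeal 𝒪) 𝒪] [Finite (ResidueField 𝒪)]
    {𝒟 : ∀ ⦃A : Type⦄ [CommRing A] [IsLocalRing A] [Algebra 𝒪 A], GaloisRepAdic A → Prop}
    (h𝒟 : IsDeformationCondition 𝒪 𝒟) (r0 : Gal → M2 𝒪) (S : SliceSpec)
    (R : Type) [CommRing R] [IsLocalRing R] [IsNoetherianRing R]
    [IsAdicComplete (maximalIdeal R) R] [Algebra 𝒪 R] [IsLocalHom (algebraMap 𝒪 R)]
    (hsurj : Function.Surjective (residue R ∘ algebraMap 𝒪 R)) (u : Idx → R)
    (hU : ∀ (B : Type) [CommRing B] [IsLocalRing B] [Algebra 𝒪 B], IsArtinianTestAlgebra 𝒪 B →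
      ∀ q : R →ₐ[𝒪] B, IsLocalHom (q : R →+* B) → FDef 𝒟 r0 S B (q ∘ u)) :
    ∃ (rR : Gal →* M2 R) (hR : MatCont rR), (∀ g i j, rR g i j = u (g, i, j)) ∧
      IsLiftOf r0 rR ∧ IsNormalized r0 S rR ∧ 𝒟 (ofMat rR hR) := by
  classical
  have hloc : IsLocalHom (algebraMap 𝒪 R) := inferInstance
  have hF : ∀ n : ℕ, FDef 𝒟 r0 S (R ⧸ maximalIdeal R ^ (n + 1))
      ((Ideal.Quotient.mkₐ 𝒪 (maximalIdeal R ^ (n + 1))) ∘ u) :=
    fun n => hU _ (TA.isArtinianTestAlgebra_quotPow hloc hsurj n)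
      (Ideal.Quotient.mkₐ 𝒪 (maximalIdeal R ^ (n + 1))) (TA.isLocalHom_quotPow_mk n)
  choose rn hrn hent hlift hnorm _hD using hF
  have hent' : ∀ (n : ℕ) (g : Gal) (i j : Fin 2),
      rn n g i j = Ideal.Quotient.mk (maximalIdeal R ^ (n + 1)) (u (g, i, j)) :=
    fun n g i j => hent n g i j
  let rR : Gal →* M2 R :=
    { toFun := fun g => Matrix.of fun i j => u (g, i, j)
      map_one' := by
        ext i j
        refine fin2_eq_of_forall_mk _ _ fun n => ?_
        rw [Matrix.of_apply, ← hent' n 1 i j, map_one, fin2_map_one_apply]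
      map_mul' := fun g h => by
        ext i j
        refine fin2_eq_of_forall_mk _ _ fun n => ?_
        rw [Matrix.of_apply, ← hent' n (g * h) i j, map_mul, Matrix.mul_apply, Matrix.mul_apply,
          map_sum]
        refine Finset.sum_congr rfl fun k _ => ?_
        rw [map_mul, Matrix.of_apply, Matrix.of_apply, hent', hent'] }
  have hrR : ∀ g i j, rR g i j = u (g, i, j) := fun g i j => rfl
  have hR : MatCont rR := by
    intro n
    obtain ⟨L, hL, h⟩ := finiteLevel_of_matCont (hrn n) (TA.quotPow_maximalIdeal_pow_eq_bot n)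
    refine ⟨L, hL, fun σ hσ i j => ?_⟩
    have h1 : Ideal.Quotient.mk (maximalIdeal R ^ (n + 1)) ((rR σ - 1) i j) = 0 := by
      rw [Matrix.sub_apply, map_sub, hrR, ← hent' n σ i j, h σ hσ, fin2_map_one_apply, sub_self]
    exact Ideal.pow_le_pow_right (Nat.le_succ n) (Ideal.Quotient.eq_zero_iff_mem.mp h1)
  refine ⟨rR, hR, hrR, ?_, ?_, ?_⟩
  · intro g i j
    have h0 := hlift 0 g i j
    rw [hent' 0 g i j] at h0
    have h1 : Ideal.Quotient.mk (maximalIdeal R ^ (0 + 1))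
        (rR g i j - algebraMap 𝒪 R (r0 g i j)) ∈ maximalIdeal (R ⧸ maximalIdeal R ^ (0 + 1)) := by
      rw [map_sub, hrR]
      exact h0
    rw [IsLocalRing.mem_maximalIdeal, mem_nonunits_iff] at h1 ⊢
    exact fun hu => h1 (hu.map _)
  · intro a
    refine fin2_eq_of_forall_mk _ _ fun n => ?_
    rw [hrR, ← hent' n, hnorm n a]
    rfl
  · refine (h𝒟.iff_forall_surjective hloc hsurj (ofMat rR hR)).mpr ?_
    intro B _ _ _ hB q hq _
    obtain ⟨r', hr', hentB, -, -, hDB⟩ := hU B hB q hq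
    obtain ⟨e1⟩ := ofMat_isEquiv_of_eq hr' (hR.map (q : R →+* B) hq) (fun g => by
      ext i j
      rw [hentB g i j]
      rfl)
    obtain ⟨e2⟩ := ofMat_baseChangeAlong_isEquiv (q : R →+* B) hq rR hR
    exact h𝒟.of_isEquiv hB ⟨e1.trans e2.symm⟩ hDB

end Fin2

end Fermat.Agent.S53
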