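import Fermat.Agent.S53.Mat

set_option autoImplicit false

open IsLocalRing

namespace Fermat.Agent.S53

/-- Index type of the matrix entries of a two dimensional representation of `Gal`. -/
abbrev Idx : Type := Gal × Fin 2 × Fin 2

/-- The family of entries of a matrix valued function. -/
def entryFam {A : Type} (r : Gal → M2 A) : Idx → A := fun x => r x.1 x.2.1 x.2.2

/-- Three matrix coordinates used to normalise lifts. -/
structure SliceSpec where
  g : Fin 3 → Gal
  i : Fin 3 → Fin 2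
  j : Fin 3 → Fin 2

section Defs

variable {𝒪 : Type} [CommRing 𝒪] [IsLocalRing 𝒪]

/-- `r` agrees entrywise with (the image of) `r0` modulo the maximal ideal. -/
def IsLiftOf {A : Type} [CommRing A] [IsLocalRing A] [Algebra 𝒪 A] (r0 : Gal → M2 𝒪)
    (r : Gal → M2 A) : Prop :=
  ∀ g i j, r g i j - algebraMap 𝒪 A (r0 g i j) ∈ maximalIdeal A

/-- `r` has exactly the entries of `r0` at the three slice coordinates. -/
def IsNormalized {A : Type} [CommRing A] [Algebra 𝒪 A] (r0 : Gal → M2 𝒪) (S : SliceSpec)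
    (r : Gal → M2 A) : Prop :=
  ∀ a, r (S.g a) (S.i a) (S.j a) = algebraMap 𝒪 A (r0 (S.g a) (S.i a) (S.j a))

/-- Rigidity of the slice: conjugate normalised lifts are equal. -/
def SliceRigid (r0 : Gal → M2 𝒪) (S : SliceSpec) : Prop :=
  ∀ (A : Type) [CommRing A] [IsLocalRing A] [IsNoetherianRing A] [Algebra 𝒪 A]
    [IsLocalHom (algebraMap 𝒪 A)],
    Function.Surjective (residue A ∘ algebraMap 𝒪 A) →
    ∀ (r r' : Gal →* M2 A), IsLiftOf r0 r → IsLiftOf r0 r' →
      IsNormalized r0 S r → IsNormalized r0 S r' →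
      ∀ Q : (M2 A)ˣ, (∀ g, (Q : M2 A) * r g = r' g * (Q : M2 A)) → r = r'

/-- Existence of normal forms over complete Noetherian local rings. -/
def SliceExists (r0 : Gal → M2 𝒪) (S : SliceSpec) : Prop :=
  ∀ (A : Type) [CommRing A] [IsLocalRing A] [IsNoetherianRing A]
    [IsAdicComplete (maximalIdeal A) A] [Algebra 𝒪 A] [IsLocalHom (algebraMap 𝒪 A)],
    Function.Surjective (residue A ∘ algebraMap 𝒪 A) →
    ∀ (r : Gal →* M2 A), IsLiftOf r0 r →
      ∃ P : (M2 A)ˣ, (∀ i j, ((P : M2 A) - 1) i j ∈ maximalIdeal A) ∧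
        IsNormalized r0 S (conjHom P r)

/-- The functor of normalised lifts of type `𝒟`, in terms of entry families. -/
def FDef (𝒟 : ∀ ⦃A : Type⦄ [CommRing A] [IsLocalRing A] [Algebra 𝒪 A], GaloisRepAdic A → Prop)
    (r0 : Gal → M2 𝒪) (S : SliceSpec)
    (A : Type) [CommRing A] [IsLocalRing A] [Algebra 𝒪 A] (x : Idx → A) : Prop :=
  ∃ (r : Gal →* M2 A) (hr : MatCont r), (∀ g i j, r g i j = x (g, i, j)) ∧
    IsLiftOf r0 r ∧ IsNormalized r0 S r ∧ 𝒟 (ofMat r hr)

/-- The algebra structure on the dual numbers used by `GaloisRep.TangentFinite`. -/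
@[reducible] noncomputable def tanAlg (𝒪 : Type) [CommRing 𝒪] [IsLocalRing 𝒪] :
    Algebra 𝒪 (DualNumber (ResidueField 𝒪)) :=
  ((algebraMap (ResidueField 𝒪) (DualNumber (ResidueField 𝒪))).comp
    (algebraMap 𝒪 (ResidueField 𝒪))).toAlgebra

end Defs

end Fermat.Agent.S53
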