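import Mathlib

set_option autoImplicit false

namespace Fermat.Agent.S53.Companion

open Matrix IsLocalRing

section Basic

variable {A : Type*} [CommRing A]

theorem ext2 {X Y : Matrix (Fin 2) (Fin 2) A} (h00 : X 0 0 = Y 0 0) (h01 : X 0 1 = Y 0 1)
    (h10 : X 1 0 = Y 1 0) (h11 : X 1 1 = Y 1 1) : X = Y := by
  ext a b
  fin_cases a <;> fin_cases b <;> assumption

theorem mul_apply2 (X Y : Matrix (Fin 2) (Fin 2) A) (a b : Fin 2) :
    (X * Y) a b = X a 0 * Y 0 b + X a 1 * Y 1 b := by
  rw [Matrix.mul_apply, Fin.sum_univ_two]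

/-- An intertwiner between two matrices in companion shape is a polynomial in the second one. -/
theorem intertwiner_companion {M M' U : Matrix (Fin 2) (Fin 2) A}
    (hM : M 0 0 = 0 ∧ M 1 0 = 1) (hM' : M' 0 0 = 0 ∧ M' 1 0 = 1)
    (h : U * M = M' * U) :
    U = U 0 0 • (1 : Matrix (Fin 2) (Fin 2) A) + U 1 0 • M' := by
  have e00 := congrFun (congrFun h 0) 0
  have e10 := congrFun (congrFun h 1) 0
  rw [mul_apply2, mul_apply2] at e00 e10
  rw [hM.1, hM.2, hM'.1] at e00
  rw [hM.1, hM.2, hM'.2] at e10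
  refine ext2 ?_ ?_ ?_ ?_
  · simp [hM'.1]
  · simp only [Matrix.add_apply, Matrix.smul_apply, smul_eq_mul,
      one_apply_ne (show (0 : Fin 2) ≠ 1 by decide)]
    linear_combination e00
  · simp [hM'.2]
  · simp only [Matrix.add_apply, Matrix.smul_apply, smul_eq_mul, one_apply_eq]
    linear_combination e10

end Basic

section Rigid

variable {A : Type*} [CommRing A] [IsLocalRing A]

/-- Rigidity of the companion normal form: an invertible intertwiner between two pairs in
normal form is a scalar matrix. -/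
theorem rigid {M M' N N' U : Matrix (Fin 2) (Fin 2) A} {i j : Fin 2}
    (hM : M 0 0 = 0 ∧ M 1 0 = 1) (hM' : M' 0 0 = 0 ∧ M' 1 0 = 1)
    (hN : N' i j = N i j)
    (hNN : ∀ a b, N' a b - N a b ∈ maximalIdeal A)
    (hcomm : IsUnit ((M * N - N * M) i j))
    (hU : IsUnit U)
    (h0 : U * M = M' * U) (h1 : U * N = N' * U) :
    ∃ u : A, IsUnit u ∧ U = u • (1 : Matrix (Fin 2) (Fin 2) A) := by
  have hU' := intertwiner_companion hM hM' h0
  set p := U 0 0 with hp
  set y := U 1 0 with hy
  -- `U` commutes with `M'`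
  have hcommU : U * M' = M' * U := by
    rw [hU']
    simp only [add_mul, mul_add, smul_mul_assoc, mul_smul_comm, one_mul, mul_one]
  have hMM : M = M' := by
    obtain ⟨V, hV⟩ := hU.exists_left_inv
    have : U * M = U * M' := by rw [h0, hcommU]
    calc M = (V * U) * M := by rw [hV, one_mul]
      _ = V * (U * M) := by rw [mul_assoc]
      _ = V * (U * M') := by rw [this]
      _ = (V * U) * M' := by rw [mul_assoc]
      _ = M' := by rw [hV, one_mul]
  subst hMM
  -- the key identity
  have key : p • (N - N') = y • (N' * M - M * N) := by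
    have h1' := h1
    rw [hU'] at h1'
    simp only [add_mul, mul_add, smul_mul_assoc, mul_smul_comm, one_mul, mul_one] at h1'
    rw [smul_sub, smul_sub, sub_eq_sub_iff_add_eq_add, h1', add_comm]
  have keyij := congrFun (congrFun key i) j
  simp only [Matrix.smul_apply, Matrix.sub_apply, smul_eq_mul] at keyij
  rw [hN, sub_self, mul_zero] at keyij
  -- the coefficient of `y` is a unit
  have hunit : IsUnit ((N' * M) i j - (M * N) i j) := by
    have e : (N' * M) i j - (M * N) i j =
        -((M * N - N * M) i j) + ((N' - N) * M) i j := by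
      simp only [Matrix.sub_apply, Matrix.sub_mul]
      ring
    rw [e]
    have hmem : ((N' - N) * M) i j ∈ maximalIdeal A := by
      rw [mul_apply2]
      exact Ideal.add_mem _ (Ideal.mul_mem_right _ _ (hNN i 0)) (Ideal.mul_mem_right _ _ (hNN i 1))
    have hu : IsUnit (-((M * N - N * M) i j)) := hcomm.neg
    by_contra hcon
    have h2 : -((M * N - N * M) i j) + ((N' - N) * M) i j ∈ maximalIdeal A :=
      (mem_maximalIdeal _).mpr hcon
    have h3 : -((M * N - N * M) i j) ∈ maximalIdeal A := by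
      have := Ideal.sub_mem _ h2 hmem
      simpa using this
    exact ((mem_maximalIdeal _).mp h3) hu
  have hy0 : y = 0 := hunit.mul_left_eq_zero.mp keyij.symm
  have hUp : U = p • (1 : Matrix (Fin 2) (Fin 2) A) := by
    rw [hU', hy0, zero_smul, add_zero]
  refine ⟨p, ?_, hUp⟩
  obtain ⟨V, hV⟩ := hU.exists_right_inv
  rw [hUp] at hV
  have := congrFun (congrFun hV 0) 0
  simp only [smul_mul_assoc, one_mul, Matrix.smul_apply, smul_eq_mul, one_apply_eq] at this
  exact IsUnit.of_mul_eq_one _ this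

/-- Functional form of rigidity: two normalised families intertwined by an invertible matrix
coincide. -/
theorem rigid_fun {G : Type*} {r r' : G → Matrix (Fin 2) (Fin 2) A} {g₀ g₁ : G} {i j : Fin 2}
    (hr : r g₀ 0 0 = 0 ∧ r g₀ 1 0 = 1) (hr' : r' g₀ 0 0 = 0 ∧ r' g₀ 1 0 = 1)
    (hN : r' g₁ i j = r g₁ i j)
    (hNN : ∀ a b, r' g₁ a b - r g₁ a b ∈ maximalIdeal A)
    (hcomm : IsUnit ((r g₀ * r g₁ - r g₁ * r g₀) i j))
    {U : Matrix (Fin 2) (Fin 2) A} (hU : IsUnit U)
    (h : ∀ g, U * r g = r' g * U) : r = r' := by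
  obtain ⟨u, hu, rfl⟩ := rigid hr hr' hN hNN hcomm hU (h g₀) (h g₁)
  funext g
  have hg := h g
  simp only [smul_mul_assoc, mul_smul_comm, one_mul, mul_one] at hg
  obtain ⟨v, hv⟩ := hu.exists_left_inv
  calc r g = (v * u) • r g := by rw [hv, one_smul]
    _ = v • (u • r g) := by rw [mul_smul]
    _ = v • (u • r' g) := by rw [hg]
    _ = (v * u) • r' g := by rw [mul_smul]
    _ = r' g := by rw [hv, one_smul]

end Rigid

section Exists

variable {A : Type*} [CommRing A] [IsLocalRing A]

theorem isUnit_of_sub_mem {x u : A} (hu : IsUnit u) (h : x - u ∈ maximalIdeal A) : IsUnit x := by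
  by_contra hx
  have hx' : x ∈ maximalIdeal A := (mem_maximalIdeal _).mpr hx
  have : u ∈ maximalIdeal A := by
    have := Ideal.sub_mem _ hx' h
    simpa using this
  exact ((mem_maximalIdeal _).mp this) hu

/-- Hensel's lemma for a quadratic with small constant term and invertible linear term. -/
theorem exists_root_quadratic [IsAdicComplete (maximalIdeal A) A] (c₀ c₁ c₂ : A)
    (h0 : c₀ ∈ maximalIdeal A) (h1 : IsUnit c₁) :
    ∃ y ∈ maximalIdeal A, c₀ + c₁ * y + c₂ * y ^ 2 = 0 := by
  let f : Polynomial A :=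
    Polynomial.X ^ 2 + (Polynomial.C c₁ * Polynomial.X + Polynomial.C (c₂ * c₀))
  have hf : f.Monic := by
    apply Polynomial.monic_X_pow_add
    exact lt_of_le_of_lt (Polynomial.degree_linear_le) (by norm_num)
  have hev : f.eval (-c₁) = c₂ * c₀ := by
    simp only [f, Polynomial.eval_add, Polynomial.eval_pow, Polynomial.eval_X, Polynomial.eval_mul,
      Polynomial.eval_C]
    ring
  have hder : f.derivative.eval (-c₁) = -c₁ := by
    simp only [f, Polynomial.derivative_add, Polynomial.derivative_X_pow, Polynomial.derivative_mul,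
      Polynomial.derivative_C, Polynomial.derivative_X, Polynomial.eval_add, Polynomial.eval_mul,
      Polynomial.eval_C, Polynomial.eval_X, Polynomial.eval_pow, Polynomial.eval_zero,
      Polynomial.eval_one, Polynomial.eval_natCast]
    ring
  obtain ⟨w, hw, hw'⟩ := HenselianRing.is_henselian (R := A) (I := maximalIdeal A) f hf (-c₁)
    (by rw [hev]; exact Ideal.mul_mem_left _ _ h0)
    (by rw [hder]; exact (h1.neg).map _)
  have hwu : IsUnit w := isUnit_of_sub_mem h1.neg hw'
  obtain ⟨v, hv⟩ := hwu.exists_left_inv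
  have E1 : w ^ 2 + (c₁ * w + c₂ * c₀) = 0 := by
    have := hw
    simp only [f, Polynomial.IsRoot, Polynomial.eval_add, Polynomial.eval_pow, Polynomial.eval_X,
      Polynomial.eval_mul, Polynomial.eval_C] at this
    exact this
  refine ⟨c₀ * v, Ideal.mul_mem_right _ _ h0, ?_⟩
  linear_combination (c₀ * v ^ 2) * E1 - (c₀ * (1 + v * w) + c₁ * c₀ * v) * hv

/-- Conjugating by matrices congruent to one changes entries by elements of the ideal. -/
theorem conj_sub_mem (I : Ideal A) {U V : Matrix (Fin 2) (Fin 2) A}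
    (hU : ∀ a b, (U - 1) a b ∈ I) (hV : ∀ a b, (V - 1) a b ∈ I)
    (X : Matrix (Fin 2) (Fin 2) A) (a b : Fin 2) : (U * X * V) a b - X a b ∈ I := by
  have e : U * X * V - X = (U - 1) * X * V + X * (V - 1) := by
    simp only [sub_mul, mul_sub, one_mul, mul_one]
    abel
  have e' : (U * X * V) a b - X a b = ((U - 1) * X * V) a b + (X * (V - 1)) a b := by
    rw [← Matrix.sub_apply, e, Matrix.add_apply]
  rw [e']
  refine Ideal.add_mem _ ?_ ?_
  · rw [mul_apply2, mul_apply2, mul_apply2]
    refine Ideal.add_mem _ (Ideal.mul_mem_right _ _ ?_) (Ideal.mul_mem_right _ _ ?_) <;>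
    exact Ideal.add_mem _ (Ideal.mul_mem_right _ _ (hU _ _)) (Ideal.mul_mem_right _ _ (hU _ _))
  · rw [mul_apply2]
    exact Ideal.add_mem _ (Ideal.mul_mem_left _ _ (hV _ _)) (Ideal.mul_mem_left _ _ (hV _ _))

/-- Step 2: pin one entry of `N` by conjugating with an element of the centraliser of a
matrix `C` in companion shape. -/
theorem exists_pin_entry [IsAdicComplete (maximalIdeal A) A]
    (C N : Matrix (Fin 2) (Fin 2) A) (i j : Fin 2) (c : A)
    (hC : C 0 0 = 0 ∧ C 1 0 = 1)
    (hcomm : IsUnit ((C * N - N * C) i j))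
    (hc : N i j - c ∈ maximalIdeal A) :
    ∃ W W' : Matrix (Fin 2) (Fin 2) A, W * W' = 1 ∧ W' * W = 1 ∧
      (∀ a b, (W - 1) a b ∈ maximalIdeal A) ∧ W * C = C * W ∧ (W * N * W') i j = c := by
  set t := C 1 1 with ht
  set e := C 0 1 with he
  set X1 : Matrix (Fin 2) (Fin 2) A := t • N + C * N - N * C with hX1
  set X2 : Matrix (Fin 2) (Fin 2) A := t • (C * N) - C * N * C with hX2
  have hc1 : IsUnit (X1 i j - c * t) := by
    refine isUnit_of_sub_mem hcomm ?_
    have : X1 i j - c * t - (C * N - N * C) i j = t * (N i j - c) := by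
      simp only [hX1, Matrix.sub_apply, Matrix.add_apply, Matrix.smul_apply, smul_eq_mul]
      ring
    rw [this]
    exact Ideal.mul_mem_left _ _ hc
  obtain ⟨y, hy, hroot⟩ := exists_root_quadratic (N i j - c) (X1 i j - c * t) (X2 i j + c * e) hc hc1
  set δ := 1 + y * t - y ^ 2 * e with hδ
  have hδu : IsUnit δ := by
    refine isUnit_of_sub_mem isUnit_one ?_
    have : δ - 1 = y * (t - y * e) := by rw [hδ]; ring
    rw [this]
    exact Ideal.mul_mem_right _ _ hy
  obtain ⟨δ', hδ'⟩ := hδu.exists_left_inv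
  set W : Matrix (Fin 2) (Fin 2) A := 1 + y • C with hW
  set adjW : Matrix (Fin 2) (Fin 2) A := (1 + y * t) • 1 - y • C with hadjW
  have hCC : C * C = t • C + e • 1 := by
    refine ext2 ?_ ?_ ?_ ?_ <;>
    simp [mul_apply2, hC.1, hC.2, ← ht, ← he] <;> ring
  have I1 : W * adjW = δ • 1 := by
    rw [hW, hadjW]
    simp only [add_mul, mul_sub, one_mul, mul_one, smul_mul_assoc, mul_smul_comm, hCC, smul_add,
      smul_smul, sub_eq_add_neg, mul_add, mul_neg]
    rw [hδ]
    module
  have I1' : adjW * W = δ • 1 := by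
    rw [hW, hadjW]
    simp only [mul_add, sub_mul, one_mul, mul_one, smul_mul_assoc, mul_smul_comm, hCC, smul_add,
      smul_smul, sub_eq_add_neg, add_mul, neg_mul]
    rw [hδ]
    module
  have I2 : W * N * adjW = N + y • X1 + y ^ 2 • X2 := by
    rw [hW, hadjW, hX1, hX2]
    simp only [add_mul, mul_sub, mul_add, one_mul, mul_one, smul_mul_assoc, mul_smul_comm, smul_add,
      smul_sub, smul_smul, sub_eq_add_neg, mul_neg, Matrix.mul_assoc]
    module
  refine ⟨W, δ' • adjW, ?_, ?_, ?_, ?_, ?_⟩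
  · rw [mul_smul_comm, I1, smul_smul, hδ', one_smul]
  · rw [smul_mul_assoc, I1', smul_smul, hδ', one_smul]
  · intro a b
    have : (W - 1) a b = y * C a b := by
      rw [hW]; simp
    rw [this]
    exact Ideal.mul_mem_right _ _ hy
  · rw [hW]
    simp only [add_mul, mul_add, one_mul, mul_one, smul_mul_assoc, mul_smul_comm]
  · rw [mul_smul_comm, Matrix.smul_apply, I2]
    simp only [Matrix.add_apply, Matrix.smul_apply, smul_eq_mul]
    have : N i j + y * X1 i j + y ^ 2 * X2 i j = c * δ := by
      rw [hδ]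
      linear_combination hroot
    rw [this]
    linear_combination c * hδ'

/-- Step 1 (explicit): a matrix with invertible `(1,0)` entry is conjugate to a matrix in
companion shape. -/
theorem companion_conj (M : Matrix (Fin 2) (Fin 2) A) (u' : A) (hu : u' * M 1 0 = 1) :
    (!![1, M 0 0; 0, M 1 0] : Matrix (Fin 2) (Fin 2) A) * !![1, -(M 0 0 * u'); 0, u'] = 1 ∧
    (!![1, -(M 0 0 * u'); 0, u'] : Matrix (Fin 2) (Fin 2) A) * !![1, M 0 0; 0, M 1 0] = 1 ∧
    ((!![1, -(M 0 0 * u'); 0, u'] : Matrix (Fin 2) (Fin 2) A) * M * !![1, M 0 0; 0, M 1 0]) 0 0 = 0 ∧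
    ((!![1, -(M 0 0 * u'); 0, u'] : Matrix (Fin 2) (Fin 2) A) * M * !![1, M 0 0; 0, M 1 0]) 1 0 = 1 := by
  refine ⟨?_, ?_, ?_, ?_⟩
  · refine ext2 ?_ ?_ ?_ ?_
    · rw [mul_apply2]; simp
    · rw [mul_apply2]; simp
    · rw [mul_apply2]; simp
    · rw [mul_apply2]; simp
      linear_combination hu
  · refine ext2 ?_ ?_ ?_ ?_
    · rw [mul_apply2]; simp
    · rw [mul_apply2]; simp
      linear_combination (-(M 0 0)) * hu
    · rw [mul_apply2]; simp
    · rw [mul_apply2]; simp
      linear_combination hu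
  · rw [mul_apply2, mul_apply2, mul_apply2]; simp
    linear_combination (-(M 0 0)) * hu
  · rw [mul_apply2, mul_apply2, mul_apply2]; simp
    linear_combination hu

/-- Existence of the companion normal form over a complete local ring: a pair `(M, N)` whose
reduction is in normal form is conjugate, by a matrix congruent to one, to a pair in normal form
with prescribed `(i,j)` entry `c` of `N`. -/
theorem exists_normal [IsAdicComplete (maximalIdeal A) A]
    (M N : Matrix (Fin 2) (Fin 2) A) (i j : Fin 2) (c : A)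
    (h00 : M 0 0 ∈ maximalIdeal A) (h10 : M 1 0 - 1 ∈ maximalIdeal A)
    (hcomm : IsUnit ((M * N - N * M) i j))
    (hc : N i j - c ∈ maximalIdeal A) :
    ∃ U V : Matrix (Fin 2) (Fin 2) A, U * V = 1 ∧ V * U = 1 ∧
      (∀ a b, (U - 1) a b ∈ maximalIdeal A) ∧
      (U * M * V) 0 0 = 0 ∧ (U * M * V) 1 0 = 1 ∧ (U * N * V) i j = c := by
  have hu : IsUnit (M 1 0) := isUnit_of_sub_mem isUnit_one h10
  obtain ⟨u', hu'⟩ := hu.exists_left_inv
  obtain ⟨hBB', hB'B, hC00, hC10⟩ := companion_conj M u' hu'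
  set B : Matrix (Fin 2) (Fin 2) A := !![1, M 0 0; 0, M 1 0] with hB
  set B' : Matrix (Fin 2) (Fin 2) A := !![1, -(M 0 0 * u'); 0, u'] with hB'
  have hu'1 : u' - 1 ∈ maximalIdeal A := by
    have : u' - 1 = -(u' * (M 1 0 - 1)) := by linear_combination hu'
    rw [this]
    exact neg_mem (Ideal.mul_mem_left _ _ h10)
  have hBm : ∀ a b, (B - 1) a b ∈ maximalIdeal A := by
    intro a b
    have e00 : (B - 1) 0 0 = 0 := by simp [hB]
    have e01 : (B - 1) 0 1 = M 0 0 := by simp [hB]
    have e10 : (B - 1) 1 0 = 0 := by simp [hB]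
    have e11 : (B - 1) 1 1 = M 1 0 - 1 := by simp [hB]
    fin_cases a <;> fin_cases b
    · show (B - 1) 0 0 ∈ _
      rw [e00]; exact zero_mem _
    · show (B - 1) 0 1 ∈ _
      rw [e01]; exact h00
    · show (B - 1) 1 0 ∈ _
      rw [e10]; exact zero_mem _
    · show (B - 1) 1 1 ∈ _
      rw [e11]; exact h10
  have hB'm : ∀ a b, (B' - 1) a b ∈ maximalIdeal A := by
    intro a b
    have e00 : (B' - 1) 0 0 = 0 := by simp [hB']
    have e01 : (B' - 1) 0 1 = -(M 0 0 * u') := by simp [hB']
    have e10 : (B' - 1) 1 0 = 0 := by simp [hB']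
    have e11 : (B' - 1) 1 1 = u' - 1 := by simp [hB']
    fin_cases a <;> fin_cases b
    · show (B' - 1) 0 0 ∈ _
      rw [e00]; exact zero_mem _
    · show (B' - 1) 0 1 ∈ _
      rw [e01]; exact neg_mem (Ideal.mul_mem_right _ _ h00)
    · show (B' - 1) 1 0 ∈ _
      rw [e10]; exact zero_mem _
    · show (B' - 1) 1 1 ∈ _
      rw [e11]; exact hu'1
  set C := B' * M * B with hCdef
  set N₁ := B' * N * B with hN₁
  have hcomm₁ : IsUnit ((C * N₁ - N₁ * C) i j) := by
    have e : C * N₁ - N₁ * C = B' * (M * N - N * M) * B := by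
      rw [hCdef, hN₁]
      have h1 : B' * M * B * (B' * N * B) = B' * (M * N) * B := by
        calc B' * M * B * (B' * N * B) = B' * M * (B * B') * N * B := by
              simp only [Matrix.mul_assoc]
          _ = B' * (M * N) * B := by rw [hBB', mul_one]; simp only [Matrix.mul_assoc]
      have h2 : B' * N * B * (B' * M * B) = B' * (N * M) * B := by
        calc B' * N * B * (B' * M * B) = B' * N * (B * B') * M * B := by
              simp only [Matrix.mul_assoc]
          _ = B' * (N * M) * B := by rw [hBB', mul_one]; simp only [Matrix.mul_assoc]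
      rw [h1, h2, mul_sub, sub_mul]
    rw [e]
    exact isUnit_of_sub_mem hcomm (conj_sub_mem _ hB'm hBm _ i j)
  have hc₁ : N₁ i j - c ∈ maximalIdeal A := by
    have : N₁ i j - c = (N₁ i j - N i j) + (N i j - c) := by ring
    rw [this]
    exact Ideal.add_mem _ (conj_sub_mem _ hB'm hBm _ i j) hc
  obtain ⟨W, W', hWW', hW'W, hWm, hWC, hWN⟩ :=
    exists_pin_entry C N₁ i j c ⟨hC00, hC10⟩ hcomm₁ hc₁
  have hUM : W * B' * M * (B * W') = C := by
    calc W * B' * M * (B * W') = W * (B' * M * B) * W' := by simp only [Matrix.mul_assoc]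
      _ = C * (W * W') := by rw [← hCdef, hWC]; simp only [Matrix.mul_assoc]
      _ = C := by rw [hWW', mul_one]
  refine ⟨W * B', B * W', ?_, ?_, ?_, ?_, ?_, ?_⟩
  · calc W * B' * (B * W') = W * (B' * B) * W' := by simp only [Matrix.mul_assoc]
      _ = 1 := by rw [hB'B, mul_one, hWW']
  · calc B * W' * (W * B') = B * (W' * W) * B' := by simp only [Matrix.mul_assoc]
      _ = 1 := by rw [hW'W, mul_one, hBB']
  · intro a b
    have e : W * B' - 1 = (W - 1) * B' + (B' - 1) := by
      rw [sub_mul, one_mul]; abel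
    rw [e, Matrix.add_apply, mul_apply2]
    exact Ideal.add_mem _ (Ideal.add_mem _ (Ideal.mul_mem_right _ _ (hWm _ _))
      (Ideal.mul_mem_right _ _ (hWm _ _))) (hB'm _ _)
  · rw [hUM]; exact hC00
  · rw [hUM]; exact hC10
  · have : W * B' * N * (B * W') = W * N₁ * W' := by
      rw [hN₁]; simp only [Matrix.mul_assoc]
    rw [this]; exact hWN

end Exists

section Residual

variable {k : Type*} [Field k] {V : Type*} [AddCommGroup V] [Module k V]

/-- If a family of endomorphisms of a two dimensional space spans all endomorphisms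
(Burnside), there is a basis `(v, ρ g₀ v)` in which `ρ g₀` has companion shape, and some `ρ g₁`
does not commute with it. -/
theorem exists_companion_basis (hV : Module.finrank k V = 2) {G : Type*}
    (ρ : G → Module.End k V) (hspan : Submodule.span k (Set.range ρ) = ⊤) :
    ∃ (b : Module.Basis (Fin 2) k V) (g₀ g₁ : G) (i j : Fin 2),
      LinearMap.toMatrix b b (ρ g₀) 0 0 = 0 ∧ LinearMap.toMatrix b b (ρ g₀) 1 0 = 1 ∧
      (LinearMap.toMatrix b b (ρ g₀) * LinearMap.toMatrix b b (ρ g₁) -
        LinearMap.toMatrix b b (ρ g₁) * LinearMap.toMatrix b b (ρ g₀)) i j ≠ 0 := by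
  classical
  haveI : Nontrivial V := Module.nontrivial_of_finrank_pos (R := k) (by rw [hV]; norm_num)
  haveI : Module.Finite k V := Module.finite_of_finrank_pos (by rw [hV]; norm_num)
  obtain ⟨v, hv⟩ := exists_ne (0 : V)
  obtain ⟨φ, hφ⟩ : ∃ φ : Module.Dual k V, φ v ≠ 0 := by
    by_contra hcon
    push_neg at hcon
    exact hv ((Module.forall_dual_apply_eq_zero_iff k v).mp hcon)
  -- every endomorphism is in the span
  have hall : ∀ (S : Submodule k (Module.End k V)), (∀ g, ρ g ∈ S) → ∀ f, f ∈ S := by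
    intro S hS f
    have : Submodule.span k (Set.range ρ) ≤ S := Submodule.span_le.mpr (by rintro _ ⟨g, rfl⟩; exact hS g)
    rw [hspan] at this
    exact this Submodule.mem_top
  -- a cyclic vector
  obtain ⟨g₀, hg₀⟩ : ∃ g₀, LinearIndependent k ![v, ρ g₀ v] := by
    by_contra hcon
    push_neg at hcon
    have h1 : ∀ g, ρ g v ∈ Submodule.span k {v} := by
      intro g
      have := hcon g
      rw [LinearIndependent.pair_iff' hv] at this
      push_neg at this
      obtain ⟨a, ha⟩ := this
      rw [← ha]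
      exact Submodule.smul_mem _ _ (Submodule.mem_span_singleton_self v)
    have h2 : ∀ f : Module.End k V, f v ∈ Submodule.span k {v} :=
      hall ((Submodule.span k {v}).comap (LinearMap.applyₗ v)) h1
    have h3 : ∀ w : V, w ∈ Submodule.span k {v} := by
      intro w
      have := h2 (φ.smulRight w)
      rw [LinearMap.smulRight_apply] at this
      have h4 := Submodule.smul_mem _ (φ v)⁻¹ this
      rwa [smul_smul, inv_mul_cancel₀ hφ, one_smul] at h4
    have h5 : (⊤ : Submodule k V) = Submodule.span k {v} :=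
      le_antisymm (fun w _ => h3 w) le_top
    have h6 := congrArg (fun S : Submodule k V => Module.finrank k S) h5
    simp only [finrank_top, hV, finrank_span_singleton hv] at h6
    norm_num at h6
  let b : Module.Basis (Fin 2) k V :=
    basisOfLinearIndependentOfCardEqFinrank hg₀ (by rw [hV]; rfl)
  have hb : ⇑b = ![v, ρ g₀ v] := coe_basisOfLinearIndependentOfCardEqFinrank hg₀ _
  have hb0 : b 0 = v := by rw [hb]; rfl
  have hb1 : b 1 = ρ g₀ v := by rw [hb]; rfl
  have hcol : ∀ a, LinearMap.toMatrix b b (ρ g₀) a 0 = if a = 1 then 1 else 0 := by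
    intro a
    rw [LinearMap.toMatrix_apply, hb0, ← hb1, Module.Basis.repr_self, Finsupp.single_apply]
    simp [eq_comm]
  -- a non commuting element
  obtain ⟨g₁, hg₁⟩ : ∃ g₁, ρ g₀ * ρ g₁ ≠ ρ g₁ * ρ g₀ := by
    by_contra hcon
    push_neg at hcon
    let S : Submodule k (Module.End k V) :=
      LinearMap.ker ((LinearMap.mulLeft k (ρ g₀)) - (LinearMap.mulRight k (ρ g₀)))
    have hS : ∀ f, f ∈ S ↔ ρ g₀ * f = f * ρ g₀ := by
      intro f
      simp only [S, LinearMap.mem_ker, LinearMap.sub_apply, LinearMap.mulLeft_apply,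
        LinearMap.mulRight_apply, sub_eq_zero]
    have h1 : ∀ f, f ∈ S := hall S (fun g => (hS _).mpr (hcon g))
    have h2 := (hS _).mp (h1 (φ.smulRight v))
    have h3 := congrArg (fun f : Module.End k V => f v) h2
    simp only [Module.End.mul_apply, LinearMap.smulRight_apply, map_smul] at h3
    -- φ v • ρ g₀ v = φ (ρ g₀ v) • v contradicts independence
    rw [LinearIndependent.pair_iff' hv] at hg₀
    refine hg₀ ((φ v)⁻¹ * φ (ρ g₀ v)) ?_
    rw [mul_smul, ← h3, smul_smul, inv_mul_cancel₀ hφ, one_smul]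
  have hne : LinearMap.toMatrix b b (ρ g₀) * LinearMap.toMatrix b b (ρ g₁) -
      LinearMap.toMatrix b b (ρ g₁) * LinearMap.toMatrix b b (ρ g₀) ≠ 0 := by
    intro h
    rw [sub_eq_zero, ← LinearMap.toMatrix_mul, ← LinearMap.toMatrix_mul] at h
    exact hg₁ ((LinearMap.toMatrix b b).injective h)
  obtain ⟨i, j, hij⟩ : ∃ i j, (LinearMap.toMatrix b b (ρ g₀) * LinearMap.toMatrix b b (ρ g₁) -
      LinearMap.toMatrix b b (ρ g₁) * LinearMap.toMatrix b b (ρ g₀)) i j ≠ 0 := by
    by_contra hcon
    push_neg at hcon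
    exact hne (Matrix.ext hcon)
  refine ⟨b, g₀, g₁, i, j, ?_, ?_, hij⟩
  · rw [hcol]; simp
  · rw [hcol]; simp

end Residual

end Fermat.Agent.S53.Companion
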