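import Fermat.Agent.S53.Frame
import Fermat.Agent.S53.Burnside
import Fermat.Agent.S53.helper94_Companion

set_option autoImplicit false

open IsLocalRing

namespace Fermat.Agent.S53

section NF

variable {𝒪 : Type} [CommRing 𝒪] [IsLocalRing 𝒪]

/-- The residue of an entry of a lift is the image of the residue of the entry of `r0`. -/
lemma nf_residue_eq {A : Type} [CommRing A] [IsLocalRing A] [Algebra 𝒪 A]
    [IsLocalHom (algebraMap 𝒪 A)] {r0 : Gal → M2 𝒪} {r : Gal → M2 A}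
    (h : IsLiftOf r0 r) (g : Gal) (i j : Fin 2) :
    residue A (r g i j) = ResidueField.map (algebraMap 𝒪 A) (residue 𝒪 (r0 g i j)) := by
  have h1 := h g i j
  rw [← residue_eq_zero_iff, map_sub, sub_eq_zero] at h1
  rw [h1]
  rfl

/-- The commutator entry of a lift is a unit when it is nonzero residually. -/
lemma nf_isUnit_comm {A : Type} [CommRing A] [IsLocalRing A] [Algebra 𝒪 A]
    [IsLocalHom (algebraMap 𝒪 A)] {r0 : Gal → M2 𝒪} {r : Gal → M2 A}
    (h : IsLiftOf r0 r) (s : Gal → M2 (ResidueField 𝒪))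
    (hs : ∀ σ i j, residue 𝒪 (r0 σ i j) = s σ i j) (g₀ g₁ : Gal) (i j : Fin 2)
    (hne : (s g₀ * s g₁ - s g₁ * s g₀) i j ≠ 0) :
    IsUnit ((r g₀ * r g₁ - r g₁ * r g₀) i j) := by
  have key : residue A ((r g₀ * r g₁ - r g₁ * r g₀) i j) =
      ResidueField.map (algebraMap 𝒪 A) ((s g₀ * s g₁ - s g₁ * s g₀) i j) := by
    simp only [Matrix.sub_apply, Companion.mul_apply2, map_sub, map_add, map_mul,
      nf_residue_eq h, hs]
  rw [← residue_ne_zero_iff_isUnit, key]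
  exact (map_ne_zero _).mpr hne

end NF

theorem exists_sliceSpec (𝒪 : Type) [CommRing 𝒪] [IsLocalRing 𝒪]
    (ρbar : ResidualGaloisRep (ResidueField 𝒪)) (habs : ρbar.IsAbsolutelyIrreducible) :
    ∃ (b : Module.Basis (Fin 2) (ResidueField 𝒪) ρbar.V) (r0 : Gal → M2 𝒪) (S : SliceSpec),
      (∀ σ i j, residue 𝒪 (r0 σ i j) = matOfRes ρbar b σ i j) ∧
      SliceRigid r0 S ∧ SliceExists r0 S := by
  classical
  obtain ⟨b, g₀, g₁, i, j, h00, h10, hcomm⟩ :=
    Companion.exists_companion_basis ρbar.finrank_eq (fun g : Gal => ρbar.ρ g)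
      (burnside_end ρbar habs)
  have hcomm' : (matOfRes ρbar b g₀ * matOfRes ρbar b g₁ -
      matOfRes ρbar b g₁ * matOfRes ρbar b g₀) i j ≠ 0 := hcomm
  choose l hl using fun (σ : Gal) (a c : Fin 2) =>
    IsLocalRing.residue_surjective (matOfRes ρbar b σ a c)
  let r0 : Gal → M2 𝒪 := fun σ a c =>
    if σ = g₀ ∧ a = 0 ∧ c = 0 then 0 else if σ = g₀ ∧ a = 1 ∧ c = 0 then 1 else l σ a c
  have hr00 : r0 g₀ 0 0 = 0 := by simp [r0]
  have hr10 : r0 g₀ 1 0 = 1 := by simp [r0]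
  have hres : ∀ σ a c, residue 𝒪 (r0 σ a c) = matOfRes ρbar b σ a c := by
    intro σ a c
    by_cases h1 : σ = g₀ ∧ a = 0 ∧ c = 0
    · obtain ⟨rfl, rfl, rfl⟩ := h1
      rw [hr00, map_zero]
      exact h00.symm
    · by_cases h2 : σ = g₀ ∧ a = 1 ∧ c = 0
      · obtain ⟨rfl, rfl, rfl⟩ := h2
        rw [hr10, map_one]
        exact h10.symm
      · have : r0 σ a c = l σ a c := by
          simp only [r0, if_neg h1, if_neg h2]
        rw [this, hl]
  let S : SliceSpec := ⟨![g₀, g₀, g₁], ![0, 1, i], ![0, 0, j]⟩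
  refine ⟨b, r0, S, hres, ?_, ?_⟩
  · intro A _ _ _ _ _ _ r r' hlr hlr' hn hn' Q hQ
    have e0 : r g₀ 0 0 = algebraMap 𝒪 A (r0 g₀ 0 0) := hn 0
    have e1 : r g₀ 1 0 = algebraMap 𝒪 A (r0 g₀ 1 0) := hn 1
    have e2 : r g₁ i j = algebraMap 𝒪 A (r0 g₁ i j) := hn 2
    have e0' : r' g₀ 0 0 = algebraMap 𝒪 A (r0 g₀ 0 0) := hn' 0
    have e1' : r' g₀ 1 0 = algebraMap 𝒪 A (r0 g₀ 1 0) := hn' 1
    have e2' : r' g₁ i j = algebraMap 𝒪 A (r0 g₁ i j) := hn' 2
    rw [hr00, map_zero] at e0 e0'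
    rw [hr10, map_one] at e1 e1'
    have hfun : (⇑r : Gal → M2 A) = ⇑r' :=
      Companion.rigid_fun (r := ⇑r) (r' := ⇑r') (g₀ := g₀) (g₁ := g₁) (i := i) (j := j)
        ⟨e0, e1⟩ ⟨e0', e1'⟩ (by rw [e2, e2'])
        (fun a c => by
          have h1 := hlr' g₁ a c
          have h2 := hlr g₁ a c
          have : r' g₁ a c - r g₁ a c =
              (r' g₁ a c - algebraMap 𝒪 A (r0 g₁ a c)) -
                (r g₁ a c - algebraMap 𝒪 A (r0 g₁ a c)) := by ring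
          rw [this]
          exact Ideal.sub_mem _ h1 h2)
        (nf_isUnit_comm hlr (fun σ => matOfRes ρbar b σ) hres g₀ g₁ i j hcomm')
        Q.isUnit hQ
    exact DFunLike.coe_injective hfun
  · intro A _ _ _ _ _ _ _ r hlr
    have h00' : r g₀ 0 0 ∈ maximalIdeal A := by
      have := hlr g₀ 0 0
      rwa [hr00, map_zero, sub_zero] at this
    have h10' : r g₀ 1 0 - 1 ∈ maximalIdeal A := by
      have := hlr g₀ 1 0
      rwa [hr10, map_one] at this
    obtain ⟨U, V, hUV, hVU, hU1, hM00, hM10, hNij⟩ :=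
      Companion.exists_normal (r g₀) (r g₁) i j (algebraMap 𝒪 A (r0 g₁ i j)) h00' h10'
        (nf_isUnit_comm hlr (fun σ => matOfRes ρbar b σ) hres g₀ g₁ i j hcomm')
        (hlr g₁ i j)
    refine ⟨⟨U, V, hUV, hVU⟩, hU1, ?_⟩
    intro a
    fin_cases a
    · show (U * r g₀ * V) 0 0 = algebraMap 𝒪 A (r0 g₀ 0 0)
      rw [hM00, hr00, map_zero]
    · show (U * r g₀ * V) 1 0 = algebraMap 𝒪 A (r0 g₀ 1 0)
      rw [hM10, hr10, map_one]
    · show (U * r g₁ * V) i j = algebraMap 𝒪 A (r0 g₁ i j)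
      exact hNij

end Fermat.Agent.S53
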