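import Fermat.Agent.S53.Defs
import Fermat.Agent.S53.IdealSystem

set_option autoImplicit false

namespace Fermat.Agent.S53

open IsLocalRing

section Eval

variable {σ : Type} [Finite σ] {𝒪 : Type} [CommRing 𝒪]
variable {B : Type} [CommRing B] [Algebra 𝒪 B]

open MvPowerSeries in
/-- A power series all of whose coefficients of degree below `n` vanish lies in the `n`-th
power of the ideal generated by the variables. -/
theorem ps_mem_Ivar_pow (n : ℕ) (p : MvPowerSeries σ 𝒪)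
    (hp : ∀ x : σ →₀ ℕ, x.degree < n → MvPowerSeries.coeff x p = 0) : p ∈ Ivar σ 𝒪 ^ n := by
  have hmap : Ideal.map (toAdicCompletionAlgEquiv σ 𝒪).toRingEquiv (Ideal.span (Set.range X)) =
      (MvPolynomial.idealOfVars σ 𝒪).map (algebraMap ..) := by
    simp_rw [Ideal.map_span, ← Set.range_comp]
    congr 2; ext1
    simp [AdicCompletion.algebraMap_apply, ← MvPolynomial.coe_X, toAdicCompletion_coe]
  set e := (toAdicCompletionAlgEquiv σ 𝒪).toRingEquiv with he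
  have h1 : e p ∈
      (AdicCompletion.eval (MvPolynomial.idealOfVars σ 𝒪) (MvPolynomial σ 𝒪) n).ker := by
    rw [LinearMap.mem_ker]
    have h2 : (truncTotal n p) ∈ MvPolynomial.idealOfVars σ 𝒪 ^ n := by
      rw [MvPolynomial.mem_pow_idealOfVars_iff']
      intro x hx
      rw [coeff_truncTotal _ hx]
      exact hp x hx
    have h3 : (AdicCompletion.eval (MvPolynomial.idealOfVars σ 𝒪) (MvPolynomial σ 𝒪) n) (e p)
        = Ideal.Quotient.mk _ (truncTotal n p) := rfl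
    rw [h3, Ideal.Quotient.eq_zero_iff_mem]
    simpa using h2
  rw [← AdicCompletion.pow_smul_top_eq_ker_eval (MvPolynomial.idealOfVars_fg σ 𝒪)] at h1
  rw [Ideal.smul_top_eq_map] at h1
  have h4 : e p ∈ Ideal.map e (Ideal.span (Set.range X) ^ n) := by
    rw [Ideal.map_pow, hmap, ← Ideal.map_pow]
    exact h1
  obtain ⟨x, hx, hxe⟩ := (Ideal.mem_map_of_equiv e _).mp h4
  rwa [e.injective hxe] at hx

theorem ps_sub_truncTotal_mem (n : ℕ) (p : MvPowerSeries σ 𝒪) :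
    p - ((MvPowerSeries.truncTotal n p : MvPolynomial σ 𝒪) : MvPowerSeries σ 𝒪) ∈
      Ivar σ 𝒪 ^ n := by
  apply ps_mem_Ivar_pow
  intro x hx
  rw [map_sub, MvPolynomial.coeff_coe, MvPowerSeries.coeff_truncTotal _ hx, sub_self]

theorem ps_apply_coe (f : MvPowerSeries σ 𝒪 →ₐ[𝒪] B) (q : MvPolynomial σ 𝒪) :
    f (q : MvPowerSeries σ 𝒪) = MvPolynomial.aeval (fun s => f (MvPowerSeries.X s)) q := by
  have h : f.comp (MvPolynomial.coeToMvPowerSeries.algHom 𝒪) =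
      MvPolynomial.aeval (fun s => f (MvPowerSeries.X s)) := by
    apply MvPolynomial.algHom_ext
    intro s
    simp
  have h2 := congrArg (fun φ : MvPolynomial σ 𝒪 →ₐ[𝒪] B => φ q) h
  simpa using h2

theorem ps_apply_eq_truncTotal (f : MvPowerSeries σ 𝒪 →ₐ[𝒪] B) (n : ℕ)
    (hf : Ivar σ 𝒪 ^ n ≤ RingHom.ker (f : MvPowerSeries σ 𝒪 →+* B)) (p : MvPowerSeries σ 𝒪) :
    f p = MvPolynomial.aeval (fun s => f (MvPowerSeries.X s)) (MvPowerSeries.truncTotal n p) := by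
  have h1 : f (p - ((MvPowerSeries.truncTotal n p : MvPolynomial σ 𝒪) : MvPowerSeries σ 𝒪)) = 0 :=
    hf (ps_sub_truncTotal_mem n p)
  rw [map_sub, sub_eq_zero] at h1
  rw [h1, ps_apply_coe]

theorem exists_evalHom (y : σ → B) (n : ℕ) (hy : Ideal.span (Set.range y) ^ n = ⊥) :
    ∃ f : MvPowerSeries σ 𝒪 →ₐ[𝒪] B, ∀ s, f (MvPowerSeries.X s) = y s := by
  have hker : ∀ a ∈ MvPolynomial.idealOfVars σ 𝒪 ^ n,
      (MvPolynomial.aeval y : MvPolynomial σ 𝒪 →ₐ[𝒪] B) a = 0 := by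
    intro a ha
    have h1 : (MvPolynomial.aeval y : MvPolynomial σ 𝒪 →ₐ[𝒪] B) a ∈
        Ideal.map (MvPolynomial.aeval y : MvPolynomial σ 𝒪 →ₐ[𝒪] B)
          (MvPolynomial.idealOfVars σ 𝒪 ^ n) := Ideal.mem_map_of_mem _ ha
    rw [Ideal.map_pow, Ideal.map_span, ← Set.range_comp] at h1
    have h2 : ((MvPolynomial.aeval y : MvPolynomial σ 𝒪 →ₐ[𝒪] B) ∘ MvPolynomial.X) = y := by
      funext s; simp
    rw [h2, hy] at h1
    simpa using h1
  let g : (MvPolynomial σ 𝒪 ⧸ MvPolynomial.idealOfVars σ 𝒪 ^ n) →ₐ[𝒪] B :=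
    Ideal.Quotient.liftₐ _ (MvPolynomial.aeval y) hker
  let t : MvPowerSeries σ 𝒪 →ₐ[𝒪] (MvPolynomial σ 𝒪 ⧸ MvPolynomial.idealOfVars σ 𝒪 ^ n) :=
    (MvPowerSeries.truncTotalAlgHom σ 𝒪 n).restrictScalars 𝒪
  refine ⟨g.comp t, fun s => ?_⟩
  have h3 : t (MvPowerSeries.X s) =
      Ideal.Quotient.mk (MvPolynomial.idealOfVars σ 𝒪 ^ n) (MvPolynomial.X s) := by
    have h4 := (MvPowerSeries.truncTotalAlgHom σ 𝒪 n).commutes (MvPolynomial.X s)
    rw [MvPowerSeries.algebraMap_apply'] at h4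
    show Ideal.Quotient.mk (MvPolynomial.idealOfVars σ 𝒪 ^ n)
      (MvPowerSeries.truncTotal n (MvPowerSeries.X s)) = _
    simpa using h4
  rw [AlgHom.comp_apply, h3]
  simp [g]

theorem Ivar_pow_le_ker (f : MvPowerSeries σ 𝒪 →ₐ[𝒪] B) (n : ℕ)
    (h : Ideal.span (Set.range fun s => f (MvPowerSeries.X s)) ^ n = ⊥) :
    Ivar σ 𝒪 ^ n ≤ RingHom.ker (f : MvPowerSeries σ 𝒪 →+* B) := by
  intro p hp
  rw [RingHom.mem_ker]
  have h1 : (f : MvPowerSeries σ 𝒪 →+* B) p ∈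
      Ideal.map (f : MvPowerSeries σ 𝒪 →+* B) (Ivar σ 𝒪 ^ n) := Ideal.mem_map_of_mem _ hp
  rw [Ideal.map_pow, Ivar, Ideal.map_span, ← Set.range_comp] at h1
  have h2 : ((f : MvPowerSeries σ 𝒪 →+* B) ∘ MvPowerSeries.X) =
      fun s => f (MvPowerSeries.X s) := rfl
  rw [h2, h] at h1
  simpa using h1

theorem psHom_ext (f g : MvPowerSeries σ 𝒪 →ₐ[𝒪] B) (n : ℕ)
    (hf : Ivar σ 𝒪 ^ n ≤ RingHom.ker (f : MvPowerSeries σ 𝒪 →+* B))
    (hg : Ivar σ 𝒪 ^ n ≤ RingHom.ker (g : MvPowerSeries σ 𝒪 →+* B))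
    (h : ∀ s, f (MvPowerSeries.X s) = g (MvPowerSeries.X s)) : f = g := by
  refine AlgHom.ext fun p => ?_
  rw [ps_apply_eq_truncTotal f n hf p, ps_apply_eq_truncTotal g n hg p]
  have : (fun s => f (MvPowerSeries.X s)) = fun s => g (MvPowerSeries.X s) := funext h
  rw [this]

theorem psHom_mem_adjoin (f : MvPowerSeries σ 𝒪 →ₐ[𝒪] B) (n : ℕ)
    (hf : Ivar σ 𝒪 ^ n ≤ RingHom.ker (f : MvPowerSeries σ 𝒪 →+* B)) (x : MvPowerSeries σ 𝒪) :
    f x ∈ Algebra.adjoin 𝒪 (Set.range fun s => f (MvPowerSeries.X s)) := by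
  rw [ps_apply_eq_truncTotal f n hf x, Algebra.adjoin_range_eq_range_aeval]
  exact ⟨_, rfl⟩

theorem mem_Ivar_of_constantCoeff_eq_zero (p : MvPowerSeries σ 𝒪)
    (h : MvPowerSeries.constantCoeff p = 0) : p ∈ Ivar σ 𝒪 := by
  have h1 := ps_mem_Ivar_pow 1 p (fun x hx => by
    have hx0 : x = 0 := by
      rw [← Finsupp.degree_eq_zero_iff]
      omega
    subst hx0
    simpa using h)
  simpa using h1

end Eval

section Approx

theorem approx_inf {P : Type} [CommRing P] (I : Ideal P) [IsPrecomplete I P] (Jn : ℕ → Ideal P)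
    (hanti : Antitone Jn) (hI : ∀ n, I ^ n ≤ Jn n)
    (hstep : ∀ n, Jn n ≤ Jn (n + 1) ⊔ I ^ n) (n : ℕ) :
    Jn n ≤ (⨅ m, Jn m) ⊔ I ^ n := by
  rcases Nat.eq_zero_or_pos n with rfl | hn
  · simp
  have hstep' : ∀ n, 0 < n → Jn n = Jn (n + 1) ⊔ I ^ n := fun n _ =>
    le_antisymm (hstep n) (sup_le (hanti (Nat.le_succ n)) (hI n))
  have h1 := eq_iInf_sup_pow I Jn hstep' n hn
  have h2 : (⨅ m, Jn (m + 1)) = ⨅ m, Jn m := by
    apply le_antisymm
    · exact le_iInf fun m => (iInf_le (fun m => Jn (m + 1)) m).trans (hanti (Nat.le_succ m))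
    · exact le_iInf fun m => iInf_le Jn (m + 1)
  rw [h2] at h1
  exact h1.le

end Approx

section Quot

variable {σ : Type} [Finite σ] {𝒪 : Type} [CommRing 𝒪] [IsLocalRing 𝒪] [IsNoetherianRing 𝒪]
variable (ϖ : 𝒪) (hϖ : maximalIdeal 𝒪 = Ideal.span {ϖ}) (s0 : σ)
variable (J : Ideal (MvPowerSeries σ 𝒪))

omit [Finite σ] [IsNoetherianRing 𝒪] in
theorem ps_mem_maximalIdeal_iff (p : MvPowerSeries σ 𝒪) :
    p ∈ maximalIdeal (MvPowerSeries σ 𝒪) ↔
      MvPowerSeries.constantCoeff p ∈ maximalIdeal 𝒪 := by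
  rw [mem_maximalIdeal, mem_maximalIdeal, mem_nonunits_iff, mem_nonunits_iff,
    MvPowerSeries.isUnit_iff_constantCoeff]

omit [IsNoetherianRing 𝒪] in
theorem ps_Ivar_le_maximalIdeal : Ivar σ 𝒪 ≤ maximalIdeal (MvPowerSeries σ 𝒪) := by
  rw [Ivar, Ideal.span_le]
  rintro _ ⟨s, rfl⟩
  rw [SetLike.mem_coe, ps_mem_maximalIdeal_iff]
  simp

omit [IsNoetherianRing 𝒪] in
theorem ps_sub_C_mem_Ivar (p : MvPowerSeries σ 𝒪) :
    p - MvPowerSeries.C (MvPowerSeries.constantCoeff p) ∈ Ivar σ 𝒪 := by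
  apply mem_Ivar_of_constantCoeff_eq_zero
  simp

theorem quot_isLocalRing (hJ : J ≠ ⊤) : IsLocalRing (MvPowerSeries σ 𝒪 ⧸ J) := by
  have : Nontrivial (MvPowerSeries σ 𝒪 ⧸ J) := Ideal.Quotient.nontrivial_iff.mpr hJ
  exact IsLocalRing.of_surjective' (Ideal.Quotient.mk J) Ideal.Quotient.mk_surjective

variable [IsLocalRing (MvPowerSeries σ 𝒪 ⧸ J)]

include hϖ in
theorem quot_maximalIdeal_eq
    (hJϖ : MvPowerSeries.X s0 - algebraMap 𝒪 (MvPowerSeries σ 𝒪) ϖ ∈ J) :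
    maximalIdeal (MvPowerSeries σ 𝒪 ⧸ J) = (Ivar σ 𝒪).map (Ideal.Quotient.mk J) := by
  rw [← IsLocalRing.map_maximalIdeal_of_surjective (Ideal.Quotient.mk J)
    Ideal.Quotient.mk_surjective]
  apply le_antisymm
  · rw [Ideal.map_le_iff_le_comap]
    intro p hp
    rw [Ideal.mem_comap]
    rw [ps_mem_maximalIdeal_iff, hϖ, Ideal.mem_span_singleton] at hp
    obtain ⟨a, ha⟩ := hp
    have h1 : p = (p - MvPowerSeries.C (MvPowerSeries.constantCoeff p)) +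
        MvPowerSeries.C a * (algebraMap 𝒪 (MvPowerSeries σ 𝒪) ϖ - MvPowerSeries.X s0) +
        MvPowerSeries.C a * MvPowerSeries.X s0 := by
      rw [ha, MvPowerSeries.algebraMap_apply, Algebra.algebraMap_self, RingHom.id_apply, map_mul]
      ring
    rw [h1, map_add, map_add]
    refine Ideal.add_mem _ (Ideal.add_mem _ ?_ ?_) ?_
    · exact Ideal.mem_map_of_mem _ (ps_sub_C_mem_Ivar p)
    · have h2 : Ideal.Quotient.mk J (MvPowerSeries.C a *
          (algebraMap 𝒪 (MvPowerSeries σ 𝒪) ϖ - MvPowerSeries.X s0)) = 0 := by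
        rw [Ideal.Quotient.eq_zero_iff_mem]
        refine Ideal.mul_mem_left _ _ ?_
        have h3 := J.neg_mem hJϖ
        rwa [neg_sub] at h3
      rw [h2]
      exact Ideal.zero_mem _
    · refine Ideal.mem_map_of_mem _ (Ideal.mul_mem_left _ _ ?_)
      exact Ideal.subset_span ⟨s0, rfl⟩
  · exact Ideal.map_mono ps_Ivar_le_maximalIdeal

include hϖ in
theorem quot_isAdicComplete
    (hJϖ : MvPowerSeries.X s0 - algebraMap 𝒪 (MvPowerSeries σ 𝒪) ϖ ∈ J) :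
    IsAdicComplete (maximalIdeal (MvPowerSeries σ 𝒪 ⧸ J)) (MvPowerSeries σ 𝒪 ⧸ J) := by
  rw [quot_maximalIdeal_eq ϖ hϖ s0 J hJϖ]
  have hc : IsAdicComplete (Ivar σ 𝒪) (MvPowerSeries σ 𝒪) := by
    unfold Ivar
    infer_instance
  exact isAdicComplete_quotient_map (Ivar σ 𝒪) J

theorem quot_isLocalHom : IsLocalHom (algebraMap 𝒪 (MvPowerSeries σ 𝒪 ⧸ J)) := by
  have hmk : IsLocalHom (Ideal.Quotient.mk J) :=
    IsLocalHom.of_surjective (Ideal.Quotient.mk J) Ideal.Quotient.mk_surjective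
  refine ⟨fun a ha => ?_⟩
  have h1 : algebraMap 𝒪 (MvPowerSeries σ 𝒪 ⧸ J) a =
      Ideal.Quotient.mk J (MvPowerSeries.C a) := rfl
  rw [h1] at ha
  have h2 : IsUnit (MvPowerSeries.C a : MvPowerSeries σ 𝒪) := hmk.map_nonunit _ ha
  rw [MvPowerSeries.isUnit_iff_constantCoeff] at h2
  simpa using h2

theorem quot_residue_surjective :
    Function.Surjective (IsLocalRing.residue (MvPowerSeries σ 𝒪 ⧸ J) ∘
      algebraMap 𝒪 (MvPowerSeries σ 𝒪 ⧸ J)) := by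
  intro x
  obtain ⟨y, rfl⟩ := IsLocalRing.residue_surjective x
  obtain ⟨p, rfl⟩ := Ideal.Quotient.mk_surjective y
  refine ⟨MvPowerSeries.constantCoeff p, ?_⟩
  rw [Function.comp_apply]
  have h1 : algebraMap 𝒪 (MvPowerSeries σ 𝒪 ⧸ J) (MvPowerSeries.constantCoeff p) =
      Ideal.Quotient.mk J (MvPowerSeries.C (MvPowerSeries.constantCoeff p)) := rfl
  rw [h1, eq_comm, ← sub_eq_zero, ← map_sub, ← map_sub, IsLocalRing.residue_eq_zero_iff]
  have h2 : maximalIdeal (MvPowerSeries σ 𝒪 ⧸ J) =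
      (maximalIdeal (MvPowerSeries σ 𝒪)).map (Ideal.Quotient.mk J) :=
    (IsLocalRing.map_maximalIdeal_of_surjective (Ideal.Quotient.mk J)
      Ideal.Quotient.mk_surjective).symm
  rw [h2]
  exact Ideal.mem_map_of_mem _ (ps_Ivar_le_maximalIdeal (ps_sub_C_mem_Ivar p))

end Quot

end Fermat.Agent.S53
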