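import Mathlib

set_option autoImplicit false

namespace Fermat.Agent.S53

open IsLocalRing

section OneVar

variable {A : Type*} [CommRing A] [IsLocalRing A]

/-- membership in the maximal ideal of `A⟦X⟧` is detected on the constant coefficient -/
theorem powerSeries_mem_maximalIdeal_iff (f : PowerSeries A) :
    f ∈ maximalIdeal (PowerSeries A) ↔ PowerSeries.constantCoeff f ∈ maximalIdeal A := by
  rw [mem_maximalIdeal, mem_maximalIdeal, mem_nonunits_iff, mem_nonunits_iff,
    PowerSeries.isUnit_iff_constantCoeff]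

/-- the "coefficient filtration" ideal: `coeff i f ∈ m ^ (n - i)` for all `i` -/
def powerSeriesCoeffIdeal (A : Type*) [CommRing A] [IsLocalRing A] (n : ℕ) :
    Ideal (PowerSeries A) where
  carrier := {f | ∀ i, PowerSeries.coeff i f ∈ maximalIdeal A ^ (n - i)}
  add_mem' := by
    intro f g hf hg i
    rw [map_add]
    exact Ideal.add_mem _ (hf i) (hg i)
  zero_mem' := by
    intro i
    rw [map_zero]
    exact Ideal.zero_mem _
  smul_mem' := by
    intro c f hf i
    rw [smul_eq_mul, PowerSeries.coeff_mul]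
    refine Ideal.sum_mem _ fun p hp => ?_
    have hp' : p.1 + p.2 = i := by simpa using hp
    have hle : n - i ≤ n - p.2 := by omega
    exact Ideal.mul_mem_left _ _ (Ideal.pow_le_pow_right hle (hf p.2))

theorem mem_powerSeriesCoeffIdeal {n : ℕ} {f : PowerSeries A} :
    f ∈ powerSeriesCoeffIdeal A n ↔ ∀ i, PowerSeries.coeff i f ∈ maximalIdeal A ^ (n - i) :=
  Iff.rfl

theorem maximalIdeal_mul_powerSeriesCoeffIdeal_le (n : ℕ) :
    maximalIdeal (PowerSeries A) * powerSeriesCoeffIdeal A n ≤ powerSeriesCoeffIdeal A (n + 1) := by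
  rw [Ideal.mul_le]
  intro g hg f hf i
  rw [PowerSeries.coeff_mul]
  refine Ideal.sum_mem _ fun p hp => ?_
  have hp' : p.1 + p.2 = i := by simpa using hp
  by_cases h0 : p.1 = 0
  · have hi : p.2 = i := by omega
    have hg0 : PowerSeries.coeff p.1 g ∈ maximalIdeal A := by
      rw [h0, PowerSeries.coeff_zero_eq_constantCoeff_apply]
      exact (powerSeries_mem_maximalIdeal_iff g).mp hg
    by_cases hin : i ≤ n
    · have : n + 1 - i = 1 + (n - p.2) := by omega
      rw [this, pow_add, pow_one]
      exact Ideal.mul_mem_mul hg0 (hf p.2)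
    · have : n + 1 - i = 0 := by omega
      rw [this, pow_zero, Ideal.one_eq_top]
      exact Submodule.mem_top
  · have hle : n + 1 - i ≤ n - p.2 := by omega
    exact Ideal.mul_mem_left _ _ (Ideal.pow_le_pow_right hle (hf p.2))

theorem maximalIdeal_pow_le_powerSeriesCoeffIdeal (n : ℕ) :
    maximalIdeal (PowerSeries A) ^ n ≤ powerSeriesCoeffIdeal A n := by
  induction n with
  | zero =>
    intro f _ i
    rw [Nat.zero_sub, pow_zero, Ideal.one_eq_top]
    exact Submodule.mem_top
  | succ n ih =>
    rw [pow_succ']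
    exact (Ideal.mul_mono_right ih).trans (maximalIdeal_mul_powerSeriesCoeffIdeal_le n)

theorem powerSeries_C_mem_maximalIdeal_pow {a : A} {k : ℕ} (ha : a ∈ maximalIdeal A ^ k) :
    PowerSeries.C a ∈ maximalIdeal (PowerSeries A) ^ k := by
  have hle : (maximalIdeal A).map (PowerSeries.C (R := A)) ≤ maximalIdeal (PowerSeries A) := by
    rw [Ideal.map_le_iff_le_comap]
    intro x hx
    rw [Ideal.mem_comap, powerSeries_mem_maximalIdeal_iff, PowerSeries.constantCoeff_C]
    exact hx
  have h1 : PowerSeries.C a ∈ ((maximalIdeal A).map (PowerSeries.C (R := A))) ^ k := by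
    rw [← Ideal.map_pow]
    exact Ideal.mem_map_of_mem _ ha
  exact Ideal.pow_right_mono hle k h1

theorem powerSeries_X_mem_maximalIdeal : (PowerSeries.X : PowerSeries A) ∈
    maximalIdeal (PowerSeries A) := by
  rw [powerSeries_mem_maximalIdeal_iff, PowerSeries.constantCoeff_X]
  exact Ideal.zero_mem _

theorem powerSeriesCoeffIdeal_le_maximalIdeal_pow (n : ℕ) :
    powerSeriesCoeffIdeal A n ≤ maximalIdeal (PowerSeries A) ^ n := by
  intro f hf
  set s : PowerSeries A := ∑ i ∈ Finset.range n,
    PowerSeries.C (PowerSeries.coeff i f) * PowerSeries.X ^ i with hs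
  have hs_mem : s ∈ maximalIdeal (PowerSeries A) ^ n := by
    refine Ideal.sum_mem _ fun i hi => ?_
    have hin : i < n := Finset.mem_range.mp hi
    have h1 := powerSeries_C_mem_maximalIdeal_pow (hf i)
    have h2 : (PowerSeries.X : PowerSeries A) ^ i ∈ maximalIdeal (PowerSeries A) ^ i :=
      Ideal.pow_mem_pow powerSeries_X_mem_maximalIdeal i
    have h3 := Ideal.mul_mem_mul h1 h2
    rw [← pow_add] at h3
    have : n - i + i = n := by omega
    rwa [this] at h3
  have hdvd : (PowerSeries.X : PowerSeries A) ^ n ∣ f - s := by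
    rw [PowerSeries.X_pow_dvd_iff]
    intro m hm
    rw [map_sub, hs, map_sum, sub_eq_zero]
    rw [Finset.sum_eq_single m]
    · rw [PowerSeries.coeff_C_mul, PowerSeries.coeff_X_pow, if_pos rfl, mul_one]
    · intro b _ hb
      rw [PowerSeries.coeff_C_mul, PowerSeries.coeff_X_pow, if_neg (Ne.symm hb), mul_zero]
    · intro hmn
      exact absurd (Finset.mem_range.mpr hm) hmn
  obtain ⟨g, hg⟩ := hdvd
  have hfs : f = s + PowerSeries.X ^ n * g := by rw [← hg]; ring
  rw [hfs]
  exact Ideal.add_mem _ hs_mem
    (Ideal.mul_mem_right _ _ (Ideal.pow_mem_pow powerSeries_X_mem_maximalIdeal n))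

theorem maximalIdeal_pow_eq_powerSeriesCoeffIdeal (n : ℕ) :
    maximalIdeal (PowerSeries A) ^ n = powerSeriesCoeffIdeal A n :=
  le_antisymm (maximalIdeal_pow_le_powerSeriesCoeffIdeal n)
    (powerSeriesCoeffIdeal_le_maximalIdeal_pow n)

theorem powerSeries_isPrecomplete [IsPrecomplete (maximalIdeal A) A] :
    IsPrecomplete (maximalIdeal (PowerSeries A)) (PowerSeries A) := by
  refine ⟨fun f hf => ?_⟩
  have hf' : ∀ {m n : ℕ}, m ≤ n → f m - f n ∈ maximalIdeal (PowerSeries A) ^ m := by
    intro m n hmn
    have := SModEq.sub_mem.mp (hf hmn)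
    rwa [smul_eq_mul, Ideal.mul_top] at this
  -- coefficient sequences
  have hcoeff : ∀ i : ℕ, ∃ a : A, ∀ j : ℕ,
      PowerSeries.coeff i (f (i + j)) - a ∈ maximalIdeal A ^ j := by
    intro i
    have hc : ∀ {m n : ℕ}, m ≤ n →
        PowerSeries.coeff i (f (i + m)) ≡ PowerSeries.coeff i (f (i + n))
          [SMOD (maximalIdeal A ^ m • ⊤ : Submodule A A)] := by
      intro m n hmn
      rw [SModEq.sub_mem, smul_eq_mul, Ideal.mul_top, ← map_sub]
      have h1 := maximalIdeal_pow_le_powerSeriesCoeffIdeal (i + m)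
        (hf' (show i + m ≤ i + n by omega)) i
      have : i + m - i = m := by omega
      rwa [this] at h1
    obtain ⟨a, ha⟩ := IsPrecomplete.prec' (I := maximalIdeal A)
      (fun j => PowerSeries.coeff i (f (i + j))) hc
    refine ⟨a, fun j => ?_⟩
    have := SModEq.sub_mem.mp (ha j)
    rwa [smul_eq_mul, Ideal.mul_top] at this
  choose a ha using hcoeff
  refine ⟨PowerSeries.mk a, fun n => ?_⟩
  rw [SModEq.sub_mem, smul_eq_mul, Ideal.mul_top, maximalIdeal_pow_eq_powerSeriesCoeffIdeal]
  intro i
  rw [map_sub, PowerSeries.coeff_mk]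
  by_cases hin : i ≤ n
  · have h1 := ha i (n - i)
    have : i + (n - i) = n := by omega
    rwa [this] at h1
  · have : n - i = 0 := by omega
    rw [this, pow_zero, Ideal.one_eq_top]
    exact Submodule.mem_top

theorem powerSeries_isAdicComplete [IsNoetherianRing A] [IsAdicComplete (maximalIdeal A) A] :
    IsAdicComplete (maximalIdeal (PowerSeries A)) (PowerSeries A) :=
  { toIsHausdorff := inferInstance
    toIsPrecomplete := powerSeries_isPrecomplete }

end OneVar

theorem ringEquiv_map_maximalIdeal {R S : Type*} [CommRing R] [CommRing S] [IsLocalRing R]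
    [IsLocalRing S] (e : R ≃+* S) : (maximalIdeal R).map e = maximalIdeal S := by
  ext x
  rw [Ideal.mem_map_of_equiv]
  constructor
  · rintro ⟨y, hy, rfl⟩
    rw [mem_maximalIdeal, mem_nonunits_iff] at hy ⊢
    exact fun h => hy ((isUnit_map_iff e y).mp h)
  · intro hx
    refine ⟨e.symm x, ?_, e.apply_symm_apply x⟩
    rw [mem_maximalIdeal, mem_nonunits_iff] at hx ⊢
    exact fun h => hx (by simpa using h.map e)

theorem isAdicComplete_maximalIdeal_of_ringEquiv {R S : Type*} [CommRing R] [CommRing S]
    [IsLocalRing R] [IsLocalRing S] (e : R ≃+* S) [IsAdicComplete (maximalIdeal R) R] :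
    IsAdicComplete (maximalIdeal S) S := by
  rw [← ringEquiv_map_maximalIdeal e]
  exact (IsAdicComplete.congr_ringEquiv (maximalIdeal R) e).mpr inferInstance

/-- (A1) the power series ring in `d` variables over a complete Noetherian local ring is complete
for its maximal ideal. -/
theorem mvPowerSeries_isAdicComplete (O : Type) [CommRing O] [IsNoetherianRing O] [IsLocalRing O]
    [IsAdicComplete (maximalIdeal O) O] (d : ℕ) :
    IsAdicComplete (maximalIdeal (MvPowerSeries (Fin d) O)) (MvPowerSeries (Fin d) O) := by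
  induction d with
  | zero =>
    exact isAdicComplete_maximalIdeal_of_ringEquiv
      (MvPowerSeries.isEmptyEquiv (Fin 0) O).symm.toRingEquiv
  | succ n ih =>
    have := ih
    have : IsAdicComplete (maximalIdeal (PowerSeries (MvPowerSeries (Fin n) O)))
        (PowerSeries (MvPowerSeries (Fin n) O)) := powerSeries_isAdicComplete
    exact isAdicComplete_maximalIdeal_of_ringEquiv
      (MvPowerSeries.finSuccEquiv O n).symm.toRingEquiv

end Fermat.Agent.S53
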