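import Fermat.Agent.S53.Defs
import Fermat.Agent.S53.Dictionary
import Fermat.Agent.S53.SliceLemma

set_option autoImplicit false
set_option linter.unusedSectionVars false
set_option linter.style.haveILetI false

namespace Fermat.Agent.S53

open IsLocalRing

section Basic

variable {𝒪 : Type} [CommRing 𝒪] [IsLocalRing 𝒪]
variable {A B : Type} [CommRing A] [IsLocalRing A] [Algebra 𝒪 A]
  [CommRing B] [IsLocalRing B] [Algebra 𝒪 B]

theorem rep_map_mem_maximalIdeal (φ : A →+* B) (hφ : IsLocalHom φ) {a : A}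
    (ha : a ∈ maximalIdeal A) : φ a ∈ maximalIdeal B := by
  haveI := hφ
  exact map_nonunit φ a ha

theorem rep_mem_maximalIdeal_of_map (φ : A →+* B) {a : A}
    (ha : φ a ∈ maximalIdeal B) : a ∈ maximalIdeal A := by
  by_contra h
  have hu : IsUnit a := by
    by_contra hu
    exact h ((mem_maximalIdeal a).mpr hu)
  exact (mem_maximalIdeal _).mp ha (hu.map φ)

theorem rep_isLiftOf_map {r0 : GQ → M2 𝒪} (φ : A →ₐ[𝒪] B) (hφ : IsLocalHom (φ : A →+* B))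
    {ρ : GQ → M2 A} (h : IsLiftOf r0 ρ) : IsLiftOf r0 (fun σ => (ρ σ).map φ) := by
  intro σ i j
  have h1 := h σ i j
  have h2 : ((ρ σ).map φ - (r0 σ).map (algebraMap 𝒪 B)) i j =
      φ ((ρ σ - (r0 σ).map (algebraMap 𝒪 A)) i j) := by
    simp [Matrix.sub_apply, Matrix.map_apply]
  rw [h2]
  exact rep_map_mem_maximalIdeal (φ : A →+* B) hφ h1

theorem rep_isLiftOf_of_map {r0 : GQ → M2 𝒪} (φ : A →ₐ[𝒪] B)
    {ρ : GQ → M2 A} (h : IsLiftOf r0 (fun σ => (ρ σ).map φ)) : IsLiftOf r0 ρ := by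
  intro σ i j
  have h1 := h σ i j
  have h2 : ((ρ σ).map φ - (r0 σ).map (algebraMap 𝒪 B)) i j =
      φ ((ρ σ - (r0 σ).map (algebraMap 𝒪 A)) i j) := by
    simp [Matrix.sub_apply, Matrix.map_apply]
  rw [h2] at h1
  exact rep_mem_maximalIdeal_of_map (φ : A →+* B) h1

theorem rep_isNormalized_map {r0 : GQ → M2 𝒪} (S : SliceData 𝒪 r0) (φ : A →ₐ[𝒪] B)
    {ρ : GQ → M2 A} (h : IsNormalized S ρ) : IsNormalized S (fun σ => (ρ σ).map φ) := by
  intro a
  have h1 := h a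
  simp only [Matrix.map_apply]
  rw [h1, AlgHom.commutes]

theorem rep_isNormalized_of_map {r0 : GQ → M2 𝒪} (S : SliceData 𝒪 r0) (φ : A →ₐ[𝒪] B)
    (hinj : Function.Injective φ)
    {ρ : GQ → M2 A} (h : IsNormalized S (fun σ => (ρ σ).map φ)) : IsNormalized S ρ := by
  intro a
  have h1 := h a
  simp only [Matrix.map_apply] at h1
  apply hinj
  rw [h1, AlgHom.commutes]

end Basic

section Construct

variable {A B C : Type} [CommRing A] [IsLocalRing A] [CommRing B] [IsLocalRing B]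
  [CommRing C] [IsLocalRing C]

theorem rep_matrix_ext₂ (φ : A →+* B) (ψ : A →+* C)
    (hinj : ∀ a a' : A, φ a = φ a' → ψ a = ψ a' → a = a') {M N : M2 A}
    (h1 : M.map φ = N.map φ) (h2 : M.map ψ = N.map ψ) : M = N := by
  ext i j
  apply hinj
  · have := congrFun (congrFun h1 i) j
    simpa [Matrix.map_apply] using this
  · have := congrFun (congrFun h2 i) j
    simpa [Matrix.map_apply] using this

/-- A family of matrices over `A` which becomes a matrix representation after applying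
two jointly injective ring homomorphisms to rings with nilpotent maximal ideals is
itself a matrix representation. -/
theorem rep_exists_matRep_of_map₂ (φ : A →+* B) (ψ : A →+* C)
    (hinj : ∀ a a' : A, φ a = φ a' → ψ a = ψ a' → a = a')
    (hB : ∃ n, maximalIdeal B ^ n = ⊥) (hC : ∃ n, maximalIdeal C ^ n = ⊥)
    (x : GQ → M2 A) (ρB : MatRep B) (ρC : MatRep C)
    (hxB : ∀ σ, ρB.hom σ = (x σ).map φ) (hxC : ∀ σ, ρC.hom σ = (x σ).map ψ) :
    ∃ ρA : MatRep A, ∀ σ, ρA.hom σ = x σ := by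
  have hone : x 1 = 1 := by
    apply rep_matrix_ext₂ φ ψ hinj
    · rw [← hxB, map_one, Matrix.map_one φ (map_zero φ) (map_one φ)]
    · rw [← hxC, map_one, Matrix.map_one ψ (map_zero ψ) (map_one ψ)]
  have hmul : ∀ σ τ, x (σ * τ) = x σ * x τ := by
    intro σ τ
    apply rep_matrix_ext₂ φ ψ hinj
    · rw [← hxB, map_mul, hxB, hxB, Matrix.map_mul]
    · rw [← hxC, map_mul, hxC, hxC, Matrix.map_mul]
  obtain ⟨nB, hnB⟩ := hB
  obtain ⟨nC, hnC⟩ := hC
  obtain ⟨LB, hLB, hB'⟩ := ρB.cont nB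
  obtain ⟨LC, hLC, hC'⟩ := ρC.cont nC
  refine ⟨{ hom := { toFun := x, map_one' := hone, map_mul' := hmul }, cont := ?_ }, fun σ => rfl⟩
  intro n
  haveI := hLB
  haveI := hLC
  refine ⟨LB ⊔ LC, IntermediateField.finiteDimensional_sup LB LC, fun σ hσ => ?_⟩
  have h1 : x σ = 1 := by
    apply rep_matrix_ext₂ φ ψ hinj
    · rw [← hxB, Matrix.map_one φ (map_zero φ) (map_one φ)]
      have h := hB' σ (fun y hy => hσ y ((le_sup_left : LB ≤ LB ⊔ LC) hy))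
      ext i j
      have hij := h i j
      rw [hnB, Ideal.mem_bot] at hij
      have := sub_eq_zero.mp hij
      rw [Matrix.sub_apply] at hij
      exact sub_eq_zero.mp hij
    · rw [← hxC, Matrix.map_one ψ (map_zero ψ) (map_one ψ)]
      have h := hC' σ (fun y hy => hσ y ((le_sup_right : LC ≤ LB ⊔ LC) hy))
      ext i j
      have hij := h i j
      rw [hnC, Ideal.mem_bot] at hij
      rw [Matrix.sub_apply] at hij
      exact sub_eq_zero.mp hij
  intro i j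
  show (x σ - 1) i j ∈ _
  rw [h1, sub_self]
  exact Ideal.zero_mem _

end Construct

section Rep

variable {𝒪 : Type} [CommRing 𝒪] [IsLocalRing 𝒪]
variable {𝒟 : ∀ ⦃A : Type⦄ [CommRing A] [IsLocalRing A] [Algebra 𝒪 A], GaloisRepAdic A → Prop}
variable {r0 : GQ → M2 𝒪} (S : SliceData 𝒪 r0)

theorem rep_nilpotent {A : Type} [CommRing A] [IsLocalRing A] [Algebra 𝒪 A]
    (hA : GaloisRep.IsArtinianTestAlgebra 𝒪 A) : ∃ n, maximalIdeal A ^ n = ⊥ := by
  haveI := hA.isArtinian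
  obtain ⟨n, hn⟩ := (isArtinianRing_iff_isNilpotent_maximalIdeal A).mp inferInstance
  exact ⟨n, hn⟩

/-- Normalized lifts of type `𝒟` are stable under local algebra maps. -/
theorem rep_map (hD : GaloisRep.IsDeformationCondition 𝒪 𝒟)
    {A B : Type} [CommRing A] [IsLocalRing A] [Algebra 𝒪 A]
    [CommRing B] [IsLocalRing B] [Algebra 𝒪 B]
    (hA : GaloisRep.IsArtinianTestAlgebra 𝒪 A) (hB : GaloisRep.IsArtinianTestAlgebra 𝒪 B)
    (φ : A →ₐ[𝒪] B) (hφ : IsLocalHom (φ : A →+* B)) {ρ : MatRep A} (h : IsNLift 𝒟 S ρ) :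
    IsNLift 𝒟 S (ρ.map (φ : A →+* B) hφ) where
  lift := rep_isLiftOf_map φ hφ h.lift
  norm := rep_isNormalized_map S φ h.norm
  cond := hD.of_isEquiv hB (toRep_map_isEquiv (φ : A →+* B) hφ ρ)
    (hD.baseChangeAlong hA hB φ hφ h.cond)

/-- Injective descent for normalized lifts of type `𝒟`. -/
theorem rep_of_injective (hD : GaloisRep.IsDeformationCondition 𝒪 𝒟)
    {A B : Type} [CommRing A] [IsLocalRing A] [Algebra 𝒪 A]
    [CommRing B] [IsLocalRing B] [Algebra 𝒪 B]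
    (hA : GaloisRep.IsArtinianTestAlgebra 𝒪 A) (hB : GaloisRep.IsArtinianTestAlgebra 𝒪 B)
    (φ : A →ₐ[𝒪] B) (hφ : IsLocalHom (φ : A →+* B)) (hinj : Function.Injective φ)
    (x : GQ → M2 A) (ρB : MatRep B) (hx : ∀ σ, ρB.hom σ = (x σ).map φ)
    (h : IsNLift 𝒟 S ρB) :
    ∃ ρA : MatRep A, (∀ σ, ρA.hom σ = x σ) ∧ IsNLift 𝒟 S ρA := by
  obtain ⟨ρA, hρA⟩ := rep_exists_matRep_of_map₂ (φ : A →+* B) (φ : A →+* B)
    (fun a a' h1 _ => hinj h1) (rep_nilpotent hB) (rep_nilpotent hB) x ρB ρB hx hx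
  have hmap : ρA.map (φ : A →+* B) hφ = ρB :=
    MatRep.ext (fun σ => by rw [MatRep.map_hom_apply, hρA, hx]; rfl)
  refine ⟨ρA, hρA, ?_, ?_, ?_⟩
  · apply rep_isLiftOf_of_map φ
    intro σ
    have := h.lift σ
    rw [hx σ, ← hρA σ] at this
    exact this
  · apply rep_isNormalized_of_map S φ hinj
    intro a
    have := h.norm a
    rw [hx, ← hρA] at this
    exact this
  · apply hD.of_baseChangeAlong_injective hA hB φ hφ hinj
    have h1 : 𝒟 (ρA.map (φ : A →+* B) hφ).toRep := hmap ▸ h.cond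
    obtain ⟨e⟩ := toRep_map_isEquiv (φ : A →+* B) hφ ρA
    exact hD.of_isEquiv hB ⟨e.symm⟩ h1

/-- Fibre product glueing for normalized lifts of type `𝒟`. -/
theorem rep_of_fibreProduct (hD : GaloisRep.IsDeformationCondition 𝒪 𝒟)
    {A B C P : Type} [CommRing A] [IsLocalRing A] [Algebra 𝒪 A]
    [CommRing B] [IsLocalRing B] [Algebra 𝒪 B] [CommRing C] [IsLocalRing C] [Algebra 𝒪 C]
    [CommRing P] [IsLocalRing P] [Algebra 𝒪 P]
    (hA : GaloisRep.IsArtinianTestAlgebra 𝒪 A) (hB : GaloisRep.IsArtinianTestAlgebra 𝒪 B)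
    (hC : GaloisRep.IsArtinianTestAlgebra 𝒪 C) (hP : GaloisRep.IsArtinianTestAlgebra 𝒪 P)
    (f : A →ₐ[𝒪] C) (g : B →ₐ[𝒪] C) (pA : P →ₐ[𝒪] A) (pB : P →ₐ[𝒪] B)
    (hpA : IsLocalHom (pA : P →+* A)) (hpB : IsLocalHom (pB : P →+* B))
    (hcomm : f.comp pA = g.comp pB)
    (hinj : Function.Injective (fun x => (pA x, pB x)))
    (hsurj : ∀ a b, f a = g b → ∃ x, pA x = a ∧ pB x = b)
    (x : GQ → M2 P) (ρA : MatRep A) (ρB : MatRep B)
    (hxA : ∀ σ, ρA.hom σ = (x σ).map pA) (hxB : ∀ σ, ρB.hom σ = (x σ).map pB)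
    (hA' : IsNLift 𝒟 S ρA) (hB' : IsNLift 𝒟 S ρB) :
    ∃ ρP : MatRep P, (∀ σ, ρP.hom σ = x σ) ∧ IsNLift 𝒟 S ρP := by
  have hinj' : ∀ a a' : P, (pA : P →+* A) a = (pA : P →+* A) a' →
      (pB : P →+* B) a = (pB : P →+* B) a' → a = a' :=
    fun a a' h1 h2 => hinj (Prod.ext h1 h2)
  obtain ⟨ρP, hρP⟩ := rep_exists_matRep_of_map₂ (pA : P →+* A) (pB : P →+* B) hinj'
    (rep_nilpotent hA) (rep_nilpotent hB) x ρA ρB hxA hxB
  have hmapA : ρP.map (pA : P →+* A) hpA = ρA :=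
    MatRep.ext (fun σ => by rw [MatRep.map_hom_apply, hρP, hxA]; rfl)
  have hmapB : ρP.map (pB : P →+* B) hpB = ρB :=
    MatRep.ext (fun σ => by rw [MatRep.map_hom_apply, hρP, hxB]; rfl)
  refine ⟨ρP, hρP, ?_, ?_, ?_⟩
  · apply rep_isLiftOf_of_map pA
    intro σ
    have := hA'.lift σ
    rw [hxA σ, ← hρP σ] at this
    exact this
  · intro a
    apply hinj'
    · have := hA'.norm a
      rw [hxA, ← hρP] at this
      simp only [Matrix.map_apply] at this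
      rw [AlgHom.coe_toRingHom, this, AlgHom.commutes]
    · have := hB'.norm a
      rw [hxB, ← hρP] at this
      simp only [Matrix.map_apply] at this
      rw [AlgHom.coe_toRingHom, this, AlgHom.commutes]
  · apply hD.of_fibreProduct hA hB hC hP f g pA pB hpA hpB hcomm hinj hsurj
    · have h1 : 𝒟 (ρP.map (pA : P →+* A) hpA).toRep := hmapA ▸ hA'.cond
      obtain ⟨e⟩ := toRep_map_isEquiv (pA : P →+* A) hpA ρP
      exact hD.of_isEquiv hA ⟨e.symm⟩ h1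
    · have h1 : 𝒟 (ρP.map (pB : P →+* B) hpB).toRep := hmapB ▸ hB'.cond
      obtain ⟨e⟩ := toRep_map_isEquiv (pB : P →+* B) hpB ρP
      exact hD.of_isEquiv hB ⟨e.symm⟩ h1

theorem rep_residue {A : Type} [CommRing A] [IsLocalRing A] [Algebra 𝒪 A] {ρ : MatRep A}
    (h : IsNLift 𝒟 S ρ) (σ : GQ) (i j : Fin 2) :
    ρ.hom σ i j - algebraMap 𝒪 A (r0 σ i j) ∈ maximalIdeal A := by
  have := h.lift σ i j
  simpa [Matrix.sub_apply, Matrix.map_apply] using this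

end Rep

section Rep2

variable {𝒪 : Type} [CommRing 𝒪] [IsLocalRing 𝒪]
variable {𝒟 : ∀ ⦃A : Type⦄ [CommRing A] [IsLocalRing A] [Algebra 𝒪 A], GaloisRepAdic A → Prop}
variable {r0 : GQ → M2 𝒪} (S : SliceData 𝒪 r0)

/-- The residue field is an Artinian test algebra. -/
theorem rep_isArtinianTestAlgebra_residueField :
    GaloisRep.IsArtinianTestAlgebra 𝒪 (ResidueField 𝒪) where
  isLocalHom := by
    constructor
    intro a ha
    by_contra h
    have h1 : residue 𝒪 a = 0 := (residue_eq_zero_iff a).mpr ((mem_maximalIdeal a).mpr h)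
    have h2 : algebraMap 𝒪 (ResidueField 𝒪) a = 0 := h1
    rw [h2] at ha
    exact not_isUnit_zero ha
  residue_surjective := by
    intro y
    obtain ⟨z, rfl⟩ := residue_surjective y
    obtain ⟨c, rfl⟩ := residue_surjective z
    exact ⟨c, rfl⟩
  isArtinian := inferInstance

/-- The residual representation gives a normalized lift over the residue field. -/
theorem rep_base (hD : GaloisRep.IsDeformationCondition 𝒪 𝒟)
    {ρbar : ResidualGaloisRep (ResidueField 𝒪)}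
    (hbar : 𝒟 (GaloisRepAdic.ofResidualGaloisRep ρbar)) (hr0 : ResData ρbar r0) :
    ∃ ρ1 : MatRep (ResidueField 𝒪),
      (∀ σ, ρ1.hom σ = (r0 σ).map (algebraMap 𝒪 (ResidueField 𝒪))) ∧ IsNLift 𝒟 S ρ1 := by
  obtain ⟨ρ1, h1, h2⟩ := exists_matRep_rhobar hr0
  refine ⟨ρ1, h1, ?_, ?_, ?_⟩
  · intro σ i j
    rw [h1, sub_self]
    exact Ideal.zero_mem _
  · intro a
    rw [h1]
    rfl
  · exact hD.of_isEquiv rep_isArtinianTestAlgebra_residueField h2 hbar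

end Rep2

section Rep3

variable {𝒪 : Type} [CommRing 𝒪] [IsLocalRing 𝒪]
variable {𝒟 : ∀ ⦃A : Type⦄ [CommRing A] [IsLocalRing A] [Algebra 𝒪 A], GaloisRepAdic A → Prop}
variable {r0 : GQ → M2 𝒪} (S : SliceData 𝒪 r0)

/-- The structure map to the dual numbers is a local homomorphism. -/
theorem rep_isLocalHom_dualAlg :
    letI := dualAlg 𝒪
    IsLocalHom (algebraMap 𝒪 (DualNumber (ResidueField 𝒪))) := by
  letI := dualAlg 𝒪
  constructor
  intro a ha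
  by_contra h
  have h1 : residue 𝒪 a = 0 := (residue_eq_zero_iff a).mpr ((mem_maximalIdeal a).mpr h)
  have h2 : algebraMap 𝒪 (DualNumber (ResidueField 𝒪)) a =
      algebraMap (ResidueField 𝒪) (DualNumber (ResidueField 𝒪)) (residue 𝒪 a) := rfl
  rw [h2, h1, map_zero] at ha
  exact not_isUnit_zero ha

theorem rep_residueMap_dualAlg :
    letI := dualAlg 𝒪
    haveI := rep_isLocalHom_dualAlg (𝒪 := 𝒪)
    IsLocalRing.ResidueField.map (algebraMap 𝒪 (DualNumber (ResidueField 𝒪))) =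
      (IsLocalRing.residue (DualNumber (ResidueField 𝒪))).comp
        (algebraMap (ResidueField 𝒪) (DualNumber (ResidueField 𝒪))) := by
  letI := dualAlg 𝒪
  haveI := rep_isLocalHom_dualAlg (𝒪 := 𝒪)
  apply RingHom.ext
  intro y
  obtain ⟨c, rfl⟩ := residue_surjective y
  rfl

/-- Finiteness of the set of normalized lifts over the dual numbers. -/
theorem rep_tangent_finite {ρbar : ResidualGaloisRep (ResidueField 𝒪)}
    (hfin : GaloisRep.TangentFinite 𝒪 ρbar 𝒟) (hr0 : ResData ρbar r0) :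
    letI := dualAlg 𝒪
    Set.Finite {ρ : MatRep (DualNumber (ResidueField 𝒪)) | IsNLift 𝒟 S ρ} := by
  letI := dualAlg 𝒪
  haveI := rep_isLocalHom_dualAlg (𝒪 := 𝒪)
  letI : Algebra (ResidueField 𝒪) (ResidueField (DualNumber (ResidueField 𝒪))) :=
    ((IsLocalRing.residue (DualNumber (ResidueField 𝒪))).comp
      (algebraMap (ResidueField 𝒪) (DualNumber (ResidueField 𝒪)))).toAlgebra
  let st : Setoid {ρ : GaloisRepAdic (DualNumber (ResidueField 𝒪)) //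
      𝒟 ρ ∧ ρ.residual.IsEquiv (ρbar.baseChange (ResidueField (DualNumber (ResidueField 𝒪)))) } :=
    ⟨fun ρ ρ' => ρ.1.IsEquiv ρ'.1, ⟨fun ρ => ⟨GaloisRepAdic.Equiv.refl ρ.1⟩,
        fun ⟨e⟩ => ⟨e.symm⟩, fun ⟨e⟩ ⟨e'⟩ => ⟨e.trans e'⟩⟩⟩
  have hfin' : Finite (Quotient st) := hfin
  have hres : ∀ ρ : MatRep (DualNumber (ResidueField 𝒪)), IsNLift 𝒟 S ρ →
      ρ.toRep.residual.IsEquiv (ρbar.baseChange (ResidueField (DualNumber (ResidueField 𝒪)))) := by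
    intro ρ hρ
    have h1 := residual_isEquiv_of_isLiftOf hr0 ρ hρ.lift
    rw [rep_residueMap_dualAlg] at h1
    exact h1
  let Φ : {ρ : MatRep (DualNumber (ResidueField 𝒪)) // IsNLift 𝒟 S ρ} → Quotient st :=
    fun ρ => Quotient.mk st ⟨ρ.1.toRep, ρ.2.cond, hres ρ.1 ρ.2⟩
  have hΦ : Function.Injective Φ := by
    rintro ⟨ρ, hρ⟩ ⟨ρ', hρ'⟩ h
    have h1 : ρ.toRep.IsEquiv ρ'.toRep := Quotient.exact h
    obtain ⟨g, hg, hconj⟩ := (toRep_isEquiv_iff ρ ρ').mp h1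
    have h2 := slice_unique S ρ.hom ρ'.hom hρ.lift hρ'.lift hρ.norm hρ'.norm g hg hconj
    apply Subtype.ext
    exact MatRep.ext (fun σ => congrFun h2 σ)
  have : Finite {ρ : MatRep (DualNumber (ResidueField 𝒪)) // IsNLift 𝒟 S ρ} :=
    Finite.of_injective Φ hΦ
  exact Set.finite_coe_iff.mp this

end Rep3

section Entry

variable {𝒪 : Type} [CommRing 𝒪] [IsLocalRing 𝒪]
variable (𝒟 : ∀ ⦃A : Type⦄ [CommRing A] [IsLocalRing A] [Algebra 𝒪 A], GaloisRepAdic A → Prop)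
variable {r0 : GQ → M2 𝒪} (S : SliceData 𝒪 r0)

/-- The entry functor: `x` is the family of entries of a normalized lift of type `𝒟`. -/
def EntryF ⦃A : Type⦄ [CommRing A] [IsLocalRing A] [Algebra 𝒪 A]
    (x : GQ × Fin 2 × Fin 2 → A) : Prop :=
  ∃ ρ : MatRep A, (∀ σ i j, ρ.hom σ i j = x (σ, i, j)) ∧ IsNLift 𝒟 S ρ

/-- The matrix family attached to an entry family. -/
def entryMat {A : Type} (x : GQ × Fin 2 × Fin 2 → A) : GQ → M2 A :=
  fun σ => Matrix.of fun i j => x (σ, i, j)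

@[simp] theorem entryMat_apply {A : Type} (x : GQ × Fin 2 × Fin 2 → A) (σ : GQ) (i j : Fin 2) :
    entryMat x σ i j = x (σ, i, j) := rfl

variable {𝒟}

theorem entryF_iff {A : Type} [CommRing A] [IsLocalRing A] [Algebra 𝒪 A]
    (x : GQ × Fin 2 × Fin 2 → A) :
    EntryF 𝒟 S x ↔ ∃ ρ : MatRep A, (∀ σ, ρ.hom σ = entryMat x σ) ∧ IsNLift 𝒟 S ρ := by
  constructor
  · rintro ⟨ρ, h1, h2⟩
    exact ⟨ρ, fun σ => by ext i j; exact h1 σ i j, h2⟩
  · rintro ⟨ρ, h1, h2⟩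
    exact ⟨ρ, fun σ i j => by rw [h1]; rfl, h2⟩

theorem entryF_map (hD : GaloisRep.IsDeformationCondition 𝒪 𝒟)
    {A B : Type} [CommRing A] [IsLocalRing A] [Algebra 𝒪 A]
    [CommRing B] [IsLocalRing B] [Algebra 𝒪 B]
    (hA : GaloisRep.IsArtinianTestAlgebra 𝒪 A) (hB : GaloisRep.IsArtinianTestAlgebra 𝒪 B)
    (φ : A →ₐ[𝒪] B) (hφ : IsLocalHom (φ : A →+* B)) {x : GQ × Fin 2 × Fin 2 → A}
    (h : EntryF 𝒟 S x) : EntryF 𝒟 S (fun γ => φ (x γ)) := by
  obtain ⟨ρ, h1, h2⟩ := h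
  refine ⟨ρ.map (φ : A →+* B) hφ, fun σ i j => ?_, rep_map S hD hA hB φ hφ h2⟩
  rw [MatRep.map_hom_apply, Matrix.map_apply, h1]
  rfl

theorem entryF_of_injective (hD : GaloisRep.IsDeformationCondition 𝒪 𝒟)
    {A B : Type} [CommRing A] [IsLocalRing A] [Algebra 𝒪 A]
    [CommRing B] [IsLocalRing B] [Algebra 𝒪 B]
    (hA : GaloisRep.IsArtinianTestAlgebra 𝒪 A) (hB : GaloisRep.IsArtinianTestAlgebra 𝒪 B)
    (φ : A →ₐ[𝒪] B) (hφ : IsLocalHom (φ : A →+* B)) (hinj : Function.Injective φ)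
    {x : GQ × Fin 2 × Fin 2 → A} (h : EntryF 𝒟 S (fun γ => φ (x γ))) : EntryF 𝒟 S x := by
  obtain ⟨ρB, h1, h2⟩ := h
  obtain ⟨ρA, h3, h4⟩ := rep_of_injective S hD hA hB φ hφ hinj (entryMat x) ρB
    (fun σ => by ext i j; rw [h1]; rfl) h2
  exact (entryF_iff S x).mpr ⟨ρA, h3, h4⟩

theorem entryF_of_fibreProduct (hD : GaloisRep.IsDeformationCondition 𝒪 𝒟)
    {A B C P : Type} [CommRing A] [IsLocalRing A] [Algebra 𝒪 A]
    [CommRing B] [IsLocalRing B] [Algebra 𝒪 B] [CommRing C] [IsLocalRing C] [Algebra 𝒪 C]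
    [CommRing P] [IsLocalRing P] [Algebra 𝒪 P]
    (hA : GaloisRep.IsArtinianTestAlgebra 𝒪 A) (hB : GaloisRep.IsArtinianTestAlgebra 𝒪 B)
    (hC : GaloisRep.IsArtinianTestAlgebra 𝒪 C) (hP : GaloisRep.IsArtinianTestAlgebra 𝒪 P)
    (f : A →ₐ[𝒪] C) (g : B →ₐ[𝒪] C) (pA : P →ₐ[𝒪] A) (pB : P →ₐ[𝒪] B)
    (hpA : IsLocalHom (pA : P →+* A)) (hpB : IsLocalHom (pB : P →+* B))
    (hcomm : f.comp pA = g.comp pB)
    (hinj : Function.Injective (fun x => (pA x, pB x)))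
    (hsurj : ∀ a b, f a = g b → ∃ x, pA x = a ∧ pB x = b)
    {x : GQ × Fin 2 × Fin 2 → P}
    (hxA : EntryF 𝒟 S (fun γ => pA (x γ))) (hxB : EntryF 𝒟 S (fun γ => pB (x γ))) :
    EntryF 𝒟 S x := by
  obtain ⟨ρA, h1, h2⟩ := hxA
  obtain ⟨ρB, h3, h4⟩ := hxB
  obtain ⟨ρP, h5, h6⟩ := rep_of_fibreProduct S hD hA hB hC hP f g pA pB hpA hpB hcomm hinj hsurj
    (entryMat x) ρA ρB (fun σ => by ext i j; rw [h1]; rfl) (fun σ => by ext i j; rw [h3]; rfl)
    h2 h4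
  exact (entryF_iff S x).mpr ⟨ρP, h5, h6⟩

theorem entryF_residue {A : Type} [CommRing A] [IsLocalRing A] [Algebra 𝒪 A]
    {x : GQ × Fin 2 × Fin 2 → A} (h : EntryF 𝒟 S x) (γ : GQ × Fin 2 × Fin 2) :
    x γ - algebraMap 𝒪 A (r0 γ.1 γ.2.1 γ.2.2) ∈ maximalIdeal A := by
  obtain ⟨ρ, h1, h2⟩ := h
  obtain ⟨σ, i, j⟩ := γ
  rw [← h1]
  exact rep_residue S h2 σ i j

theorem entryF_base (hD : GaloisRep.IsDeformationCondition 𝒪 𝒟)
    {ρbar : ResidualGaloisRep (ResidueField 𝒪)}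
    (hbar : 𝒟 (GaloisRepAdic.ofResidualGaloisRep ρbar)) (hr0 : ResData ρbar r0) :
    EntryF 𝒟 S (fun γ : GQ × Fin 2 × Fin 2 => residue 𝒪 (r0 γ.1 γ.2.1 γ.2.2)) := by
  obtain ⟨ρ1, h1, h2⟩ := rep_base S hD hbar hr0
  exact ⟨ρ1, fun σ i j => by rw [h1]; rfl, h2⟩

theorem entryF_residueField_eq {x : GQ × Fin 2 × Fin 2 → ResidueField 𝒪} (h : EntryF 𝒟 S x) :
    x = fun γ : GQ × Fin 2 × Fin 2 => residue 𝒪 (r0 γ.1 γ.2.1 γ.2.2) := by
  funext γ
  have h1 := entryF_residue S h γ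
  rw [maximalIdeal_eq_bot, Ideal.mem_bot, sub_eq_zero] at h1
  exact h1

theorem entryF_tangent_finite {ρbar : ResidualGaloisRep (ResidueField 𝒪)}
    (hfin : GaloisRep.TangentFinite 𝒪 ρbar 𝒟) (hr0 : ResData ρbar r0) :
    letI := dualAlg 𝒪
    Set.Finite {x : GQ × Fin 2 × Fin 2 → DualNumber (ResidueField 𝒪) | EntryF 𝒟 S x} := by
  letI := dualAlg 𝒪
  have h := rep_tangent_finite S hfin hr0
  refine (h.image (fun ρ : MatRep (DualNumber (ResidueField 𝒪)) =>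
    fun γ : GQ × Fin 2 × Fin 2 => ρ.hom γ.1 γ.2.1 γ.2.2)).subset ?_
  rintro x ⟨ρ, h1, h2⟩
  refine ⟨ρ, h2, ?_⟩
  funext γ
  obtain ⟨σ, i, j⟩ := γ
  exact h1 σ i j

end Entry

end Fermat.Agent.S53
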