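import Fermat.Agent.S53.Frame
import Fermat.Agent.S53.TestAlg

set_option autoImplicit false

open IsLocalRing GaloisRep

namespace Fermat.Agent.S53

variable {𝒪 : Type} [CommRing 𝒪] [IsDomain 𝒪] [IsDiscreteValuationRing 𝒪]
  [IsAdicComplete (maximalIdeal 𝒪) 𝒪] [Finite (ResidueField 𝒪)]
  {𝒟 : ∀ ⦃A : Type⦄ [CommRing A] [IsLocalRing A] [Algebra 𝒪 A], GaloisRepAdic A → Prop}
  (h𝒟 : IsDeformationCondition 𝒪 𝒟) (r0 : Gal → M2 𝒪) (S : SliceSpec)

include h𝒟 in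
/-- Functoriality of the functor of normalised lifts along local algebra maps. -/
theorem FDef_map (A B : Type) [CommRing A] [IsLocalRing A] [Algebra 𝒪 A] [CommRing B]
    [IsLocalRing B] [Algebra 𝒪 B] (hA : IsArtinianTestAlgebra 𝒪 A)
    (hB : IsArtinianTestAlgebra 𝒪 B) (φ : A →ₐ[𝒪] B) (hφ : IsLocalHom (φ : A →+* B))
    (r : Idx → A) (hr : FDef 𝒟 r0 S A r) : FDef 𝒟 r0 S B (φ ∘ r) := by
  obtain ⟨ρ, hρ, hent, hlift, hnorm, hD⟩ := hr
  refine ⟨mapHom (φ : A →+* B) ρ, hρ.map _ hφ, ?_, ?_, ?_, ?_⟩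
  · intro g i j
    rw [mapHom_apply, hent]
    rfl
  · intro g i j
    have h1 := hlift g i j
    have h2 : mapHom (φ : A →+* B) ρ g i j - algebraMap 𝒪 B (r0 g i j) =
        (φ : A →+* B) (ρ g i j - algebraMap 𝒪 A (r0 g i j)) := by
      rw [mapHom_apply, map_sub]
      congr 1
      exact (φ.commutes _).symm
    rw [h2]
    have := hφ
    exact map_nonunit (φ : A →+* B) _ h1
  · intro a
    rw [mapHom_apply, hnorm a]
    exact φ.commutes _
  · exact h𝒟.of_isEquiv hB (ofMat_baseChangeAlong_isEquiv (φ : A →+* B) hφ ρ hρ)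
      (h𝒟.baseChangeAlong hA hB φ hφ hD)

end Fermat.Agent.S53
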