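import Fermat.Agent.S53.Frame
import Fermat.Agent.S53.TestAlg

set_option autoImplicit false

open IsLocalRing GaloisRep

namespace Fermat.Agent.S53

variable {𝒪 : Type} [CommRing 𝒪] [IsDomain 𝒪] [IsDiscreteValuationRing 𝒪]
  [IsAdicComplete (maximalIdeal 𝒪) 𝒪] [Finite (ResidueField 𝒪)]
  {𝒟 : ∀ ⦃A : Type⦄ [CommRing A] [IsLocalRing A] [Algebra 𝒪 A], GaloisRepAdic A → Prop}
  (h𝒟 : IsDeformationCondition 𝒪 𝒟) (r0 : Gal → M2 𝒪) (S : SliceSpec)

include h𝒟 in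
/-- REP-2: the functor of normalised lifts of type `𝒟` is compatible with jointly injective
pairs of maps of Artinian test algebras. -/
theorem FDef_prod (A₁ A₂ B : Type) [CommRing A₁] [IsLocalRing A₁] [Algebra 𝒪 A₁] [CommRing A₂]
    [IsLocalRing A₂] [Algebra 𝒪 A₂] [CommRing B] [IsLocalRing B] [Algebra 𝒪 B]
    (hA₁ : IsArtinianTestAlgebra 𝒪 A₁) (hA₂ : IsArtinianTestAlgebra 𝒪 A₂)
    (hB : IsArtinianTestAlgebra 𝒪 B) (p₁ : B →ₐ[𝒪] A₁) (p₂ : B →ₐ[𝒪] A₂)
    (hp₁ : IsLocalHom (p₁ : B →+* A₁)) (hp₂ : IsLocalHom (p₂ : B →+* A₂))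
    (hinj : Function.Injective (fun b => (p₁ b, p₂ b)))
    (r : Idx → B) (h₁ : FDef 𝒟 r0 S A₁ (p₁ ∘ r)) (h₂ : FDef 𝒟 r0 S A₂ (p₂ ∘ r)) :
    FDef 𝒟 r0 S B r := by
  obtain ⟨r₁, hr₁, he₁, hl₁, hn₁, hd₁⟩ := h₁
  obtain ⟨r₂, hr₂, he₂, hl₂, hn₂, hd₂⟩ := h₂
  -- the matrix valued function with the prescribed entries
  let m : Gal → M2 B := fun g => Matrix.of fun i j => r (g, i, j)
  have hm₁ : ∀ g i j, p₁ (m g i j) = r₁ g i j := fun g i j => (he₁ g i j).symm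
  have hm₂ : ∀ g i j, p₂ (m g i j) = r₂ g i j := fun g i j => (he₂ g i j).symm
  -- matrices over `B` are detected by their two images
  have hext : ∀ M N : M2 B, M.map (p₁ : B →+* A₁) = N.map (p₁ : B →+* A₁) →
      M.map (p₂ : B →+* A₂) = N.map (p₂ : B →+* A₂) → M = N := by
    intro M N h1 h2
    ext i j
    apply hinj
    exact Prod.ext (congrFun (congrFun h1 i) j) (congrFun (congrFun h2 i) j)
  have hmap₁ : ∀ g, (m g).map (p₁ : B →+* A₁) = r₁ g := fun g => by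
    ext i j; exact hm₁ g i j
  have hmap₂ : ∀ g, (m g).map (p₂ : B →+* A₂) = r₂ g := fun g => by
    ext i j; exact hm₂ g i j
  let rB : Gal →* M2 B :=
    { toFun := m
      map_one' := by
        apply hext
        · rw [hmap₁, map_one, Matrix.map_one _ (map_zero _) (map_one _)]
        · rw [hmap₂, map_one, Matrix.map_one _ (map_zero _) (map_one _)]
      map_mul' := fun a b => by
        apply hext
        · rw [hmap₁, map_mul, Matrix.map_mul, hmap₁, hmap₁]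
        · rw [hmap₂, map_mul, Matrix.map_mul, hmap₂, hmap₂] }
  have hrBm : ∀ g, rB g = m g := fun _ => rfl
  -- continuity: both `r₁` and `r₂` factor through a finite level
  have hrB : MatCont rB := by
    obtain ⟨n₁, hn₁'⟩ := TA.testAlg_exists_pow_eq_bot hA₁
    obtain ⟨n₂, hn₂'⟩ := TA.testAlg_exists_pow_eq_bot hA₂
    obtain ⟨L₁, hL₁, hf₁⟩ := finiteLevel_of_matCont hr₁ hn₁'
    obtain ⟨L₂, hL₂, hf₂⟩ := finiteLevel_of_matCont hr₂ hn₂'
    apply matCont_of_finiteLevel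
    refine ⟨L₁ ⊔ L₂, ?_, fun σ hσ => ?_⟩
    · haveI := hL₁
      haveI := hL₂
      exact IntermediateField.finiteDimensional_sup L₁ L₂
    · apply hext
      · rw [hrBm, hmap₁, hf₁ σ (fun x hx => hσ x ((le_sup_left : L₁ ≤ L₁ ⊔ L₂) hx)),
          Matrix.map_one _ (map_zero _) (map_one _)]
      · rw [hrBm, hmap₂, hf₂ σ (fun x hx => hσ x ((le_sup_right : L₂ ≤ L₁ ⊔ L₂) hx)),
          Matrix.map_one _ (map_zero _) (map_one _)]
  refine ⟨rB, hrB, fun g i j => rfl, ?_, ?_, ?_⟩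
  · -- lift of `r0`
    intro g i j
    rw [IsLocalRing.mem_maximalIdeal, mem_nonunits_iff]
    intro hu
    have h1 := hl₁ g i j
    rw [IsLocalRing.mem_maximalIdeal, mem_nonunits_iff] at h1
    apply h1
    have h2 : p₁ (rB g i j - algebraMap 𝒪 B (r0 g i j)) =
        r₁ g i j - algebraMap 𝒪 A₁ (r0 g i j) := by
      rw [map_sub, p₁.commutes]
      exact congrArg (· - algebraMap 𝒪 A₁ (r0 g i j)) (hm₁ g i j)
    rw [← h2]
    exact hu.map p₁
  · -- normalised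
    intro a
    apply hinj
    refine Prod.ext ?_ ?_
    · show p₁ (m (S.g a) (S.i a) (S.j a)) = p₁ (algebraMap 𝒪 B (r0 (S.g a) (S.i a) (S.j a)))
      rw [hm₁, p₁.commutes]
      exact hn₁ a
    · show p₂ (m (S.g a) (S.i a) (S.j a)) = p₂ (algebraMap 𝒪 B (r0 (S.g a) (S.i a) (S.j a)))
      rw [hm₂, p₂.commutes]
      exact hn₂ a
  · -- the deformation condition, via the fibre product `A₁ ×_k A₂`
    have hcomp : ∀ x : B, TA.toRes hA₁.isLocalHom hA₁.residue_surjective (p₁ x) =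
        TA.toRes hA₂.isLocalHom hA₂.residue_surjective (p₂ x) := fun x => by
      rw [TA.toRes_algHom_apply hB.isLocalHom hB.residue_surjective hA₁.isLocalHom
          hA₁.residue_surjective p₁ x,
        TA.toRes_algHom_apply hB.isLocalHom hB.residue_surjective hA₂.isLocalHom
          hA₂.residue_surjective p₂ x]
    let j : B →ₐ[𝒪] TA.fibProd hA₁ hA₂ := TA.fibProdLift hA₁ hA₂ p₁ p₂ hcomp
    have hjinj : Function.Injective j := fun x y hxy =>
      hinj (Prod.ext (congrArg (TA.fibProdFst hA₁ hA₂) hxy)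
        (congrArg (TA.fibProdSnd hA₁ hA₂) hxy))
    have hPart : IsArtinianTestAlgebra 𝒪 (TA.fibProd hA₁ hA₂) :=
      TA.isArtinianTestAlgebra_fibProd hA₁ hA₂
    have hjloc : IsLocalHom (j : B →+* TA.fibProd hA₁ hA₂) :=
      TA.isLocalHom_of_algHom hB.isLocalHom hB.residue_surjective hPart.isLocalHom
        hPart.residue_surjective j
    have hrP : MatCont (mapHom (j : B →+* TA.fibProd hA₁ hA₂) rB) := hrB.map _ hjloc
    have hP : 𝒟 (ofMat (mapHom (j : B →+* TA.fibProd hA₁ hA₂) rB) hrP) := by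
      apply TA.of_fibProd hA₁ hA₂ h𝒟
      · obtain ⟨e1⟩ := ofMat_baseChangeAlong_isEquiv
          (TA.fibProdFst hA₁ hA₂ : TA.fibProd hA₁ hA₂ →+* A₁)
          (TA.isLocalHom_fibProdFst hA₁ hA₂) (mapHom (j : B →+* TA.fibProd hA₁ hA₂) rB) hrP
        obtain ⟨e2⟩ := ofMat_isEquiv_of_eq
          (hrP.map (TA.fibProdFst hA₁ hA₂ : TA.fibProd hA₁ hA₂ →+* A₁)
            (TA.isLocalHom_fibProdFst hA₁ hA₂)) hr₁
          (fun g => by ext i j'; exact hm₁ g i j')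
        exact h𝒟.of_isEquiv hA₁ ⟨(e1.trans e2).symm⟩ hd₁
      · obtain ⟨e1⟩ := ofMat_baseChangeAlong_isEquiv
          (TA.fibProdSnd hA₁ hA₂ : TA.fibProd hA₁ hA₂ →+* A₂)
          (TA.isLocalHom_fibProdSnd hA₁ hA₂) (mapHom (j : B →+* TA.fibProd hA₁ hA₂) rB) hrP
        obtain ⟨e2⟩ := ofMat_isEquiv_of_eq
          (hrP.map (TA.fibProdSnd hA₁ hA₂ : TA.fibProd hA₁ hA₂ →+* A₂)
            (TA.isLocalHom_fibProdSnd hA₁ hA₂)) hr₂
          (fun g => by ext i j'; exact hm₂ g i j')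
        exact h𝒟.of_isEquiv hA₂ ⟨(e1.trans e2).symm⟩ hd₂
    obtain ⟨e3⟩ := ofMat_baseChangeAlong_isEquiv (j : B →+* TA.fibProd hA₁ hA₂) hjloc rB hrB
    have hbc : 𝒟 ((ofMat rB hrB).baseChangeAlong (j : B →+* TA.fibProd hA₁ hA₂) hjloc) :=
      h𝒟.of_isEquiv hPart ⟨e3.symm⟩ hP
    exact h𝒟.of_baseChangeAlong_injective hB hPart j hjloc hjinj hbc

end Fermat.Agent.S53
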