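import Fermat.Agent.S53.Frame
import Fermat.Agent.S53.TestAlg

set_option autoImplicit false
set_option linter.unusedSectionVars false

open IsLocalRing GaloisRep

namespace Fermat.Agent.S53

variable {𝒪 : Type} [CommRing 𝒪] [IsDomain 𝒪] [IsDiscreteValuationRing 𝒪]
  [IsAdicComplete (maximalIdeal 𝒪) 𝒪] [Finite (ResidueField 𝒪)]
  {𝒟 : ∀ ⦃A : Type⦄ [CommRing A] [IsLocalRing A] [Algebra 𝒪 A], GaloisRepAdic A → Prop}
  (h𝒟 : IsDeformationCondition 𝒪 𝒟) (r0 : Gal → M2 𝒪) (S : SliceSpec)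

variable (ρbar : ResidualGaloisRep (ResidueField 𝒪))
  (b : Module.Basis (Fin 2) (ResidueField 𝒪) ρbar.V)
  (hr0 : ∀ σ i j, residue 𝒪 (r0 σ i j) = matOfRes ρbar b σ i j)

include hr0 h𝒟 in
/-- REP-3: over the residue field, the only normalised lift of type `𝒟` is the residual
matrix representation itself. -/
theorem FDef_res (hbar : 𝒟 (GaloisRepAdic.ofResidualGaloisRep ρbar))
    (r : Idx → ResidueField 𝒪) :
    FDef 𝒟 r0 S (ResidueField 𝒪) r ↔ r = entryFam (matOfRes ρbar b) := by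
  constructor
  · rintro ⟨r', hr', hx, hlift, -, -⟩
    funext ⟨g, i, j⟩
    have h1 := hlift g i j
    rw [IsLocalRing.maximalIdeal_eq_bot, Ideal.mem_bot, sub_eq_zero,
      ResidueField.algebraMap_eq, hr0 g i j] at h1
    rw [← hx g i j, h1]
    rfl
  · rintro rfl
    refine ⟨matOfRes ρbar b, matCont_of_finiteLevel (matOfRes_finiteLevel ρbar b),
      fun g i j => rfl, ?_, ?_, ?_⟩
    · intro g i j
      rw [ResidueField.algebraMap_eq, hr0 g i j, sub_self]
      exact Ideal.zero_mem _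
    · intro a
      rw [ResidueField.algebraMap_eq, hr0]
    · exact h𝒟.of_isEquiv TA.isArtinianTestAlgebra_residueField
        (ofResidual_isEquiv_ofMat ρbar b) hbar

end Fermat.Agent.S53
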