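import Fermat.Agent.S53.Frame

set_option autoImplicit false

open IsLocalRing GaloisRep

namespace Fermat.Agent.S53

section Rep4Aux

variable {𝒪 : Type} [CommRing 𝒪] [IsLocalRing 𝒪]

/-- The structure map to the dual numbers is `inl ∘ residue`. -/
theorem rep4_algebraMap_apply (o : 𝒪) :
    letI := tanAlg 𝒪
    algebraMap 𝒪 (DualNumber (ResidueField 𝒪)) o = TrivSqZeroExt.inl (residue 𝒪 o) := rfl

/-- The structure map to the dual numbers is a local homomorphism. -/
theorem rep4_isLocalHom :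
    letI := tanAlg 𝒪
    IsLocalHom (algebraMap 𝒪 (DualNumber (ResidueField 𝒪))) := by
  letI := tanAlg 𝒪
  refine ⟨fun o ho => ?_⟩
  rw [rep4_algebraMap_apply, TrivSqZeroExt.isUnit_iff_isUnit_fst, TrivSqZeroExt.fst_inl] at ho
  exact (isUnit_map_iff (residue 𝒪) o).mp ho

/-- The residue field of the dual numbers is covered by `𝒪`. -/
theorem rep4_residue_surjective :
    letI := tanAlg 𝒪
    Function.Surjective (residue (DualNumber (ResidueField 𝒪)) ∘
      algebraMap 𝒪 (DualNumber (ResidueField 𝒪))) := by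
  letI := tanAlg 𝒪
  intro x
  obtain ⟨y, rfl⟩ := residue_surjective x
  obtain ⟨o, ho⟩ := residue_surjective (TrivSqZeroExt.fst y)
  refine ⟨o, ?_⟩
  show residue _ (algebraMap 𝒪 _ o) = residue _ y
  rw [← sub_eq_zero, ← map_sub, residue_eq_zero_iff, mem_maximalIdeal, mem_nonunits_iff,
    TrivSqZeroExt.isUnit_iff_isUnit_fst, rep4_algebraMap_apply]
  simp [ho]

/-- The two ring homomorphisms from the residue field of `𝒪` to the residue field of the dual
numbers agree. -/
theorem rep4_residueMap_eq :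
    letI := tanAlg 𝒪
    haveI : IsLocalHom (algebraMap 𝒪 (DualNumber (ResidueField 𝒪))) := rep4_isLocalHom
    ResidueField.map (algebraMap 𝒪 (DualNumber (ResidueField 𝒪))) =
      (residue (DualNumber (ResidueField 𝒪))).comp
        (algebraMap (ResidueField 𝒪) (DualNumber (ResidueField 𝒪))) := by
  letI := tanAlg 𝒪
  haveI : IsLocalHom (algebraMap 𝒪 (DualNumber (ResidueField 𝒪))) := rep4_isLocalHom
  refine RingHom.ext fun x => ?_
  obtain ⟨o, rfl⟩ := residue_surjective x
  rw [ResidueField.map_residue]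
  rfl

end Rep4Aux

variable {𝒪 : Type} [CommRing 𝒪] [IsDomain 𝒪] [IsDiscreteValuationRing 𝒪]
  [IsAdicComplete (maximalIdeal 𝒪) 𝒪] [Finite (ResidueField 𝒪)]
  {𝒟 : ∀ ⦃A : Type⦄ [CommRing A] [IsLocalRing A] [Algebra 𝒪 A], GaloisRepAdic A → Prop}
  (h𝒟 : IsDeformationCondition 𝒪 𝒟) (r0 : Gal → M2 𝒪) (S : SliceSpec)
variable (ρbar : ResidualGaloisRep (ResidueField 𝒪))
  (b : Module.Basis (Fin 2) (ResidueField 𝒪) ρbar.V)
  (hr0 : ∀ σ i j, residue 𝒪 (r0 σ i j) = matOfRes ρbar b σ i j)

include hr0 in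
theorem FDef_fin (hrig : SliceRigid r0 S) (hfin : TangentFinite 𝒪 ρbar 𝒟) :
    letI := tanAlg 𝒪
    Set.Finite {r : Idx → DualNumber (ResidueField 𝒪) |
      FDef 𝒟 r0 S (DualNumber (ResidueField 𝒪)) r} := by
  letI := tanAlg 𝒪
  haveI hloc : IsLocalHom (algebraMap 𝒪 (DualNumber (ResidueField 𝒪))) := rep4_isLocalHom
  have hsurj : Function.Surjective (residue (DualNumber (ResidueField 𝒪)) ∘
      algebraMap 𝒪 (DualNumber (ResidueField 𝒪))) := rep4_residue_surjective
  have hmap : ResidueField.map (algebraMap 𝒪 (DualNumber (ResidueField 𝒪))) =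
      (residue (DualNumber (ResidueField 𝒪))).comp
        (algebraMap (ResidueField 𝒪) (DualNumber (ResidueField 𝒪))) := rep4_residueMap_eq
  unfold TangentFinite at hfin
  rw [← Set.finite_coe_iff]
  have key : ∀ r : {r : Idx → DualNumber (ResidueField 𝒪) |
      FDef 𝒟 r0 S (DualNumber (ResidueField 𝒪)) r},
      ∃ (rr : Gal →* M2 (DualNumber (ResidueField 𝒪))) (hrr : MatCont rr),
        (∀ g i j, rr g i j = r.1 (g, i, j)) ∧ IsLiftOf r0 rr ∧ IsNormalized r0 S rr ∧
          𝒟 (ofMat rr hrr) := fun r => r.2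
  choose rr hrr hent hlift hnorm hD using key
  have hres : ∀ r, (ofMat (rr r) (hrr r)).residual.IsEquiv
      (ρbar.baseChangeAlong ((residue (DualNumber (ResidueField 𝒪))).comp
        (algebraMap (ResidueField 𝒪) (DualNumber (ResidueField 𝒪))))) := by
    intro r
    have h1 := residual_isEquiv_of_lift ρbar b (rr r) (hrr r) (fun g i j => by
      rw [← hr0, ResidueField.map_residue, ← sub_eq_zero, ← map_sub, residue_eq_zero_iff]
      exact hlift r g i j)
    rw [hmap] at h1
    exact h1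
  refine @Finite.of_injective _ _ hfin
    (fun r => Quotient.mk _ ⟨ofMat (rr r) (hrr r), hD r, hres r⟩) ?_
  intro r r' h
  have h' := Quotient.exact h
  obtain ⟨Q, hQ⟩ := exists_conj_of_isEquiv (hrr r) (hrr r') h'
  have heq : rr r = rr r' :=
    hrig (DualNumber (ResidueField 𝒪)) hsurj (rr r) (rr r') (hlift r) (hlift r')
      (hnorm r) (hnorm r') Q hQ
  refine Subtype.ext (funext fun x => ?_)
  obtain ⟨g, i, j⟩ := x
  rw [← hent r g i j, ← hent r' g i j, heq]

end Fermat.Agent.S53
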