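import Mathlib
import Fermat.Agent.S53.RigidDefs
import Fermat.Agent.S53.AdicLimit
import Fermat.Agent.S53.TestAlg
import Fermat.Agent.S53.FibProd
import Fermat.Agent.S53.RigidSep
import Fermat.Agent.S53.RigidCNL
import Fermat.Agent.S53.RigidLevels

set_option autoImplicit false
set_option linter.unusedSectionVars false
set_option linter.style.haveILetI false

namespace Fermat.Agent.S53

open IsLocalRing GaloisRep

noncomputable section

section RigEval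

variable {𝒪 : Type} [CommRing 𝒪] [IsLocalRing 𝒪]
variable {σ : Type} [Finite σ]
variable {A : Type} [CommRing A] [IsLocalRing A] [Algebra 𝒪 A]

theorem rig_exists_pow (hA : IsArtinianTestAlgebra 𝒪 A) (a : σ → A)
    (ha : ∀ i, a i ∈ maximalIdeal A) : ∃ n : ℕ, Ideal.span (Set.range a) ^ n = ⊥ := by
  obtain ⟨n, hn⟩ := TA.testAlg_exists_pow_eq_bot hA
  refine ⟨n, ?_⟩
  have hle : Ideal.span (Set.range a) ≤ maximalIdeal A := by
    rw [Ideal.span_le]; rintro _ ⟨i, rfl⟩; exact ha i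
  exact le_bot_iff.mp (hn ▸ Ideal.pow_right_mono hle n)

/-- Evaluation of power series at a family of elements of the maximal ideal of an Artinian
test algebra. -/
def rigEval (hA : IsArtinianTestAlgebra 𝒪 A) (a : σ → A) (ha : ∀ i, a i ∈ maximalIdeal A) :
    MvPowerSeries σ 𝒪 →ₐ[𝒪] A :=
  evalNilp a (Classical.choose (rig_exists_pow hA a ha))
    (Classical.choose_spec (rig_exists_pow hA a ha))

theorem rigEval_X (hA : IsArtinianTestAlgebra 𝒪 A) (a : σ → A)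
    (ha : ∀ i, a i ∈ maximalIdeal A) (i : σ) :
    rigEval hA a ha (MvPowerSeries.X i) = a i :=
  evalNilp_X _ _ _ i

theorem rig_iInf_pow_eq_bot (hA : IsArtinianTestAlgebra 𝒪 A) :
    ⨅ n, maximalIdeal A ^ n = ⊥ := by
  obtain ⟨n, hn⟩ := TA.testAlg_exists_pow_eq_bot hA
  exact le_bot_iff.mp (hn ▸ iInf_le _ n)

theorem rigEval_unique (hA : IsArtinianTestAlgebra 𝒪 A) (a : σ → A)
    (ha : ∀ i, a i ∈ maximalIdeal A) (ψ : MvPowerSeries σ 𝒪 →ₐ[𝒪] A)
    (h : ∀ i, ψ (MvPowerSeries.X i) = a i) : ψ = rigEval hA a ha :=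
  mvPowerSeries_algHom_ext (maximalIdeal A) (rig_iInf_pow_eq_bot hA) ψ (rigEval hA a ha)
    (fun i => by rw [h]; exact ha i) (fun i => by rw [h, rigEval_X])

theorem rigEval_range (hA : IsArtinianTestAlgebra 𝒪 A) (a : σ → A)
    (ha : ∀ i, a i ∈ maximalIdeal A) :
    (rigEval hA a ha).range = Algebra.adjoin 𝒪 (Set.range a) := by
  apply le_antisymm
  · rintro _ ⟨p, rfl⟩
    show rigEval hA a ha p ∈ _
    unfold rigEval
    rw [evalNilp_apply, Algebra.adjoin_range_eq_range_aeval]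
    exact ⟨_, rfl⟩
  · rw [Algebra.adjoin_le_iff]
    rintro _ ⟨i, rfl⟩
    exact ⟨MvPowerSeries.X i, rigEval_X hA a ha i⟩

theorem rigEval_pow_le_ker (hA : IsArtinianTestAlgebra 𝒪 A) (a : σ → A)
    (ha : ∀ i, a i ∈ maximalIdeal A) :
    ∃ n : ℕ, (Ideal.span (Set.range (MvPowerSeries.X : σ → MvPowerSeries σ 𝒪))) ^ n ≤
      RingHom.ker (rigEval hA a ha : MvPowerSeries σ 𝒪 →+* A) := by
  refine ⟨Classical.choose (rig_exists_pow hA a ha), fun p hp => ?_⟩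
  rw [RingHom.mem_ker]
  exact evalNilp_eq_zero_of_mem_pow a _ (Classical.choose_spec (rig_exists_pow hA a ha)) p hp

theorem rigEval_mem_maximalIdeal (hA : IsArtinianTestAlgebra 𝒪 A) (a : σ → A)
    (ha : ∀ i, a i ∈ maximalIdeal A) (p : MvPowerSeries σ 𝒪)
    (hp : p ∈ Ideal.span (Set.range (MvPowerSeries.X : σ → MvPowerSeries σ 𝒪))) :
    rigEval hA a ha p ∈ maximalIdeal A := by
  have h1 := evalNilp_mem_pow (O := 𝒪) a _ (Classical.choose_spec (rig_exists_pow hA a ha)) 1 p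
    (by rwa [pow_one])
  rw [pow_one] at h1
  have hle : Ideal.span (Set.range a) ≤ maximalIdeal A := by
    rw [Ideal.span_le]; rintro _ ⟨i, rfl⟩; exact ha i
  exact hle h1

end RigEval

section Pairs

variable {𝒪 : Type} [CommRing 𝒪] [IsDomain 𝒪] [IsDiscreteValuationRing 𝒪]
  [IsAdicComplete (maximalIdeal 𝒪) 𝒪] [Finite (ResidueField 𝒪)]
variable {Γ : Type} {r0 : Γ → 𝒪}
  {F : ∀ ⦃A : Type⦄ [CommRing A] [IsLocalRing A] [Algebra 𝒪 A], (Γ → A) → Prop}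

/-- A point of the functor over an Artinian test algebra. -/
structure RigPt (𝒪 : Type) [CommRing 𝒪] [IsLocalRing 𝒪] (Γ : Type)
    (F : ∀ ⦃A : Type⦄ [CommRing A] [IsLocalRing A] [Algebra 𝒪 A], (Γ → A) → Prop) :
    Type 1 where
  A : Type
  [cr : CommRing A]
  [lr : IsLocalRing A]
  [alg : Algebra 𝒪 A]
  test : IsArtinianTestAlgebra 𝒪 A
  x : Γ → A
  hx : F x

attribute [instance] RigPt.cr RigPt.lr RigPt.alg

/-- Coordinates of a family with respect to a finite family of indices. -/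
def rigCoord (ϖ : 𝒪) {d : ℕ} (t : Fin d → Γ) (r0 : Γ → 𝒪) {A : Type} [CommRing A]
    [Algebra 𝒪 A] (x : Γ → A) : Option (Fin d) → A
  | none => algebraMap 𝒪 A ϖ
  | some i => x (t i) - algebraMap 𝒪 A (r0 (t i))

variable (hF : IsRigidFunctor 𝒪 Γ r0 F) {ϖ : 𝒪} (hϖ : maximalIdeal 𝒪 = Ideal.span {ϖ})
  {d : ℕ} (t : Fin d → Γ)

include hF hϖ in
theorem RigPt.coord_mem (s : RigPt 𝒪 Γ F) (i : Option (Fin d)) :
    rigCoord ϖ t r0 s.x i ∈ maximalIdeal s.A := by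
  cases i with
  | none =>
    have hϖm : ϖ ∈ maximalIdeal 𝒪 := by rw [hϖ]; exact Ideal.subset_span rfl
    haveI := s.test.isLocalHom
    exact (IsLocalRing.mem_maximalIdeal _).mpr fun hu =>
      (IsLocalRing.mem_maximalIdeal _).mp hϖm (isUnit_of_map_unit (algebraMap 𝒪 s.A) ϖ hu)
  | some i => exact hF.residue s.test s.hx (t i)

/-- The classifying map of a point. -/
def RigPt.psi (s : RigPt 𝒪 Γ F) : rigP 𝒪 d →ₐ[𝒪] s.A :=
  rigEval s.test (rigCoord ϖ t r0 s.x) (s.coord_mem hF hϖ t)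

theorem RigPt.psi_X_none (s : RigPt 𝒪 Γ F) :
    s.psi hF hϖ t (MvPowerSeries.X none) = algebraMap 𝒪 s.A ϖ :=
  rigEval_X _ _ _ none

theorem RigPt.psi_X_some (s : RigPt 𝒪 Γ F) (i : Fin d) :
    s.psi hF hϖ t (MvPowerSeries.X (some i)) = s.x (t i) - algebraMap 𝒪 s.A (r0 (t i)) :=
  rigEval_X _ _ _ (some i)

theorem RigPt.psi_unique (s : RigPt 𝒪 Γ F) (ψ : rigP 𝒪 d →ₐ[𝒪] s.A)
    (h0 : ψ (MvPowerSeries.X none) = algebraMap 𝒪 s.A ϖ)
    (h1 : ∀ i, ψ (MvPowerSeries.X (some i)) = s.x (t i) - algebraMap 𝒪 s.A (r0 (t i))) :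
    ψ = s.psi hF hϖ t :=
  rigEval_unique _ _ _ ψ fun i => by
    cases i with
    | none => exact h0
    | some i => exact h1 i

/-- The kernel of the classifying map. -/
def RigPt.ker (s : RigPt 𝒪 Γ F) : Ideal (rigP 𝒪 d) :=
  RingHom.ker (s.psi hF hϖ t : rigP 𝒪 d →+* s.A)

theorem RigPt.mem_ker (s : RigPt 𝒪 Γ F) (p : rigP 𝒪 d) :
    p ∈ s.ker hF hϖ t ↔ s.psi hF hϖ t p = 0 := Iff.rfl

theorem RigPt.J0_le_ker (s : RigPt 𝒪 Γ F) : rigJ0 𝒪 d ϖ ≤ s.ker hF hϖ t := by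
  unfold rigJ0
  rw [Ideal.span_le, Set.singleton_subset_iff]
  show _ ∈ s.ker hF hϖ t
  rw [RigPt.mem_ker, map_sub, RigPt.psi_X_none, MvPowerSeries.c_eq_algebraMap, AlgHom.commutes,
    sub_self]

theorem RigPt.exists_pow_le_ker (s : RigPt 𝒪 Γ F) : ∃ n, rigI 𝒪 d ^ n ≤ s.ker hF hϖ t :=
  rigEval_pow_le_ker _ _ _

theorem RigPt.ker_ne_top (s : RigPt 𝒪 Γ F) : s.ker hF hϖ t ≠ ⊤ := by
  intro h
  have h1 : (1 : rigP 𝒪 d) ∈ s.ker hF hϖ t := h ▸ Submodule.mem_top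
  rw [RigPt.mem_ker, map_one] at h1
  exact one_ne_zero h1

/-- The family of kernels of classifying maps. -/
def rigS : Set (Ideal (rigP 𝒪 d)) := {K | ∃ s : RigPt 𝒪 Γ F, K = s.ker hF hϖ t}

end Pairs

section QuotMax

variable {𝒪 : Type} [CommRing 𝒪] [IsDomain 𝒪] [IsDiscreteValuationRing 𝒪]
  [IsAdicComplete (maximalIdeal 𝒪) 𝒪] [Finite (ResidueField 𝒪)] {d : ℕ} {ϖ : 𝒪}

theorem rig_quot_maximalIdeal_eq (hϖ : maximalIdeal 𝒪 = Ideal.span {ϖ}) (K : Ideal (rigP 𝒪 d))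
    (hK : K ≠ ⊤) (h0 : rigJ0 𝒪 d ϖ ≤ K) :
    letI := FP.isLocalRing_quotient hK
    maximalIdeal (rigP 𝒪 d ⧸ K) = (rigI 𝒪 d).map (Ideal.Quotient.mk K) := by
  letI := FP.isLocalRing_quotient hK
  have hlh : IsLocalHom (Ideal.Quotient.mk K) := FP.isLocalHom_quotient_mk hK
  apply le_antisymm
  · intro x hx
    obtain ⟨p, rfl⟩ := Ideal.Quotient.mk_surjective x
    have hp : p ∈ maximalIdeal (rigP 𝒪 d) := by
      rw [IsLocalRing.mem_maximalIdeal]
      intro hu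
      exact (IsLocalRing.mem_maximalIdeal _).mp hx (hu.map _)
    rw [Ideal.mem_quotient_iff_mem_sup]
    have h1 := rig_maximalIdeal_le 𝒪 d ϖ hϖ hp
    exact (sup_le (h0.trans le_sup_right) le_sup_left) h1
  · rw [Ideal.map_le_iff_le_comap]
    intro p hp
    rw [Ideal.mem_comap, IsLocalRing.mem_maximalIdeal]
    intro hu
    have hp' : p ∈ maximalIdeal (rigP 𝒪 d) := rigI_le_maximalIdeal 𝒪 d hp
    exact (IsLocalRing.mem_maximalIdeal _).mp hp' (isUnit_of_map_unit (Ideal.Quotient.mk K) p hu)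

end QuotMax

section Core

variable {𝒪 : Type} [CommRing 𝒪] [IsDomain 𝒪] [IsDiscreteValuationRing 𝒪]
  [IsAdicComplete (maximalIdeal 𝒪) 𝒪] [Finite (ResidueField 𝒪)]
variable {Γ : Type} {r0 : Γ → 𝒪}
  {F : ∀ ⦃A : Type⦄ [CommRing A] [IsLocalRing A] [Algebra 𝒪 A], (Γ → A) → Prop}
variable (hF : IsRigidFunctor 𝒪 Γ r0 F) {ϖ : 𝒪} (hϖ : maximalIdeal 𝒪 = Ideal.span {ϖ})
  {d : ℕ} (t : Fin d → Γ)
variable (hgen : ∀ ⦃A : Type⦄ [CommRing A] [IsLocalRing A] [Algebra 𝒪 A],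
    IsArtinianTestAlgebra 𝒪 A → ∀ ⦃x : Γ → A⦄, F x →
      Algebra.adjoin 𝒪 (Set.range x) ≤ Algebra.adjoin 𝒪 (Set.range fun i => x (t i)))
variable (hdet : ∀ ⦃A : Type⦄ [CommRing A] [IsLocalRing A] [Algebra 𝒪 A],
    IsArtinianTestAlgebra 𝒪 A → ∀ ⦃x y : Γ → A⦄, F x → F y → (∀ i, x (t i) = y (t i)) → x = y)

theorem RigPt.psi_algebraMap (s : RigPt 𝒪 Γ F) (c : 𝒪) :
    s.psi hF hϖ t (algebraMap 𝒪 (rigP 𝒪 d) c) = algebraMap 𝒪 s.A c :=
  AlgHom.commutes _ c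

/-- The power series whose image is the `i`-th distinguished coordinate. -/
def rigGen (r0 : Γ → 𝒪) {d : ℕ} (t : Fin d → Γ) (i : Fin d) : rigP 𝒪 d :=
  MvPowerSeries.X (some i) + algebraMap 𝒪 (rigP 𝒪 d) (r0 (t i))

theorem RigPt.psi_rigGen (s : RigPt 𝒪 Γ F) (i : Fin d) :
    s.psi hF hϖ t (rigGen r0 t i) = s.x (t i) := by
  unfold rigGen
  rw [map_add, RigPt.psi_X_some, RigPt.psi_algebraMap, sub_add_cancel]

include hgen in
theorem RigPt.x_mem_range (s : RigPt 𝒪 Γ F) (γ : Γ) :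
    ∃ p : rigP 𝒪 d, s.psi hF hϖ t p = s.x γ := by
  have h1 : s.x γ ∈ Algebra.adjoin 𝒪 (Set.range fun i => s.x (t i)) :=
    hgen s.test s.hx (Algebra.subset_adjoin ⟨γ, rfl⟩)
  have h2 : Algebra.adjoin 𝒪 (Set.range fun i => s.x (t i)) ≤ (s.psi hF hϖ t).range := by
    rw [Algebra.adjoin_le_iff]
    rintro _ ⟨i, rfl⟩
    exact ⟨rigGen r0 t i, s.psi_rigGen hF hϖ t i⟩
  exact h2 h1

/-- The injection of the ring of definition of a point into its test algebra. -/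
def RigPt.iota (s : RigPt 𝒪 Γ F) : (rigP 𝒪 d ⧸ s.ker hF hϖ t) →ₐ[𝒪] s.A :=
  Ideal.Quotient.liftₐ (s.ker hF hϖ t) (s.psi hF hϖ t) fun _ ha => ha

theorem RigPt.iota_mk (s : RigPt 𝒪 Γ F) (p : rigP 𝒪 d) :
    s.iota hF hϖ t (Ideal.Quotient.mk _ p) = s.psi hF hϖ t p := rfl

theorem RigPt.iota_injective (s : RigPt 𝒪 Γ F) : Function.Injective (s.iota hF hϖ t) := by
  rw [injective_iff_map_eq_zero]
  intro a ha
  obtain ⟨p, rfl⟩ := Ideal.Quotient.mk_surjective a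
  rw [RigPt.iota_mk] at ha
  exact Ideal.Quotient.eq_zero_iff_mem.mpr ha

theorem RigPt.core_isLocalRing (s : RigPt 𝒪 Γ F) : IsLocalRing (rigP 𝒪 d ⧸ s.ker hF hϖ t) :=
  FP.isLocalRing_quotient (s.ker_ne_top hF hϖ t)

theorem RigPt.core_test (s : RigPt 𝒪 Γ F) :
    letI := s.core_isLocalRing hF hϖ t
    IsArtinianTestAlgebra 𝒪 (rigP 𝒪 d ⧸ s.ker hF hϖ t) := by
  obtain ⟨n, hn⟩ := s.exists_pow_le_ker hF hϖ t
  exact rig_quot_testAlg 𝒪 d ϖ hϖ (s.J0_le_ker hF hϖ t) (s.ker_ne_top hF hϖ t) hn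

/-- The induced point of the ring of definition. -/
def RigPt.coreX (s : RigPt 𝒪 Γ F) (γ : Γ) : rigP 𝒪 d ⧸ s.ker hF hϖ t :=
  Ideal.Quotient.mk _ (Classical.choose (s.x_mem_range hF hϖ t hgen γ))

theorem RigPt.iota_coreX (s : RigPt 𝒪 Γ F) (γ : Γ) :
    s.iota hF hϖ t (s.coreX hF hϖ t hgen γ) = s.x γ :=
  Classical.choose_spec (s.x_mem_range hF hϖ t hgen γ)

theorem RigPt.core_hx (s : RigPt 𝒪 Γ F) :
    letI := s.core_isLocalRing hF hϖ t
    F (s.coreX hF hϖ t hgen) := by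
  letI := s.core_isLocalRing hF hϖ t
  have htest := s.core_test hF hϖ t
  have hloc : IsLocalHom (s.iota hF hϖ t : (rigP 𝒪 d ⧸ s.ker hF hϖ t) →+* s.A) :=
    TA.isLocalHom_of_algHom htest.isLocalHom htest.residue_surjective s.test.isLocalHom
      s.test.residue_surjective _
  refine hF.of_injective htest s.test (s.iota hF hϖ t) hloc (s.iota_injective hF hϖ t) ?_
  have : (fun γ => s.iota hF hϖ t (s.coreX hF hϖ t hgen γ)) = s.x :=
    funext fun γ => s.iota_coreX hF hϖ t hgen γ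
  rw [this]
  exact s.hx

/-- The ring of definition of a point, with the induced point. -/
def RigPt.core (s : RigPt 𝒪 Γ F) : RigPt 𝒪 Γ F :=
  letI := s.core_isLocalRing hF hϖ t
  { A := rigP 𝒪 d ⧸ s.ker hF hϖ t
    test := s.core_test hF hϖ t
    x := s.coreX hF hϖ t hgen
    hx := s.core_hx hF hϖ t hgen }

theorem RigPt.core_x (s : RigPt 𝒪 Γ F) (γ : Γ) :
    (s.core hF hϖ t hgen).x γ = s.coreX hF hϖ t hgen γ := rfl

theorem RigPt.coreX_eq_mk (s : RigPt 𝒪 Γ F) (γ : Γ) (p : rigP 𝒪 d)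
    (hp : s.psi hF hϖ t p = s.x γ) :
    s.coreX hF hϖ t hgen γ = Ideal.Quotient.mk (s.ker hF hϖ t) p := by
  apply s.iota_injective hF hϖ t
  rw [RigPt.iota_coreX, RigPt.iota_mk, hp]

theorem RigPt.core_psi (s : RigPt 𝒪 Γ F) :
    (s.core hF hϖ t hgen).psi hF hϖ t = Ideal.Quotient.mkₐ 𝒪 (s.ker hF hϖ t) := by
  symm
  apply RigPt.psi_unique hF hϖ t (s.core hF hϖ t hgen) (Ideal.Quotient.mkₐ 𝒪 (s.ker hF hϖ t))
  · show Ideal.Quotient.mk (s.ker hF hϖ t) (MvPowerSeries.X none) =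
      algebraMap 𝒪 (rigP 𝒪 d ⧸ s.ker hF hϖ t) ϖ
    apply s.iota_injective hF hϖ t
    rw [RigPt.iota_mk, RigPt.psi_X_none, AlgHom.commutes]
  · intro i
    show Ideal.Quotient.mk (s.ker hF hϖ t) (MvPowerSeries.X (some i)) =
      s.coreX hF hϖ t hgen (t i) - algebraMap 𝒪 (rigP 𝒪 d ⧸ s.ker hF hϖ t) (r0 (t i))
    apply s.iota_injective hF hϖ t
    rw [RigPt.iota_mk, map_sub, RigPt.iota_coreX, AlgHom.commutes, RigPt.psi_X_some]

theorem RigPt.core_psi_apply (s : RigPt 𝒪 Γ F) (p : rigP 𝒪 d) :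
    (s.core hF hϖ t hgen).psi hF hϖ t p = Ideal.Quotient.mk (s.ker hF hϖ t) p := by
  rw [RigPt.core_psi]; rfl

theorem RigPt.core_ker (s : RigPt 𝒪 Γ F) :
    (s.core hF hϖ t hgen).ker hF hϖ t = s.ker hF hϖ t := by
  ext p
  rw [RigPt.mem_ker, RigPt.core_psi_apply]
  exact Ideal.Quotient.eq_zero_iff_mem

include hgen hdet in
/-- Compatibility of points along inclusions of kernels. -/
theorem RigPt.psi_eq_of_ker_le (s s' : RigPt 𝒪 Γ F) (h : s.ker hF hϖ t ≤ s'.ker hF hϖ t)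
    (p : rigP 𝒪 d) (γ : Γ) (hp : s.psi hF hϖ t p = s.x γ) :
    s'.psi hF hϖ t p = s'.x γ := by
  let θ : (s.core hF hϖ t hgen).A →ₐ[𝒪] s'.A :=
    Ideal.Quotient.liftₐ (s.ker hF hϖ t) (s'.psi hF hϖ t) fun _ ha => h ha
  have hθ : ∀ q : rigP 𝒪 d, θ (Ideal.Quotient.mk (s.ker hF hϖ t) q) = s'.psi hF hϖ t q :=
    fun _ => rfl
  have hloc : IsLocalHom (θ : (s.core hF hϖ t hgen).A →+* s'.A) :=
    TA.isLocalHom_of_algHom (s.core hF hϖ t hgen).test.isLocalHom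
      (s.core hF hϖ t hgen).test.residue_surjective s'.test.isLocalHom
      s'.test.residue_surjective _
  have hFy : F (fun γ => θ ((s.core hF hϖ t hgen).x γ)) :=
    hF.map (s.core hF hϖ t hgen).test s'.test θ hloc (s.core hF hϖ t hgen).hx
  have heq : (fun γ => θ ((s.core hF hϖ t hgen).x γ)) = s'.x := by
    refine hdet s'.test hFy s'.hx fun i => ?_
    show θ (s.coreX hF hϖ t hgen (t i)) = s'.x (t i)
    rw [s.coreX_eq_mk hF hϖ t hgen (t i) (rigGen r0 t i) (s.psi_rigGen hF hϖ t i), hθ,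
      RigPt.psi_rigGen]
  have h3 : θ (s.coreX hF hϖ t hgen γ) = s'.x γ := congrFun heq γ
  rw [s.coreX_eq_mk hF hϖ t hgen γ p hp, hθ] at h3
  exact h3

include hF in
theorem RigPt.toRes_x (s : RigPt 𝒪 Γ F) (γ : Γ) :
    TA.toRes s.test.isLocalHom s.test.residue_surjective (s.x γ) = residue 𝒪 (r0 γ) := by
  rw [← TA.toRes_algebraMap s.test.isLocalHom s.test.residue_surjective, TA.toRes_eq_iff]
  exact hF.residue s.test s.hx γ

include hF in
theorem RigPt.prod_mem (s s' : RigPt 𝒪 Γ F) (γ : Γ) :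
    (s.x γ, s'.x γ) ∈ TA.fibProd s.test s'.test := by
  rw [TA.mem_fibProd_iff]
  show TA.toRes _ _ (s.x γ) = TA.toRes _ _ (s'.x γ)
  rw [s.toRes_x hF γ, s'.toRes_x hF γ]

/-- The point of the fibre product given by two points. -/
def RigPt.prodX (s s' : RigPt 𝒪 Γ F) (γ : Γ) : TA.fibProd s.test s'.test :=
  ⟨(s.x γ, s'.x γ), RigPt.prod_mem hF s s' γ⟩

theorem RigPt.prod_hx (s s' : RigPt 𝒪 Γ F) : F (RigPt.prodX hF s s') := by
  refine hF.of_fibreProduct s.test s'.test TA.isArtinianTestAlgebra_residueField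
    (TA.isArtinianTestAlgebra_fibProd s.test s'.test)
    (TA.toRes s.test.isLocalHom s.test.residue_surjective)
    (TA.toRes s'.test.isLocalHom s'.test.residue_surjective)
    (TA.fibProdFst s.test s'.test) (TA.fibProdSnd s.test s'.test)
    (TA.isLocalHom_fibProdFst s.test s'.test) (TA.isLocalHom_fibProdSnd s.test s'.test)
    ?_ ?_ ?_ ?_ ?_
  · exact AlgHom.ext fun z => TA.fibProd_toRes_eq s.test s'.test z
  · intro z z' h
    simp only [Prod.mk.injEq] at h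
    exact TA.fibProd_ext s.test s'.test h.1 h.2
  · intro a b h
    exact ⟨⟨(a, b), (TA.mem_fibProd_iff s.test s'.test (a, b)).mpr h⟩, rfl, rfl⟩
  · exact s.hx
  · exact s'.hx

/-- The product of two points, over the fibre product of their test algebras. -/
def RigPt.prod (s s' : RigPt 𝒪 Γ F) : RigPt 𝒪 Γ F where
  A := TA.fibProd s.test s'.test
  test := TA.isArtinianTestAlgebra_fibProd s.test s'.test
  x := RigPt.prodX hF s s'
  hx := RigPt.prod_hx hF s s'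

/-- First projection of the product point. -/
def RigPt.prodFst (s s' : RigPt 𝒪 Γ F) : (RigPt.prod hF s s').A →ₐ[𝒪] s.A :=
  TA.fibProdFst s.test s'.test

/-- Second projection of the product point. -/
def RigPt.prodSnd (s s' : RigPt 𝒪 Γ F) : (RigPt.prod hF s s').A →ₐ[𝒪] s'.A :=
  TA.fibProdSnd s.test s'.test

theorem RigPt.prodFst_x (s s' : RigPt 𝒪 Γ F) (γ : Γ) :
    RigPt.prodFst hF s s' ((RigPt.prod hF s s').x γ) = s.x γ := rfl

theorem RigPt.prodSnd_x (s s' : RigPt 𝒪 Γ F) (γ : Γ) :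
    RigPt.prodSnd hF s s' ((RigPt.prod hF s s').x γ) = s'.x γ := rfl

theorem RigPt.prod_ext (s s' : RigPt 𝒪 Γ F) (z z' : (RigPt.prod hF s s').A)
    (h1 : RigPt.prodFst hF s s' z = RigPt.prodFst hF s s' z')
    (h2 : RigPt.prodSnd hF s s' z = RigPt.prodSnd hF s s' z') : z = z' :=
  TA.fibProd_ext s.test s'.test h1 h2

theorem RigPt.prod_ker (s s' : RigPt 𝒪 Γ F) :
    (RigPt.prod hF s s').ker hF hϖ t = s.ker hF hϖ t ⊓ s'.ker hF hϖ t := by
  have h1 : (RigPt.prodFst hF s s').comp ((RigPt.prod hF s s').psi hF hϖ t) =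
      s.psi hF hϖ t := by
    apply RigPt.psi_unique hF hϖ t s
    · rw [AlgHom.comp_apply, RigPt.psi_X_none, AlgHom.commutes]
    · intro i
      rw [AlgHom.comp_apply, RigPt.psi_X_some, map_sub, AlgHom.commutes, RigPt.prodFst_x]
  have h2 : (RigPt.prodSnd hF s s').comp ((RigPt.prod hF s s').psi hF hϖ t) =
      s'.psi hF hϖ t := by
    apply RigPt.psi_unique hF hϖ t s'
    · rw [AlgHom.comp_apply, RigPt.psi_X_none, AlgHom.commutes]
    · intro i
      rw [AlgHom.comp_apply, RigPt.psi_X_some, map_sub, AlgHom.commutes, RigPt.prodSnd_x]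
  ext p
  rw [Ideal.mem_inf, RigPt.mem_ker, RigPt.mem_ker, RigPt.mem_ker, ← h1, ← h2,
    AlgHom.comp_apply, AlgHom.comp_apply]
  constructor
  · intro h
    rw [h, map_zero, map_zero]
    exact ⟨rfl, rfl⟩
  · rintro ⟨ha, hb⟩
    apply RigPt.prod_ext hF s s'
    · rw [ha, map_zero]
    · rw [hb, map_zero]

theorem RigPt.core_isNoetherian (s : RigPt 𝒪 Γ F) :
    IsNoetherianRing (s.core hF hϖ t hgen).A :=
  (inferInstance : IsNoetherianRing (rigP 𝒪 d ⧸ s.ker hF hϖ t))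

theorem RigPt.core_psi_mem_pow (s : RigPt 𝒪 Γ F) (n : ℕ) (p : rigP 𝒪 d) :
    (s.core hF hϖ t hgen).psi hF hϖ t p ∈ maximalIdeal (s.core hF hϖ t hgen).A ^ n ↔
      p ∈ rigI 𝒪 d ^ n ⊔ s.ker hF hϖ t := by
  rw [RigPt.core_psi_apply]
  have hm := rig_quot_maximalIdeal_eq hϖ (s.ker hF hϖ t) (s.ker_ne_top hF hϖ t)
    (s.J0_le_ker hF hϖ t)
  show Ideal.Quotient.mk (s.ker hF hϖ t) p ∈
    (@maximalIdeal (rigP 𝒪 d ⧸ s.ker hF hϖ t) _
      (FP.isLocalRing_quotient (s.ker_ne_top hF hϖ t))) ^ n ↔ _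
  rw [hm, ← Ideal.map_pow, Ideal.mem_quotient_iff_mem_sup]

/-- The truncation of the ring of definition of a point modulo a power of the maximal ideal. -/
def RigPt.trunc (s : RigPt 𝒪 Γ F) (n : ℕ) : RigPt 𝒪 Γ F :=
  haveI := s.core_isNoetherian hF hϖ t hgen
  { A := (s.core hF hϖ t hgen).A ⧸ maximalIdeal (s.core hF hϖ t hgen).A ^ (n + 1)
    test := TA.isArtinianTestAlgebra_quotPow (s.core hF hϖ t hgen).test.isLocalHom
      (s.core hF hϖ t hgen).test.residue_surjective n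
    x := fun γ => Ideal.Quotient.mk _ ((s.core hF hϖ t hgen).x γ)
    hx := hF.map (s.core hF hϖ t hgen).test
      (TA.isArtinianTestAlgebra_quotPow (s.core hF hϖ t hgen).test.isLocalHom
        (s.core hF hϖ t hgen).test.residue_surjective n)
      (Ideal.Quotient.mkₐ 𝒪 _) (TA.isLocalHom_quotPow_mk n) (s.core hF hϖ t hgen).hx }

/-- The truncation map. -/
def RigPt.truncMk (s : RigPt 𝒪 Γ F) (n : ℕ) :
    (s.core hF hϖ t hgen).A →ₐ[𝒪] (s.trunc hF hϖ t hgen n).A :=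
  Ideal.Quotient.mkₐ 𝒪 _

theorem RigPt.truncMk_x (s : RigPt 𝒪 Γ F) (n : ℕ) (γ : Γ) :
    s.truncMk hF hϖ t hgen n ((s.core hF hϖ t hgen).x γ) = (s.trunc hF hϖ t hgen n).x γ := rfl

theorem RigPt.truncMk_eq_zero_iff (s : RigPt 𝒪 Γ F) (n : ℕ) (a : (s.core hF hϖ t hgen).A) :
    s.truncMk hF hϖ t hgen n a = 0 ↔ a ∈ maximalIdeal (s.core hF hϖ t hgen).A ^ (n + 1) :=
  Ideal.Quotient.eq_zero_iff_mem

theorem RigPt.trunc_psi (s : RigPt 𝒪 Γ F) (n : ℕ) :
    (s.trunc hF hϖ t hgen n).psi hF hϖ t =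
      (s.truncMk hF hϖ t hgen n).comp ((s.core hF hϖ t hgen).psi hF hϖ t) := by
  symm
  apply RigPt.psi_unique hF hϖ t (s.trunc hF hϖ t hgen n)
  · rw [AlgHom.comp_apply, RigPt.psi_X_none, AlgHom.commutes]
  · intro i
    rw [AlgHom.comp_apply, RigPt.psi_X_some, map_sub, AlgHom.commutes, RigPt.truncMk_x]

theorem RigPt.trunc_ker (s : RigPt 𝒪 Γ F) (n : ℕ) :
    (s.trunc hF hϖ t hgen n).ker hF hϖ t = s.ker hF hϖ t ⊔ rigI 𝒪 d ^ (n + 1) := by
  ext p
  rw [RigPt.mem_ker, RigPt.trunc_psi, AlgHom.comp_apply, RigPt.truncMk_eq_zero_iff,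
    RigPt.core_psi_mem_pow, sup_comm]

include hF in
theorem rigS_nonempty : (rigS hF hϖ t).Nonempty := by
  obtain ⟨x, hx⟩ := hF.nonempty
  exact ⟨_, ⟨⟨ResidueField 𝒪, TA.isArtinianTestAlgebra_residueField, x, hx⟩, rfl⟩⟩

theorem rigS_inf :
    ∀ K₁ ∈ rigS hF hϖ t, ∀ K₂ ∈ rigS hF hϖ t, K₁ ⊓ K₂ ∈ rigS hF hϖ t := by
  rintro _ ⟨s, rfl⟩ _ ⟨s', rfl⟩
  exact ⟨RigPt.prod hF s s', (RigPt.prod_ker hF hϖ t s s').symm⟩

include hgen in
theorem rigS_sup :
    ∀ K ∈ rigS hF hϖ t, ∀ n, 0 < n → K ⊔ rigI 𝒪 d ^ n ∈ rigS hF hϖ t := by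
  rintro _ ⟨s, rfl⟩ n hn
  obtain ⟨m, rfl⟩ := Nat.exists_eq_succ_of_ne_zero hn.ne'
  exact ⟨s.trunc hF hϖ t hgen m, (s.trunc_ker hF hϖ t hgen m).symm⟩

include hgen hdet in
/-- Every coordinate has a power series lift compatible with all points at once. -/
theorem rig_exists_lift (Kn : ℕ → Ideal (rigP 𝒪 d)) (sn : ℕ → RigPt 𝒪 Γ F)
    (hsn : ∀ n, Kn n = (sn n).ker hF hϖ t)
    (hanti : ∀ n, Kn (n + 1) ≤ Kn n)
    (hKnpow : ∀ n, rigI 𝒪 d ^ (n + 1) ≤ Kn n)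
    (hstep : ∀ n, Kn n ≤ Kn (n + 1) ⊔ rigI 𝒪 d ^ (n + 1))
    (hmin : ∀ K ∈ rigS hF hϖ t, ∀ n, rigI 𝒪 d ^ (n + 1) ≤ K → Kn n ≤ K) (γ : Γ) :
    ∃ p : rigP 𝒪 d, ∀ s : RigPt 𝒪 Γ F, s.psi hF hϖ t p = s.x γ := by
  choose pn hpn using fun n => (sn n).x_mem_range hF hϖ t hgen γ
  have hdiff : ∀ n, pn (n + 1) - pn n ∈ Kn n := by
    intro n
    have h1 : (sn n).psi hF hϖ t (pn (n + 1)) = (sn n).x γ :=
      RigPt.psi_eq_of_ker_le hF hϖ t hgen hdet (sn (n + 1)) (sn n)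
        (by rw [← hsn, ← hsn]; exact hanti n) (pn (n + 1)) γ (hpn (n + 1))
    rw [hsn n, RigPt.mem_ker, map_sub, h1, hpn n, sub_self]
  let J' : ℕ → Ideal (rigP 𝒪 d) := fun n => Nat.rec ⊤ (fun m _ => Kn m) n
  let s' : ℕ → rigP 𝒪 d := fun n => Nat.rec 0 (fun m _ => pn m) n
  have hJ'anti : Antitone J' := antitone_nat_of_succ_le fun n => by
    cases n with
    | zero => exact le_top
    | succ m => exact hanti m
  obtain ⟨p, hp⟩ := adicLimit_exists_of_compatible (rigI 𝒪 d) J' hJ'anti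
    (fun n => by
      cases n with
      | zero => exact le_top
      | succ m => exact hKnpow m)
    (fun n => by
      cases n with
      | zero =>
        show (⊤ : Ideal (rigP 𝒪 d)) ≤ Kn 0 ⊔ rigI 𝒪 d ^ 0
        rw [pow_zero, Ideal.one_eq_top]
        exact le_sup_right
      | succ m => exact hstep m)
    s'
    (fun n => by
      cases n with
      | zero => exact Submodule.mem_top
      | succ m => exact hdiff m)
  refine ⟨p, fun s => ?_⟩
  obtain ⟨m, hm⟩ := s.exists_pow_le_ker hF hϖ t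
  have hm' : rigI 𝒪 d ^ (m + 1) ≤ s.ker hF hϖ t :=
    (Ideal.pow_le_pow_right (Nat.le_succ m)).trans hm
  have hle : Kn m ≤ s.ker hF hϖ t := hmin _ ⟨s, rfl⟩ m hm'
  have h1 : (sn m).psi hF hϖ t p = (sn m).x γ := by
    have h2 : p - pn m ∈ Kn m := hp (m + 1)
    rw [hsn m, RigPt.mem_ker, map_sub, sub_eq_zero] at h2
    rw [h2, hpn m]
  exact RigPt.psi_eq_of_ker_le hF hϖ t hgen hdet (sn m) s (by rw [← hsn]; exact hle) p γ h1

end Core

section Main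

/-- **Pro-representability of a rigid functor.** A rigid functor on Artinian test algebras is
pro-represented by a complete Noetherian local `𝒪`-algebra with a universal point. -/
theorem exists_universal_of_isRigidFunctor
    (𝒪 : Type) [CommRing 𝒪] [IsDomain 𝒪] [IsDiscreteValuationRing 𝒪]
    [IsAdicComplete (maximalIdeal 𝒪) 𝒪] [Finite (ResidueField 𝒪)]
    (Γ : Type) (r0 : Γ → 𝒪)
    (F : ∀ ⦃A : Type⦄ [CommRing A] [IsLocalRing A] [Algebra 𝒪 A], (Γ → A) → Prop)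
    (hF : IsRigidFunctor 𝒪 Γ r0 F) :
    ∃ (R : Type) (_ : CommRing R) (_ : IsLocalRing R) (_ : IsNoetherianRing R)
      (_ : IsAdicComplete (maximalIdeal R) R) (_ : Algebra 𝒪 R)
      (_ : IsLocalHom (algebraMap 𝒪 R)) (xR : Γ → R),
      Function.Surjective (residue R ∘ algebraMap 𝒪 R) ∧
      (∀ ⦃B : Type⦄ [CommRing B] [IsLocalRing B] [Algebra 𝒪 B], IsArtinianTestAlgebra 𝒪 B →
        ∀ (q : R →ₐ[𝒪] B), IsLocalHom (q : R →+* B) → F (fun γ => q (xR γ))) ∧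
      (∀ (A : Type) [CommRing A] [IsLocalRing A] [IsNoetherianRing A]
        [IsAdicComplete (maximalIdeal A) A] [Algebra 𝒪 A] [IsLocalHom (algebraMap 𝒪 A)],
        Function.Surjective (residue A ∘ algebraMap 𝒪 A) → ∀ x : Γ → A,
          (∀ ⦃B : Type⦄ [CommRing B] [IsLocalRing B] [Algebra 𝒪 B], IsArtinianTestAlgebra 𝒪 B →
            ∀ (q : A →ₐ[𝒪] B), IsLocalHom (q : A →+* B) → Function.Surjective q →
              F (fun γ => q (x γ))) →
          ∃! φ : R →ₐ[𝒪] A, ∀ γ, φ (xR γ) = x γ) := by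
  obtain ⟨d, t, hgen, hdet⟩ := exists_separating hF
  obtain ⟨ϖ, hϖ0⟩ := (IsPrincipalIdealRing.principal (maximalIdeal 𝒪)).principal
  have hϖ : maximalIdeal 𝒪 = Ideal.span {ϖ} := hϖ0
  obtain ⟨J, Kn, hloc, hJle, hKn, hKnpow, hJKn, hanti, hstep, hmin, hKnJ, hJeq, hcomp, hmax,
      hlh, hsurj⟩ :=
    rig_levels 𝒪 d ϖ hϖ (rigS hF hϖ t) (rigS_nonempty hF hϖ t)
      (by rintro _ ⟨s, rfl⟩; exact s.J0_le_ker hF hϖ t)
      (by rintro _ ⟨s, rfl⟩; exact s.ker_ne_top hF hϖ t)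
      (by rintro _ ⟨s, rfl⟩; exact s.exists_pow_le_ker hF hϖ t)
      (rigS_inf hF hϖ t) (rigS_sup hF hϖ t hgen)
  choose sn hsn using hKn
  choose pR hpR using
    rig_exists_lift hF hϖ t hgen hdet Kn sn hsn hanti hKnpow hstep hmin
  have hJ0 : rigJ0 𝒪 d ϖ ≤ J := by
    rw [hJeq]
    exact le_iInf fun n => (hsn n) ▸ (sn n).J0_le_ker hF hϖ t
  refine ⟨rigP 𝒪 d ⧸ J, inferInstance, hloc, inferInstance, hcomp, inferInstance, hlh,
    fun γ => Ideal.Quotient.mk J (pR γ), hsurj, ?_, ?_⟩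
  · -- every Artinian specialisation of the universal family is a point
    intro B _ _ _ hB q hq
    obtain ⟨n, hn⟩ := TA.testAlg_exists_pow_le_ker hB (q : (rigP 𝒪 d ⧸ J) →+* B) hq
    have hker : Kn n ≤ RingHom.ker
        ((q.comp (Ideal.Quotient.mkₐ 𝒪 J) : rigP 𝒪 d →ₐ[𝒪] B) : rigP 𝒪 d →+* B) := by
      intro p hp
      obtain ⟨j, hj, i, hi, rfl⟩ := Submodule.mem_sup.mp (hKnJ n hp)
      rw [RingHom.mem_ker]
      show q (Ideal.Quotient.mk J (j + i)) = 0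
      rw [map_add, Ideal.Quotient.eq_zero_iff_mem.mpr hj, zero_add]
      have hi' : Ideal.Quotient.mk J i ∈ maximalIdeal (rigP 𝒪 d ⧸ J) ^ n := by
        rw [hmax, ← Ideal.map_pow]
        exact Ideal.mem_map_of_mem _ (Ideal.pow_le_pow_right (Nat.le_succ n) hi)
      exact hn hi'
    have hs : Kn n = (sn n).ker hF hϖ t := hsn n
    let θ : ((sn n).core hF hϖ t hgen).A →ₐ[𝒪] B :=
      Ideal.Quotient.liftₐ ((sn n).ker hF hϖ t) (q.comp (Ideal.Quotient.mkₐ 𝒪 J))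
        fun p hp => hker (hs ▸ hp)
    have hθ : ∀ p : rigP 𝒪 d, θ (Ideal.Quotient.mk ((sn n).ker hF hϖ t) p) =
        q (Ideal.Quotient.mk J p) := fun _ => rfl
    have hlocθ : IsLocalHom (θ : ((sn n).core hF hϖ t hgen).A →+* B) :=
      TA.isLocalHom_of_algHom ((sn n).core hF hϖ t hgen).test.isLocalHom
        ((sn n).core hF hϖ t hgen).test.residue_surjective hB.isLocalHom
        hB.residue_surjective _
    have hFy : F (fun γ => θ (((sn n).core hF hϖ t hgen).x γ)) :=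
      hF.map ((sn n).core hF hϖ t hgen).test hB θ hlocθ ((sn n).core hF hϖ t hgen).hx
    have heq : (fun γ => θ (((sn n).core hF hϖ t hgen).x γ)) =
        fun γ => q (Ideal.Quotient.mk J (pR γ)) := by
      funext γ
      show θ ((sn n).coreX hF hϖ t hgen γ) = _
      rw [(sn n).coreX_eq_mk hF hϖ t hgen γ (pR γ) (hpR γ (sn n)), hθ]
    rw [heq] at hFy
    exact hFy
  · -- universality
    refine cnl_universal (fun γ => Ideal.Quotient.mk J (pR γ)) ?_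
    intro A _ _ _ hA x hx
    let s : RigPt 𝒪 Γ F := ⟨A, hA, x, hx⟩
    have hJs : J ≤ s.ker hF hϖ t := hJle _ ⟨s, rfl⟩
    refine ⟨Ideal.Quotient.liftₐ J (s.psi hF hϖ t) fun p hp => hJs hp,
      fun γ => hpR γ s, ?_⟩
    intro φ hφ
    have h1 : φ.comp (Ideal.Quotient.mkₐ 𝒪 J) = s.psi hF hϖ t := by
      apply RigPt.psi_unique hF hϖ t s
      · have hmem : (MvPowerSeries.X none - MvPowerSeries.C ϖ : rigP 𝒪 d) ∈ J :=
          hJ0 (Ideal.subset_span rfl)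
        have e : Ideal.Quotient.mk J (MvPowerSeries.X none : rigP 𝒪 d) =
            algebraMap 𝒪 (rigP 𝒪 d ⧸ J) ϖ := by
          have h0 : Ideal.Quotient.mk J
              (MvPowerSeries.X none - MvPowerSeries.C ϖ : rigP 𝒪 d) = 0 :=
            Ideal.Quotient.eq_zero_iff_mem.mpr hmem
          rw [map_sub, sub_eq_zero] at h0
          rw [h0, MvPowerSeries.c_eq_algebraMap, Ideal.Quotient.mk_algebraMap]
        show φ (Ideal.Quotient.mk J (MvPowerSeries.X none)) = algebraMap 𝒪 A ϖ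
        rw [e, AlgHom.commutes]
      · intro i
        have hmem : rigGen r0 t i - pR (t i) ∈ J := by
          rw [hJeq, Ideal.mem_iInf]
          intro n
          rw [hsn n, RigPt.mem_ker, map_sub, RigPt.psi_rigGen, hpR, sub_self]
        have e : Ideal.Quotient.mk J (MvPowerSeries.X (some i) : rigP 𝒪 d) =
            Ideal.Quotient.mk J (pR (t i)) - algebraMap 𝒪 (rigP 𝒪 d ⧸ J) (r0 (t i)) := by
          have h0 : Ideal.Quotient.mk J (rigGen r0 t i - pR (t i)) = 0 :=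
            Ideal.Quotient.eq_zero_iff_mem.mpr hmem
          rw [map_sub, sub_eq_zero] at h0
          rw [← h0]
          unfold rigGen
          rw [map_add, Ideal.Quotient.mk_algebraMap, add_sub_cancel_right]
        have hφ' : φ (Ideal.Quotient.mk J (pR (t i))) = x (t i) := hφ (t i)
        show φ (Ideal.Quotient.mk J (MvPowerSeries.X (some i))) =
          x (t i) - algebraMap 𝒪 A (r0 (t i))
        rw [e, map_sub, AlgHom.commutes, hφ']
    apply Ideal.Quotient.algHom_ext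
    rw [h1]
    exact AlgHom.ext fun p => rfl

end Main

end

end Fermat.Agent.S53
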