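import Fermat.Agent.S53.RigidDefs
import Fermat.Agent.S53.RigidSep
import Fermat.Agent.S53.RigidLevels
import Fermat.Agent.S53.RigidCNL
import Fermat.Agent.S53.AdicLimit

set_option autoImplicit false
set_option linter.unusedSectionVars false
set_option linter.style.haveILetI false

namespace Fermat.Agent.S53

open IsLocalRing GaloisRep

section RigidPairB

variable {𝒪 : Type} [CommRing 𝒪] [IsDomain 𝒪] [IsDiscreteValuationRing 𝒪]
  [IsAdicComplete (maximalIdeal 𝒪) 𝒪] [Finite (ResidueField 𝒪)]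
variable {Γ : Type} {r0 : Γ → 𝒪}
  {F : ∀ ⦃A : Type⦄ [CommRing A] [IsLocalRing A] [Algebra 𝒪 A], (Γ → A) → Prop}
variable {d : ℕ} (t : Fin d → Γ) (ϖ : 𝒪)

theorem rpb_algebraMap_mem {A : Type} [CommRing A] [IsLocalRing A] [Algebra 𝒪 A]
    (hA : IsArtinianTestAlgebra 𝒪 A) {c : 𝒪} (hc : c ∈ maximalIdeal 𝒪) :
    algebraMap 𝒪 A c ∈ maximalIdeal A := by
  rw [mem_maximalIdeal, mem_nonunits_iff]
  intro hu
  exact hc (hA.isLocalHom.map_nonunit c hu)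

/-- For a point over a test algebra there is a map from the power series ring realising its
separating coordinates. -/
theorem rpb_exists_hom (hF : IsRigidFunctor 𝒪 Γ r0 F) (hϖ : ϖ ∈ maximalIdeal 𝒪)
    {A : Type} [CommRing A] [IsLocalRing A] [Algebra 𝒪 A] (hA : IsArtinianTestAlgebra 𝒪 A)
    {x : Γ → A} (hx : F x) :
    ∃ ψ : rigP 𝒪 d →ₐ[𝒪] A, ψ (MvPowerSeries.X none) = algebraMap 𝒪 A ϖ ∧
      ∀ i, x (t i) = ψ (MvPowerSeries.X (some i)) + algebraMap 𝒪 A (r0 (t i)) := by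
  haveI := hA.isArtinian
  obtain ⟨n, hn⟩ := FP.exists_maximalIdeal_pow_eq_bot (A := A)
  let a : Option (Fin d) → A := fun o =>
    Option.elim o (algebraMap 𝒪 A ϖ) (fun i => x (t i) - algebraMap 𝒪 A (r0 (t i)))
  have ha : Ideal.span (Set.range a) ≤ maximalIdeal A := by
    rw [Ideal.span_le]
    rintro _ ⟨o, rfl⟩
    cases o with
    | none => exact rpb_algebraMap_mem hA hϖ
    | some i => exact hF.residue hA hx (t i)
  have h : Ideal.span (Set.range a) ^ n = ⊥ := by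
    rw [eq_bot_iff, ← hn]
    exact Ideal.pow_right_mono ha n
  refine ⟨AbsRep.evalTrunc a n h, AbsRep.evalTrunc_X a n h none, fun i => ?_⟩
  rw [AbsRep.evalTrunc_X]
  simp [a]


/-- The ideals of the power series ring whose quotient carries a point with tautological
separating coordinates. -/
def rpbS (F : ∀ ⦃A : Type⦄ [CommRing A] [IsLocalRing A] [Algebra 𝒪 A], (Γ → A) → Prop)
    (r0 : Γ → 𝒪) {d : ℕ} (t : Fin d → Γ) (ϖ : 𝒪) : Set (Ideal (rigP 𝒪 d)) :=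
  {K | rigJ0 𝒪 d ϖ ≤ K ∧ (∃ n, rigI 𝒪 d ^ n ≤ K) ∧ ∃ hK : K ≠ ⊤,
    letI := FP.isLocalRing_quotient hK
    ∃ y : Γ → rigP 𝒪 d ⧸ K, F y ∧ ∀ i, y (t i) =
      Ideal.Quotient.mk K (MvPowerSeries.X (some i)) + algebraMap 𝒪 (rigP 𝒪 d ⧸ K) (r0 (t i))}

theorem rpb_mk_X_none {K : Ideal (rigP 𝒪 d)} (h0 : rigJ0 𝒪 d ϖ ≤ K) :
    Ideal.Quotient.mk K (MvPowerSeries.X none) = algebraMap 𝒪 (rigP 𝒪 d ⧸ K) ϖ := by
  have h1 : (MvPowerSeries.X none - MvPowerSeries.C ϖ : rigP 𝒪 d) ∈ K :=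
    h0 (Ideal.subset_span rfl)
  have h2 := Ideal.Quotient.eq_zero_iff_mem.mpr h1
  rw [map_sub, sub_eq_zero] at h2
  rw [h2]
  rfl

/-- Points with tautological separating coordinates are compatible with maps to points over
test algebras. -/
theorem rpb_lift_point (hF : IsRigidFunctor 𝒪 Γ r0 F)
    (hG2 : ∀ ⦃A : Type⦄ [CommRing A] [IsLocalRing A] [Algebra 𝒪 A], IsArtinianTestAlgebra 𝒪 A →
        ∀ ⦃x y : Γ → A⦄, F x → F y → (∀ i, x (t i) = y (t i)) → x = y)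
    {B : Type} [CommRing B] [IsLocalRing B] [Algebra 𝒪 B] (hB : IsArtinianTestAlgebra 𝒪 B)
    (f : rigP 𝒪 d →ₐ[𝒪] B) (y : Γ → B)
    (hy : F y) (hyt : ∀ i, y (t i) = f (MvPowerSeries.X (some i)) + algebraMap 𝒪 B (r0 (t i)))
    (K : Ideal (rigP 𝒪 d)) (hK : K ≠ ⊤) (hfK : ∀ a ∈ K, f a = 0)
    (hTA : letI := FP.isLocalRing_quotient hK; IsArtinianTestAlgebra 𝒪 (rigP 𝒪 d ⧸ K))
    (y' : Γ → rigP 𝒪 d ⧸ K) (hy' : letI := FP.isLocalRing_quotient hK; F y')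
    (hy't : ∀ i, y' (t i) =
      Ideal.Quotient.mk K (MvPowerSeries.X (some i)) + algebraMap 𝒪 (rigP 𝒪 d ⧸ K) (r0 (t i)))
    (γ : Γ) : Ideal.Quotient.liftₐ K f hfK (y' γ) = y γ := by
  letI := FP.isLocalRing_quotient hK
  have h1 : F (fun γ => Ideal.Quotient.liftₐ K f hfK (y' γ)) :=
    hF.map hTA hB (Ideal.Quotient.liftₐ K f hfK) (sep_isLocalHom_of_algHom hTA _) hy'
  have h2 := hG2 hB h1 hy (fun i => by
    rw [hy't, map_add, AlgHom.commutes, hyt]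
    rfl)
  exact congrFun h2 γ


theorem rpb_J0_le_ker {B : Type} [CommRing B] [Algebra 𝒪 B]
    (f : rigP 𝒪 d →ₐ[𝒪] B) (hf0 : f (MvPowerSeries.X none) = algebraMap 𝒪 B ϖ) :
    rigJ0 𝒪 d ϖ ≤ RingHom.ker (f : rigP 𝒪 d →+* B) := by
  unfold rigJ0
  rw [Ideal.span_le, Set.singleton_subset_iff]
  show _ ∈ RingHom.ker (f : rigP 𝒪 d →+* B)
  rw [RingHom.mem_ker]
  show f (MvPowerSeries.X none - MvPowerSeries.C ϖ) = 0
  rw [map_sub, hf0, MvPowerSeries.c_eq_algebraMap, AlgHom.commutes, sub_self]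

theorem rpb_pow_le_ker {B : Type} [CommRing B] [IsLocalRing B] [Algebra 𝒪 B]
    (hB : IsArtinianTestAlgebra 𝒪 B) (f : rigP 𝒪 d →ₐ[𝒪] B) {n : ℕ}
    (hn : maximalIdeal B ^ n = ⊥) :
    rigI 𝒪 d ^ n ≤ RingHom.ker (f : rigP 𝒪 d →+* B) := by
  intro p hp
  have h1 : p ∈ maximalIdeal (rigP 𝒪 d) ^ n :=
    Ideal.pow_right_mono (rigI_le_maximalIdeal 𝒪 d) n hp
  have h2 := AbsRep.map_maximalIdeal_pow_le AbsRep.isLocalHom_algebraMap_mvPowerSeries hB f n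
    (Ideal.mem_map_of_mem _ h1)
  rw [hn, Ideal.mem_bot] at h2
  exact h2

/-- The kernel of the map attached to a point over a test algebra carries a point with
tautological separating coordinates. -/
theorem rpb_ker_mem (hF : IsRigidFunctor 𝒪 Γ r0 F)
    (hG1 : ∀ ⦃A : Type⦄ [CommRing A] [IsLocalRing A] [Algebra 𝒪 A], IsArtinianTestAlgebra 𝒪 A →
        ∀ ⦃x : Γ → A⦄, F x →
          Algebra.adjoin 𝒪 (Set.range x) ≤ Algebra.adjoin 𝒪 (Set.range fun i => x (t i)))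
    (hϖ : maximalIdeal 𝒪 = Ideal.span {ϖ})
    {B : Type} [CommRing B] [IsLocalRing B] [Algebra 𝒪 B] (hB : IsArtinianTestAlgebra 𝒪 B)
    (f : rigP 𝒪 d →ₐ[𝒪] B) (y : Γ → B) (hf0 : f (MvPowerSeries.X none) = algebraMap 𝒪 B ϖ)
    (hy : F y) (hyt : ∀ i, y (t i) = f (MvPowerSeries.X (some i)) + algebraMap 𝒪 B (r0 (t i)))
    (K : Ideal (rigP 𝒪 d)) (hK : RingHom.ker (f : rigP 𝒪 d →+* B) = K) :
    K ∈ rpbS F r0 t ϖ := by
  subst hK
  set K := RingHom.ker (f : rigP 𝒪 d →+* B) with hKdef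
  have h0 : rigJ0 𝒪 d ϖ ≤ K := rpb_J0_le_ker ϖ f hf0
  have hKtop : K ≠ ⊤ := RingHom.ker_ne_top _
  haveI := hB.isArtinian
  obtain ⟨n, hn⟩ := FP.exists_maximalIdeal_pow_eq_bot (A := B)
  have hpow : rigI 𝒪 d ^ n ≤ K := rpb_pow_le_ker hB f hn
  refine ⟨h0, ⟨n, hpow⟩, hKtop, ?_⟩
  letI := FP.isLocalRing_quotient hKtop
  have hTA : IsArtinianTestAlgebra 𝒪 (rigP 𝒪 d ⧸ K) := rig_quot_testAlg 𝒪 d ϖ hϖ h0 hKtop hpow
  let g : rigP 𝒪 d ⧸ K →ₐ[𝒪] B := Ideal.Quotient.liftₐ K f (fun a ha => ha)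
  have hg : ∀ p, g (Ideal.Quotient.mk K p) = f p := fun p => rfl
  have ginj : Function.Injective g := by
    rw [injective_iff_map_eq_zero]
    intro z hz
    obtain ⟨p, rfl⟩ := Ideal.Quotient.mk_surjective z
    rw [hg] at hz
    exact Ideal.Quotient.eq_zero_iff_mem.mpr hz
  have hrange : ∀ γ, ∃ p, f p = y γ := by
    intro γ
    have h1 : y γ ∈ Algebra.adjoin 𝒪 (Set.range fun i => y (t i)) :=
      hG1 hB hy (Algebra.subset_adjoin ⟨γ, rfl⟩)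
    have h2 : Algebra.adjoin 𝒪 (Set.range fun i => y (t i)) ≤ f.range := by
      refine Algebra.adjoin_le ?_
      rintro _ ⟨i, rfl⟩
      refine ⟨MvPowerSeries.X (some i) + MvPowerSeries.C (r0 (t i)), ?_⟩
      show f (MvPowerSeries.X (some i) + MvPowerSeries.C (r0 (t i))) = y (t i)
      rw [map_add, MvPowerSeries.c_eq_algebraMap, AlgHom.commutes, hyt]
    exact h2 h1
  choose p hp using hrange
  let y' : Γ → rigP 𝒪 d ⧸ K := fun γ => Ideal.Quotient.mk K (p γ)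
  have hgy' : ∀ γ, g (y' γ) = y γ := fun γ => by rw [hg, hp]
  have hFy' : F y' := by
    refine hF.of_injective hTA hB g (sep_isLocalHom_of_algHom hTA g) ginj ?_
    have : (fun γ => g (y' γ)) = y := funext hgy'
    rw [this]
    exact hy
  refine ⟨y', hFy', fun i => ginj ?_⟩
  rw [hgy', map_add, hg, AlgHom.commutes, hyt]


theorem rpb_mem_of_le (hF : IsRigidFunctor 𝒪 Γ r0 F) (hϖ : maximalIdeal 𝒪 = Ideal.span {ϖ})
    {K K' : Ideal (rigP 𝒪 d)} (hK : K ∈ rpbS F r0 t ϖ) (hle : K ≤ K') (hK' : K' ≠ ⊤) :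
    K' ∈ rpbS F r0 t ϖ := by
  obtain ⟨h0, ⟨n, hn⟩, hKtop, y, hy, hyt⟩ := hK
  refine ⟨h0.trans hle, ⟨n, hn.trans hle⟩, hK', ?_⟩
  letI := FP.isLocalRing_quotient hKtop
  letI := FP.isLocalRing_quotient hK'
  have hTA : IsArtinianTestAlgebra 𝒪 (rigP 𝒪 d ⧸ K) := rig_quot_testAlg 𝒪 d ϖ hϖ h0 hKtop hn
  have hTA' : IsArtinianTestAlgebra 𝒪 (rigP 𝒪 d ⧸ K') :=
    rig_quot_testAlg 𝒪 d ϖ hϖ (h0.trans hle) hK' (hn.trans hle)
  refine ⟨fun γ => Ideal.Quotient.factorₐ 𝒪 hle (y γ), ?_, fun i => ?_⟩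
  · exact hF.map hTA hTA' (Ideal.Quotient.factorₐ 𝒪 hle) (sep_isLocalHom_of_algHom hTA _) hy
  · show Ideal.Quotient.factorₐ 𝒪 hle (y (t i)) = _
    rw [hyt, map_add, AlgHom.commutes]
    rfl

theorem rpb_sup_mem (hF : IsRigidFunctor 𝒪 Γ r0 F) (hϖ : maximalIdeal 𝒪 = Ideal.span {ϖ})
    {K : Ideal (rigP 𝒪 d)} (hK : K ∈ rpbS F r0 t ϖ) (n : ℕ) (hn : 0 < n) :
    K ⊔ rigI 𝒪 d ^ n ∈ rpbS F r0 t ϖ := by
  refine rpb_mem_of_le t ϖ hF hϖ hK le_sup_left ?_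
  have h1 : K ≤ maximalIdeal (rigP 𝒪 d) := IsLocalRing.le_maximalIdeal hK.2.2.1
  have h2 : rigI 𝒪 d ^ n ≤ maximalIdeal (rigP 𝒪 d) :=
    (Ideal.pow_le_self (Nat.pos_iff_ne_zero.mp hn)).trans (rigI_le_maximalIdeal 𝒪 d)
  intro htop
  have h3 : (⊤ : Ideal (rigP 𝒪 d)) ≤ maximalIdeal (rigP 𝒪 d) := htop ▸ sup_le h1 h2
  exact (IsLocalRing.maximalIdeal.isMaximal (rigP 𝒪 d)).ne_top (top_le_iff.mp h3)

theorem rpb_resToOf_point (hF : IsRigidFunctor 𝒪 Γ r0 F)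
    {A : Type} [CommRing A] [IsLocalRing A] [Algebra 𝒪 A] (hA : IsArtinianTestAlgebra 𝒪 A)
    {x : Γ → A} (hx : F x) (γ : Γ) :
    FP.resToOf hA (x γ) = algebraMap 𝒪 (ResidueField 𝒪) (r0 γ) := by
  have h1 := hF.residue hA hx γ
  have h2 := (FP.resTo_eq_zero_iff hA.isLocalHom hA.residue_surjective _).mpr h1
  rw [map_sub, sub_eq_zero, AlgHom.commutes] at h2
  exact h2

theorem rpb_inf_mem (hF : IsRigidFunctor 𝒪 Γ r0 F)
    (hG1 : ∀ ⦃A : Type⦄ [CommRing A] [IsLocalRing A] [Algebra 𝒪 A], IsArtinianTestAlgebra 𝒪 A →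
        ∀ ⦃x : Γ → A⦄, F x →
          Algebra.adjoin 𝒪 (Set.range x) ≤ Algebra.adjoin 𝒪 (Set.range fun i => x (t i)))
    (hϖ : maximalIdeal 𝒪 = Ideal.span {ϖ})
    {K₁ K₂ : Ideal (rigP 𝒪 d)} (hK₁ : K₁ ∈ rpbS F r0 t ϖ) (hK₂ : K₂ ∈ rpbS F r0 t ϖ) :
    K₁ ⊓ K₂ ∈ rpbS F r0 t ϖ := by
  obtain ⟨h01, ⟨n1, hn1⟩, hK1top, y1, hy1, hy1t⟩ := hK₁
  obtain ⟨h02, ⟨n2, hn2⟩, hK2top, y2, hy2, hy2t⟩ := hK₂
  letI := FP.isLocalRing_quotient hK1top
  letI := FP.isLocalRing_quotient hK2top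
  have hT1 : IsArtinianTestAlgebra 𝒪 (rigP 𝒪 d ⧸ K₁) := rig_quot_testAlg 𝒪 d ϖ hϖ h01 hK1top hn1
  have hT2 : IsArtinianTestAlgebra 𝒪 (rigP 𝒪 d ⧸ K₂) := rig_quot_testAlg 𝒪 d ϖ hϖ h02 hK2top hn2
  letI : IsLocalRing (FP.fibProdK hT1 hT2) := FP.isLocalRing_fibProdK hT1 hT2
  have hP : IsArtinianTestAlgebra 𝒪 (FP.fibProdK hT1 hT2) :=
    FP.isArtinianTestAlgebra_fibProdK hT1 hT2
  have hmem : ∀ γ, (y1 γ, y2 γ) ∈ FP.fibProdK hT1 hT2 := by
    intro γ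
    rw [FP.mem_fibProd]
    show FP.resToOf hT1 (y1 γ) = FP.resToOf hT2 (y2 γ)
    rw [rpb_resToOf_point hF hT1 hy1, rpb_resToOf_point hF hT2 hy2]
  let z : Γ → FP.fibProdK hT1 hT2 := fun γ => ⟨(y1 γ, y2 γ), hmem γ⟩
  have hz : F z := hF.of_fibreProduct hT1 hT2 FP.isArtinianTestAlgebra_residueField hP
    (FP.resToOf hT1) (FP.resToOf hT2) (FP.fibProdFst _ _) (FP.fibProdSnd _ _)
    (FP.isLocalHom_fibProdFst _ _ (FP.isLocalHom_resToOf hT1) (FP.isLocalHom_resToOf hT2))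
    (FP.isLocalHom_fibProdSnd _ _ (FP.isLocalHom_resToOf hT1) (FP.isLocalHom_resToOf hT2))
    (FP.fibProd_comp_eq _ _) (FP.fibProd_injective _ _) (FP.fibProd_exists _ _) hy1 hy2
  have hfmem : ∀ p : rigP 𝒪 d,
      ((Ideal.Quotient.mkₐ 𝒪 K₁).prod (Ideal.Quotient.mkₐ 𝒪 K₂)) p ∈ FP.fibProdK hT1 hT2 := by
    intro p
    rw [FP.mem_fibProd]
    show FP.resToOf hT1 (Ideal.Quotient.mkₐ 𝒪 K₁ p) = FP.resToOf hT2 (Ideal.Quotient.mkₐ 𝒪 K₂ p)
    rw [AbsRep.resToOf_algHom AbsRep.isLocalHom_algebraMap_mvPowerSeries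
        AbsRep.residue_surjective_mvPowerSeries hT1 (Ideal.Quotient.mkₐ 𝒪 K₁) p,
      AbsRep.resToOf_algHom AbsRep.isLocalHom_algebraMap_mvPowerSeries
        AbsRep.residue_surjective_mvPowerSeries hT2 (Ideal.Quotient.mkₐ 𝒪 K₂) p]
  let f : rigP 𝒪 d →ₐ[𝒪] FP.fibProdK hT1 hT2 :=
    AlgHom.codRestrict ((Ideal.Quotient.mkₐ 𝒪 K₁).prod (Ideal.Quotient.mkₐ 𝒪 K₂))
      (FP.fibProdK hT1 hT2) hfmem
  have hfval : ∀ p, (f p : (rigP 𝒪 d ⧸ K₁) × (rigP 𝒪 d ⧸ K₂)) =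
      (Ideal.Quotient.mk K₁ p, Ideal.Quotient.mk K₂ p) := fun p => rfl
  refine rpb_ker_mem t ϖ hF hG1 hϖ hP f z ?_ hz ?_ (K₁ ⊓ K₂) ?_
  · apply Subtype.ext
    rw [hfval]
    refine Prod.ext ?_ ?_
    · exact rpb_mk_X_none ϖ h01
    · exact rpb_mk_X_none ϖ h02
  · intro i
    apply Subtype.ext
    refine Prod.ext ?_ ?_
    · exact hy1t i
    · exact hy2t i
  · ext p
    rw [RingHom.mem_ker, Ideal.mem_inf]
    constructor
    · intro h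
      have h1 : (f p : (rigP 𝒪 d ⧸ K₁) × (rigP 𝒪 d ⧸ K₂)) = 0 := by
        have : f p = 0 := h
        rw [this]
        rfl
      rw [hfval, Prod.mk_eq_zero] at h1
      exact ⟨Ideal.Quotient.eq_zero_iff_mem.mp h1.1, Ideal.Quotient.eq_zero_iff_mem.mp h1.2⟩
    · rintro ⟨h1, h2⟩
      show f p = 0
      apply Subtype.ext
      rw [hfval]
      exact Prod.ext (Ideal.Quotient.eq_zero_iff_mem.mpr h1) (Ideal.Quotient.eq_zero_iff_mem.mpr h2)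

theorem rpb_nonempty (hF : IsRigidFunctor 𝒪 Γ r0 F)
    (hG1 : ∀ ⦃A : Type⦄ [CommRing A] [IsLocalRing A] [Algebra 𝒪 A], IsArtinianTestAlgebra 𝒪 A →
        ∀ ⦃x : Γ → A⦄, F x →
          Algebra.adjoin 𝒪 (Set.range x) ≤ Algebra.adjoin 𝒪 (Set.range fun i => x (t i)))
    (hϖ : maximalIdeal 𝒪 = Ideal.span {ϖ}) : (rpbS F r0 t ϖ).Nonempty := by
  obtain ⟨y0, hy0⟩ := hF.nonempty
  have hϖm : ϖ ∈ maximalIdeal 𝒪 := by
    rw [hϖ]
    exact Ideal.subset_span rfl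
  obtain ⟨ψ, hψ0, hψt⟩ := rpb_exists_hom (d := d) t ϖ hF hϖm
    FP.isArtinianTestAlgebra_residueField hy0
  exact ⟨_, rpb_ker_mem t ϖ hF hG1 hϖ FP.isArtinianTestAlgebra_residueField ψ y0 hψ0 hy0 hψt _ rfl⟩

end RigidPairB

/-- **Abstract representability of a rigid functor** (independent proof). -/
theorem rpb_exists_universal (𝒪 : Type) [CommRing 𝒪] [IsDomain 𝒪] [IsDiscreteValuationRing 𝒪]
    [IsAdicComplete (maximalIdeal 𝒪) 𝒪] [Finite (ResidueField 𝒪)] (Γ : Type) (r0 : Γ → 𝒪)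
    (F : ∀ ⦃A : Type⦄ [CommRing A] [IsLocalRing A] [Algebra 𝒪 A], (Γ → A) → Prop)
    (hF : IsRigidFunctor 𝒪 Γ r0 F) :
    ∃ (R : Type) (_ : CommRing R) (_ : IsLocalRing R) (_ : IsNoetherianRing R)
      (_ : IsAdicComplete (maximalIdeal R) R) (_ : Algebra 𝒪 R) (_ : IsLocalHom (algebraMap 𝒪 R))
      (xR : Γ → R),
      Function.Surjective (residue R ∘ algebraMap 𝒪 R) ∧
      (∀ ⦃B : Type⦄ [CommRing B] [IsLocalRing B] [Algebra 𝒪 B], IsArtinianTestAlgebra 𝒪 B →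
        ∀ (q : R →ₐ[𝒪] B), IsLocalHom (q : R →+* B) → F (fun γ => q (xR γ))) ∧
      (∀ (A : Type) [CommRing A] [IsLocalRing A] [IsNoetherianRing A]
        [IsAdicComplete (maximalIdeal A) A] [Algebra 𝒪 A] [IsLocalHom (algebraMap 𝒪 A)],
        Function.Surjective (residue A ∘ algebraMap 𝒪 A) → ∀ x : Γ → A,
          (∀ ⦃B : Type⦄ [CommRing B] [IsLocalRing B] [Algebra 𝒪 B], IsArtinianTestAlgebra 𝒪 B →
            ∀ (q : A →ₐ[𝒪] B), IsLocalHom (q : A →+* B) → Function.Surjective q →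
              F (fun γ => q (x γ))) →
          ∃! φ : R →ₐ[𝒪] A, ∀ γ, φ (xR γ) = x γ) := by
  obtain ⟨d, t, hG1, hG2⟩ := exists_separating hF
  obtain ⟨ϖ, hirr⟩ := IsDiscreteValuationRing.exists_irreducible 𝒪
  have hϖ : maximalIdeal 𝒪 = Ideal.span {ϖ} := hirr.maximalIdeal_eq
  have hϖm : ϖ ∈ maximalIdeal 𝒪 := by
    rw [hϖ]
    exact Ideal.subset_span rfl
  obtain ⟨J, Kn, hlocR, c1, c2, c3, c4, c5, c6, c7, c8, c9, c10, c11, c12, c13⟩ :=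
    rig_levels 𝒪 d ϖ hϖ (rpbS F r0 t ϖ) (rpb_nonempty t ϖ hF hG1 hϖ) (fun K hK => hK.1)
      (fun K hK => hK.2.2.1) (fun K hK => hK.2.1)
      (fun K₁ h₁ K₂ h₂ => rpb_inf_mem t ϖ hF hG1 hϖ h₁ h₂)
      (fun K hK n hn => rpb_sup_mem t ϖ hF hϖ hK n hn)
  have htopn : ∀ n, Kn n ≠ ⊤ := fun n => (c2 n).2.2.1
  letI instn : ∀ n, IsLocalRing (rigP 𝒪 d ⧸ Kn n) := fun n => FP.isLocalRing_quotient (htopn n)
  have h0n : ∀ n, rigJ0 𝒪 d ϖ ≤ Kn n := fun n => (c2 n).1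
  have hTAn : ∀ n, IsArtinianTestAlgebra 𝒪 (rigP 𝒪 d ⧸ Kn n) := fun n =>
    rig_quot_testAlg 𝒪 d ϖ hϖ (h0n n) (htopn n) (c3 n)
  have hpt : ∀ n, ∃ y : Γ → rigP 𝒪 d ⧸ Kn n, F y ∧ ∀ i, y (t i) =
      Ideal.Quotient.mk (Kn n) (MvPowerSeries.X (some i)) +
        algebraMap 𝒪 (rigP 𝒪 d ⧸ Kn n) (r0 (t i)) := by
    intro n
    obtain ⟨_, y, hy, hyt⟩ := (c2 n).2.2
    exact ⟨y, hy, hyt⟩
  choose yn hyn hynt using hpt
  have hlift : ∀ n γ, ∃ p : rigP 𝒪 d, Ideal.Quotient.mk (Kn n) p = yn n γ := fun n γ =>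
    Ideal.Quotient.mk_surjective _
  choose s hs using hlift
  have hcompat : ∀ n γ, s (n + 1) γ - s n γ ∈ Kn n := by
    intro n γ
    have h1 := rpb_lift_point t hF hG2 (hTAn n) (Ideal.Quotient.mkₐ 𝒪 (Kn n)) (yn n) (hyn n)
      (hynt n) (Kn (n + 1)) (htopn (n + 1))
      (fun a ha => Ideal.Quotient.eq_zero_iff_mem.mpr (c5 n ha)) (hTAn (n + 1)) (yn (n + 1))
      (hyn (n + 1)) (hynt (n + 1)) γ
    rw [← hs (n + 1) γ, ← hs n γ] at h1
    exact Ideal.Quotient.eq.mp h1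
  have hlim : ∀ γ, ∃ x : rigP 𝒪 d, ∀ n, x - s n γ ∈ Kn n := by
    intro γ
    let J' : ℕ → Ideal (rigP 𝒪 d) := fun n => Nat.casesOn n ⊤ Kn
    let s' : ℕ → rigP 𝒪 d := fun n => Nat.casesOn n (s 0 γ) (fun m => s m γ)
    have hanti : Antitone J' := by
      refine antitone_nat_of_succ_le ?_
      intro n
      cases n with
      | zero => exact le_top
      | succ m => exact c5 m
    obtain ⟨x, hx⟩ := adicLimit_exists_of_compatible (rigI 𝒪 d) J' hanti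
      (fun n => by
        cases n with
        | zero => exact le_top
        | succ m => exact c3 m)
      (fun n => by
        cases n with
        | zero =>
          rw [pow_zero, Ideal.one_eq_top]
          exact le_sup_right
        | succ m => exact c6 m)
      s'
      (fun n => by
        cases n with
        | zero => exact Submodule.mem_top
        | succ m => exact hcompat m γ)
    exact ⟨x, fun n => hx (n + 1)⟩
  choose xt hxt using hlim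
  have hX1 : ∀ n γ, Ideal.Quotient.mk (Kn n) (xt γ) = yn n γ := by
    intro n γ
    rw [← hs n γ]
    exact Ideal.Quotient.eq.mpr (hxt γ n)
  have hJ0 : rigJ0 𝒪 d ϖ ≤ J := by
    rw [c9]
    exact le_iInf h0n
  have hX2 : ∀ i, Ideal.Quotient.mk J (xt (t i)) =
      Ideal.Quotient.mk J (MvPowerSeries.X (some i)) +
        algebraMap 𝒪 (rigP 𝒪 d ⧸ J) (r0 (t i)) := by
    intro i
    have h1 : xt (t i) - (MvPowerSeries.X (some i) + MvPowerSeries.C (r0 (t i))) ∈ J := by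
      rw [c9, Ideal.mem_iInf]
      intro n
      rw [← Ideal.Quotient.eq, hX1, hynt, map_add]
      rfl
    have h2 := Ideal.Quotient.eq.mpr h1
    rw [h2, map_add]
    rfl
  refine ⟨rigP 𝒪 d ⧸ J, inferInstance, hlocR, inferInstance, c10, inferInstance, c12,
    fun γ => Ideal.Quotient.mk J (xt γ), c13, ?_, ?_⟩
  · intro B _ _ _ hB q _
    haveI := hB.isArtinian
    obtain ⟨n, hn⟩ := FP.exists_maximalIdeal_pow_eq_bot (A := B)
    have hn1 : maximalIdeal B ^ (n + 1) = ⊥ := by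
      rw [eq_bot_iff, ← hn]
      exact Ideal.pow_le_pow_right (Nat.le_succ n)
    let f : rigP 𝒪 d →ₐ[𝒪] B := q.comp (Ideal.Quotient.mkₐ 𝒪 J)
    have hfJ : ∀ a ∈ J, f a = 0 := fun a ha => by
      show q (Ideal.Quotient.mk J a) = 0
      rw [Ideal.Quotient.eq_zero_iff_mem.mpr ha, map_zero]
    have hfK : ∀ a ∈ Kn n, f a = 0 := by
      intro a ha
      obtain ⟨j, hj, i, hi, rfl⟩ := Submodule.mem_sup.mp (c8 n ha)
      rw [map_add, hfJ j hj, zero_add]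
      exact rpb_pow_le_ker hB f hn1 hi
    have h1 : F (fun γ => Ideal.Quotient.liftₐ (Kn n) f hfK (yn n γ)) :=
      hF.map (hTAn n) hB (Ideal.Quotient.liftₐ (Kn n) f hfK)
        (sep_isLocalHom_of_algHom (hTAn n) _) (hyn n)
    have h2 : (fun γ => Ideal.Quotient.liftₐ (Kn n) f hfK (yn n γ)) =
        fun γ => q (Ideal.Quotient.mk J (xt γ)) := by
      funext γ
      rw [← hX1 n γ]
      rfl
    rw [← h2]
    exact h1
  · refine cnl_universal (F := F) _ ?_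
    intro A _ _ _ hA x hx
    obtain ⟨ψ, hψ0, hψt⟩ := rpb_exists_hom (d := d) t ϖ hF hϖm hA hx
    have hKS : RingHom.ker (ψ : rigP 𝒪 d →+* A) ∈ rpbS F r0 t ϖ :=
      rpb_ker_mem t ϖ hF hG1 hϖ hA ψ x hψ0 hx hψt _ rfl
    have hψJ : ∀ a ∈ J, ψ a = 0 := fun a ha => c1 _ hKS ha
    obtain ⟨n0, hn0⟩ := hKS.2.1
    have hψK : ∀ a ∈ Kn n0, ψ a = 0 := fun a ha =>
      c7 _ hKS n0 ((Ideal.pow_le_pow_right (Nat.le_succ n0)).trans hn0) ha
    have hψx : ∀ γ, ψ (xt γ) = x γ := by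
      intro γ
      have h1 := rpb_lift_point t hF hG2 hA ψ x hx hψt (Kn n0) (htopn n0) hψK (hTAn n0)
        (yn n0) (hyn n0) (hynt n0) γ
      rw [← hX1 n0 γ] at h1
      exact h1
    refine ⟨Ideal.Quotient.liftₐ J ψ hψJ, fun γ => hψx γ, ?_⟩
    intro φ hφ
    have key : φ.comp (Ideal.Quotient.mkₐ 𝒪 J) = ψ := by
      refine AbsRep.algHom_ext_X hA _ _ ?_
      intro o
      cases o with
      | none =>
        show φ (Ideal.Quotient.mk J (MvPowerSeries.X none)) = ψ (MvPowerSeries.X none)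
        rw [rpb_mk_X_none ϖ hJ0, AlgHom.commutes, hψ0]
      | some i =>
        show φ (Ideal.Quotient.mk J (MvPowerSeries.X (some i))) = ψ (MvPowerSeries.X (some i))
        have h1 : φ (Ideal.Quotient.mk J (xt (t i))) = x (t i) := hφ (t i)
        rw [hX2 i, map_add, AlgHom.commutes, hψt i] at h1
        exact add_right_cancel h1
    apply AlgHom.ext
    intro r
    obtain ⟨p, rfl⟩ := Ideal.Quotient.mk_surjective r
    exact congrArg (fun g => g p) key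


end Fermat.Agent.S53
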