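import Mathlib
import Fermat.Prelude.Def_GaloisRep_DeformationCondition
import Fermat.Agent.S53.RigidDefs
import Fermat.Agent.S53.RigidSep
import Fermat.Agent.S53.RigidCNL
import Fermat.Agent.S53.RigidLevels
import Fermat.Agent.S53.AdicLimit

set_option autoImplicit false
set_option linter.unusedSectionVars false
set_option linter.style.haveILetI false

namespace Fermat.Agent.S53

open IsLocalRing GaloisRep

section H16Core

variable {𝒪 : Type} [CommRing 𝒪] [IsDomain 𝒪] [IsDiscreteValuationRing 𝒪]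
  [IsAdicComplete (maximalIdeal 𝒪) 𝒪] [Finite (ResidueField 𝒪)]
variable {Γ : Type} {r0 : Γ → 𝒪}
  {F : ∀ ⦃A : Type⦄ [CommRing A] [IsLocalRing A] [Algebra 𝒪 A], (Γ → A) → Prop}
variable {d : ℕ}

/-- `ψ` presents the pair `(A, x)`: the extra variable goes to the uniformiser and the other
variables to the separating coordinates of `x`, shifted by the base point. -/
def h16_IsPres (ϖ : 𝒪) (t : Fin d → Γ) (r0 : Γ → 𝒪) {A : Type} [CommRing A] [Algebra 𝒪 A]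
    (x : Γ → A) (ψ : rigP 𝒪 d →ₐ[𝒪] A) : Prop :=
  ψ (MvPowerSeries.X none) = algebraMap 𝒪 A ϖ ∧
    ∀ j, ψ (MvPowerSeries.X (some j)) = x (t j) - algebraMap 𝒪 A (r0 (t j))

/-- The family of kernels of surjective presentations of pairs. -/
def h16_family (F : ∀ ⦃A : Type⦄ [CommRing A] [IsLocalRing A] [Algebra 𝒪 A], (Γ → A) → Prop)
    (ϖ : 𝒪) (t : Fin d → Γ) (r0 : Γ → 𝒪) : Set (Ideal (rigP 𝒪 d)) :=
  {K | ∃ (A : Type) (_ : CommRing A) (_ : IsLocalRing A) (_ : Algebra 𝒪 A)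
      (_ : IsArtinianTestAlgebra 𝒪 A) (x : Γ → A) (ψ : rigP 𝒪 d →ₐ[𝒪] A),
      F x ∧ Function.Surjective ψ ∧ h16_IsPres ϖ t r0 x ψ ∧
        RingHom.ker (ψ : rigP 𝒪 d →+* A) = K}

theorem h16_exists_pres (hF : IsRigidFunctor 𝒪 Γ r0 F) (ϖ : 𝒪) (hϖ : ϖ ∈ maximalIdeal 𝒪)
    (t : Fin d → Γ) {A : Type} [CommRing A] [IsLocalRing A] [Algebra 𝒪 A]
    (hA : IsArtinianTestAlgebra 𝒪 A) {x : Γ → A} (hx : F x) :
    ∃ ψ : rigP 𝒪 d →ₐ[𝒪] A, h16_IsPres ϖ t r0 x ψ := by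
  haveI := hA.isArtinian
  haveI := hA.isLocalHom
  set a : Option (Fin d) → A := fun o =>
    o.elim (algebraMap 𝒪 A ϖ) (fun j => x (t j) - algebraMap 𝒪 A (r0 (t j))) with ha
  have hmem : ∀ o, a o ∈ maximalIdeal A := by
    intro o
    cases o with
    | none =>
      show algebraMap 𝒪 A ϖ ∈ maximalIdeal A
      intro hu
      exact hϖ (hA.isLocalHom.map_nonunit _ hu)
    | some j => exact hF.residue hA hx (t j)
  have hspan : Ideal.span (Set.range a) ≤ maximalIdeal A := by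
    rw [Ideal.span_le]
    rintro _ ⟨o, rfl⟩
    exact hmem o
  obtain ⟨n, hn⟩ := FP.exists_maximalIdeal_pow_eq_bot (A := A)
  have h : Ideal.span (Set.range a) ^ n = ⊥ := by
    rw [eq_bot_iff, ← hn]
    exact Ideal.pow_right_mono hspan n
  refine ⟨AbsRep.evalTrunc a n h, ?_, fun j => ?_⟩
  · rw [AbsRep.evalTrunc_X]
    rfl
  · rw [AbsRep.evalTrunc_X]
    rfl

theorem h16_mem_range (ϖ : 𝒪) (t : Fin d → Γ) {A : Type} [CommRing A] [IsLocalRing A]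
    [Algebra 𝒪 A] {x : Γ → A} {ψ : rigP 𝒪 d →ₐ[𝒪] A} (hψ : h16_IsPres ϖ t r0 x ψ)
    (hgen : Algebra.adjoin 𝒪 (Set.range x) ≤ Algebra.adjoin 𝒪 (Set.range fun i => x (t i)))
    (γ : Γ) : x γ ∈ ψ.range := by
  have h1 : Algebra.adjoin 𝒪 (Set.range fun i => x (t i)) ≤ ψ.range := by
    refine Algebra.adjoin_le ?_
    rintro _ ⟨i, rfl⟩
    have h2 : x (t i) = ψ (MvPowerSeries.X (some i)) + algebraMap 𝒪 A (r0 (t i)) := by
      rw [hψ.2 i]; ring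
    show x (t i) ∈ ψ.range
    rw [h2]
    exact ψ.range.add_mem ⟨_, rfl⟩ (ψ.range.algebraMap_mem _)
  exact h1 (hgen (Algebra.subset_adjoin ⟨γ, rfl⟩))

/-- The kernel of any presentation of a pair belongs to the family (pass to the image). -/
theorem h16_ker_mem (hF : IsRigidFunctor 𝒪 Γ r0 F) (ϖ : 𝒪) (t : Fin d → Γ)
    (hgen : ∀ ⦃A : Type⦄ [CommRing A] [IsLocalRing A] [Algebra 𝒪 A], IsArtinianTestAlgebra 𝒪 A →
        ∀ ⦃x : Γ → A⦄, F x →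
          Algebra.adjoin 𝒪 (Set.range x) ≤ Algebra.adjoin 𝒪 (Set.range fun i => x (t i)))
    {A : Type} [CommRing A] [IsLocalRing A] [Algebra 𝒪 A]
    (hA : IsArtinianTestAlgebra 𝒪 A) {x : Γ → A} (hx : F x)
    {ψ : rigP 𝒪 d →ₐ[𝒪] A} (hψ : h16_IsPres ϖ t r0 x ψ) :
    RingHom.ker (ψ : rigP 𝒪 d →+* A) ∈ h16_family F ϖ t r0 := by
  letI : IsLocalRing ψ.range := sep_isLocalRing_subalgebra hA _
  have hE : IsArtinianTestAlgebra 𝒪 ψ.range := sep_isArtinianTestAlgebra_subalgebra hA _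
  have hmem := h16_mem_range ϖ t hψ (hgen hA hx)
  let x' : Γ → ψ.range := fun γ => ⟨x γ, hmem γ⟩
  have hx' : F x' := hF.of_injective hE hA ψ.range.val
    (sep_isLocalHom_subalgebra_val hA _) Subtype.val_injective hx
  refine ⟨ψ.range, inferInstance, inferInstance, inferInstance, hE, x', ψ.rangeRestrict, hx',
    ψ.rangeRestrict_surjective, ⟨?_, fun j => ?_⟩, ?_⟩
  · exact Subtype.ext hψ.1
  · exact Subtype.ext (hψ.2 j)
  · exact AlgHom.ker_rangeRestrict ψ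

theorem h16_pow_le_ker {B : Type} [CommRing B] [IsLocalRing B] [Algebra 𝒪 B]
    (hB : IsArtinianTestAlgebra 𝒪 B) (q : rigP 𝒪 d →ₐ[𝒪] B) {n : ℕ}
    (hn : maximalIdeal B ^ n = ⊥) :
    rigI 𝒪 d ^ n ≤ RingHom.ker (q : rigP 𝒪 d →+* B) := by
  intro p hp
  have h1 : p ∈ maximalIdeal (rigP 𝒪 d) ^ n :=
    Ideal.pow_right_mono (rigI_le_maximalIdeal 𝒪 d) n hp
  have h2 := AbsRep.map_maximalIdeal_pow_le AbsRep.isLocalHom_algebraMap_mvPowerSeries hB q n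
    (Ideal.mem_map_of_mem _ h1)
  rw [hn, Ideal.mem_bot] at h2
  exact h2

theorem h16_family_J0 (ϖ : 𝒪) (t : Fin d → Γ) {K : Ideal (rigP 𝒪 d)}
    (hK : K ∈ h16_family F ϖ t r0) : rigJ0 𝒪 d ϖ ≤ K := by
  obtain ⟨A, _, _, _, hA, x, ψ, hx, hsurj, hψ, rfl⟩ := hK
  rw [rigJ0, Ideal.span_le, Set.singleton_subset_iff, SetLike.mem_coe, RingHom.mem_ker]
  show ψ (MvPowerSeries.X none - MvPowerSeries.C ϖ) = 0
  rw [map_sub, hψ.1, MvPowerSeries.c_eq_algebraMap, AlgHom.commutes, sub_self]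

theorem h16_family_ne_top (ϖ : 𝒪) (t : Fin d → Γ) {K : Ideal (rigP 𝒪 d)}
    (hK : K ∈ h16_family F ϖ t r0) : K ≠ ⊤ := by
  obtain ⟨A, _, _, _, hA, x, ψ, hx, hsurj, hψ, rfl⟩ := hK
  exact RingHom.ker_ne_top _

theorem h16_family_pow (ϖ : 𝒪) (t : Fin d → Γ) {K : Ideal (rigP 𝒪 d)}
    (hK : K ∈ h16_family F ϖ t r0) : ∃ n, rigI 𝒪 d ^ n ≤ K := by
  obtain ⟨A, _, _, _, hA, x, ψ, hx, hsurj, hψ, rfl⟩ := hK
  haveI := hA.isArtinian
  obtain ⟨n, hn⟩ := FP.exists_maximalIdeal_pow_eq_bot (A := A)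
  exact ⟨n, h16_pow_le_ker hA ψ hn⟩

theorem h16_family_sup (hF : IsRigidFunctor 𝒪 Γ r0 F) (ϖ : 𝒪)
    (hϖ : maximalIdeal 𝒪 = Ideal.span {ϖ}) (t : Fin d → Γ) {K : Ideal (rigP 𝒪 d)}
    (hK : K ∈ h16_family F ϖ t r0) {n : ℕ} (hn : 0 < n) :
    K ⊔ rigI 𝒪 d ^ n ∈ h16_family F ϖ t r0 := by
  have hJ0 := h16_family_J0 ϖ t hK
  obtain ⟨A, _, _, _, hA, x, ψ, hx, hsurj, hψ, rfl⟩ := hK
  have hne : maximalIdeal A ^ n ≠ ⊤ := FP.maximalIdeal_pow_ne_top hn.ne'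
  letI : IsLocalRing (A ⧸ maximalIdeal A ^ n) := FP.isLocalRing_quotient hne
  have hB : IsArtinianTestAlgebra 𝒪 (A ⧸ maximalIdeal A ^ n) :=
    FP.isArtinianTestAlgebra_quotient_of_isArtinianTestAlgebra hA hne
  have hq : IsLocalHom ((Ideal.Quotient.mkₐ 𝒪 (maximalIdeal A ^ n) :
      A →ₐ[𝒪] A ⧸ maximalIdeal A ^ n) : A →+* A ⧸ maximalIdeal A ^ n) :=
    FP.isLocalHom_quotient_mkₐ hne
  have hx' : F (fun γ => Ideal.Quotient.mkₐ 𝒪 (maximalIdeal A ^ n) (x γ)) :=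
    hF.map hA hB _ hq hx
  refine ⟨A ⧸ maximalIdeal A ^ n, inferInstance, inferInstance, inferInstance, hB, _,
    (Ideal.Quotient.mkₐ 𝒪 (maximalIdeal A ^ n)).comp ψ, hx', ?_, ⟨?_, fun j => ?_⟩, ?_⟩
  · exact (Ideal.Quotient.mkₐ_surjective 𝒪 _).comp hsurj
  · show Ideal.Quotient.mkₐ 𝒪 (maximalIdeal A ^ n) (ψ (MvPowerSeries.X none)) = _
    rw [hψ.1, AlgHom.commutes]
  · show Ideal.Quotient.mkₐ 𝒪 (maximalIdeal A ^ n) (ψ (MvPowerSeries.X (some j))) = _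
    rw [hψ.2 j, map_sub, AlgHom.commutes]
  · ext p
    rw [RingHom.mem_ker]
    show Ideal.Quotient.mk (maximalIdeal A ^ n) (ψ p) = 0 ↔ _
    rw [Ideal.Quotient.eq_zero_iff_mem]
    have hmap : maximalIdeal A ≤ (maximalIdeal (rigP 𝒪 d)).map (ψ : rigP 𝒪 d →+* A) := by
      intro a ha
      obtain ⟨p, rfl⟩ := hsurj a
      refine Ideal.mem_map_of_mem _ ?_
      rw [mem_maximalIdeal, mem_nonunits_iff]
      intro hu
      exact ha (hu.map ψ)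
    constructor
    · intro h
      have h1 : ψ p ∈ (maximalIdeal (rigP 𝒪 d) ^ n).map (ψ : rigP 𝒪 d →+* A) := by
        rw [Ideal.map_pow]
        exact Ideal.pow_right_mono hmap n h
      obtain ⟨q, hq1, hq2⟩ := (Ideal.mem_map_iff_of_surjective _ hsurj).mp h1
      have h3 : p - q ∈ RingHom.ker (ψ : rigP 𝒪 d →+* A) := by
        rw [RingHom.mem_ker, map_sub, sub_eq_zero]
        exact hq2.symm
      have h4 : q ∈ RingHom.ker (ψ : rigP 𝒪 d →+* A) ⊔ rigI 𝒪 d ^ n :=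
        ((rig_maximalIdeal_pow_le 𝒪 d ϖ hϖ n).trans (sup_le_sup_right hJ0 _)) hq1
      have h5 : p = (p - q) + q := by ring
      rw [h5]
      exact Ideal.add_mem _ (Ideal.mem_sup_left h3) h4
    · intro h
      have hle : RingHom.ker (ψ : rigP 𝒪 d →+* A) ⊔ rigI 𝒪 d ^ n ≤
          Ideal.comap (ψ : rigP 𝒪 d →+* A) (maximalIdeal A ^ n) := by
        refine sup_le (fun p hp => ?_) (fun p hp => ?_)
        · rw [Ideal.mem_comap, RingHom.mem_ker.mp hp]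
          exact zero_mem _
        · exact AbsRep.map_maximalIdeal_pow_le AbsRep.isLocalHom_algebraMap_mvPowerSeries hA ψ n
            (Ideal.mem_map_of_mem _ (Ideal.pow_right_mono (rigI_le_maximalIdeal 𝒪 d) n hp))
      exact hle h

theorem h16_family_inf (hF : IsRigidFunctor 𝒪 Γ r0 F) (ϖ : 𝒪) (t : Fin d → Γ)
    (hgen : ∀ ⦃A : Type⦄ [CommRing A] [IsLocalRing A] [Algebra 𝒪 A], IsArtinianTestAlgebra 𝒪 A →
        ∀ ⦃x : Γ → A⦄, F x →
          Algebra.adjoin 𝒪 (Set.range x) ≤ Algebra.adjoin 𝒪 (Set.range fun i => x (t i)))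
    {K₁ K₂ : Ideal (rigP 𝒪 d)}
    (h₁ : K₁ ∈ h16_family F ϖ t r0) (h₂ : K₂ ∈ h16_family F ϖ t r0) :
    K₁ ⊓ K₂ ∈ h16_family F ϖ t r0 := by
  obtain ⟨A₁, _, _, _, hA₁, x₁, ψ₁, hx₁, hsurj₁, hψ₁, rfl⟩ := h₁
  obtain ⟨A₂, _, _, _, hA₂, x₂, ψ₂, hx₂, hsurj₂, hψ₂, rfl⟩ := h₂
  letI : IsLocalRing (FP.fibProdK hA₁ hA₂) := FP.isLocalRing_fibProdK hA₁ hA₂
  have hP : IsArtinianTestAlgebra 𝒪 (FP.fibProdK hA₁ hA₂) :=
    FP.isArtinianTestAlgebra_fibProdK hA₁ hA₂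
  have hmemψ : ∀ p, (ψ₁.prod ψ₂) p ∈ FP.fibProdK hA₁ hA₂ := by
    intro p
    rw [FP.mem_fibProd]
    show FP.resToOf hA₁ (ψ₁ p) = FP.resToOf hA₂ (ψ₂ p)
    rw [AbsRep.resToOf_algHom AbsRep.isLocalHom_algebraMap_mvPowerSeries
        AbsRep.residue_surjective_mvPowerSeries hA₁ ψ₁ p,
      AbsRep.resToOf_algHom AbsRep.isLocalHom_algebraMap_mvPowerSeries
        AbsRep.residue_surjective_mvPowerSeries hA₂ ψ₂ p]
  have hmemx : ∀ γ, (x₁ γ, x₂ γ) ∈ FP.fibProdK hA₁ hA₂ := by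
    intro γ
    rw [FP.mem_fibProd]
    have h1 := (FP.resTo_eq_zero_iff hA₁.isLocalHom hA₁.residue_surjective _).mpr
      (hF.residue hA₁ hx₁ γ)
    have h2 := (FP.resTo_eq_zero_iff hA₂.isLocalHom hA₂.residue_surjective _).mpr
      (hF.residue hA₂ hx₂ γ)
    rw [map_sub, sub_eq_zero, AlgHom.commutes] at h1 h2
    show FP.resToOf hA₁ (x₁ γ) = FP.resToOf hA₂ (x₂ γ)
    rw [h1, h2]
  let z : Γ → FP.fibProdK hA₁ hA₂ := fun γ => ⟨(x₁ γ, x₂ γ), hmemx γ⟩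
  have hz : F z := hF.of_fibreProduct hA₁ hA₂ FP.isArtinianTestAlgebra_residueField hP
    (FP.resToOf hA₁) (FP.resToOf hA₂) (FP.fibProdFst _ _) (FP.fibProdSnd _ _)
    (FP.isLocalHom_fibProdFst _ _ (FP.isLocalHom_resToOf hA₁) (FP.isLocalHom_resToOf hA₂))
    (FP.isLocalHom_fibProdSnd _ _ (FP.isLocalHom_resToOf hA₁) (FP.isLocalHom_resToOf hA₂))
    (FP.fibProd_comp_eq _ _) (FP.fibProd_injective _ _) (FP.fibProd_exists _ _) hx₁ hx₂
  let ψ : rigP 𝒪 d →ₐ[𝒪] FP.fibProdK hA₁ hA₂ :=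
    AlgHom.codRestrict (ψ₁.prod ψ₂) (FP.fibProdK hA₁ hA₂) hmemψ
  have hψ : h16_IsPres ϖ t r0 z ψ :=
    ⟨Subtype.ext (Prod.ext hψ₁.1 hψ₂.1), fun j => Subtype.ext (Prod.ext (hψ₁.2 j) (hψ₂.2 j))⟩
  have hker : RingHom.ker (ψ : rigP 𝒪 d →+* FP.fibProdK hA₁ hA₂) =
      RingHom.ker (ψ₁ : rigP 𝒪 d →+* A₁) ⊓ RingHom.ker (ψ₂ : rigP 𝒪 d →+* A₂) := by
    ext p
    rw [Ideal.mem_inf, RingHom.mem_ker, RingHom.mem_ker, RingHom.mem_ker]
    constructor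
    · intro h
      have h' : (ψ₁ p, ψ₂ p) = ((0 : A₁), (0 : A₂)) := congrArg Subtype.val h
      exact ⟨congrArg Prod.fst h', congrArg Prod.snd h'⟩
    · rintro ⟨h1, h2⟩
      exact Subtype.ext (Prod.ext h1 h2)
  rw [← hker]
  exact h16_ker_mem hF ϖ t hgen hP hz hψ

/-- Compatibility of presentations along kernel inclusions. -/
theorem h16_compat (hF : IsRigidFunctor 𝒪 Γ r0 F) (ϖ : 𝒪) (t : Fin d → Γ)
    (hdet : ∀ ⦃A : Type⦄ [CommRing A] [IsLocalRing A] [Algebra 𝒪 A], IsArtinianTestAlgebra 𝒪 A →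
        ∀ ⦃x y : Γ → A⦄, F x → F y → (∀ i, x (t i) = y (t i)) → x = y)
    {A A' : Type} [CommRing A] [IsLocalRing A] [Algebra 𝒪 A]
    [CommRing A'] [IsLocalRing A'] [Algebra 𝒪 A']
    (hA : IsArtinianTestAlgebra 𝒪 A) (hA' : IsArtinianTestAlgebra 𝒪 A')
    {x : Γ → A} {x' : Γ → A'} (hx : F x) (hx' : F x')
    {ψ : rigP 𝒪 d →ₐ[𝒪] A} {ψ' : rigP 𝒪 d →ₐ[𝒪] A'}
    (hψ : h16_IsPres ϖ t r0 x ψ) (hψ' : h16_IsPres ϖ t r0 x' ψ')
    (hsurj : Function.Surjective ψ)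
    (hle : RingHom.ker (ψ : rigP 𝒪 d →+* A) ≤ RingHom.ker (ψ' : rigP 𝒪 d →+* A'))
    (γ : Γ) (p : rigP 𝒪 d) (hp : ψ p = x γ) : ψ' p = x' γ := by
  let θ : A →ₐ[𝒪] A' := AlgHom.liftOfSurjective ψ hsurj ψ' hle
  have hθ : ∀ p, θ (ψ p) = ψ' p := fun p => AlgHom.liftOfSurjective_apply ψ hsurj ψ' hle p
  have hθx : F (fun γ => θ (x γ)) := hF.map hA hA' θ (sep_isLocalHom_of_algHom hA θ) hx
  have heq : (fun γ => θ (x γ)) = x' := hdet hA' hθx hx' (fun i => by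
    show θ (x (t i)) = x' (t i)
    have h1 : x (t i) = ψ (MvPowerSeries.X (some i)) + algebraMap 𝒪 A (r0 (t i)) := by
      rw [hψ.2 i]; ring
    have h2 : x' (t i) = ψ' (MvPowerSeries.X (some i)) + algebraMap 𝒪 A' (r0 (t i)) := by
      rw [hψ'.2 i]; ring
    rw [h1, h2, map_add, hθ, AlgHom.commutes])
  rw [← hθ, hp]
  exact congrFun heq γ

/-- The limit ring and its universal point over Artinian test algebras. -/
theorem h16_core_aux (hF : IsRigidFunctor 𝒪 Γ r0 F) (ϖ : 𝒪)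
    (hϖ : maximalIdeal 𝒪 = Ideal.span {ϖ}) (t : Fin d → Γ)
    (hgen : ∀ ⦃A : Type⦄ [CommRing A] [IsLocalRing A] [Algebra 𝒪 A], IsArtinianTestAlgebra 𝒪 A →
        ∀ ⦃x : Γ → A⦄, F x →
          Algebra.adjoin 𝒪 (Set.range x) ≤ Algebra.adjoin 𝒪 (Set.range fun i => x (t i)))
    (hdet : ∀ ⦃A : Type⦄ [CommRing A] [IsLocalRing A] [Algebra 𝒪 A], IsArtinianTestAlgebra 𝒪 A →
        ∀ ⦃x y : Γ → A⦄, F x → F y → (∀ i, x (t i) = y (t i)) → x = y) :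
    ∃ (J : Ideal (rigP 𝒪 d)) (_ : IsLocalRing (rigP 𝒪 d ⧸ J)) (xR : Γ → rigP 𝒪 d ⧸ J),
      IsAdicComplete (maximalIdeal (rigP 𝒪 d ⧸ J)) (rigP 𝒪 d ⧸ J) ∧
      IsLocalHom (algebraMap 𝒪 (rigP 𝒪 d ⧸ J)) ∧
      Function.Surjective (residue (rigP 𝒪 d ⧸ J) ∘ algebraMap 𝒪 (rigP 𝒪 d ⧸ J)) ∧
      (∀ ⦃B : Type⦄ [CommRing B] [IsLocalRing B] [Algebra 𝒪 B], IsArtinianTestAlgebra 𝒪 B →
        ∀ (q : rigP 𝒪 d ⧸ J →ₐ[𝒪] B), F (fun γ => q (xR γ))) ∧
      (∀ ⦃A : Type⦄ [CommRing A] [IsLocalRing A] [Algebra 𝒪 A],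
        IsArtinianTestAlgebra 𝒪 A → ∀ x : Γ → A, F x →
          ∃! φ : rigP 𝒪 d ⧸ J →ₐ[𝒪] A, ∀ γ, φ (xR γ) = x γ) := by
  have hϖmem : ϖ ∈ maximalIdeal 𝒪 := by
    rw [hϖ]
    exact Ideal.subset_span rfl
  -- the family is nonempty
  have hne : (h16_family F ϖ t r0).Nonempty := by
    obtain ⟨x0, hx0⟩ := hF.nonempty
    obtain ⟨ψ0, hψ0⟩ := h16_exists_pres hF ϖ hϖmem t
      (FP.isArtinianTestAlgebra_residueField (𝒪 := 𝒪)) hx0
    exact ⟨_, h16_ker_mem hF ϖ t hgen FP.isArtinianTestAlgebra_residueField hx0 hψ0⟩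
  obtain ⟨J, Kn, hloc, hJle, hKmem, hKpow, hJKn, hKanti, hKstep, hKmin, hKsup, hJeq, hcomp,
      hmaxeq, hlocalg, hres⟩ :=
    rig_levels 𝒪 d ϖ hϖ (h16_family F ϖ t r0) hne
      (fun K hK => h16_family_J0 ϖ t hK) (fun K hK => h16_family_ne_top ϖ t hK)
      (fun K hK => h16_family_pow ϖ t hK)
      (fun K₁ h₁ K₂ h₂ => h16_family_inf hF ϖ t hgen h₁ h₂)
      (fun K hK n hn => h16_family_sup hF ϖ hϖ t hK hn)
  have hJ0 : rigJ0 𝒪 d ϖ ≤ J := by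
    rw [hJeq]
    exact le_iInf fun n => h16_family_J0 ϖ t (hKmem n)
  -- choose presentations of the levels
  have hdata : ∀ n, ∃ (A : Type) (_ : CommRing A) (_ : IsLocalRing A) (_ : Algebra 𝒪 A)
      (_ : IsArtinianTestAlgebra 𝒪 A) (x : Γ → A) (ψ : rigP 𝒪 d →ₐ[𝒪] A),
      F x ∧ Function.Surjective ψ ∧ h16_IsPres ϖ t r0 x ψ ∧
        RingHom.ker (ψ : rigP 𝒪 d →+* A) = Kn n := fun n => hKmem n
  choose A instCR instLR instAlg hA x ψ hx hsurj hψ hker using hdata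
  have hlift : ∀ γ n, ∃ p : rigP 𝒪 d, ψ n p = x n γ := fun γ n => hsurj n (x n γ)
  choose s hs using hlift
  have hcompat : ∀ (m n : ℕ), Kn m ≤ Kn n → ∀ γ p, ψ m p = x m γ → ψ n p = x n γ := by
    intro m n hmn γ p hp
    exact h16_compat hF ϖ t hdet (hA m) (hA n) (hx m) (hx n) (hψ m) (hψ n) (hsurj m)
      (by rw [hker m, hker n]; exact hmn) γ p hp
  -- the limit point
  have hlim : ∀ γ, ∃ y : rigP 𝒪 d, ∀ n, y - s γ n ∈ Kn n := by
    intro γ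
    let J' : ℕ → Ideal (rigP 𝒪 d) := fun n => Nat.casesOn n ⊤ Kn
    let s' : ℕ → rigP 𝒪 d := fun n => Nat.casesOn n 0 (s γ)
    have hanti : Antitone J' := antitone_nat_of_succ_le (fun n => by
      cases n with
      | zero => exact le_top
      | succ n => exact hKanti n)
    have hpow' : ∀ n, rigI 𝒪 d ^ n ≤ J' n := fun n => by
      cases n with
      | zero => exact le_top
      | succ n => exact hKpow n
    have hstep' : ∀ n, J' n ≤ J' (n + 1) ⊔ rigI 𝒪 d ^ n := fun n => by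
      cases n with
      | zero =>
        rw [pow_zero, Ideal.one_eq_top]
        exact le_sup_right
      | succ n => exact hKstep n
    have hs' : ∀ n, s' (n + 1) - s' n ∈ J' n := fun n => by
      cases n with
      | zero => exact Submodule.mem_top
      | succ n =>
        show s γ (n + 1) - s γ n ∈ Kn n
        rw [← hker n, RingHom.mem_ker, map_sub, sub_eq_zero]
        show ψ n (s γ (n + 1)) = ψ n (s γ n)
        rw [hs γ n]
        exact hcompat (n + 1) n (hKanti n) γ _ (hs γ (n + 1))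
    obtain ⟨y, hy⟩ := adicLimit_exists_of_compatible (rigI 𝒪 d) J' hanti hpow' hstep' s' hs'
    exact ⟨y, fun n => hy (n + 1)⟩
  choose y hy using hlim
  have hψy : ∀ n γ, ψ n (y γ) = x n γ := by
    intro n γ
    have h1 := hy γ n
    rw [← hker n, RingHom.mem_ker, map_sub, sub_eq_zero] at h1
    rw [← hs γ n]
    exact h1
  -- the separating coordinates of the limit point
  have hxt : ∀ j, Ideal.Quotient.mk J (MvPowerSeries.X (some j)) =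
      Ideal.Quotient.mk J (y (t j)) - algebraMap 𝒪 (rigP 𝒪 d ⧸ J) (r0 (t j)) := by
    intro j
    have h1 : algebraMap 𝒪 (rigP 𝒪 d ⧸ J) (r0 (t j)) =
        Ideal.Quotient.mk J (algebraMap 𝒪 (rigP 𝒪 d) (r0 (t j))) := rfl
    rw [h1, ← map_sub, Ideal.Quotient.eq, hJeq, Ideal.mem_iInf]
    intro n
    rw [← hker n, RingHom.mem_ker]
    show ψ n (MvPowerSeries.X (some j) - (y (t j) - algebraMap 𝒪 (rigP 𝒪 d) (r0 (t j)))) = 0
    rw [map_sub, map_sub, (hψ n).2 j, hψy n (t j), AlgHom.commutes, sub_self]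
  refine ⟨J, hloc, fun γ => Ideal.Quotient.mk J (y γ), hcomp, hlocalg, hres, ?_, ?_⟩
  · -- every specialisation of the limit point is an `F`-point
    intro B _ _ _ hB q
    haveI := hB.isArtinian
    obtain ⟨n, hn⟩ := FP.exists_maximalIdeal_pow_eq_bot (A := B)
    let q' : rigP 𝒪 d →ₐ[𝒪] B := q.comp (Ideal.Quotient.mkₐ 𝒪 J)
    have hle : RingHom.ker (ψ n : rigP 𝒪 d →+* A n) ≤ RingHom.ker (q' : rigP 𝒪 d →+* B) := by
      rw [hker n]
      refine (hKsup n).trans (sup_le ?_ ?_)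
      · intro p hp
        rw [RingHom.mem_ker]
        show q (Ideal.Quotient.mk J p) = 0
        rw [Ideal.Quotient.eq_zero_iff_mem.mpr hp, map_zero]
      · exact h16_pow_le_ker hB q' (n := n + 1) (by rw [pow_succ, hn, Ideal.bot_mul])
    let θ : A n →ₐ[𝒪] B := AlgHom.liftOfSurjective (ψ n) (hsurj n) q' hle
    have hθ : ∀ p, θ (ψ n p) = q' p := fun p =>
      AlgHom.liftOfSurjective_apply (ψ n) (hsurj n) q' hle p
    have h1 : F (fun γ => θ (x n γ)) :=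
      hF.map (hA n) hB θ (sep_isLocalHom_of_algHom (hA n) θ) (hx n)
    have heq : (fun γ => θ (x n γ)) = fun γ => q (Ideal.Quotient.mk J (y γ)) := by
      funext γ
      rw [← hψy n γ, hθ]
      rfl
    rw [← heq]
    exact h1
  · -- universality over Artinian test algebras
    intro A' _ _ _ hA' x' hx'
    obtain ⟨ψ', hψ'⟩ := h16_exists_pres hF ϖ hϖmem t hA' hx'
    have hK' := h16_ker_mem hF ϖ t hgen hA' hx' hψ'
    have hJK' : J ≤ RingHom.ker (ψ' : rigP 𝒪 d →+* A') := hJle _ hK'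
    obtain ⟨n, hn⟩ := h16_family_pow ϖ t hK'
    have hKn : Kn n ≤ RingHom.ker (ψ' : rigP 𝒪 d →+* A') :=
      hKmin _ hK' n ((Ideal.pow_le_pow_right (Nat.le_succ n)).trans hn)
    refine ⟨Ideal.Quotient.liftₐ J ψ' (fun p hp => hJK' hp), fun γ => ?_, fun φ hφ => ?_⟩
    · show ψ' (y γ) = x' γ
      exact h16_compat hF ϖ t hdet (hA n) hA' (hx n) hx' (hψ n) hψ' (hsurj n)
        (by rw [hker n]; exact hKn) γ (y γ) (hψy n γ)
    · have hcompφ : φ.comp (Ideal.Quotient.mkₐ 𝒪 J) = ψ' := by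
        apply AbsRep.algHom_ext_X hA'
        intro o
        cases o with
        | none =>
          show φ (Ideal.Quotient.mk J (MvPowerSeries.X none)) = ψ' (MvPowerSeries.X none)
          rw [hψ'.1]
          have h1 : Ideal.Quotient.mk J (MvPowerSeries.X none) =
              Ideal.Quotient.mk J (MvPowerSeries.C ϖ) := by
            rw [Ideal.Quotient.eq]
            exact hJ0 (Ideal.subset_span rfl)
          rw [h1]
          exact φ.commutes ϖ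
        | some j =>
          show φ (Ideal.Quotient.mk J (MvPowerSeries.X (some j))) = ψ' (MvPowerSeries.X (some j))
          rw [hψ'.2 j, ← hφ (t j), hxt j, map_sub, AlgHom.commutes]
      apply AlgHom.ext
      intro r
      obtain ⟨p, rfl⟩ := Ideal.Quotient.mk_surjective r
      show φ (Ideal.Quotient.mk J p) = ψ' p
      exact DFunLike.congr_fun hcompφ p

end H16Core

/-- **Representability of a rigid functor** (backup copy of the core glue, statement of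
`exists_universal_of_isRigidFunctor`). -/
theorem h16_exists_universal_of_isRigidFunctor (𝒪 : Type) [CommRing 𝒪] [IsDomain 𝒪]
    [IsDiscreteValuationRing 𝒪] [IsAdicComplete (maximalIdeal 𝒪) 𝒪] [Finite (ResidueField 𝒪)]
    (Γ : Type) (r0 : Γ → 𝒪)
    (F : ∀ ⦃A : Type⦄ [CommRing A] [IsLocalRing A] [Algebra 𝒪 A], (Γ → A) → Prop)
    (hF : IsRigidFunctor 𝒪 Γ r0 F) :
    ∃ (R : Type) (_ : CommRing R) (_ : IsLocalRing R) (_ : IsNoetherianRing R)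
      (_ : IsAdicComplete (maximalIdeal R) R) (_ : Algebra 𝒪 R)
      (_ : IsLocalHom (algebraMap 𝒪 R)) (xR : Γ → R),
      Function.Surjective (residue R ∘ algebraMap 𝒪 R) ∧
      (∀ ⦃B : Type⦄ [CommRing B] [IsLocalRing B] [Algebra 𝒪 B], IsArtinianTestAlgebra 𝒪 B →
        ∀ (q : R →ₐ[𝒪] B), IsLocalHom (q : R →+* B) → F (fun γ => q (xR γ))) ∧
      (∀ (A : Type) [CommRing A] [IsLocalRing A] [IsNoetherianRing A]
        [IsAdicComplete (maximalIdeal A) A] [Algebra 𝒪 A] [IsLocalHom (algebraMap 𝒪 A)],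
        Function.Surjective (residue A ∘ algebraMap 𝒪 A) → ∀ x : Γ → A,
          (∀ ⦃B : Type⦄ [CommRing B] [IsLocalRing B] [Algebra 𝒪 B], IsArtinianTestAlgebra 𝒪 B →
            ∀ (q : A →ₐ[𝒪] B), IsLocalHom (q : A →+* B) → Function.Surjective q →
              F (fun γ => q (x γ))) →
          ∃! φ : R →ₐ[𝒪] A, ∀ γ, φ (xR γ) = x γ) := by
  obtain ⟨ϖ, hirr⟩ := IsDiscreteValuationRing.exists_irreducible 𝒪
  have hϖ : maximalIdeal 𝒪 = Ideal.span {ϖ} := hirr.maximalIdeal_eq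
  obtain ⟨d, t, hgen, hdet⟩ := exists_separating hF
  obtain ⟨J, hloc, xR, hcomp, hlocalg, hres, hU1, hart⟩ := h16_core_aux hF ϖ hϖ t hgen hdet
  exact ⟨rigP 𝒪 d ⧸ J, inferInstance, hloc, inferInstance, hcomp, inferInstance, hlocalg, xR,
    hres, fun B _ _ _ hB q _ => hU1 hB q, cnl_universal xR hart⟩

end Fermat.Agent.S53
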