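import Fermat.Agent.S53.Defs
import Fermat.Agent.S53.Slice
import Fermat.Agent.S53.AdicLimit

set_option autoImplicit false

namespace Fermat.Agent.S53

open IsLocalRing

section EntryInLemmas

variable {A : Type} [CommRing A]

theorem h17_entryIn_zero (I : Ideal A) : EntryIn I (0 : M2 A) := fun _ _ => I.zero_mem

theorem h17_entryIn_add {I : Ideal A} {X Y : M2 A} (hX : EntryIn I X) (hY : EntryIn I Y) :
    EntryIn I (X + Y) := fun i j => I.add_mem (hX i j) (hY i j)

theorem h17_entryIn_sub {I : Ideal A} {X Y : M2 A} (hX : EntryIn I X) (hY : EntryIn I Y) :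
    EntryIn I (X - Y) := fun i j => I.sub_mem (hX i j) (hY i j)

theorem h17_entryIn_neg {I : Ideal A} {X : M2 A} (hX : EntryIn I X) : EntryIn I (-X) :=
  fun i j => I.neg_mem (hX i j)

theorem h17_entryIn_sub_comm {I : Ideal A} {X Y : M2 A} (hX : EntryIn I (X - Y)) :
    EntryIn I (Y - X) := by
  have h := h17_entryIn_neg hX
  rwa [neg_sub] at h

theorem h17_entryIn_smul {I : Ideal A} (c : A) {X : M2 A} (hX : EntryIn I X) :
    EntryIn I (c • X) := fun i j => I.mul_mem_left c (hX i j)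

theorem h17_entryIn_smul_of_mem {I : Ideal A} {c : A} (hc : c ∈ I) (X : M2 A) :
    EntryIn I (c • X) := fun _ _ => I.mul_mem_right _ hc

theorem h17_entryIn_mul_left {I : Ideal A} (Y : M2 A) {X : M2 A} (hX : EntryIn I X) :
    EntryIn I (Y * X) := fun i j => by
  rw [Matrix.mul_apply]
  exact I.sum_mem fun k _ => I.mul_mem_left _ (hX k j)

theorem h17_entryIn_mul_right {I : Ideal A} {X : M2 A} (hX : EntryIn I X) (Y : M2 A) :
    EntryIn I (X * Y) := fun i j => by
  rw [Matrix.mul_apply]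
  exact I.sum_mem fun k _ => I.mul_mem_right _ (hX i k)

theorem h17_entryIn_mul {I J : Ideal A} {X Y : M2 A} (hX : EntryIn I X) (hY : EntryIn J Y) :
    EntryIn (I * J) (X * Y) := fun i j => by
  rw [Matrix.mul_apply]
  exact Ideal.sum_mem _ fun k _ => Ideal.mul_mem_mul (hX i k) (hY k j)

theorem h17_entryIn_mono {I J : Ideal A} (h : I ≤ J) {X : M2 A} (hX : EntryIn I X) :
    EntryIn J X := fun i j => h (hX i j)

theorem h17_entryIn_sum {I : Ideal A} {ι : Type} (s : Finset ι) (f : ι → M2 A)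
    (h : ∀ b ∈ s, EntryIn I (f b)) : EntryIn I (∑ b ∈ s, f b) := fun i j => by
  rw [Matrix.sum_apply]
  exact I.sum_mem fun b hb => h b hb i j

end EntryInLemmas

section SliceOverA

variable {𝒪 : Type} [CommRing 𝒪]
variable {A : Type} [CommRing A] [Algebra 𝒪 A]
variable {r0 : GQ → M2 𝒪} (S : SliceData 𝒪 r0)

/-- The decomposition of `SliceData`, transported to any `𝒪`-algebra. -/
theorem h17_decomp (Y : M2 A) :
    Y = Y 0 0 • (1 : M2 A) +
      ∑ b, (Y * (r0 (S.g b)).map (algebraMap 𝒪 A) - (r0 (S.g b)).map (algebraMap 𝒪 A) * Y)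
        (S.i b) (S.j b) • (S.X b).map (algebraMap 𝒪 A) := by
  let f := algebraMap 𝒪 A
  let L := sliceMap (fun σ => (r0 σ).map f) S.g S.i S.j
  let E : A × (Fin 3 → A) →ₗ[A] M2 A :=
    (LinearMap.fst A A (Fin 3 → A)).smulRight (1 : M2 A) +
      ∑ b, ((LinearMap.proj b).comp (LinearMap.snd A A (Fin 3 → A))).smulRight ((S.X b).map f)
  have hE : ∀ y, E y = y.1 • (1 : M2 A) + ∑ b, y.2 b • (S.X b).map f := by
    intro y
    simp [E, LinearMap.sum_apply]
  have hD : E.comp L = LinearMap.id := by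
    refine (Matrix.stdBasis A (Fin 2) (Fin 2)).ext fun pq => ?_
    obtain ⟨p, q⟩ := pq
    rw [Matrix.stdBasis_eq_single]
    have hs : Matrix.single p q (1 : A) = (Matrix.single p q (1 : 𝒪)).map f := by
      rw [Matrix.map_single, map_one]
    rw [hs, LinearMap.comp_apply, LinearMap.id_apply, hE]
    have hL := sliceMap_map f r0 S.g S.i S.j (Matrix.single p q (1 : 𝒪))
    have hL1 : (L ((Matrix.single p q (1 : 𝒪)).map f)).1 =
        f ((sliceMap r0 S.g S.i S.j (Matrix.single p q (1 : 𝒪))).1) := congrArg Prod.fst hL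
    have hL2 : ∀ b, (L ((Matrix.single p q (1 : 𝒪)).map f)).2 b =
        f ((sliceMap r0 S.g S.i S.j (Matrix.single p q (1 : 𝒪))).2 b) :=
      fun b => congrFun (congrArg Prod.snd hL) b
    simp only [hL1, hL2, sliceMap_fst, sliceMap_snd]
    have hd := S.decomp (Matrix.single p q (1 : 𝒪))
    ext u v
    have hd' := congrArg (fun M : M2 𝒪 => f (M u v)) hd
    simp only [Matrix.add_apply, Matrix.smul_apply, Matrix.sum_apply, smul_eq_mul, map_add,
      map_mul, map_sum] at hd'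
    simp only [Matrix.add_apply, Matrix.smul_apply, Matrix.sum_apply, smul_eq_mul,
      Matrix.map_apply]
    rw [hd']
    congr 2
    by_cases huv : u = v
    · subst huv; simp
    · simp [Matrix.one_apply_ne huv]
  have := congrArg (fun D : M2 A →ₗ[A] M2 A => D Y) hD
  simp only [LinearMap.comp_apply, LinearMap.id_apply, hE] at this
  exact this.symm

/-- If the slice coordinates of `X` lie in an ideal, so do all entries of `X`. -/
theorem h17_entryIn_of_slice (I : Ideal A) (X : M2 A) (h0 : X 0 0 ∈ I)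
    (h1 : ∀ b, (X * (r0 (S.g b)).map (algebraMap 𝒪 A) - (r0 (S.g b)).map (algebraMap 𝒪 A) * X)
        (S.i b) (S.j b) ∈ I) : EntryIn I X := by
  rw [h17_decomp S X]
  exact h17_entryIn_add (h17_entryIn_smul_of_mem h0 _)
    (h17_entryIn_sum _ _ fun b _ => h17_entryIn_smul_of_mem (h1 b) _)

/-- The duality relation of `SliceData`, transported to any `𝒪`-algebra. -/
theorem h17_dual (a b : Fin 3) :
    ((S.X b).map (algebraMap 𝒪 A) * (r0 (S.g a)).map (algebraMap 𝒪 A) -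
      (r0 (S.g a)).map (algebraMap 𝒪 A) * (S.X b).map (algebraMap 𝒪 A)) (S.i a) (S.j a) =
      if a = b then 1 else 0 := by
  have h := congrArg (algebraMap 𝒪 A) (S.dual a b)
  rw [apply_ite (algebraMap 𝒪 A), map_one, map_zero] at h
  rw [← h, ← Matrix.map_mul, ← Matrix.map_mul, Matrix.sub_apply, Matrix.map_apply,
    Matrix.map_apply, Matrix.sub_apply, map_sub]

end SliceOverA

section RingAux

theorem h17_ring_aux {M : Type*} [Ring M] (X P P' R : M) (h : P - P' = P' * X - X * P) :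
    X * R - R * X = ((P' - P) * X + (P' - P)) - (X * (P - R) - (P - R) * X) := by
  have h4 : X * P = P' * X - (P - P') := by
    rw [h]
    abel
  rw [mul_sub X P R, sub_mul P R X, sub_mul P' P X, h4]
  abel

end RingAux

section Unique

variable {𝒪 : Type} [CommRing 𝒪]
variable {A : Type} [CommRing A] [IsLocalRing A] [Algebra 𝒪 A]

/-- A matrix congruent to `1` modulo the maximal ideal has unit determinant. -/
theorem h17_isUnit_det_of_entryIn (h : M2 A) (hh : EntryIn (maximalIdeal A) (h - 1)) :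
    IsUnit h.det := by
  by_contra hnu
  have hmem : h.det ∈ maximalIdeal A := (IsLocalRing.mem_maximalIdeal _).mpr hnu
  have h00 : h 0 0 - 1 ∈ maximalIdeal A := by simpa using hh 0 0
  have h11 : h 1 1 - 1 ∈ maximalIdeal A := by simpa using hh 1 1
  have h01 : h 0 1 ∈ maximalIdeal A := by simpa using hh 0 1
  have h10 : h 1 0 ∈ maximalIdeal A := by simpa using hh 1 0
  rw [Matrix.det_fin_two] at hmem
  have h1 : (1 : A) ∈ maximalIdeal A := by
    have e : (1 : A) = (h 0 0 * h 1 1 - h 0 1 * h 1 0) - (h 0 0 - 1) * h 1 1 - (h 1 1 - 1)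
        + h 0 1 * h 1 0 := by ring
    rw [e]
    exact Ideal.add_mem _ (Ideal.sub_mem _ (Ideal.sub_mem _ hmem (Ideal.mul_mem_right _ _ h00)) h11)
      (Ideal.mul_mem_right _ _ h01)
  exact (IsLocalRing.mem_maximalIdeal _).mp h1 isUnit_one

theorem h17_slice_unique [IsHausdorff (maximalIdeal A) A] {r0 : GQ → M2 𝒪} (S : SliceData 𝒪 r0)
    (ρ ρ' : GQ → M2 A) (hρ : IsLiftOf r0 ρ) (hρ' : IsLiftOf r0 ρ')
    (nρ : IsNormalized S ρ) (nρ' : IsNormalized S ρ')
    (g : M2 A) (hg : IsUnit g) (hconj : ∀ σ, g * ρ σ = ρ' σ * g) : ρ = ρ' := by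
  have hcomm : ∀ σ, EntryIn (maximalIdeal A)
      (g * (r0 σ).map (algebraMap 𝒪 A) - (r0 σ).map (algebraMap 𝒪 A) * g) := by
    intro σ
    have e : g * (r0 σ).map (algebraMap 𝒪 A) - (r0 σ).map (algebraMap 𝒪 A) * g =
        g * ((r0 σ).map (algebraMap 𝒪 A) - ρ σ) + (ρ' σ - (r0 σ).map (algebraMap 𝒪 A)) * g := by
      rw [mul_sub, sub_mul, hconj σ]
      abel
    rw [e]
    exact h17_entryIn_add (h17_entryIn_mul_left g (h17_entryIn_sub_comm (hρ σ)))
      (h17_entryIn_mul_right (hρ' σ) g)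
  have h1 : EntryIn (maximalIdeal A) (g - g 0 0 • (1 : M2 A)) := by
    have hd := h17_decomp S g
    have e : g - g 0 0 • (1 : M2 A) =
        ∑ b, (g * (r0 (S.g b)).map (algebraMap 𝒪 A) - (r0 (S.g b)).map (algebraMap 𝒪 A) * g)
          (S.i b) (S.j b) • (S.X b).map (algebraMap 𝒪 A) := by
      rw [sub_eq_iff_eq_add']
      exact hd
    rw [e]
    exact h17_entryIn_sum _ _ fun b _ => h17_entryIn_smul_of_mem (hcomm (S.g b) _ _) _
  have hu : IsUnit (g 0 0) := by
    by_contra hnu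
    have hmem : g 0 0 ∈ maximalIdeal A := (IsLocalRing.mem_maximalIdeal _).mpr hnu
    have hgm : EntryIn (maximalIdeal A) g := by
      have e : g = g 0 0 • (1 : M2 A) + (g - g 0 0 • (1 : M2 A)) := by abel
      rw [e]
      exact h17_entryIn_add (h17_entryIn_smul_of_mem hmem _) h1
    have hdet : g.det ∈ maximalIdeal A := by
      rw [Matrix.det_fin_two]
      exact Ideal.sub_mem _ (Ideal.mul_mem_right _ _ (hgm 0 0)) (Ideal.mul_mem_right _ _ (hgm 0 1))
    have hdu : IsUnit g.det := (Matrix.isUnit_iff_isUnit_det g).mp hg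
    exact (IsLocalRing.mem_maximalIdeal _).mp hdet hdu
  obtain ⟨u, hu'⟩ := hu.exists_left_inv
  have hconj' : ∀ σ, (u • g) * ρ σ = ρ' σ * (u • g) := by
    intro σ
    rw [Matrix.smul_mul, Matrix.mul_smul, hconj σ]
  have h00 : (u • g) 0 0 = 1 := by
    rw [Matrix.smul_apply, smul_eq_mul, hu']
  have hX1 : EntryIn (maximalIdeal A) (u • g - 1) := by
    have e : u • g - 1 = u • (g - g 0 0 • (1 : M2 A)) := by
      rw [smul_sub, smul_smul, hu', one_smul]
    rw [e]
    exact h17_entryIn_smul u h1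
  have hind : ∀ n, 1 ≤ n → EntryIn (maximalIdeal A ^ n) (u • g - 1) := by
    intro n hn
    induction n, hn using Nat.le_induction with
    | base => rw [pow_one]; exact hX1
    | succ n hn ih =>
      have hdiff : ∀ σ, ρ σ - ρ' σ = ρ' σ * (u • g - 1) - (u • g - 1) * ρ σ := by
        intro σ
        have h3 := hconj' σ
        rw [mul_sub, sub_mul, mul_one, one_mul, ← h3]
        abel
      have hdiffm : ∀ σ, EntryIn (maximalIdeal A ^ n) (ρ σ - ρ' σ) := fun σ => by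
        rw [hdiff σ]
        exact h17_entryIn_sub (h17_entryIn_mul_left _ ih) (h17_entryIn_mul_right ih _)
      refine h17_entryIn_of_slice S (maximalIdeal A ^ (n + 1)) (u • g - 1) ?_ ?_
      · have e : (u • g - 1) 0 0 = 0 := by
          rw [Matrix.sub_apply, h00, Matrix.one_apply_eq, sub_self]
        rw [e]
        exact Ideal.zero_mem _
      · intro b
        have e1 : (u • g - 1) * (r0 (S.g b)).map (algebraMap 𝒪 A) -
            (r0 (S.g b)).map (algebraMap 𝒪 A) * (u • g - 1) =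
            ((ρ' (S.g b) - ρ (S.g b)) * (u • g - 1) + (ρ' (S.g b) - ρ (S.g b))) -
            ((u • g - 1) * (ρ (S.g b) - (r0 (S.g b)).map (algebraMap 𝒪 A)) -
              (ρ (S.g b) - (r0 (S.g b)).map (algebraMap 𝒪 A)) * (u • g - 1)) :=
          h17_ring_aux _ _ _ _ (hdiff (S.g b))
        rw [e1, Matrix.sub_apply, Matrix.add_apply]
        have hn0 : (ρ' (S.g b) - ρ (S.g b)) (S.i b) (S.j b) = 0 := by
          rw [Matrix.sub_apply, nρ b, nρ' b, sub_self]
        rw [hn0, add_zero]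
        have hpow : maximalIdeal A ^ n * maximalIdeal A ^ n ≤ maximalIdeal A ^ (n + 1) := by
          rw [← pow_add]
          exact Ideal.pow_le_pow_right (by omega)
        have hpow1 : maximalIdeal A ^ n * maximalIdeal A ≤ maximalIdeal A ^ (n + 1) := by
          rw [pow_succ]
        have hpow2 : maximalIdeal A * maximalIdeal A ^ n ≤ maximalIdeal A ^ (n + 1) := by
          rw [pow_succ']
        refine Ideal.sub_mem _
          (hpow (h17_entryIn_mul (h17_entryIn_sub_comm (hdiffm (S.g b))) ih _ _)) ?_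
        rw [Matrix.sub_apply]
        exact Ideal.sub_mem _ (hpow1 (h17_entryIn_mul ih (hρ (S.g b)) _ _))
          (hpow2 (h17_entryIn_mul (hρ (S.g b)) ih _ _))
  have hX0 : u • g - 1 = 0 := by
    ext p q
    have hmem : (u • g - 1) p q ∈ ⨅ n, maximalIdeal A ^ n := by
      rw [Ideal.mem_iInf]
      intro n
      rcases Nat.eq_zero_or_pos n with rfl | hn
      · simp
      · exact hind n hn p q
    rw [iInf_pow_eq_bot_of_isHausdorff] at hmem
    simpa using hmem
  have hh1 : u • g = 1 := sub_eq_zero.mp hX0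
  funext σ
  have h3 := hconj' σ
  rw [hh1, one_mul, mul_one] at h3
  exact h3

end Unique

section Exists

variable {𝒪 : Type} [CommRing 𝒪]
variable {A : Type} [CommRing A] [IsLocalRing A] [Algebra 𝒪 A]

/-- The correction matrix of one approximation step. -/
noncomputable def h17_corr {r0 : GQ → M2 𝒪} (S : SliceData 𝒪 r0) (ρ : GQ → M2 A) (h : M2 A) :
    M2 A :=
  ∑ b, (algebraMap 𝒪 A (r0 (S.g b) (S.i b) (S.j b)) - (h * ρ (S.g b) * h⁻¹) (S.i b) (S.j b)) •
    (S.X b).map (algebraMap 𝒪 A)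

/-- The approximating sequence of conjugating matrices. -/
noncomputable def h17_seq {r0 : GQ → M2 𝒪} (S : SliceData 𝒪 r0) (ρ : GQ → M2 A) : ℕ → M2 A
  | 0 => 1
  | n + 1 => (1 + h17_corr S ρ (h17_seq S ρ n)) * h17_seq S ρ n

omit [IsLocalRing A] in
theorem h17_seq_succ {r0 : GQ → M2 𝒪} (S : SliceData 𝒪 r0) (ρ : GQ → M2 A) (n : ℕ) :
    h17_seq S ρ (n + 1) = (1 + h17_corr S ρ (h17_seq S ρ n)) * h17_seq S ρ n := rfl

/-- Conjugating a lift by a matrix congruent to `1` gives a lift. -/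
theorem h17_conj_sub_entryIn {r0 : GQ → M2 𝒪} (ρ : GQ → M2 A) (hρ : IsLiftOf r0 ρ) (h : M2 A)
    (hh : EntryIn (maximalIdeal A) (h - 1)) (σ : GQ) :
    EntryIn (maximalIdeal A) (h * ρ σ * h⁻¹ - (r0 σ).map (algebraMap 𝒪 A)) := by
  have hu := h17_isUnit_det_of_entryIn h hh
  have hinv : h * h⁻¹ = 1 := Matrix.mul_nonsing_inv h hu
  have e : h * ρ σ * h⁻¹ - (r0 σ).map (algebraMap 𝒪 A) =
      ((h - 1) * ρ σ - ρ σ * (h - 1)) * h⁻¹ + (ρ σ - (r0 σ).map (algebraMap 𝒪 A)) := by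
    have e2 : ((h - 1) * ρ σ - ρ σ * (h - 1)) * h⁻¹ = h * ρ σ * h⁻¹ - ρ σ := by
      have e3 : (h - 1) * ρ σ - ρ σ * (h - 1) = h * ρ σ - ρ σ * h := by
        rw [sub_mul, mul_sub, one_mul, mul_one]
        abel
      rw [e3, sub_mul, mul_assoc (ρ σ) h h⁻¹, hinv, mul_one]
    rw [e2]
    abel
  rw [e]
  exact h17_entryIn_add (h17_entryIn_mul_right
    (h17_entryIn_sub (h17_entryIn_mul_right hh _) (h17_entryIn_mul_left _ hh)) _) (hρ σ)

/-- One approximation step. -/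
theorem h17_step {r0 : GQ → M2 𝒪} (S : SliceData 𝒪 r0) (ρ : GQ → M2 A) (hρ : IsLiftOf r0 ρ)
    (h : M2 A) (n : ℕ) (hh : EntryIn (maximalIdeal A) (h - 1))
    (hd : ∀ b, algebraMap 𝒪 A (r0 (S.g b) (S.i b) (S.j b)) -
      (h * ρ (S.g b) * h⁻¹) (S.i b) (S.j b) ∈ maximalIdeal A ^ (n + 1)) :
    EntryIn (maximalIdeal A ^ (n + 1)) (h17_corr S ρ h) ∧
    EntryIn (maximalIdeal A) ((1 + h17_corr S ρ h) * h - 1) ∧
    ∀ b, algebraMap 𝒪 A (r0 (S.g b) (S.i b) (S.j b)) -
      (((1 + h17_corr S ρ h) * h) * ρ (S.g b) * ((1 + h17_corr S ρ h) * h)⁻¹) (S.i b) (S.j b) ∈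
        maximalIdeal A ^ (n + 2) := by
  have hX : EntryIn (maximalIdeal A ^ (n + 1)) (h17_corr S ρ h) :=
    h17_entryIn_sum _ _ fun b _ => h17_entryIn_smul_of_mem (hd b) _
  have hle : maximalIdeal A ^ (n + 1) ≤ maximalIdeal A := Ideal.pow_le_self (by omega)
  have hu := h17_isUnit_det_of_entryIn h hh
  have hinv : h * h⁻¹ = 1 := Matrix.mul_nonsing_inv h hu
  have hinv' : h⁻¹ * h = 1 := Matrix.nonsing_inv_mul h hu
  have hh' : EntryIn (maximalIdeal A) ((1 + h17_corr S ρ h) * h - 1) := by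
    have e : (1 + h17_corr S ρ h) * h - 1 = (h - 1) + h17_corr S ρ h * h := by
      rw [add_mul, one_mul]
      abel
    rw [e]
    exact h17_entryIn_add hh (h17_entryIn_mul_right (h17_entryIn_mono hle hX) _)
  refine ⟨hX, hh', ?_⟩
  have hu2 := h17_isUnit_det_of_entryIn _ hh'
  have hinv2 : (1 + h17_corr S ρ h) * h * ((1 + h17_corr S ρ h) * h)⁻¹ = 1 :=
    Matrix.mul_nonsing_inv _ hu2
  have hinv2' : ((1 + h17_corr S ρ h) * h)⁻¹ * ((1 + h17_corr S ρ h) * h) = 1 :=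
    Matrix.nonsing_inv_mul _ hu2
  -- abbreviations
  generalize hXdef : h17_corr S ρ h = X at *
  generalize hh'def : ((1 + X) * h)⁻¹ = k at *
  -- `1 + X` has the right inverse `h * k`
  have hW : (1 + X) * (h * k) = 1 := by
    rw [← mul_assoc]
    exact hinv2
  -- the two conjugates
  have hc1 : ∀ σ, ((1 + X) * h * ρ σ * k) * (1 + X) = (1 + X) * (h * ρ σ * h⁻¹) := by
    intro σ
    have e1 : (1 + X) = (1 + X) * h * h⁻¹ := by rw [mul_assoc, hinv, mul_one]
    calc ((1 + X) * h * ρ σ * k) * (1 + X)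
        = ((1 + X) * h * ρ σ * k) * ((1 + X) * h * h⁻¹) := by rw [← e1]
      _ = (1 + X) * h * ρ σ * (k * ((1 + X) * h)) * h⁻¹ := by simp only [mul_assoc]
      _ = (1 + X) * (h * ρ σ * h⁻¹) := by rw [hinv2', mul_one]; simp only [mul_assoc]
  -- difference of conjugates
  have hdiff : ∀ σ, (1 + X) * h * ρ σ * k - h * ρ σ * h⁻¹ =
      (X * (h * ρ σ * h⁻¹) - (h * ρ σ * h⁻¹) * X) * (h * k) := by
    intro σ
    have e2 : ((1 + X) * h * ρ σ * k - h * ρ σ * h⁻¹) * (1 + X) =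
        X * (h * ρ σ * h⁻¹) - (h * ρ σ * h⁻¹) * X := by
      rw [sub_mul, hc1 σ, add_mul, mul_add, one_mul, mul_one]
      abel
    calc (1 + X) * h * ρ σ * k - h * ρ σ * h⁻¹
        = ((1 + X) * h * ρ σ * k - h * ρ σ * h⁻¹) * ((1 + X) * (h * k)) := by rw [hW, mul_one]
      _ = (((1 + X) * h * ρ σ * k - h * ρ σ * h⁻¹) * (1 + X)) * (h * k) :=
          (mul_assoc _ _ _).symm
      _ = _ := by rw [e2]
  have hdiffm : ∀ σ, EntryIn (maximalIdeal A ^ (n + 1))
      ((1 + X) * h * ρ σ * k - h * ρ σ * h⁻¹) := by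
    intro σ
    rw [hdiff σ]
    exact h17_entryIn_mul_right
      (h17_entryIn_sub (h17_entryIn_mul_right hX _) (h17_entryIn_mul_left _ hX)) _
  have hdiff2 : ∀ σ, (1 + X) * h * ρ σ * k - h * ρ σ * h⁻¹ =
      (X * (h * ρ σ * h⁻¹) - (h * ρ σ * h⁻¹) * X) -
        ((1 + X) * h * ρ σ * k - h * ρ σ * h⁻¹) * X := by
    intro σ
    have e2 : ((1 + X) * h * ρ σ * k - h * ρ σ * h⁻¹) * (1 + X) =
        X * (h * ρ σ * h⁻¹) - (h * ρ σ * h⁻¹) * X := by
      rw [sub_mul, hc1 σ, add_mul, mul_add, one_mul, mul_one]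
      abel
    rw [mul_add, mul_one] at e2
    rw [← e2]
    abel
  intro b
  have hRm := h17_conj_sub_entryIn ρ hρ h hh (S.g b)
  -- the commutator of `X` with the lift of `r0`
  have hcomm : (X * (r0 (S.g b)).map (algebraMap 𝒪 A) -
      (r0 (S.g b)).map (algebraMap 𝒪 A) * X) (S.i b) (S.j b) =
      algebraMap 𝒪 A (r0 (S.g b) (S.i b) (S.j b)) - (h * ρ (S.g b) * h⁻¹) (S.i b) (S.j b) := by
    rw [← hXdef, h17_corr, Finset.sum_mul, Finset.mul_sum, ← Finset.sum_sub_distrib,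
      Matrix.sum_apply]
    have : ∀ c : Fin 3,
        ((algebraMap 𝒪 A (r0 (S.g c) (S.i c) (S.j c)) - (h * ρ (S.g c) * h⁻¹) (S.i c) (S.j c)) •
          (S.X c).map (algebraMap 𝒪 A) * (r0 (S.g b)).map (algebraMap 𝒪 A) -
        (r0 (S.g b)).map (algebraMap 𝒪 A) *
          (algebraMap 𝒪 A (r0 (S.g c) (S.i c) (S.j c)) - (h * ρ (S.g c) * h⁻¹) (S.i c) (S.j c)) •
          (S.X c).map (algebraMap 𝒪 A)) (S.i b) (S.j b) =
        (algebraMap 𝒪 A (r0 (S.g c) (S.i c) (S.j c)) - (h * ρ (S.g c) * h⁻¹) (S.i c) (S.j c)) *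
          (if b = c then 1 else 0) := by
      intro c
      rw [Matrix.smul_mul, Matrix.mul_smul, ← smul_sub, Matrix.smul_apply, smul_eq_mul,
        h17_dual S b c]
    simp only [this]
    simp
  have e3 : algebraMap 𝒪 A (r0 (S.g b) (S.i b) (S.j b)) -
      ((1 + X) * h * ρ (S.g b) * k) (S.i b) (S.j b) =
      (((1 + X) * h * ρ (S.g b) * k - h * ρ (S.g b) * h⁻¹) * X) (S.i b) (S.j b) -
      (X * (h * ρ (S.g b) * h⁻¹ - (r0 (S.g b)).map (algebraMap 𝒪 A)) -
        (h * ρ (S.g b) * h⁻¹ - (r0 (S.g b)).map (algebraMap 𝒪 A)) * X) (S.i b) (S.j b) := by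
    have e4 : ((1 + X) * h * ρ (S.g b) * k) (S.i b) (S.j b) =
        (h * ρ (S.g b) * h⁻¹) (S.i b) (S.j b) +
          ((1 + X) * h * ρ (S.g b) * k - h * ρ (S.g b) * h⁻¹) (S.i b) (S.j b) := by
      rw [Matrix.sub_apply]
      ring
    have e5 : X * (h * ρ (S.g b) * h⁻¹) - (h * ρ (S.g b) * h⁻¹) * X =
        (X * (r0 (S.g b)).map (algebraMap 𝒪 A) - (r0 (S.g b)).map (algebraMap 𝒪 A) * X) +
        (X * (h * ρ (S.g b) * h⁻¹ - (r0 (S.g b)).map (algebraMap 𝒪 A)) -
          (h * ρ (S.g b) * h⁻¹ - (r0 (S.g b)).map (algebraMap 𝒪 A)) * X) := by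
      rw [mul_sub, sub_mul]
      abel
    rw [e4]
    conv_lhs => rw [hdiff2 (S.g b)]
    rw [e5, Matrix.sub_apply, Matrix.add_apply, hcomm]
    ring
  rw [e3]
  have hpow : maximalIdeal A ^ (n + 1) * maximalIdeal A ^ (n + 1) ≤ maximalIdeal A ^ (n + 2) := by
    rw [← pow_add]
    exact Ideal.pow_le_pow_right (by omega)
  have hpow1 : maximalIdeal A ^ (n + 1) * maximalIdeal A ≤ maximalIdeal A ^ (n + 2) := by
    rw [← pow_succ]
  have hpow2 : maximalIdeal A * maximalIdeal A ^ (n + 1) ≤ maximalIdeal A ^ (n + 2) := by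
    rw [← pow_succ']
  refine Ideal.sub_mem _ (hpow (h17_entryIn_mul (hdiffm (S.g b)) hX _ _)) ?_
  rw [Matrix.sub_apply]
  exact Ideal.sub_mem _ (hpow1 (h17_entryIn_mul hX hRm _ _)) (hpow2 (h17_entryIn_mul hRm hX _ _))

/-- Invariants of the approximating sequence. -/
theorem h17_seq_spec {r0 : GQ → M2 𝒪} (S : SliceData 𝒪 r0) (ρ : GQ → M2 A) (hρ : IsLiftOf r0 ρ)
    (n : ℕ) :
    EntryIn (maximalIdeal A) (h17_seq S ρ n - 1) ∧
    ∀ b, algebraMap 𝒪 A (r0 (S.g b) (S.i b) (S.j b)) -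
      (h17_seq S ρ n * ρ (S.g b) * (h17_seq S ρ n)⁻¹) (S.i b) (S.j b) ∈
        maximalIdeal A ^ (n + 1) := by
  induction n with
  | zero =>
    refine ⟨?_, fun b => ?_⟩
    · show EntryIn _ ((1 : M2 A) - 1)
      rw [sub_self]
      exact h17_entryIn_zero _
    · show _ - ((1 : M2 A) * ρ (S.g b) * (1 : M2 A)⁻¹) _ _ ∈ _
      rw [inv_one, one_mul, mul_one, zero_add, pow_one]
      have h1 := hρ (S.g b) (S.i b) (S.j b)
      rw [Matrix.sub_apply, Matrix.map_apply] at h1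
      have h2 := neg_mem h1
      rwa [neg_sub] at h2
  | succ n ih =>
    obtain ⟨h1, h2⟩ := ih
    obtain ⟨_, h3, h4⟩ := h17_step S ρ hρ _ n h1 h2
    exact ⟨h3, h4⟩

/-- Consecutive terms of the approximating sequence are close. -/
theorem h17_seq_diff {r0 : GQ → M2 𝒪} (S : SliceData 𝒪 r0) (ρ : GQ → M2 A) (hρ : IsLiftOf r0 ρ)
    (n : ℕ) :
    EntryIn (maximalIdeal A ^ (n + 1)) (h17_seq S ρ (n + 1) - h17_seq S ρ n) := by
  obtain ⟨h1, h2⟩ := h17_seq_spec S ρ hρ n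
  obtain ⟨hX, _, _⟩ := h17_step S ρ hρ _ n h1 h2
  have e : h17_seq S ρ (n + 1) - h17_seq S ρ n =
      h17_corr S ρ (h17_seq S ρ n) * h17_seq S ρ n := by
    rw [h17_seq_succ, add_mul, one_mul]
    abel
  rw [e]
  exact h17_entryIn_mul_right hX _

/-- Entrywise limits of adically Cauchy sequences of matrices. -/
theorem h17_exists_limit [IsAdicComplete (maximalIdeal A) A] (s : ℕ → M2 A)
    (hs : ∀ n, EntryIn (maximalIdeal A ^ n) (s (n + 1) - s n)) :
    ∃ H : M2 A, ∀ n, EntryIn (maximalIdeal A ^ n) (H - s n) := by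
  have key : ∀ p q, ∃ x : A, ∀ n, x - s n p q ∈ maximalIdeal A ^ n := fun p q =>
    adicLimit_exists_of_compatible (maximalIdeal A) (fun n => maximalIdeal A ^ n)
      (fun _ _ hab => Ideal.pow_le_pow_right hab) (fun _ => le_rfl) (fun _ => le_sup_right)
      (fun n => s n p q) (fun n => by
        have h := hs n p q
        rwa [Matrix.sub_apply] at h)
  choose H hH using key
  refine ⟨Matrix.of H, fun n p q => ?_⟩
  rw [Matrix.sub_apply]
  exact hH p q n

/-- The limit conjugate is normalized. -/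
theorem h17_limit_normalized [IsHausdorff (maximalIdeal A) A] {r0 : GQ → M2 𝒪}
    (S : SliceData 𝒪 r0) (ρ : GQ → M2 A) (hρ : IsLiftOf r0 ρ) (H : M2 A)
    (hH : ∀ n, EntryIn (maximalIdeal A ^ n) (H - h17_seq S ρ n)) (hinv : H * H⁻¹ = 1)
    (b : Fin 3) :
    (H * ρ (S.g b) * H⁻¹) (S.i b) (S.j b) = algebraMap 𝒪 A (r0 (S.g b) (S.i b) (S.j b)) := by
  have key : ∀ n, algebraMap 𝒪 A (r0 (S.g b) (S.i b) (S.j b)) -
      (H * ρ (S.g b) * H⁻¹) (S.i b) (S.j b) ∈ maximalIdeal A ^ n := by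
    intro n
    obtain ⟨h1, h2⟩ := h17_seq_spec S ρ hρ n
    have hun := h17_isUnit_det_of_entryIn _ h1
    have hninv' : (h17_seq S ρ n)⁻¹ * h17_seq S ρ n = 1 := Matrix.nonsing_inv_mul _ hun
    have hHn := hH n
    have h2b := h2 b
    generalize h17_seq S ρ n = hn at hninv' hHn h2b
    have e1 : (H - hn) * ρ (S.g b) - hn * ρ (S.g b) * hn⁻¹ * (H - hn) =
        H * ρ (S.g b) - hn * ρ (S.g b) * hn⁻¹ * H := by
      rw [sub_mul, mul_sub, mul_assoc (hn * ρ (S.g b)) hn⁻¹ hn, hninv', mul_one]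
      abel
    have e : H * ρ (S.g b) * H⁻¹ - hn * ρ (S.g b) * hn⁻¹ =
        ((H - hn) * ρ (S.g b) - hn * ρ (S.g b) * hn⁻¹ * (H - hn)) * H⁻¹ := by
      rw [e1, sub_mul, mul_assoc (hn * ρ (S.g b) * hn⁻¹) H H⁻¹, hinv, mul_one]
    have hm : EntryIn (maximalIdeal A ^ n)
        (H * ρ (S.g b) * H⁻¹ - hn * ρ (S.g b) * hn⁻¹) := by
      rw [e]
      exact h17_entryIn_mul_right
        (h17_entryIn_sub (h17_entryIn_mul_right hHn _) (h17_entryIn_mul_left _ hHn)) _
    have e2 : algebraMap 𝒪 A (r0 (S.g b) (S.i b) (S.j b)) -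
        (H * ρ (S.g b) * H⁻¹) (S.i b) (S.j b) =
        (algebraMap 𝒪 A (r0 (S.g b) (S.i b) (S.j b)) -
          (hn * ρ (S.g b) * hn⁻¹) (S.i b) (S.j b)) -
        (H * ρ (S.g b) * H⁻¹ - hn * ρ (S.g b) * hn⁻¹) (S.i b) (S.j b) := by
      rw [Matrix.sub_apply]
      ring
    rw [e2]
    exact Ideal.sub_mem _ (Ideal.pow_le_pow_right (Nat.le_succ n) h2b) (hm _ _)
  have h0 : algebraMap 𝒪 A (r0 (S.g b) (S.i b) (S.j b)) -
      (H * ρ (S.g b) * H⁻¹) (S.i b) (S.j b) ∈ ⨅ n, maximalIdeal A ^ n :=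
    (Ideal.mem_iInf).mpr key
  rw [iInf_pow_eq_bot_of_isHausdorff, Ideal.mem_bot] at h0
  exact (sub_eq_zero.mp h0).symm

/-- Conjugate of a matrix representation by an invertible matrix. -/
noncomputable def h17_conj (ρ : MatRep A) (H K : M2 A) (hinv : H * K = 1) (hinv' : K * H = 1) :
    MatRep A where
  hom :=
    { toFun := fun σ => H * ρ.hom σ * K
      map_one' := by rw [map_one, mul_one, hinv]
      map_mul' := fun a b => by
        rw [map_mul]
        calc H * (ρ.hom a * ρ.hom b) * K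
            = H * ρ.hom a * (K * H) * ρ.hom b * K := by
              rw [hinv', mul_one]
              simp only [mul_assoc]
          _ = H * ρ.hom a * K * (H * ρ.hom b * K) := by simp only [mul_assoc] }
  cont := by
    intro n
    obtain ⟨L, hL, h⟩ := ρ.cont n
    refine ⟨L, hL, fun σ hσ => ?_⟩
    have e : H * ρ.hom σ * K - 1 = H * (ρ.hom σ - 1) * K := by
      rw [mul_sub, sub_mul, mul_one, hinv]
    show EntryIn _ (H * ρ.hom σ * K - 1)
    rw [e]
    exact h17_entryIn_mul_right (h17_entryIn_mul_left _ (h σ hσ)) _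

theorem h17_conj_hom_apply (ρ : MatRep A) (H K : M2 A) (hinv : H * K = 1) (hinv' : K * H = 1)
    (σ : GQ) : (h17_conj ρ H K hinv hinv').hom σ = H * ρ.hom σ * K := rfl

theorem h17_slice_exists [IsAdicComplete (maximalIdeal A) A] {r0 : GQ → M2 𝒪}
    (S : SliceData 𝒪 r0) (ρ : MatRep A) (hρ : IsLiftOf r0 ρ.hom) :
    ∃ (ρ' : MatRep A) (g : M2 A), IsUnit g ∧ IsLiftOf r0 ρ'.hom ∧ IsNormalized S ρ'.hom ∧
      ∀ σ, g * ρ.hom σ = ρ'.hom σ * g := by
  obtain ⟨H, hH⟩ := h17_exists_limit (h17_seq S ρ.hom) (fun n =>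
    h17_entryIn_mono (Ideal.pow_le_pow_right (Nat.le_succ n)) (h17_seq_diff S ρ.hom hρ n))
  have hH1 : EntryIn (maximalIdeal A) (H - 1) := by
    have h1 := hH 1
    rw [pow_one] at h1
    have h2 := (h17_seq_spec S ρ.hom hρ 1).1
    have e : H - 1 = (H - h17_seq S ρ.hom 1) + (h17_seq S ρ.hom 1 - 1) := by abel
    rw [e]
    exact h17_entryIn_add h1 h2
  have hu := h17_isUnit_det_of_entryIn H hH1
  have hinv : H * H⁻¹ = 1 := Matrix.mul_nonsing_inv H hu
  have hinv' : H⁻¹ * H = 1 := Matrix.nonsing_inv_mul H hu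
  refine ⟨h17_conj ρ H H⁻¹ hinv hinv', H, (Matrix.isUnit_iff_isUnit_det H).mpr hu, ?_, ?_, ?_⟩
  · intro σ
    rw [h17_conj_hom_apply]
    exact h17_conj_sub_entryIn ρ.hom hρ H hH1 σ
  · intro b
    rw [h17_conj_hom_apply]
    exact h17_limit_normalized S ρ.hom hρ H hH hinv b
  · intro σ
    rw [h17_conj_hom_apply, mul_assoc _ H⁻¹ H, hinv', mul_one]

end Exists

end Fermat.Agent.S53
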